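import Fermat.Agent.Car.Main
import Fermat.Agent.Car.Trans

/-!
# The abstract form of Carayol's theorem: several components
-/

set_option autoImplicit false
set_option linter.unusedSectionVars false
set_option linter.style.haveILetI false

namespace Fermat.Agent.CQ

open Module Polynomial IntermediateField AlgebraicCurve Fermat.Agent.Red Fermat.Agent.RR
  Fermat.Agent.Nod Fermat.Agent.Curve Fermat.Agent.Car

variable {A K F k R κ Ω L : Type*} [CommRing A] [IsDomain A] [IsDiscreteValuationRing A]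
    [Field K] [Algebra A K] [IsFractionRing A K] [Field F] [Algebra K F] [Algebra A F]
    [IsScalarTower A K F] [Field k] [Algebra A k] [CommRing R] [Algebra k R] [Algebra A R]
    [IsScalarTower A k R] [Field κ] [Algebra k κ] [Field Ω] [Field L] [Algebra Ω L] [Algebra K Ω]
    {ι J : Type*} [Fintype ι] [Fintype J]

/-- Degeneracy operators of a model with several components. -/
structure NormJ (M : CModel A K F k R κ Ω L ι J) (q : ℕ) where
  NN : F →* F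
  w : F ≃+* F
  rv : J → J
  up : J → Prop
  up_or : ∀ j, up j ∨ up (rv j)
  rv_rv : ∀ j, rv (rv j) = j
  j0 : J
  j1 : J
  up0 : up (rv j0)
  up1 : up (rv j1)
  e0 : M.e j0 = 1
  e1 : M.e j1 = q - 1
  e_rv : ∀ j, M.e (rv j) = M.e j
  NN_ne : ∀ x, x ≠ 0 → NN x ≠ 0
  NN_K : ∀ c : K, NN (algebraMap K F c) = algebraMap K F (c ^ q)
  w_K : ∀ c : K, w (algebraMap K F c) = algebraMap K F c
  v_NN0 : ∀ x, x ≠ 0 → (M.comp j0).v (NN x) = (M.comp j0).v x + (M.comp j1).v x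
  r_NN0 : ∀ x, x ≠ 0 → (M.comp j0).v x = 0 → (M.comp j1).v x = 0 →
    (M.comp j0).r (NN x) = (M.comp j0).r x * (M.comp j1).r x ^ (q - 1)
  v_NN : ∀ j, up j → ∀ x, x ≠ 0 → (M.comp j).v (NN x) = q * (M.comp j).v x
  r_NN : ∀ j, up j → ∀ x, x ≠ 0 → (M.comp j).v x = 0 → (M.comp j).r (NN x) = (M.comp j).r x ^ q
  v_w : ∀ j x, (M.comp j).v (w x) = (M.comp (rv j)).v x
  r_w : ∀ j x, (M.comp j).r (w x) = (M.comp (rv j)).r x

namespace NormJ

variable {M : CModel A K F k R κ Ω L ι J} {q : ℕ} (N : NormJ M q)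

/-- compatibility with the affine ring -/
structure Stab : Prop where
  NN_B : ∀ x ∈ M.B, N.NN x ∈ M.B
  w_B : ∀ x ∈ M.B, N.w x ∈ M.B

/-- the intersection points -/
structure Node : Prop where
  all : ∀ j (Q : Place k κ) i (Q' : Place k κ), 0 ≤ Q.ord (M.tb j) → 0 ≤ Q'.ord (M.tb i) →
    M.SameAt j Q i Q' → j ≠ i → ∀ l, ∃ P : Place k κ, 0 ≤ P.ord (M.tb l) ∧ M.SameAt j Q l P
  h01 : ∀ Q Q' : Place k κ, 0 ≤ Q.ord (M.tb N.j0) → 0 ≤ Q'.ord (M.tb N.j1) →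
    M.SameAt N.j0 Q N.j1 Q' → Q = Q'

theorem w_ne {x : F} (hx : x ≠ 0) : N.w x ≠ 0 := (_root_.map_ne_zero N.w).2 hx

theorem NN_inv (x : F) (hx : x ≠ 0) : N.NN x⁻¹ = (N.NN x)⁻¹ := by
  apply eq_inv_of_mul_eq_one_right
  rw [← map_mul, mul_inv_cancel₀ hx, map_one]

theorem v_w' (x : F) (hv : ∀ j, (M.comp j).v x = 0) (j : J) : (M.comp j).v (N.w x) = 0 := by
  rw [N.v_w, hv]

variable [IsAlgClosed Ω] [CharZero Ω] [FunField Ω L] [Algebra.IsAlgebraic K Ω]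
  [IsAlgClosed k] [FunField k κ] [CharZero K] [Nonempty J]

/-- normalisation of the root of the norm -/
theorem exists_norm {f : F} (hf0 : f ≠ 0) (hv : ∀ j, (M.comp j).v f = 0) {m : ℕ} (hm : m ≠ 0)
    {c : K} {z : F} (h : N.NN f = algebraMap K F c * z ^ m) :
    ∃ (ε : Aˣ) (z' : F), N.NN f = algebraMap A F (ε : A) * z' ^ m ∧ z' ≠ 0 ∧
      (M.comp N.j0).v z' = 0 ∧ ∀ j, N.up j → (M.comp j).v z' = 0 := by
  have hNf := N.NN_ne f hf0
  have hc0 : c ≠ 0 := by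
    rintro rfl
    rw [map_zero, zero_mul] at h
    exact hNf h
  have hz0 : z ≠ 0 := by
    rintro rfl
    rw [zero_pow hm, mul_zero] at h
    exact hNf h
  have hcF : algebraMap K F c ≠ 0 := by rwa [Ne, map_eq_zero]
  obtain ⟨n, u, hcu⟩ := M.exists_unit_pow hc0
  have hpF := M.pF_ne
  have huF : algebraMap A F (u : A) ≠ 0 := by
    rw [Ne, map_eq_zero_iff _ M.algebraMap_inj]; exact Units.ne_zero _
  have h0 := N.v_NN _ N.up0 f hf0
  rw [h, hv, Comp.v_mul _ hcF (pow_ne_zero _ hz0), M.v_K hcu, N.e_rv, N.e0, Comp.v_pow] at h0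
  obtain ⟨a, ha⟩ : ∃ a, a = (M.comp (N.rv N.j0)).v z := ⟨_, rfl⟩
  rw [← ha] at h0
  have hn : n = -(m * a) := by push_cast at h0; linarith
  have e : N.NN f = algebraMap A F (u : A) * (algebraMap A F M.p ^ (-a) * z) ^ m := by
    rw [h, hcu, map_mul, map_zpow₀, ← IsScalarTower.algebraMap_apply A K F,
      ← IsScalarTower.algebraMap_apply A K F, mul_pow, mul_assoc]
    congr 1
    rw [← zpow_natCast (algebraMap A F M.p ^ (-a)) m, ← zpow_mul, hn]
    congr 2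
    ring
  have hz'0 : algebraMap A F M.p ^ (-a) * z ≠ 0 := mul_ne_zero (zpow_ne_zero _ hpF) hz0
  have hm' : (m : ℤ) ≠ 0 := by exact_mod_cast hm
  refine ⟨u, _, e, hz'0, ?_, fun j hj => ?_⟩
  · have h2 := N.v_NN0 f hf0
    rw [hv, hv, add_zero, e, Comp.v_mul _ huF (pow_ne_zero _ hz'0), M.v_unit, Comp.v_pow,
      zero_add] at h2
    exact (mul_eq_zero.1 h2).resolve_left hm'
  · have h2 := N.v_NN j hj f hf0
    rw [hv, mul_zero, e, Comp.v_mul _ huF (pow_ne_zero _ hz'0), M.v_unit, Comp.v_pow, zero_add] at h2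
    exact (mul_eq_zero.1 h2).resolve_left hm'

/-- the data attached to a function with vertical orders zero -/
structure Root (f : F) (m : ℕ) (E : Divisor Ω L) where
  hm : m ≠ 0
  hf0 : f ≠ 0
  hv : ∀ j, (M.comp j).v f = 0
  hE : ∀ v, (m : ℤ) * E v = v.ord (M.emb f)
  ε1 : Aˣ
  ε2 : Aˣ
  z1 : F
  z2 : F
  h1 : N.NN f = algebraMap A F (ε1 : A) * z1 ^ m
  h2 : N.NN (N.w f) = algebraMap A F (ε2 : A) * z2 ^ m
  hz1 : z1 ≠ 0
  hz2 : z2 ≠ 0
  v10 : (M.comp N.j0).v z1 = 0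
  v1 : ∀ j, N.up j → (M.comp j).v z1 = 0
  v2 : ∀ j, N.up j → (M.comp j).v z2 = 0
  γ : J → κ
  hγ : ∀ j, γ j ^ m = (M.comp j).r f
  c1 : k
  c2 : k
  hc1 : c1 ≠ 0
  hc2 : c2 ≠ 0
  d0 : k
  d1 : J → k
  d2 : J → k
  hd0 : d0 ^ m = 1
  hd1 : ∀ j, d1 j ^ m = 1
  hd2 : ∀ j, d2 j ^ m = 1
  r0 : algebraMap k κ c1 * (M.comp N.j0).r z1 = algebraMap k κ d0 * (γ N.j0 * γ N.j1 ^ (q - 1))
  r1 : ∀ j, N.up j → algebraMap k κ c1 * (M.comp j).r z1 = algebraMap k κ (d1 j) * γ j ^ q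
  r2 : ∀ j, N.up (N.rv j) → algebraMap k κ c2 * (M.comp (N.rv j)).r z2 =
    algebraMap k κ (d2 j) * γ j ^ q

theorem exists_Root [Fact q.Prime] [CharP k q] {m : ℕ} (hm : (m : k) ≠ 0) {f : F}
    (hf0 : f ≠ 0) (hv : ∀ j, (M.comp j).v f = 0) {E : Divisor Ω L}
    (hE : ∀ v, (m : ℤ) * E v = v.ord (M.emb f)) {c₁ c₂ : K} {z₁ z₂ : F}
    (h₁ : N.NN f = algebraMap K F c₁ * z₁ ^ m)
    (h₂ : N.NN (N.w f) = algebraMap K F c₂ * z₂ ^ m) : Nonempty (N.Root f m E) := by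
  have hm0 : m ≠ 0 := by rintro rfl; simp at hm
  have hmpos := Nat.pos_of_ne_zero hm0
  have hq := (Fact.out : q.Prime)
  have hco : q.Coprime m := by
    rw [hq.coprime_iff_not_dvd]
    intro h
    exact hm ((CharP.cast_eq_zero_iff k q m).2 h)
  obtain ⟨ε1, z1, h1, hz1, v10, v1⟩ := N.exists_norm hf0 hv hm0 h₁
  obtain ⟨ε2, z2, h2, hz2, -, v2⟩ := N.exists_norm (N.w_ne hf0) (N.v_w' f hv) hm0 h₂
  have hres : ∀ u : Aˣ, ∃ c : k, c ≠ 0 ∧ c ^ m = algebraMap A k (u : A) := by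
    intro u
    obtain ⟨c, hc⟩ := IsAlgClosed.exists_pow_nat_eq (algebraMap A k (u : A)) hmpos
    refine ⟨c, ?_, hc⟩
    rintro rfl
    rw [zero_pow hm0] at hc
    have := (u.isUnit.map (algebraMap A k))
    rw [← hc] at this
    exact not_isUnit_zero this
  obtain ⟨c1, hc1, hc1'⟩ := hres ε1
  obtain ⟨c2, hc2, hc2'⟩ := hres ε2
  have hrf : ∀ l, (M.comp l).r f ≠ 0 := fun l => (Comp.r_ne_zero_iff hf0).2 (hv l)
  have hAF : ∀ (u : Aˣ) (j : J), algebraMap A F (u : A) ∈ (M.comp j).W := fun u j =>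
    M.memj (M.G.W.algebraMap_mem _) j
  have hzW : ∀ (z : F) (j : J), (M.comp j).v z = 0 → z ∈ (M.comp j).W := fun z j h =>
    Comp.mem_of_v h.ge
  have E0 : (algebraMap k κ c1 * (M.comp N.j0).r z1) ^ m =
      (M.comp N.j0).r f * (M.comp N.j1).r f ^ (q - 1) := by
    rw [← N.r_NN0 f hf0 (hv _) (hv _), h1, Comp.r_mul (hAF ε1 _) (pow_mem (hzW z1 _ v10) m),
      Comp.r_pow (hzW z1 _ v10), M.r_A, mul_pow, ← map_pow, hc1']
  have E1 : ∀ j, N.up j → (algebraMap k κ c1 * (M.comp j).r z1) ^ m = (M.comp j).r f ^ q := by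
    intro j hj
    rw [← N.r_NN j hj f hf0 (hv j), h1, Comp.r_mul (hAF ε1 _) (pow_mem (hzW z1 _ (v1 j hj)) m),
      Comp.r_pow (hzW z1 _ (v1 j hj)), M.r_A, mul_pow, ← map_pow, hc1']
  have E2 : ∀ j, N.up (N.rv j) → (algebraMap k κ c2 * (M.comp (N.rv j)).r z2) ^ m =
      (M.comp j).r f ^ q := by
    intro j hj
    have h3 := N.r_NN _ hj _ (N.w_ne hf0) (N.v_w' f hv _)
    rw [N.r_w, N.rv_rv] at h3
    rw [← h3, h2, Comp.r_mul (hAF ε2 _) (pow_mem (hzW z2 _ (v2 _ hj)) m),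
      Comp.r_pow (hzW z2 _ (v2 _ hj)), M.r_A, mul_pow, ← map_pow, hc2']
  have hγe : ∀ j, ∃ γ : κ, γ ^ m = (M.comp j).r f := by
    intro j
    rcases N.up_or j with hj | hj
    · exact exists_root_of_coprime hco (hrf j) (E1 j hj).symm
    · exact exists_root_of_coprime hco (hrf j) (E2 j hj).symm
  choose γ hγ using hγe
  have gne : ∀ j, γ j ≠ 0 := fun j h => hrf j (by rw [← hγ, h, zero_pow hm0])
  have hd1e : ∀ j, ∃ d : k, d ^ m = 1 ∧ (N.up j →
      algebraMap k κ c1 * (M.comp j).r z1 = algebraMap k κ d * γ j ^ q) := by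
    intro j
    by_cases hj : N.up j
    · obtain ⟨d, hd, hd'⟩ := exists_const_of_pow_eq (k := k) hm0 (pow_ne_zero q (gne j))
        (u := algebraMap k κ c1 * (M.comp j).r z1) (by
          rw [E1 j hj, ← hγ, ← pow_mul, ← pow_mul, mul_comm])
      exact ⟨d, hd, fun _ => hd'⟩
    · exact ⟨1, one_pow m, fun h => absurd h hj⟩
  choose d1 hd1 r1 using hd1e
  have hd2e : ∀ j, ∃ d : k, d ^ m = 1 ∧ (N.up (N.rv j) →
      algebraMap k κ c2 * (M.comp (N.rv j)).r z2 = algebraMap k κ d * γ j ^ q) := by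
    intro j
    by_cases hj : N.up (N.rv j)
    · obtain ⟨d, hd, hd'⟩ := exists_const_of_pow_eq (k := k) hm0 (pow_ne_zero q (gne j))
        (u := algebraMap k κ c2 * (M.comp (N.rv j)).r z2) (by
          rw [E2 j hj, ← hγ, ← pow_mul, ← pow_mul, mul_comm])
      exact ⟨d, hd, fun _ => hd'⟩
    · exact ⟨1, one_pow m, fun h => absurd h hj⟩
  choose d2 hd2 r2 using hd2e
  obtain ⟨d0, hd0, r0⟩ := exists_const_of_pow_eq (k := k) hm0
    (mul_ne_zero (gne N.j0) (pow_ne_zero (q - 1) (gne N.j1)))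
    (u := algebraMap k κ c1 * (M.comp N.j0).r z1) (by
      rw [E0, mul_pow, ← pow_mul, mul_comm (q - 1), pow_mul, hγ, hγ])
  exact ⟨{ hm := hm0, hf0 := hf0, hv := hv, hE := hE, ε1 := ε1, ε2 := ε2, z1 := z1, z2 := z2,
           h1 := h1, h2 := h2, hz1 := hz1, hz2 := hz2, v10 := v10, v1 := v1, v2 := v2, γ := γ,
           hγ := hγ, c1 := c1, c2 := c2, hc1 := hc1, hc2 := hc2, d0 := d0, d1 := d1, d2 := d2,
           hd0 := hd0, hd1 := hd1, hd2 := hd2, r0 := r0, r1 := r1, r2 := r2 }⟩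

namespace Root

variable {N} {f : F} {m : ℕ} {E : Divisor Ω L} (T : N.Root f m E)

theorem ne_of_pow {d : k} (T : N.Root f m E) (h : d ^ m = 1) : d ≠ 0 := by
  rintro rfl
  rw [zero_pow T.hm] at h
  exact zero_ne_one h

open Classical in
/-- the constants -/
noncomputable def kap (T : N.Root f m E) (j : J) : k :=
  if N.up j then T.d1 j ^ q else T.d2 j ^ q * (T.d0 ^ q / (T.d2 N.j0 * T.d2 N.j1 ^ (q - 1)))

theorem kap_pow (j : J) : T.kap j ^ m = 1 := by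
  have e : ∀ (d : k) (r : ℕ), d ^ m = 1 → (d ^ r) ^ m = 1 := fun d r h => by
    rw [← pow_mul, mul_comm, pow_mul, h, one_pow]
  rw [kap]
  split_ifs
  · exact e _ _ (T.hd1 j)
  · rw [mul_pow, div_pow, mul_pow, e _ _ (T.hd2 j), e _ _ T.hd0, T.hd2, e _ _ (T.hd2 N.j1)]
    simp

theorem kap_ne (j : J) : T.kap j ≠ 0 := T.ne_of_pow (T.kap_pow j)

/-- the relation at the intersection points -/
theorem rel (hS : N.Stab) [Fact q.Prime] {P : J → Place k κ} (hP : ∀ l, 0 ≤ (P l).ord (M.tb l))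
    (hsame : ∀ l l', M.SameAt l (P l) l' (P l')) (h01 : P N.j0 = P N.j1) {s : F} (hs : s ∈ M.M0 E)
    (hsQ : ∀ l, val (P l) ((M.comp l).r (s ^ m * f⁻¹)) ≠ 0) :
    ∃ X : k, ∀ l, val (P l) ((M.comp l).r s / T.γ l) ^ (q ^ 2) = T.kap l * X := by
  have hm0 := T.hm
  have hf0 := T.hf0
  have hv := T.hv
  have hq := (Fact.out : q.Prime)
  have hη := M.pow_mul_inv_mem_B hf0 hv hm0 T.hE hs
  have hs0 : s ≠ 0 := by
    rintro rfl
    apply hsQ N.j0
    rw [zero_pow hm0, zero_mul, Comp.r_zero, val_zero]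
  have hsW : ∀ l, s ∈ (M.comp l).W := fun l => M.memj hs.1 l
  have hfW : ∀ l, f⁻¹ ∈ (M.comp l).W := fun l => Comp.mem_of_v (by rw [Comp.v_inv, hv]; norm_num)
  have hrη : ∀ l, (M.comp l).r (s ^ m * f⁻¹) = (M.comp l).r s ^ m * ((M.comp l).r f)⁻¹ := by
    intro l
    rw [Comp.r_mul (pow_mem (hsW l) m) (hfW l), Comp.r_pow (hsW l), Comp.r_inv (hv l)]
  have hrs : ∀ l, (M.comp l).r s ≠ 0 := by
    intro l h
    apply hsQ l
    rw [hrη, h, zero_pow hm0, zero_mul, val_zero]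
  have hvs : ∀ l, (M.comp l).v s = 0 := fun l => (Comp.r_ne_zero_iff hs0).1 (hrs l)
  have hrf : ∀ l, (M.comp l).r f ≠ 0 := fun l => (Comp.r_ne_zero_iff hf0).2 (hv l)
  have gne : ∀ l, T.γ l ≠ 0 := fun l h => hrf l (by rw [← T.hγ, h, zero_pow hm0])
  have hG := fun l => M.ge_div hf0 hv hm0 T.hE hs (hP l) (T.hγ l)
  obtain ⟨δ, hδ⟩ : ∃ δ : J → k, ∀ l, δ l = val (P l) ((M.comp l).r s / T.γ l) := ⟨_, fun l => rfl⟩
  have hδ0 : ∀ l, δ l ≠ 0 := by
    intro l h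
    have h2 := (hG l).2
    rw [← hδ, h, zero_pow hm0] at h2
    exact hsQ l h2.symm
  have hK : ∀ c : k, c ≠ 0 → algebraMap k κ c ≠ 0 := fun c hc => by rwa [Ne, map_eq_zero]
  have hunit : ∀ u : Aˣ, algebraMap A F (u : A) ≠ 0 := fun u => by
    rw [Ne, map_eq_zero_iff _ M.algebraMap_inj]; exact Units.ne_zero _
  have hf0' := N.w_ne hf0
  have hws0 := N.w_ne hs0
  have hd1 := fun j => T.ne_of_pow (T.hd1 j)
  have hd2 := fun j => T.ne_of_pow (T.hd2 j)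
  have hd0 := T.ne_of_pow T.hd0
  have hc1 := T.hc1
  have hc2 := T.hc2
  -- first relation
  have B1 : N.NN s / T.z1 ∈ M.B := by
    apply M.mem_B_of_pow hm0
    have e : (N.NN s / T.z1) ^ m = algebraMap A F (T.ε1 : A) * N.NN (s ^ m * f⁻¹) := by
      rw [div_pow, map_mul, map_pow, N.NN_inv _ hf0, T.h1]
      have := hunit T.ε1
      have := T.hz1
      field_simp
    rw [e]
    exact mul_mem (M.algebraMap_mem_B _) (hS.NN_B _ hη)
  have R1 : ∀ j, N.up j → val (P j) ((M.comp j).r (N.NN s / T.z1)) =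
      T.c1 / T.d1 j * δ j ^ q := by
    intro j hj
    have hW : N.NN s ∈ (M.comp j).W := Comp.mem_of_v (by
      rw [N.v_NN j hj s hs0, hvs]; norm_num)
    have h3 : (M.comp j).r T.z1 = algebraMap k κ (T.d1 j) * T.γ j ^ q / algebraMap k κ T.c1 := by
      rw [eq_div_iff (hK _ hc1), ← T.r1 j hj, mul_comm]
    have h4 : (M.comp j).r s ^ q / (M.comp j).r T.z1 =
        algebraMap k κ (T.c1 / T.d1 j) * ((M.comp j).r s / T.γ j) ^ q := by
      rw [h3, map_div₀, div_pow]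
      have := hK _ hc1
      have := hK _ (hd1 j)
      have := gne j
      field_simp
    rw [Comp.r_div hW (T.v1 j hj), N.r_NN j hj s hs0 (hvs j), h4,
      val_mul (Ge.algebraMap _ _) (ge_zero_pow (hG j).1 q), val_algebraMap, val_pow (hG j).1, hδ]
  have R0 : val (P N.j0) ((M.comp N.j0).r (N.NN s / T.z1)) =
      T.c1 / T.d0 * (δ N.j0 * δ N.j1 ^ (q - 1)) := by
    have hW : N.NN s ∈ (M.comp N.j0).W := Comp.mem_of_v (by
      rw [N.v_NN0 s hs0, hvs, hvs]; norm_num)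
    have h3 : (M.comp N.j0).r T.z1 = algebraMap k κ T.d0 * (T.γ N.j0 * T.γ N.j1 ^ (q - 1)) /
        algebraMap k κ T.c1 := by
      rw [eq_div_iff (hK _ hc1), ← T.r0, mul_comm]
    have h4 : (M.comp N.j0).r s * (M.comp N.j1).r s ^ (q - 1) / (M.comp N.j0).r T.z1 =
        algebraMap k κ (T.c1 / T.d0) * (((M.comp N.j0).r s / T.γ N.j0) *
          ((M.comp N.j1).r s / T.γ N.j1) ^ (q - 1)) := by
      rw [h3, map_div₀, div_pow]
      have := hK _ hc1
      have := hK _ hd0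
      have := gne N.j0
      have := gne N.j1
      field_simp
    have G0 := (hG N.j0).1
    have G1 := (hG N.j1).1
    rw [← h01] at G1
    rw [Comp.r_div hW T.v10, N.r_NN0 s hs0 (hvs _) (hvs _), h4,
      val_mul (Ge.algebraMap _ _) ((G0.mul (ge_zero_pow G1 (q - 1))).mono (by norm_num)),
      val_algebraMap, val_mul G0 (ge_zero_pow G1 (q - 1)), val_pow G1, ← hδ, h01, ← hδ]
  -- second relation
  have B2 : N.w (N.NN (N.w s) / T.z2) ∈ M.B := by
    apply hS.w_B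
    apply M.mem_B_of_pow hm0
    have e : (N.NN (N.w s) / T.z2) ^ m = algebraMap A F (T.ε2 : A) * N.NN (N.w (s ^ m * f⁻¹)) := by
      rw [div_pow, map_mul, map_mul, map_pow, map_pow, map_inv₀, N.NN_inv _ hf0', T.h2]
      have := hunit T.ε2
      have := T.hz2
      field_simp
    rw [e]
    exact mul_mem (M.algebraMap_mem_B _) (hS.NN_B _ (hS.w_B _ hη))
  have R2 : ∀ j, N.up (N.rv j) → val (P j) ((M.comp j).r (N.w (N.NN (N.w s) / T.z2))) =
      T.c2 / T.d2 j * δ j ^ q := by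
    intro j hj
    have hvws : ∀ l, (M.comp l).v (N.w s) = 0 := fun l => N.v_w' s hvs l
    have hW : N.NN (N.w s) ∈ (M.comp (N.rv j)).W := Comp.mem_of_v (by
      rw [N.v_NN _ hj _ hws0, hvws]; norm_num)
    have h3 : (M.comp (N.rv j)).r T.z2 = algebraMap k κ (T.d2 j) * T.γ j ^ q /
        algebraMap k κ T.c2 := by
      rw [eq_div_iff (hK _ hc2), ← T.r2 j hj, mul_comm]
    have h4 : (M.comp j).r s ^ q / (M.comp (N.rv j)).r T.z2 =
        algebraMap k κ (T.c2 / T.d2 j) * ((M.comp j).r s / T.γ j) ^ q := by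
      rw [h3, map_div₀, div_pow]
      have := hK _ hc2
      have := hK _ (hd2 j)
      have := gne j
      field_simp
    rw [N.r_w, Comp.r_div hW (T.v2 _ hj), N.r_NN _ hj _ hws0 (hvws _), N.r_w, N.rv_rv, h4,
      val_mul (Ge.algebraMap _ _) (ge_zero_pow (hG j).1 q), val_algebraMap, val_pow (hG j).1, hδ]
  -- the common values
  obtain ⟨V1, hV1⟩ : ∃ V1, V1 = val (P N.j0) ((M.comp N.j0).r (N.NN s / T.z1)) := ⟨_, rfl⟩
  obtain ⟨V2, hV2⟩ : ∃ V2, V2 = val (P N.j0) ((M.comp N.j0).r (N.w (N.NN (N.w s) / T.z2))) :=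
    ⟨_, rfl⟩
  have S1 : ∀ j, N.up j → δ j ^ q = T.d1 j * (V1 / T.c1) := by
    intro j hj
    have h5 := hsame N.j0 j _ B1
    rw [← hV1, R1 j hj] at h5
    rw [h5]
    have := hd1 j
    field_simp
  have S2 : ∀ j, N.up (N.rv j) → δ j ^ q = T.d2 j * (V2 / T.c2) := by
    intro j hj
    have h5 := hsame N.j0 j _ B2
    rw [← hV2, R2 j hj] at h5
    rw [h5]
    have := hd2 j
    field_simp
  have S0 : δ N.j0 * δ N.j1 ^ (q - 1) = T.d0 * (V1 / T.c1) := by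
    rw [hV1, R0]
    field_simp
  have S3 : (V2 / T.c2) ^ q = T.d0 ^ q / (T.d2 N.j0 * T.d2 N.j1 ^ (q - 1)) * (V1 / T.c1) ^ q := by
    have h6 : (δ N.j0 * δ N.j1 ^ (q - 1)) ^ q = δ N.j0 ^ q * (δ N.j1 ^ q) ^ (q - 1) := by
      rw [mul_pow, ← pow_mul, ← pow_mul, mul_comm (q - 1)]
    rw [S0, S2 _ N.up0, S2 _ N.up1, mul_pow, mul_pow] at h6
    have h7 : V2 / T.c2 * (V2 / T.c2) ^ (q - 1) = (V2 / T.c2) ^ q := by
      rw [← pow_succ', Nat.sub_add_cancel hq.one_lt.le]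
    have h8 : T.d2 N.j0 * T.d2 N.j1 ^ (q - 1) ≠ 0 := mul_ne_zero (hd2 _) (pow_ne_zero _ (hd2 _))
    rw [div_mul_eq_mul_div, eq_div_iff h8, h6, ← h7]
    ring
  refine ⟨(V1 / T.c1) ^ q, fun l => ?_⟩
  rw [← hδ, pow_two, pow_mul, kap]
  split_ifs with hl
  · rw [S1 l hl, mul_pow]
  · rw [S2 l ((N.up_or l).resolve_left hl), mul_pow, S3]
    ring

end Root

end NormJ

end Fermat.Agent.CQ
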