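import Fermat.Agent.CQ.Abs

/-!
# The abstract form of Carayol's theorem: several components, conclusion
-/

set_option autoImplicit false
set_option linter.unusedSectionVars false
set_option linter.style.haveILetI false

namespace Fermat.Agent.CQ

open Module Polynomial IntermediateField AlgebraicCurve Fermat.Agent.Red Fermat.Agent.RR
  Fermat.Agent.Nod Fermat.Agent.Curve Fermat.Agent.Car

variable {A K F k R κ Ω L : Type*} [CommRing A] [IsDomain A] [IsDiscreteValuationRing A]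
    [Field K] [Algebra A K] [IsFractionRing A K] [Field F] [Algebra K F] [Algebra A F]
    [IsScalarTower A K F] [Field k] [Algebra A k] [CommRing R] [Algebra k R] [Algebra A R]
    [IsScalarTower A k R] [Field κ] [Algebra k κ] [Field Ω] [Field L] [Algebra Ω L] [Algebra K Ω]
    {ι J : Type*} [Fintype ι] [Fintype J]

/-- bounded poles -/
theorem exists_pow_ge {k E₀ : Type*} [Field k] [Field E₀] [Algebra k E₀] [IsAlgClosed k]
    [FunField k E₀] {t x : E₀} (ht : t ≠ 0) {E : Divisor k E₀}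
    (hx : ∀ v : Place k E₀, 0 ≤ v.ord t⁻¹ → Ge v (E v) x) :
    ∃ N : ℕ, ∀ v : Place k E₀, 0 ≤ v.ord t → Ge v (E v) (t ^ N * x) := by
  obtain ⟨D, hD⟩ : ∃ D, D = divisor k x - E := ⟨_, rfl⟩
  refine ⟨∑ v ∈ D.support, (D v).natAbs, fun v hv => ?_⟩
  obtain ⟨N, hN⟩ : ∃ N, N = ∑ v ∈ D.support, (D v).natAbs := ⟨_, rfl⟩
  rw [← hN]
  rcases eq_or_ne x 0 with rfl | hx0
  · rw [mul_zero]; exact Ge.zero _ _
  apply Ge.of_le
  rw [v.ord_mul (pow_ne_zero _ ht) hx0, ord_pow]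
  have hN0 : (0 : ℤ) ≤ N := Int.natCast_nonneg _
  have hDv : D v = v.ord x - E v := by rw [hD, Finsupp.sub_apply, divisor_apply]
  rcases hv.eq_or_lt with h | h
  · have h1 : 0 ≤ v.ord t⁻¹ := by rw [v.ord_inv, ← h, neg_zero]
    rw [← h, mul_zero, zero_add]
    exact (hx v h1).le_ord hx0
  · have h4 : (N : ℤ) * 1 ≤ N * v.ord t := mul_le_mul_of_nonneg_left h hN0
    by_cases hv' : v ∈ D.support
    · have h1 : (D v).natAbs ≤ N := by
        rw [hN]
        exact Finset.single_le_sum (f := fun v => (D v).natAbs) (fun _ _ => Nat.zero_le _) hv'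
      have h3 : ((D v).natAbs : ℤ) ≤ N := by exact_mod_cast h1
      omega
    · rw [Finsupp.notMem_support_iff] at hv'
      omega

namespace NormJ

variable {M : CModel A K F k R κ Ω L ι J} {q : ℕ} (N : NormJ M q)

variable [IsAlgClosed Ω] [CharZero Ω] [FunField Ω L] [Algebra.IsAlgebraic K Ω]
  [IsAlgClosed k] [FunField k κ] [CharZero K] [Nonempty J]

theorem carayol_norm [Fact q.Prime] [CharP k q] (H : M.Good) (H' : M.inv.Good) (hN : N.Node)
    (hcusp : ∀ j (Q : Place k κ) i (Q' : Place k κ),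
      Q.ord (M.tb j) < 0 → Q'.ord (M.tb i) < 0 → M.inv.SameAt j Q i Q' → j = i)
    (hS : N.Stab) {m : ℕ} (hm : (m : k) ≠ 0) {f : F}
    (hf0 : f ≠ 0) (hv : ∀ j, (M.comp j).v f = 0)
    (hdvd : ∀ v : Place Ω L, (m : ℤ) ∣ v.ord (M.emb f)) {c₁ c₂ : K} {z₁ z₂ : F}
    (h₁ : N.NN f = algebraMap K F c₁ * z₁ ^ m)
    (h₂ : N.NN (N.w f) = algebraMap K F c₂ * z₂ ^ m) :
    ∃ x : L, x ^ m = M.emb (f ^ (q ^ 2)) := by
  classical
  have hm0 : m ≠ 0 := by rintro rfl; simp at hm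
  obtain ⟨E, hE⟩ := exists_div_divisor hm0 hdvd
  obtain ⟨T⟩ := N.exists_Root hm hf0 hv hE h₁ h₂
  obtain ⟨d, hd⟩ : ∃ d, d = q ^ 2 := ⟨_, rfl⟩
  rw [← hd]
  have hfd0 : f ^ d ≠ 0 := pow_ne_zero _ hf0
  have hvd : ∀ j, (M.comp j).v (f ^ d) = 0 := fun j => by rw [Comp.v_pow, hv, mul_zero]
  have hEd : ∀ v, (m : ℤ) * (d • E) v = v.ord (M.emb (f ^ d)) := by
    intro v
    rw [map_pow, ord_pow, ← hE, Finsupp.smul_apply, nsmul_eq_mul]
    ring
  have hfW : ∀ j, f ∈ (M.comp j).W := fun j => Comp.mem_of_v (hv j).ge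
  have hrf : ∀ l, (M.comp l).r f ≠ 0 := fun l => (Comp.r_ne_zero_iff hf0).2 (hv l)
  have gne : ∀ l, T.γ l ≠ 0 := fun l h => hrf l (by rw [← T.hγ, h, zero_pow hm0])
  let γ' : J → κ := fun j => algebraMap k κ (T.kap j) * T.γ j ^ d
  have hγ' : ∀ j, γ' j ^ m = (M.comp j).r (f ^ d) := by
    intro j
    rw [Comp.r_pow (hfW j), mul_pow, ← map_pow, T.kap_pow, map_one, one_mul, ← pow_mul, mul_comm,
      pow_mul, T.hγ]
  have key : ∀ j (Q : Place k κ) i (Q' : Place k κ), 0 ≤ Q.ord (M.tb j) → 0 ≤ Q'.ord (M.tb i) →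
      M.SameAt j Q i Q' → ∀ s, s ∈ M.M0 (d • E) →
      val Q ((M.comp j).r s / γ' j) = val Q' ((M.comp i).r s / γ' i) := by
    intro j Q i Q' hQ hQ' hsame s hs
    by_cases hji : j = i
    · subst hji
      rw [M.eq_of_sameAt H.surj hQ hQ' hsame]
    -- the points on the components
    choose P hP hPs using hN.all j Q i Q' hQ hQ' hsame hji
    have hPj : P j = Q := (M.eq_of_sameAt H.surj hQ (hP j) (hPs j)).symm
    have hPi : P i = Q' := M.eq_of_sameAt H.surj (hP i) hQ'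
      (((hPs i).symm).trans M hsame)
    have hall : ∀ l l', M.SameAt l (P l) l' (P l') := fun l l' => ((hPs l).symm).trans M (hPs l')
    have h01 : P N.j0 = P N.j1 := hN.h01 _ _ (hP _) (hP _) (hall _ _)
    obtain ⟨s₀, hs₀, hs₀Q⟩ := M.exists_gen_at H hf0 hv hm0 hE (hP j)
    have hη := M.pow_mul_inv_mem_B hf0 hv hm0 hE hs₀
    have hηP : ∀ l, val (P l) ((M.comp l).r (s₀ ^ m * f⁻¹)) ≠ 0 := by
      intro l
      rw [← hall j l _ hη]; exact hs₀Q
    obtain ⟨X, hX⟩ := T.rel hS hP hall h01 hs₀ hηP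
    have hs₀W : ∀ l, s₀ ∈ (M.comp l).W := fun l => M.memj hs₀.1 l
    have hG := fun l => M.ge_div hf0 hv hm0 hE hs₀ (hP l) (T.hγ l)
    have hval : ∀ l, val (P l) ((M.comp l).r (s₀ ^ d) / γ' l) = X := by
      intro l
      have e1 : (M.comp l).r (s₀ ^ d) / γ' l =
          algebraMap k κ (T.kap l)⁻¹ * ((M.comp l).r s₀ / T.γ l) ^ d := by
        rw [Comp.r_pow (hs₀W l), map_inv₀, div_pow]
        have := (map_ne_zero (algebraMap k κ)).2 (T.kap_ne l)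
        have := gne l
        simp only [γ']
        field_simp
      rw [e1, val_mul (Ge.algebraMap _ _) (ge_zero_pow (hG l).1 _), val_algebraMap,
        val_pow (hG l).1, hd, hX l, inv_mul_cancel_left₀ (T.kap_ne l)]
    have hne : val Q ((M.comp j).r ((s₀ ^ d) ^ m * (f ^ d)⁻¹)) ≠ 0 := by
      have e : (s₀ ^ d) ^ m * (f ^ d)⁻¹ = (s₀ ^ m * f⁻¹) ^ d := by
        rw [mul_pow, inv_pow, ← pow_mul, ← pow_mul, mul_comm d]
      have hW : s₀ ^ m * f⁻¹ ∈ (M.comp j).W :=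
        mul_mem (pow_mem (hs₀W j) m) (Comp.mem_of_v (by rw [Comp.v_inv, hv]; norm_num))
      have h3 := M.reg_r hη j Q hQ
      rw [e, Comp.r_pow hW, val_pow h3]
      rw [← hPj]
      exact pow_ne_zero _ (hηP j)
    exact M.match_of_exists hfd0 hvd hm0 hEd hγ' hQ hQ' hsame (M.pow_mem_M0 hs₀ d) hne
      (by rw [← hPj, ← hPi, hval, hval]) hs
  refine M.rigC H H' hfd0 hvd hm hEd γ' hγ' (fun j Q i Q' hQ hQ' hsame s hs _ =>
    key j Q i Q' hQ hQ' hsame s hs) ?_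
  intro j Q i Q' hQ hQ' hsame s hs _
  by_cases hji : j = i
  · subst hji
    rw [M.inv.eq_of_sameAt H'.surj hQ hQ' hsame]
  -- both points are finite and nonzero
  rw [M.tb_inv, Place.ord_inv] at hQ hQ'
  have h2 := hsame _ M.inv.t_mem_B
  have e : ∀ l, (M.inv.comp l).r M.inv.t = (M.tb l)⁻¹ := fun l => M.tb_inv l
  rw [e, e] at h2
  have hQ0 : Q.ord (M.tb j) = 0 := by
    rcases (neg_nonneg.1 hQ).eq_or_lt with h | h
    · exact h
    · exfalso
      have h3 : Q'.ord (M.tb i) < 0 := by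
        rcases (neg_nonneg.1 hQ').eq_or_lt with h3 | h3
        · exfalso
          have h4 : val Q' (M.tb i)⁻¹ ≠ 0 := val_ne_of_ord (inv_ne_zero (M.tb_ne i))
            (by rw [Place.ord_inv, h3, neg_zero])
          rw [← h2] at h4
          have := ord_eq_zero_of_val_ne h4
          rw [Place.ord_inv] at this
          omega
        · exact h3
      exact hji (hcusp j Q i Q' h h3 hsame)
  have hQ0' : Q'.ord (M.tb i) = 0 := by
    have h4 : val Q (M.tb j)⁻¹ ≠ 0 := val_ne_of_ord (inv_ne_zero (M.tb_ne j))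
      (by rw [Place.ord_inv, hQ0, neg_zero])
    rw [h2] at h4
    have := ord_eq_zero_of_val_ne h4
    rw [Place.ord_inv] at this
    omega
  have hsame' : M.SameAt j Q i Q' := hsame.of_inv hQ0 hQ0'
  -- transfer the section
  obtain ⟨n, hn⟩ : ∃ n : ℕ, M.t ^ n * s ∈ M.M0 (d • E) := by
    obtain ⟨n, hn⟩ := exists_pow_ge (E := d • E) (M.emb_t_ne) (x := M.emb s) (by
      intro v hv
      refine hs.2 v ?_
      change 0 ≤ v.ord (M.emb M.t⁻¹)
      rwa [map_inv₀])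
    refine ⟨n, mul_mem (pow_mem M.t_mem n) hs.1, fun v hv => ?_⟩
    rw [map_mul, map_pow]
    exact hn v hv
  have h3 := key j Q i Q' hQ0.ge hQ0'.ge hsame' _ hn
  have hsW : ∀ l, s ∈ (M.comp l).W := fun l => M.memj hs.1 l
  have g1 : Ge Q 0 (M.tb j) := Ge.of_le hQ0.ge
  have g2 : Ge Q' 0 (M.tb i) := Ge.of_le hQ0'.ge
  have ht := hsame' _ M.t_mem_B
  change val Q (M.tb j) = val Q' (M.tb i) at ht
  have hge : ∀ (l : J) (P : Place k κ), P.ord (M.tb l) = 0 → Ge P 0 ((M.comp l).r s / γ' l) := by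
    intro l P hP
    have h0 : 0 ≤ P.ord (M.inv.tb l) := by rw [M.tb_inv, P.ord_inv, hP, neg_zero]
    exact (M.inv.ge_div hfd0 hvd hm0 hEd hs h0 (hγ' l)).1
  rw [Comp.r_mul (pow_mem (M.t_memj j) n) (hsW j), Comp.r_mul (pow_mem (M.t_memj i) n) (hsW i),
    Comp.r_pow (M.t_memj j), Comp.r_pow (M.t_memj i), mul_div_assoc, mul_div_assoc] at h3
  change val Q (M.tb j ^ n * _) = val Q' (M.tb i ^ n * _) at h3
  rw [val_mul (ge_zero_pow g1 n) (hge j Q hQ0), val_mul (ge_zero_pow g2 n) (hge i Q' hQ0'),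
    val_pow g1, val_pow g2, ht] at h3
  exact mul_left_cancel₀ (pow_ne_zero _ (val_ne_of_ord (M.tb_ne i) hQ0')) h3

/-- **The abstract form of Carayol's theorem.** -/
theorem carayol [Fact q.Prime] [CharP k q] (H : M.Good) (H' : M.inv.Good) (hN : N.Node)
    (hcusp : ∀ j (Q : Place k κ) i (Q' : Place k κ),
      Q.ord (M.tb j) < 0 → Q'.ord (M.tb i) < 0 → M.inv.SameAt j Q i Q' → j = i)
    (hS : N.Stab) {m : ℕ} (hm : (m : k) ≠ 0) {f : F}
    (hf0 : f ≠ 0) (hdvd : ∀ v : Place Ω L, (m : ℤ) ∣ v.ord (M.emb f)) {c₁ c₂ : K} {z₁ z₂ : F}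
    (h₁ : N.NN f = algebraMap K F c₁ * z₁ ^ m)
    (h₂ : N.NN (N.w f) = algebraMap K F c₂ * z₂ ^ m) :
    ∃ x : L, x ^ m = M.emb f ^ (q ^ 3) := by
  have hm0 : m ≠ 0 := by rintro rfl; simp at hm
  have hmpos := Nat.pos_of_ne_zero hm0
  have hmz : (m : ℤ) ≠ 0 := by exact_mod_cast hm0
  have hq := (Fact.out : q.Prime)
  have hco : IsCoprime (m : ℤ) q := by
    rw [Nat.isCoprime_iff_coprime, Nat.coprime_comm, hq.coprime_iff_not_dvd]
    intro h
    exact hm ((CharP.cast_eq_zero_iff k q m).2 h)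
  have hwf0 := N.w_ne hf0
  have hNf := N.NN_ne f hf0
  have hNwf := N.NN_ne _ hwf0
  have hc1 : c₁ ≠ 0 := by
    rintro rfl
    rw [map_zero, zero_mul] at h₁
    exact hNf h₁
  have hz1 : z₁ ≠ 0 := by
    rintro rfl
    rw [zero_pow hm0, mul_zero] at h₁
    exact hNf h₁
  have hc2 : c₂ ≠ 0 := by
    rintro rfl
    rw [map_zero, zero_mul] at h₂
    exact hNwf h₂
  have hz2 : z₂ ≠ 0 := by
    rintro rfl
    rw [zero_pow hm0, mul_zero] at h₂
    exact hNwf h₂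
  have hcF : ∀ c : K, c ≠ 0 → algebraMap K F c ≠ 0 := fun c hc => by rwa [Ne, map_eq_zero]
  obtain ⟨n1, u1, hu1⟩ := M.exists_unit_pow hc1
  obtain ⟨n2, u2, hu2⟩ := M.exists_unit_pow hc2
  -- vertical orders
  have he1 : (M.e N.j1 : ℤ) = q - 1 := by
    rw [N.e1]
    have := hq.one_lt
    omega
  have A0 := N.v_NN0 f hf0
  rw [h₁, Comp.v_mul _ (hcF _ hc1) (pow_ne_zero _ hz1), M.v_K hu1, N.e0, Comp.v_pow] at A0
  have A1 : ∀ j, N.up j → n1 * M.e j + m * (M.comp j).v z₁ = q * (M.comp j).v f := by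
    intro j hj
    have h := N.v_NN j hj f hf0
    rw [h₁, Comp.v_mul _ (hcF _ hc1) (pow_ne_zero _ hz1), M.v_K hu1, Comp.v_pow] at h
    exact h
  have A2 : ∀ j, N.up (N.rv j) →
      n2 * M.e j + m * (M.comp (N.rv j)).v z₂ = q * (M.comp j).v f := by
    intro j hj
    have h := N.v_NN _ hj _ hwf0
    rw [h₂, Comp.v_mul _ (hcF _ hc2) (pow_ne_zero _ hz2), M.v_K hu2, Comp.v_pow, N.v_w, N.rv_rv,
      N.e_rv] at h
    exact h
  -- comparison of the constants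
  obtain ⟨t, ht⟩ : (m : ℤ) ∣ n2 - n1 := by
    apply hco.dvd_of_dvd_mul_left
    have B0 := A2 _ N.up0
    have B1 := A2 _ N.up1
    rw [N.e0] at B0
    rw [he1] at B1
    refine ⟨q * (M.comp N.j0).v z₁ - (M.comp (N.rv N.j0)).v z₂ - (M.comp (N.rv N.j1)).v z₂, ?_⟩
    push_cast at A0 B0
    linear_combination B0 + B1 - (q : ℤ) * A0
  have hdv : ∀ j, ∃ b : ℤ, q * (M.comp j).v f - n1 * M.e j = m * b := by
    intro j
    rcases N.up_or j with hj | hj
    · exact ⟨(M.comp j).v z₁, by linear_combination -(A1 j hj)⟩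
    · exact ⟨(M.comp (N.rv j)).v z₂ + t * M.e j, by linear_combination -(A2 j hj) + (M.e j : ℤ) * ht⟩
  choose b hb using hdv
  obtain ⟨g, hg0, hg⟩ := M.exists_v b
  have hpF := M.pF_ne
  obtain ⟨pF, hpFdef⟩ : ∃ pF, pF = algebraMap A F M.p := ⟨_, rfl⟩
  rw [← hpFdef] at hpF
  obtain ⟨f1, hf1⟩ : ∃ f1, f1 = f ^ q * pF ^ (-n1) := ⟨_, rfl⟩
  have hf10 : f1 ≠ 0 := by rw [hf1]; exact mul_ne_zero (pow_ne_zero _ hf0) (zpow_ne_zero _ hpF)
  obtain ⟨f2, hf2⟩ : ∃ f2, f2 = f1 * (g ^ m)⁻¹ := ⟨_, rfl⟩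
  have hf20 : f2 ≠ 0 := by rw [hf2]; exact mul_ne_zero hf10 (inv_ne_zero (pow_ne_zero _ hg0))
  have hv0 : ∀ j, (M.comp j).v f2 = 0 := by
    intro j
    rw [hf2, Comp.v_mul _ hf10 (inv_ne_zero (pow_ne_zero _ hg0)), Comp.v_inv, Comp.v_pow, hf1,
      Comp.v_mul _ (pow_ne_zero _ hf0) (zpow_ne_zero _ hpF), Comp.v_pow, Comp.v_zpow, hpFdef, M.v_p,
      hg]
    linear_combination hb j
  have hNpow : ∀ (x : F) (n : ℤ), x ≠ 0 → N.NN (x ^ n) = N.NN x ^ n := by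
    intro x n hx
    obtain ⟨k, rfl | rfl⟩ := n.eq_nat_or_neg
    · rw [zpow_natCast, zpow_natCast, map_pow]
    · rw [zpow_neg, zpow_neg, zpow_natCast, zpow_natCast, N.NN_inv _ (pow_ne_zero _ hx), map_pow]
  have hNp : N.NN pF = algebraMap K F (algebraMap A K M.p ^ q) := by
    rw [hpFdef, IsScalarTower.algebraMap_apply A K F, N.NN_K]
  have hwp : N.w pF = pF := by
    rw [hpFdef, IsScalarTower.algebraMap_apply A K F, N.w_K]
  have key : ∀ (c : K) (z : F) (h g' : F), g' ≠ 0 → h ≠ 0 → N.NN h = algebraMap K F c * z ^ m →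
      N.NN (h ^ q * pF ^ (-n1) * (g' ^ m)⁻¹) =
      algebraMap K F (c ^ q * (algebraMap A K M.p ^ q) ^ (-n1)) *
        (z ^ q * (N.NN g')⁻¹) ^ m := by
    intro c z h g' hg' hh hc
    rw [map_mul, map_mul, map_pow, hc, hNpow _ _ hpF, hNp, N.NN_inv _ (pow_ne_zero _ hg'), map_pow]
    simp only [map_mul, map_pow, map_zpow₀]
    ring
  have hw2 : N.w f2 = N.w f ^ q * pF ^ (-n1) * (N.w g ^ m)⁻¹ := by
    rw [hf2, hf1, map_mul, map_mul, map_pow, map_zpow₀, hwp, map_inv₀, map_pow]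
  have hE2 : ∀ v : Place Ω L, (m : ℤ) ∣ v.ord (M.emb f2) := by
    intro v
    have hF' : ∀ x : F, x ≠ 0 → M.emb x ≠ 0 := fun x hx => by rwa [Ne, map_eq_zero]
    have hpv : v.ord (M.emb pF) = 0 := by
      rw [hpFdef, IsScalarTower.algebraMap_apply A K F, M.hemb]
      exact ord_algebraMap v _
    have hpz : ∀ n : ℤ, v.ord (M.emb (pF ^ n)) = 0 := by
      intro n
      obtain ⟨k, rfl | rfl⟩ := n.eq_nat_or_neg
      · rw [zpow_natCast, map_pow, ord_pow, hpv, mul_zero]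
      · rw [zpow_neg, zpow_natCast, map_inv₀, v.ord_inv, map_pow, ord_pow, hpv, mul_zero, neg_zero]
    rw [hf2, hf1, map_mul, map_mul, Place.ord_mul _ (mul_ne_zero (hF' _ (pow_ne_zero _ hf0))
      (hF' _ (zpow_ne_zero _ hpF))) (hF' _ (inv_ne_zero (pow_ne_zero _ hg0))),
      Place.ord_mul _ (hF' _ (pow_ne_zero _ hf0)) (hF' _ (zpow_ne_zero _ hpF)), hpz, map_inv₀,
      v.ord_inv, map_pow, map_pow, ord_pow, ord_pow, add_zero]
    exact dvd_add (Dvd.dvd.mul_left (hdvd v) _) ((dvd_mul_right _ _).neg_right)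
  obtain ⟨x, hx⟩ := N.carayol_norm H H' hN hcusp hS hm hf20 hv0 hE2
    (by rw [hf2, hf1]; exact key _ _ _ _ hg0 hf0 h₁)
    (by rw [hw2]; exact key _ _ _ _ (N.w_ne hg0) hwf0 h₂)
  -- conclude
  obtain ⟨y, hy⟩ := IsAlgClosed.exists_pow_nat_eq
    ((algebraMap K Ω (algebraMap A K M.p)) ^ n1) hmpos
  have hpe : M.emb pF = algebraMap Ω L (algebraMap K Ω (algebraMap A K M.p)) := by
    rw [hpFdef, IsScalarTower.algebraMap_apply A K F, M.hemb]
  refine ⟨x * (algebraMap Ω L y * M.emb g) ^ (q ^ 2), ?_⟩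
  have e1 : f ^ q = f2 * pF ^ n1 * g ^ m := by
    rw [hf2, hf1, zpow_neg]
    have h3 : pF ^ n1 ≠ 0 := zpow_ne_zero _ hpF
    have h4 : g ^ m ≠ 0 := pow_ne_zero _ hg0
    field_simp
  have e2 : M.emb f ^ (q ^ 3) = (M.emb (f ^ q)) ^ (q ^ 2) := by
    rw [map_pow, ← pow_mul]
    congr 1
    ring
  have e3 : algebraMap Ω L (algebraMap K Ω (algebraMap A K M.p)) ^ n1 =
      algebraMap Ω L y ^ m := by rw [← map_zpow₀, ← hy, map_pow]
  rw [e2, e1, map_mul, map_mul, map_zpow₀, hpe, e3, mul_pow x, hx, map_pow, map_pow]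
  ring

end NormJ

end Fermat.Agent.CQ
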