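import Fermat.Agent.ModPoly.Comb

/-!
# The sum of the residue degrees
-/

set_option autoImplicit false

namespace Fermat.Agent.CQ

open ModularCurve Fermat.Agent.ModPoly Finset

theorem natAbs_eq {n a : ℕ} (ha : a ≤ n) :
    (2 * (a : ℤ) - n).natAbs = n - 2 * min a (n - a) := by
  omega

/-- the summand -/
def sm (q n a : ℕ) : ℕ := Nat.totient (q ^ min a (n - a)) * (1 + q ^ (n - 2 * min a (n - a)))

variable {q : ℕ}

theorem sm_zero (n : ℕ) : sm q n 0 = 1 + q ^ n := by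
  simp [sm]

theorem sm_last (n : ℕ) : sm q n n = 1 + q ^ n := by
  simp [sm]

theorem sm_one (hq : q.Prime) (n : ℕ) : sm q (n + 2) 1 = (q - 1) * (1 + q ^ n) := by
  have h1 : min 1 (n + 2 - 1) = 1 := by omega
  have h2 : n + 2 - 2 * 1 = n := by omega
  rw [sm, h1, h2, pow_one, Nat.totient_prime hq]

theorem sm_last' (hq : q.Prime) (n : ℕ) : sm q (n + 2) (n + 1) = (q - 1) * (1 + q ^ n) := by
  have h1 : min (n + 1) (n + 2 - (n + 1)) = 1 := by omega
  have h2 : n + 2 - 2 * 1 = n := by omega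
  rw [sm, h1, h2, pow_one, Nat.totient_prime hq]

theorem sm_mid (hq : q.Prime) {n a : ℕ} (ha : a < n) :
    sm q (n + 3) (a + 2) = q * sm q (n + 1) (a + 1) := by
  obtain ⟨c, hc⟩ : ∃ c, min (a + 1) (n + 1 - (a + 1)) = c + 1 :=
    ⟨min (a + 1) (n + 1 - (a + 1)) - 1, by omega⟩
  have h1 : min (a + 2) (n + 3 - (a + 2)) = c + 1 + 1 := by omega
  have h2 : n + 3 - 2 * (c + 1 + 1) = n + 1 - 2 * (c + 1) := by omega
  rw [sm, sm, hc, h1, h2, Nat.totient_prime_pow_succ hq, Nat.totient_prime_pow_succ hq, pow_succ]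
  ring

theorem sum_sm (hq : q.Prime) (n : ℕ) :
    ∑ a ∈ range (n + 2), sm q (n + 1) a = 2 * (q ^ n * (q + 1)) ∧
    ∑ a ∈ range (n + 3), sm q (n + 2) a = 2 * (q ^ (n + 1) * (q + 1)) := by
  induction n with
  | zero =>
    obtain ⟨p, rfl⟩ : ∃ p, q = p + 1 := ⟨q - 1, by have := hq.one_lt; omega⟩
    constructor
    · rw [sum_range_succ, sum_range_one, sm_zero, sm_last]
      ring
    · rw [sum_range_succ, sum_range_succ, sum_range_one, sm_zero, sm_last, sm_one hq]
      simp only [Nat.add_sub_cancel]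
      ring
  | succ n ih =>
    refine ⟨ih.2, ?_⟩
    have h := ih.1
    obtain ⟨p, hp⟩ : ∃ p, q = p + 1 := ⟨q - 1, by have := hq.one_lt; omega⟩
    rw [sum_range_succ, sum_range_succ', sm_zero, sm_last] at h
    rw [sum_range_succ, sum_range_succ', sum_range_succ, sum_range_succ', sm_zero, sm_last,
      sm_one hq, sm_last' hq, sum_congr rfl fun a ha => sm_mid hq (mem_range.1 ha), ← mul_sum]
    subst hp
    rw [Nat.add_sub_cancel]
    have h2 := congrArg (fun x => (p + 1) * x) h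
    beta_reduce at h2
    ring_nf at h2 ⊢
    omega

/-- the sum of the residue degrees -/
theorem sum_deg {n M : ℕ} [NeZero M] (hq : q.Prime) (hn : n ≠ 0) (hco : q.Coprime M) :
    ∑ a : Fin (n + 1), Nat.totient (q ^ min (a : ℕ) (n - a)) *
      ((1 + q ^ (n - 2 * min (a : ℕ) (n - a))) * dedekindPsi M) =
      2 * dedekindPsi (q ^ n * M) := by
  obtain ⟨n, rfl⟩ := Nat.exists_eq_succ_of_ne_zero hn
  rw [dedekindPsi_mul_coprime (pow_ne_zero _ hq.ne_zero) M (NeZero.ne M) (hco.pow_left _),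
    dedekindPsi_prime_pow hq]
  have h := (sum_sm hq n).1
  rw [← Fin.sum_univ_eq_sum_range (fun a => sm q (n + 1) a)] at h
  rw [← mul_assoc, ← h, sum_mul]
  refine sum_congr rfl fun a _ => ?_
  rw [sm, mul_assoc]

theorem sum_deg' {n M : ℕ} [NeZero M] (hq : q.Prime) (hn : n ≠ 0) (hco : q.Coprime M) :
    ∑ a : Fin (n + 1), Nat.totient (q ^ min (a : ℕ) (n - a)) *
      ((1 + q ^ (2 * ((a : ℕ) : ℤ) - n).natAbs) * dedekindPsi M) =
      2 * dedekindPsi (q ^ n * M) := by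
  rw [← sum_deg hq hn hco]
  refine sum_congr rfl fun a _ => ?_
  rw [natAbs_eq (Nat.lt_succ_iff.1 a.2)]

end Fermat.Agent.CQ
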