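import Fermat.Agent.CQ.Pm
import Fermat.Agent.CQ.DegSum
import Fermat.Agent.CarE.CM2

/-!
# The model of the modular function field of level `q ^ n M`
-/

set_option autoImplicit false
set_option linter.style.haveILetI false
set_option linter.unusedSectionVars false

noncomputable section

namespace Fermat.Agent.CQ

open Module ModularCurve Polynomial IntermediateField Fermat.Agent.ModPoly Fermat.Agent.Cusp
open Fermat.Agent.SemiSt Fermat.Agent.RedMod Fermat.Agent.Car Fermat.Agent.Red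
open Fermat.Agent.CarE

namespace Ctx

variable {R0 K0 A Ω k : Type*} [CommRing R0] [IsDomain R0] [IsDiscreteValuationRing R0]
  [Field K0] [Algebra R0 K0]
  [IsFractionRing R0 K0] [CommRing A] [IsDomain A] [ValuationRing A] [Field Ω]
  [IsAlgClosed Ω] [CharZero Ω]
  [Algebra A Ω] [IsFractionRing A Ω] [Field k] [Algebra A k] [Algebra K0 Ω] [Algebra R0 A]
  [Algebra R0 k] {q M n : ℕ} [hq : Fact q.Prime] [NeZero M] [CharP k q]
  (X : Ctx R0 K0 A Ω k q M n)

theorem card_IXn (hn : n ≠ 0) (hco : q.Coprime M) :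
    Fintype.card (PreM.IX (fun a : Fin (n + 1) => Ix q M n a) (fun a => ee q n a)) =
      2 * dedekindPsi (q ^ n * M) := by
  rw [PreM.card_IX, ← sum_deg hq.out hn hco]
  refine Finset.sum_congr rfl fun a _ => ?_
  rw [Fintype.card_prod, Fintype.card_fin, Fintype.card_fin, ee, rr, mul_comm (dedekindPsi M)]

section Span

variable (κ : IntermediateField k (LaurentSeries k))
  (hκ : ∀ j (x : FF K0 (q ^ n * M)) (h : x ∈ (X.E j).W), (X.E j).πW ⟨x, h⟩ ∈ κ)

theorem emb_tt : emb K0 Ω (q ^ n * M) (tt K0 q n M) = tt Ω q n M := by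
  rw [tt, tt, map_mul, emb_jm, emb_jm]

theorem pm_span (x : FF K0 (q ^ n * M)) : ∃ Q : K0[X], Q ≠ 0 ∧
    ∃ P : PreM.IX (fun a : Fin (n + 1) => Ix q M n a) (X.pm κ hκ).e → K0[X],
      aeval (X.pm κ hκ).t Q * x = ((X.pm κ hκ).gauss K0).comb P := by
  classical
  have hn0 : n ≠ 0 := by have := X.hn; omega
  set PM := X.pm κ hκ with hPM
  set G := PM.gauss K0 with hG
  let I := PreM.IX (fun a : Fin (n + 1) => Ix q M n a) (fun a => ee q n a)
  let v : Option I → FF K0 (q ^ n * M) := fun o => o.elim x (fun i => PM.y i)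
  have hcard : 2 * dedekindPsi (q ^ n * M) < Fintype.card (Option I) := by
    rw [Fintype.card_option, card_IXn hn0 X.hco]
    exact Nat.lt_succ_self _
  obtain ⟨P, hP, h1⟩ := exists_dep (k := Ω) (cast_ne Ω (q ^ n * M)) (X.hco.pow_left n) hcard
    (fun o => emb K0 Ω (q ^ n * M) (v o))
  rw [← emb_tt (K0 := K0)] at h1
  obtain ⟨Q, hQ, h2⟩ := dep_descend (tt K0 q n M) v P hP h1
  rw [Fintype.sum_option] at h2
  have h3 : ∑ i : I, aeval (tt K0 q n M) (Q (some i)) * v (some i) =
      G.comb (fun i => Q (some i)) := rfl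
  have h4 : aeval (tt K0 q n M) (Q none) * x + G.comb (fun i => Q (some i)) = 0 := by
    rw [← h3]; exact h2
  refine ⟨Q none, ?_, fun i => -(Q (some i)), ?_⟩
  · intro h0
    rw [h0, map_zero, zero_mul, zero_add] at h4
    have h5 := G.comb_injective h4
    apply hQ
    funext o
    rcases o with _ | i
    · exact h0
    · exact congrFun h5 i
  · have h5 : G.comb (fun i => -(Q (some i))) = -G.comb (fun i => Q (some i)) := by
      simp only [GaussData.comb, map_neg, neg_mul, Finset.sum_neg_distrib]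
    rw [h5]
    exact eq_neg_of_add_eq_zero_left h4

end Span

section Mem

theorem Sb_cst (d : ℕ) (s : LaurentSeries ℤ) :
    (Sb 1 (pp q ^ d) (cst k s) : LaurentSeries k) = cst k s ^ (q ^ d) := by
  induction d with
  | zero =>
    rw [pow_zero, pow_zero, pow_one]
    ext m
    have h3 := Sb_coeff_mul (1 : kˣ) 1 (cst k s) m
    rw [PNat.one_coe, Nat.cast_one, one_mul, one_zpow, Units.val_one, one_mul] at h3
    exact h3
  | succ d ih =>
    have h1 := Sb_Sb (1 : kˣ) (1 : kˣ) (pp q ^ d) (pp q) (cst k s)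
    rw [one_pow, one_mul, ← pow_succ] at h1
    rw [← h1, ← qExpand_eq_Sb q (pp q) (coe_pp q), qExpand_cst, map_pow, ih, ← pow_mul, ← pow_succ]

theorem redL_jL_mem (i : ℕ) (l : Fin (n + 1)) : redL A k (X.jL i l) ∈ FF k M := by
  rw [redL_jL]; exact pow_mem J_mem _

theorem redL_pa_mem (i : ℕ) (l : Fin (n + 1)) : redL A k (X.paL i l) ∈ FF k M := by
  rw [paL]
  split_ifs
  · rw [map_sub, map_pow]
    exact sub_mem (pow_mem (X.redL_jL_mem _ _) _) (X.redL_jL_mem _ _)
  · rw [map_one]; exact one_mem _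

theorem redL_qa_mem (i : ℕ) (l : Fin (n + 1)) : redL A k (X.qaL i l) ∈ FF k M := by
  rw [qaL]
  split_ifs
  · rw [map_sub, map_pow]
    exact sub_mem (X.redL_jL_mem _ _) (pow_mem (X.redL_jL_mem _ _) _)
  · rw [map_one]; exact one_mem _

/-- all Laurent series -/
abbrev kT' (k : Type*) [Field k] : IntermediateField k (LaurentSeries k) := ⊤

theorem hT' (j : Fin (n + 1)) (x : FF K0 (q ^ n * M)) (h : x ∈ (X.E j).W) :
    (X.E j).πW ⟨x, h⟩ ∈ kT' k := IntermediateField.mem_top

/-- **the residues have level `M`** -/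
theorem res_mem (j : Fin (n + 1)) (x : FF K0 (q ^ n * M)) (h : x ∈ (X.E j).W) :
    (X.E j).πW ⟨x, h⟩ ∈ FF k M := by
  let κ := kT' k
  let E : IntermediateField k κ := (FF k M).comap κ.val
  have hE : ∀ {x : FF K0 (q ^ n * M)} {s : Fin (n + 1) → LaurentSeries A} (_ : X.HasL x s)
      (j : Fin (n + 1)), redL A k (s j) ∈ FF k M → (X.Cn κ X.hT' j).r x ∈ E := by
    intro x s hx j hj
    change ((X.Cn κ X.hT' j).r x : LaurentSeries k) ∈ FF k M
    rw [coe_r_hasL _ _ hx]
    exact hj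
  have hb : ∀ (i : Fin (n + 1)) (x : Ix q M n i) (j : Fin (n + 1)),
      (X.Cn κ X.hT' j).r (X.bb i x) ∈ E := by
    intro i x j
    refine hE (X.hasL_bb i x) j ?_
    rw [redL_bb, Sb_cst]
    exact mul_mem (pow_mem (cst_mem_FF (monos_mem X.hM x.1)) _) (pow_mem (pow_mem J_mem _) _)
  have hϖ : ∀ i j : Fin (n + 1), (X.Cn κ X.hT' j).r (X.E i).ϖ ∈ E := by
    intro i j
    change (X.Cn κ X.hT' j).r (uu K0 q M n i) ∈ E
    have hi := Nat.lt_succ_iff.1 i.2
    rw [uu]
    split_ifs with h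
    · refine hE (X.hasL_natCast q) j ?_
      rw [coeffMap_C, map_natCast, CharP.cast_eq_zero, map_zero]
      exact zero_mem _
    · refine hE ((X.hasL_jj (i := i - min (i : ℕ) (n - i)) (by omega)).sub
        (X.hasL_jj (i := i + min (i : ℕ) (n - i)) (by omega))) j ?_
      rw [Pi.sub_apply, map_sub]
      exact sub_mem (X.redL_jL_mem _ _) (X.redL_jL_mem _ _)
  have h1 := (X.pm κ X.hT').r_mem (K := K0) (X.pm_span κ X.hT')
    E (fun j => hE X.hasL_tt j (by rw [red_tL]; exact pow_mem J_mem _)) hb hϖ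
    (fun i j => hE ((X.hasL_sp (Nat.lt_succ_iff.1 i.2)).pow (q ^ n)) j (by
      rw [Pi.pow_apply, map_pow, map_mul]
      exact pow_mem (mul_mem (X.redL_pa_mem _ _) (X.redL_qa_mem _ _)) _))
    (x := x) (j := j) h
  have h2 : ((X.Cn κ X.hT' j).r x : LaurentSeries k) ∈ FF k M := h1
  have h3 := (X.E j).coe_r κ (X.hT' j) h
  exact h3 ▸ h2

end Mem

/-- the model data with residue fields of level `M` -/
def PMF : PreM R0 (FF K0 (q ^ n * M)) k (FF k M) (fun a : Fin (n + 1) => Ix q M n a) :=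
  X.pm (FF k M) X.res_mem

set_option synthInstance.maxHeartbeats 400000 in
/-- **the model of the modular function field of level `q ^ n M`** -/
def cm : CModel R0 K0 (FF K0 (q ^ n * M)) k X.PMF.R (FF k M) Ω (FF Ω (q ^ n * M))
    (PreM.IX (fun a : Fin (n + 1) => Ix q M n a) X.PMF.e) (Fin (n + 1)) :=
  haveI := X.B.alg
  X.PMF.toCModel (desc (q ^ n * M) X.B.fixed) (X.pm_span (FF k M) X.res_mem)

end Ctx

end Fermat.Agent.CQ
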