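import Fermat.Agent.CQ.Cm

/-!
# Simple properties of the model of level `q ^ n M`
-/

set_option autoImplicit false
set_option linter.style.haveILetI false
set_option linter.unusedSectionVars false

noncomputable section

namespace Fermat.Agent.CQ

open Module ModularCurve AlgebraicCurve Polynomial IntermediateField Fermat.Agent.ModPoly
  Fermat.Agent.Cusp
open Fermat.Agent.SemiSt Fermat.Agent.RedMod Fermat.Agent.Car Fermat.Agent.Red
open Fermat.Agent.CarE Fermat.Agent.Curve

namespace Ctx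

variable {R0 K0 A Ω k : Type*} [CommRing R0] [IsDomain R0] [IsDiscreteValuationRing R0]
  [Field K0] [Algebra R0 K0]
  [IsFractionRing R0 K0] [CommRing A] [IsDomain A] [ValuationRing A] [Field Ω]
  [IsAlgClosed Ω] [CharZero Ω]
  [Algebra A Ω] [IsFractionRing A Ω] [Field k] [Algebra A k] [Algebra K0 Ω] [Algebra R0 A]
  [Algebra R0 k] {q M n : ℕ} [hq : Fact q.Prime] [NeZero M] [CharP k q]
  (X : Ctx R0 K0 A Ω k q M n)

theorem cm_comp (a : Fin (n + 1)) : X.cm.comp a = (X.E a).comp (FF k M) (X.res_mem a) := rfl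

theorem cm_e (a : Fin (n + 1)) : X.cm.e a = ee q n a := rfl

theorem cm_t : X.cm.t = tt K0 q n M := rfl

theorem cm_p : X.cm.p = (q : R0) := rfl

theorem cm_emb : X.cm.emb = emb K0 Ω (q ^ n * M) := rfl

theorem cm_emb_t : X.cm.emb X.cm.t = tt Ω q n M := emb_tt

variable {X} in
/-- residues from expansions -/
theorem cm_coe_r {x : FF K0 (q ^ n * M)} {s : Fin (n + 1) → LaurentSeries A}
    (h : X.HasL x s) (j : Fin (n + 1)) :
    ((X.cm.comp j).r x : LaurentSeries k) = redL A k (s j) :=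
  h.r (FF k M) (X.res_mem j)

variable {X} in
/-- valuations from expansions -/
theorem cm_v {x : FF K0 (q ^ n * M)} {s : Fin (n + 1) → LaurentSeries A}
    (h : X.HasL x s) {j : Fin (n + 1)} {m : ℕ} {u : LaurentSeries A} (hu : redL A k u ≠ 0)
    (hs : s j = HahnSeries.C ((X.ϖc j) ^ m) * u) : (X.cm.comp j).v x = m :=
  h.v (FF k M) (X.res_mem j) hu hs

theorem coe_jF' (k : Type*) [Field k] (M : ℕ) [NeZero M] :
    ((jF' k M : FF k M) : LaurentSeries k) = jqModC k := by
  change Jc 1 1 = _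
  exact Jc_one_one

/-- the residue of the parameter -/
theorem cm_tb (a : Fin (n + 1)) : X.cm.tb a = jF' k M ^ rr q n a := by
  apply Subtype.ext
  have h1 := cm_coe_r X.hasL_tt a
  rw [red_tL] at h1
  refine h1.trans ?_
  rw [SubmonoidClass.coe_pow, coe_jF']

theorem cm_coe_tb (a : Fin (n + 1)) :
    ((X.cm.tb a : FF k M) : LaurentSeries k) = jqModC k ^ rr q n a := by
  rw [cm_tb, SubmonoidClass.coe_pow, coe_jF']

theorem ord_tb_nonneg (a : Fin (n + 1)) (Q : Place k (FF k M)) :
    0 ≤ Q.ord (X.cm.tb a) ↔ 0 ≤ Q.ord (jF' k M) := by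
  rw [cm_tb, ord_pow]
  have h := rr_pos q n a
  have h' : (0 : ℤ) < rr q n a := by exact_mod_cast h
  constructor
  · intro h1
    by_contra h2
    push Not at h2
    nlinarith
  · intro h1
    positivity

theorem ord_tb_neg (a : Fin (n + 1)) (Q : Place k (FF k M)) :
    Q.ord (X.cm.tb a) < 0 ↔ Q.ord (jF' k M) < 0 := by
  rw [← not_le, ← not_le, ord_tb_nonneg]

end Ctx

end Fermat.Agent.CQ
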