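import Fermat.Agent.CarE.Three

/-!
# The totally ramified extension generated by a root of unity of order `q ^ m`
-/

set_option autoImplicit false
set_option linter.style.haveILetI false
set_option linter.unusedSectionVars false

noncomputable section

namespace Fermat.Agent.CQ

open ModularCurve Polynomial IntermediateField Fermat.Agent.ModPoly Fermat.Agent.Cusp
open Fermat.Agent.SemiSt Fermat.Agent.RedMod
open Fermat.Agent.CarE (PU D1 algebraMap_mem_D1 self_mem_D1 natDegree_comp_lam_le)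

section Lam

variable {A k : Type*} [CommRing A] [IsDomain A] [Field k] [Algebra A k]
  {q : ℕ} [hq : Fact q.Prime] [CharP k q] {m : ℕ} {z : A} (hz : IsPrimitiveRoot z (q ^ m))

include hz in
theorem red_z : algebraMap A k z = 1 := by
  haveI : ExpChar k q := ExpChar.prime hq.out
  have h1 : (algebraMap A k z) ^ (q ^ m) = 1 := by rw [← map_pow, hz.pow_eq_one, map_one]
  have h2 : (algebraMap A k z - 1) ^ (q ^ m) = 0 := by
    rw [sub_pow_expChar_pow, h1, one_pow, sub_self]
  exact sub_eq_zero.1 (pow_eq_zero_iff (pow_ne_zero m hq.out.ne_zero) |>.1 h2)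

include hz in
theorem red_lam : algebraMap A k (1 - z) = 0 := by
  rw [map_sub, map_one, red_z hz, sub_self]

include hz in
theorem lam_ne (hm : m ≠ 0) : (1 : A) - z ≠ 0 := fun h => by
  have h1 := sub_eq_zero.1 h
  have h2 : q ^ m = 1 := hz.unique (h1 ▸ IsPrimitiveRoot.one)
  exact (Nat.one_lt_pow hm hq.out.one_lt).ne' h2

include hz in
theorem red_geom (n : ℕ) : algebraMap A k (∑ i ∈ Finset.range n, z ^ i) = n := by
  rw [map_sum]
  simp [red_z hz]

include hz in
/-- `q` is a unit times `(1 - z) ^ φ(q ^ m)` -/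
theorem exists_lam_pow (hm : m ≠ 0) : ∃ ε : A, algebraMap A k ε ≠ 0 ∧
    (q : A) = (1 - z) ^ (Nat.totient (q ^ m)) * ε := by
  classical
  haveI : NeZero (q ^ m) := ⟨pow_ne_zero m hq.out.ne_zero⟩
  obtain ⟨n, rfl⟩ : ∃ n, m = n + 1 := ⟨m - 1, by omega⟩
  have h1 : (cyclotomic (q ^ (n + 1)) A).eval 1 = (q : A) := by
    have := eval_one_cyclotomic_prime_pow (R := A) (p := q) n
    exact this
  have h2 := cyclotomic_eq_prod_X_sub_primitiveRoots hz
  rw [h2, eval_prod] at h1
  simp only [eval_sub, eval_X, eval_C] at h1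
  have h3 : (primitiveRoots (q ^ (n + 1)) A) =
      ((Finset.range (q ^ (n + 1))).filter (fun j => (q ^ (n + 1)).Coprime j)).image fun j => z ^ j := by
    ext w
    rw [mem_primitiveRoots (NeZero.pos _), Finset.mem_image]
    rw [hz.isPrimitiveRoot_iff]
    constructor
    · rintro ⟨j, h4, h5, rfl⟩
      exact ⟨j, Finset.mem_filter.2 ⟨Finset.mem_range.2 h4, h5.symm⟩, rfl⟩
    · rintro ⟨j, h4, rfl⟩
      rw [Finset.mem_filter, Finset.mem_range] at h4
      exact ⟨j, h4.1, h4.2.symm, rfl⟩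
  have h4 : Set.InjOn (fun j : ℕ => z ^ j)
      ((Finset.range (q ^ (n + 1))).filter (fun j => (q ^ (n + 1)).Coprime j) : Set ℕ) := by
    intro i hi j hj hij
    rw [Finset.coe_filter] at hi hj
    exact hz.pow_inj (Finset.mem_range.1 hi.1) (Finset.mem_range.1 hj.1) hij
  rw [h3, Finset.prod_image h4] at h1
  have h5 : ∀ j ∈ (Finset.range (q ^ (n + 1))).filter (fun j => (q ^ (n + 1)).Coprime j),
      (1 - z ^ j) = (1 - z) * ∑ i ∈ Finset.range j, z ^ i := fun j _ => (mul_neg_geom_sum z j).symm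
  rw [Finset.prod_congr rfl h5, Finset.prod_mul_distrib, Finset.prod_const] at h1
  have h6 : ((Finset.range (q ^ (n + 1))).filter (fun j => (q ^ (n + 1)).Coprime j)).card =
      Nat.totient (q ^ (n + 1)) := rfl
  rw [h6] at h1
  refine ⟨_, ?_, h1.symm⟩
  rw [map_prod, Finset.prod_ne_zero_iff]
  intro j hj
  rw [red_geom hz]
  intro h0
  rw [CharP.cast_eq_zero_iff k q] at h0
  have h7 := (Finset.mem_filter.1 hj).2
  have h8 : q ∣ 1 := by
    rw [← h7]
    exact Nat.dvd_gcd (dvd_pow_self q (Nat.succ_ne_zero n)) h0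
  exact hq.out.one_lt.ne' (Nat.dvd_one.1 h8)

variable {R0 : Type*} [CommRing R0] [Algebra R0 A]
  (hR : ∀ a : R0, a ≠ 0 → ∃ (n : ℕ) (u : R0), algebraMap A k (algebraMap R0 A u) ≠ 0 ∧
    a = (q : R0) ^ n * u)

theorem unit_zpow_mem_D1 {N : ℕ} (hN : N ≠ 0) {z : Aˣ} (hz : z ^ N = 1) (n : ℤ) :
    ((z ^ n : Aˣ) : A) ∈ D1 R0 (z : A) := by
  have h0 : 0 ≤ n % (N : ℤ) := Int.emod_nonneg n (by exact_mod_cast hN)
  obtain ⟨m, hm⟩ := Int.eq_ofNat_of_zero_le h0
  have h1 : z ^ n = z ^ m := by
    have h2 := Int.emod_add_mul_ediv n N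
    rw [← h2, zpow_add, zpow_mul, zpow_natCast z N, hz, one_zpow, mul_one, hm, zpow_natCast]
  rw [h1, Units.val_pow_eq_pow_val]
  exact pow_mem (self_mem_D1 _) m

include hz hR in
/-- polynomials of small degree in `1 - z` -/
theorem PU_aeval_lam (hm : m ≠ 0) {Q : R0[X]} (hQd : Q.natDegree < Nat.totient (q ^ m)) (hQ0 : Q ≠ 0) :
    PU k (1 - z) (aeval (1 - z) Q) := by
  classical
  obtain ⟨ε, hε, heq⟩ := exists_lam_pow (A := A) (k := k) hz hm
  generalize Nat.totient (q ^ m) = N at hQd heq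
  -- valuations of the coefficients
  let s := (Finset.range N).filter (fun i => Q.coeff i ≠ 0)
  have hch : ∀ i : ℕ, ∃ (n : ℕ) (u : R0), Q.coeff i ≠ 0 →
      algebraMap A k (algebraMap R0 A u) ≠ 0 ∧ Q.coeff i = (q : R0) ^ n * u := by
    intro i
    by_cases hi : Q.coeff i = 0
    · exact ⟨0, 0, fun h => absurd hi h⟩
    · obtain ⟨n, u, h⟩ := hR _ hi
      exact ⟨n, u, fun _ => h⟩
  choose n u hnu using hch
  have h3 : aeval (1 - z) Q = ∑ i ∈ s, (1 - z) ^ (N * n i + i) *
      (ε ^ (n i) * algebraMap R0 A (u i)) := by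
    rw [aeval_eq_sum_range' hQd, ← Finset.sum_filter_add_sum_filter_not (Finset.range N)
      (fun i => Q.coeff i ≠ 0), Finset.sum_eq_zero (s := (Finset.range N).filter
      (fun i => ¬ (Q.coeff i ≠ 0))), add_zero]
    · refine Finset.sum_congr rfl fun i hi => ?_
      obtain ⟨-, hne⟩ := Finset.mem_filter.1 hi
      obtain ⟨-, e⟩ := hnu i hne
      rw [Algebra.smul_def]
      conv_lhs => rw [e]
      rw [map_mul, map_pow, map_natCast, heq, mul_pow, ← pow_mul, pow_add]
      ring
    · intro i hi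
      have h5 := not_not.1 (Finset.mem_filter.1 hi).2
      rw [h5, zero_smul]
  have hs : s.Nonempty := by
    refine ⟨Q.natDegree, Finset.mem_filter.2 ⟨Finset.mem_range.2 hQd, ?_⟩⟩
    exact leadingCoeff_ne_zero.2 hQ0
  rw [h3]
  refine CarE.PU.sum (red_lam hz) s hs (fun i => N * n i + i) _ ?_ ?_
  · intro i hi
    obtain ⟨-, hne⟩ := Finset.mem_filter.1 hi
    rw [map_mul, map_pow]
    exact mul_ne_zero (pow_ne_zero _ hε) (hnu i hne).1
  · intro i hi j hj hij
    have hi' := Finset.mem_range.1 (Finset.mem_filter.1 hi).1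
    have hj' := Finset.mem_range.1 (Finset.mem_filter.1 hj).1
    have h4 := congrArg (fun x => x % N) hij
    simp only [Nat.add_mod, Nat.mul_mod_right, zero_add, Nat.mod_eq_of_lt hi',
      Nat.mod_eq_of_lt hj'] at h4
    exact h4

include hz in
theorem aeval_cyclotomic_z : aeval z (cyclotomic (q ^ m) R0) = 0 := by
  have h1 := hz.isRoot_cyclotomic (pow_pos hq.out.pos m)
  rw [IsRoot.def] at h1
  rw [aeval_def, eval₂_eq_eval_map, map_cyclotomic]
  exact h1

include hz hR in
theorem PU_D1 (hm : m ≠ 0) : ∀ d : A, d ∈ D1 R0 z → d ≠ 0 → PU k (1 - z) d := by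
  rintro _ ⟨P, rfl⟩ hne
  change aeval z P ≠ 0 at hne
  change PU k (1 - z) (aeval z P)
  -- reduce modulo the monic polynomial
  let G : R0[X] := cyclotomic (q ^ m) R0
  haveI : Nontrivial R0 := by
    refine ⟨⟨0, 1, fun h => hne ?_⟩⟩
    have : P = 0 := by
      ext i
      rw [coeff_zero, ← mul_one (P.coeff i), ← h, mul_zero]
    rw [this, map_zero]
  have hG : G.Monic := cyclotomic.monic _ _
  have hGz : aeval z G = 0 := aeval_cyclotomic_z hz
  have hGd : G.natDegree = Nat.totient (q ^ m) := natDegree_cyclotomic _ _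
  set P' := P %ₘ G with hP'
  have h1 : aeval z P = aeval z P' := by
    conv_lhs => rw [← modByMonic_add_div P G]
    rw [map_add, map_mul, hGz, zero_mul, add_zero]
  have h2 : aeval z P' = aeval (1 - z) (P'.comp (1 - X)) := by
    rw [aeval_comp]
    simp
  have hpos : 0 < Nat.totient (q ^ m) := Nat.totient_pos.2 (pow_pos hq.out.pos m)
  have hP'd : P'.natDegree < Nat.totient (q ^ m) := by
    rw [← hGd]
    exact natDegree_modByMonic_lt P hG (by
      intro h
      rw [h, natDegree_one] at hGd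
      omega)
  rw [h1, h2]
  refine PU_aeval_lam hz hR hm ((natDegree_comp_lam_le P').trans_lt hP'd) ?_
  intro h0
  rw [h0, map_zero] at h2
  exact hne (h1.trans h2)

end Lam

section Diff

variable {A k : Type*} [CommRing A] [IsDomain A] [Field k] [Algebra A k]
  {q : ℕ} [hq : Fact q.Prime] [CharP k q] {m : ℕ} {z : Aˣ} (hz : IsPrimitiveRoot z (q ^ m))

include hz in
theorem hz_val : IsPrimitiveRoot (z : A) (q ^ m) := IsPrimitiveRoot.coe_units_iff.2 hz

include hz in
/-- `1 - z ^ n` is divisible by `1 - z` with quotient congruent to `n` -/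
theorem exists_diff (n : ℤ) : ∃ g : A, 1 - ((z ^ n : Aˣ) : A) = (1 - z) * g ∧
    algebraMap A k g = n := by
  have hnat : ∀ n : ℕ, ∃ g : A, 1 - ((z ^ (n : ℤ) : Aˣ) : A) = (1 - z) * g ∧
      algebraMap A k g = ((n : ℤ) : k) := by
    intro n
    refine ⟨∑ i ∈ Finset.range n, (z : A) ^ i, ?_, ?_⟩
    · rw [mul_neg_geom_sum, zpow_natCast, Units.val_pow_eq_pow_val]
    · rw [red_geom (hz_val hz), Int.cast_natCast]
  obtain ⟨m, rfl | rfl⟩ := n.eq_nat_or_neg
  · exact hnat m
  · obtain ⟨g, hg, hg'⟩ := hnat m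
    refine ⟨-(((z ^ (-(m : ℤ)) : Aˣ) : A) * g), ?_, ?_⟩
    · rw [mul_neg, mul_left_comm, ← hg, mul_sub, mul_one, ← Units.val_mul, ← zpow_add,
        neg_add_cancel, zpow_zero, Units.val_one]
      ring
    · have h1 : algebraMap A k ((z ^ (-(m : ℤ)) : Aˣ) : A) = 1 := by
        have h2 : Units.map (algebraMap A k : A →* k) z = 1 := by
          apply Units.ext
          exact red_z (hz_val hz)
        have h3 : Units.map (algebraMap A k : A →* k) (z ^ (-(m : ℤ))) = 1 := by
          rw [map_zpow, h2, one_zpow]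
        exact congrArg Units.val h3
      rw [map_neg, map_mul, h1, one_mul, hg']
      push_cast
      ring

include hz in
/-- the quotient `(F (q) - F (z q)) / (1 - z)` -/
theorem exists_quot (F : LaurentSeries A) :
    ∃ G : LaurentSeries A, F - twist z F = HahnSeries.C (1 - (z : A)) * G ∧
      ∀ n, algebraMap A k (G.coeff n) = n * algebraMap A k (F.coeff n) := by
  choose g hg hg' using exists_diff (A := A) (k := k) hz
  refine ⟨⟨fun n => g n * F.coeff n, F.isPWO_support.mono fun n hn => ?_⟩, ?_, ?_⟩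
  · rw [Function.mem_support] at hn
    rw [HahnSeries.mem_support]
    exact right_ne_zero_of_mul hn
  · ext n
    rw [HahnSeries.coeff_sub, twist_coeff, HahnSeries.C_mul_eq_smul, HahnSeries.coeff_smul,
      smul_eq_mul]
    change _ = (1 - (z : A)) * (g n * F.coeff n)
    rw [← mul_assoc, ← hg]
    ring
  · intro n
    change algebraMap A k (g n * F.coeff n) = _
    rw [map_mul, hg']

variable (Ω : Type*) [Field Ω] [Algebra A Ω] [IsFractionRing A Ω]

include hz in
theorem hzΩ : IsPrimitiveRoot (Units.map (algebraMap A Ω : A →* Ω) z) (q ^ m) := by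
  rw [← IsPrimitiveRoot.coe_units_iff]
  exact (hz_val hz).map_of_injective (IsFractionRing.injective A Ω)

end Diff

end Fermat.Agent.CQ
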