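import Fermat.Agent.CQ.Emb
import Fermat.Agent.CQ.Lam
import Fermat.Agent.CarE.Gauss3
import Fermat.Agent.CarE.Inv

/-!
# Components of the modular function field of level `q ^ n M`: context, involution, embeddings
-/

set_option autoImplicit false
set_option linter.style.haveILetI false
set_option linter.unusedSectionVars false

noncomputable section

namespace Fermat.Agent.CQ

open ModularCurve Polynomial IntermediateField Fermat.Agent.ModPoly Fermat.Agent.Cusp AlgebraicCurve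
open Fermat.Agent.SemiSt Fermat.Agent.RedMod
open Fermat.Agent.CarE

/-! ### exponents -/

/-- exponent of the expansion of `j_i` at the component `a` -/
def dl (n a i : ℕ) : ℕ :=
  if n ≤ 2 * a then (if i ≤ a then i else 2 * a - i)
  else (if a ≤ i then n - i else n - 2 * a + i)

/-- exponent of the root of unity in the expansion of `j_i` at the component `a` -/
def cx (n a i : ℕ) : ℕ := if n ≤ 2 * a then n + a - i else n - a + i

/-- ramification indices -/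
def ee (q n a : ℕ) : ℕ := (q ^ (min a (n - a))).totient

section W

variable {Ω : Type*} [Field Ω] [IsAlgClosed Ω] [CharZero Ω] {q M : ℕ} [hq : Fact q.Prime] [NeZero M]
  (n : ℕ) (hco : q.Coprime M)

/-- the function `j_i` -/
def jj (K : Type*) [Field K] (q M n i : ℕ) [hq : Fact q.Prime] [NeZero M] : FF K (q ^ n * M) :=
  if h : i ≤ n then jm K (pp q ^ i * 1) (dvd_qd h (d1M M)) else 0

theorem jj_eq (K : Type*) [Field K] {i : ℕ} (h : i ≤ n) :
    jj K q M n i = jm K (pp q ^ i * 1) (dvd_qd h (d1M M)) := dif_pos h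

/-- the Atkin-Lehner involution at `q ^ n` -/
def wq' : FF Ω (q ^ n * M) ≃ₐ[Ω] FF Ω (q ^ n * M) :=
  wq (Q := q ^ n) (cast_ne Ω (q ^ n * M)) (hco.pow_left n)

theorem wq'_wq' (x : FF Ω (q ^ n * M)) : wq' n hco (wq' n hco x) = x := wq_wq _ _ x

theorem wq'_jm {i : ℕ} (hi : i ≤ n) {d : ℕ+} (hd : (d : ℕ) ∣ M) :
    wq' (Ω := Ω) n hco (jm Ω (pp q ^ i * d) (dvd_qd hi hd)) =
      jm Ω (pp q ^ (n - i) * d) (dvd_qd (Nat.sub_le n i) hd) :=
  wq_jm (Q := q ^ n) (cast_ne Ω (q ^ n * M)) (hco.pow_left n) (r := pp q ^ i)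
    (r' := pp q ^ (n - i)) (d := d) (by
      rw [PNat.pow_coe, PNat.pow_coe, coe_pp, ← pow_add, Nat.add_sub_cancel' hi]) hd
    (dvd_qd hi hd) (dvd_qd (Nat.sub_le n i) hd)

/-- homomorphisms agreeing on the generators agree -/
theorem hom_extn (hco : q.Coprime M) {k : Type*} [Field k] [IsAlgClosed k] {B : Type*} [Semiring B]
    [Algebra k B] {n : ℕ} {σ τ : FF k (q ^ n * M) →ₐ[k] B}
    (h : ∀ (i : ℕ) (hi : i ≤ n) (d : ℕ+) (hd : (d : ℕ) ∣ M),
      σ (jm k (pp q ^ i * d) (dvd_qd hi hd)) = τ (jm k (pp q ^ i * d) (dvd_qd hi hd))) : σ = τ := by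
  apply hom_ext
  intro m hm
  obtain ⟨i, d, hi, hd, rfl⟩ := div_cases hco hm
  exact h i hi d hd

variable {K : Type*} [Field K] [Algebra K Ω] 
  (halg : Algebra.IsAlgebraic K Ω)
  (hfix : ∀ x : Ω, (∀ σ : Ω ≃ₐ[K] Ω, σ x = x) → x ∈ Set.range (algebraMap K Ω))

theorem gal_wq' (σ : Ω ≃ₐ[K] Ω) (x : FF Ω (q ^ n * M)) :
    gal (q ^ n * M) σ (wq' n hco x) = wq' n hco (gal (q ^ n * M) σ x) :=
  act_wq _ _ _ σ.toRingEquiv x

include halg hfix in
theorem exists_wK (x : FF K (q ^ n * M)) : ∃ y : FF K (q ^ n * M),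
    emb K Ω (q ^ n * M) y = wq' n hco (emb K Ω (q ^ n * M) x) := by
  apply exists_of_fixed hfix
  intro σ
  rw [gal_wq', gal_emb]

/-- the involution, as a function -/
def wKfun (x : FF K (q ^ n * M)) : FF K (q ^ n * M) := (exists_wK n hco halg hfix x).choose

theorem emb_wKfun (x : FF K (q ^ n * M)) :
    emb K Ω (q ^ n * M) (wKfun n hco halg hfix x) = wq' n hco (emb K Ω (q ^ n * M) x) :=
  (exists_wK n hco halg hfix x).choose_spec

theorem wKfun_wKfun (x : FF K (q ^ n * M)) :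
    wKfun n hco halg hfix (wKfun n hco halg hfix x) = x := by
  apply emb_injective (K := K) (Ω := Ω)
  rw [emb_wKfun, emb_wKfun, wq'_wq']

/-- **the Atkin-Lehner involution over the small field** -/
def wK : FF K (q ^ n * M) ≃ₐ[K] FF K (q ^ n * M) where
  toFun := wKfun n hco halg hfix
  invFun := wKfun n hco halg hfix
  left_inv := wKfun_wKfun n hco halg hfix
  right_inv := wKfun_wKfun n hco halg hfix
  map_mul' x y := by
    apply emb_injective (K := K) (Ω := Ω)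
    rw [emb_wKfun, map_mul, map_mul, map_mul, emb_wKfun, emb_wKfun]
  map_add' x y := by
    apply emb_injective (K := K) (Ω := Ω)
    have h1 := (wq' (Ω := Ω) n hco).toRingEquiv.toRingHom.map_add (emb K Ω (q ^ n * M) x)
      (emb K Ω (q ^ n * M) y)
    rw [emb_wKfun, (emb K Ω (q ^ n * M)).map_add x y,
      (emb K Ω (q ^ n * M)).map_add (wKfun n hco halg hfix x), emb_wKfun, emb_wKfun]
    exact h1
  commutes' c := by
    apply emb_injective (K := K) (Ω := Ω)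
    rw [emb_wKfun, emb_algebraMap, AlgEquiv.commutes]

theorem emb_wK (x : FF K (q ^ n * M)) :
    emb K Ω (q ^ n * M) (wK n hco halg hfix x) = wq' n hco (emb K Ω (q ^ n * M) x) :=
  emb_wKfun n hco halg hfix x

theorem wK_wK (x : FF K (q ^ n * M)) : wK n hco halg hfix (wK n hco halg hfix x) = x :=
  wKfun_wKfun n hco halg hfix x

theorem wK_jm {i : ℕ} (hi : i ≤ n) {d : ℕ+} (hd : (d : ℕ) ∣ M) :
    wK n hco halg hfix (jm K (pp q ^ i * d) (dvd_qd hi hd)) =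
      jm K (pp q ^ (n - i) * d) (dvd_qd (Nat.sub_le n i) hd) := by
  apply emb_injective (K := K) (Ω := Ω)
  rw [emb_wK, emb_jm, emb_jm, wq'_jm n hco hi hd]

end W

/-! ### pulling back embeddings -/

section Pull

variable {A Ω k F : Type*} [CommRing A] [IsDomain A] [ValuationRing A]
  [Field Ω] [Algebra A Ω] [IsFractionRing A Ω] [Field k] [Algebra A k] [Field F]

/-- pullback along an automorphism -/
def pull (E : EData A Ω k F) (w : F ≃+* F) : EData A Ω k F where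
  φ := E.φ.comp w
  ϖA := E.ϖA
  red := E.red
  neA := E.neA
  scale x hx := by
    obtain ⟨m, v, hv, h⟩ := E.scale (w x) (by simpa using hx)
    exact ⟨m, v, hv, h⟩
  ϖ := w.symm E.ϖ
  hϖ := by
    obtain ⟨v, hv, h⟩ := E.hϖ
    refine ⟨v, hv, ?_⟩
    rw [RingHom.comp_apply]
    have : (w : F →+* F) (w.symm E.ϖ) = E.ϖ := w.apply_symm_apply _
    rw [this, h]

end Pull

/-- **the context** -/
structure Ctx (R0 K0 A Ω k : Type*) [CommRing R0] [IsDomain R0] [Field K0] [Algebra R0 K0]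
  [IsFractionRing R0 K0] [CommRing A] [IsDomain A] [ValuationRing A] [Field Ω]
  [Algebra A Ω] [IsFractionRing A Ω] [Field k] [Algebra A k] [Algebra K0 Ω] [Algebra R0 A]
  [Algebra R0 k] (q M n : ℕ) where
  B : Base q R0 K0 A Ω k
  hco : q.Coprime M
  Z : Aˣ
  hZ : IsPrimitiveRoot Z (q ^ n)
  hn : 3 ≤ n
  hM : (M : k) ≠ 0

namespace Ctx

variable {R0 K0 A Ω k : Type*} [CommRing R0] [IsDomain R0] [Field K0] [Algebra R0 K0]
  [IsFractionRing R0 K0] [CommRing A] [IsDomain A] [ValuationRing A] [Field Ω]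
  [IsAlgClosed Ω] [CharZero Ω]
  [Algebra A Ω] [IsFractionRing A Ω] [Field k] [Algebra A k] [Algebra K0 Ω] [Algebra R0 A]
  [Algebra R0 k] {q M n : ℕ} [hq : Fact q.Prime] [NeZero M] [CharP k q]
  (X : Ctx R0 K0 A Ω k q M n)

/-- the root of unity of order `q ^ (n - a)` -/
def zz (a : ℕ) : Aˣ := X.Z ^ (q ^ a)

theorem zz_prim {a : ℕ} (ha : a ≤ n) : IsPrimitiveRoot (X.zz a) (q ^ (n - a)) := by
  refine X.hZ.pow (pow_pos hq.out.pos n) ?_
  rw [← pow_add, Nat.add_sub_cancel' ha]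

/-- the roots of unity in `Ω` -/
def ZΩ : Ωˣ := Units.map (algebraMap A Ω : A →* Ω) X.Z

def zΩ (a : ℕ) : Ωˣ := Units.map (algebraMap A Ω : A →* Ω) (X.zz a)

theorem zΩ_eq (a : ℕ) : X.zΩ a = X.ZΩ ^ (q ^ a) := by
  rw [zΩ, zz, ZΩ, map_pow]

theorem zΩ_prim {a : ℕ} (ha : a ≤ n) : IsPrimitiveRoot (X.zΩ a) (q ^ (n - a)) :=
  (X.zz_prim ha).map_of_injective (f := Units.map (algebraMap A Ω : A →* Ω))
    (Units.map_injective (IsFractionRing.injective A Ω))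

theorem Z_pow {e : ℕ} (he : n ≤ e) : X.Z ^ (q ^ e) = 1 := by
  obtain ⟨c, rfl⟩ := Nat.exists_eq_add_of_le he
  rw [pow_add, pow_mul, X.hZ.pow_eq_one, one_pow]

theorem ZΩ_pow {e : ℕ} (he : n ≤ e) : X.ZΩ ^ (q ^ e) = 1 := by
  rw [ZΩ, ← map_pow, X.Z_pow he, map_one]

/-- the embedding at a component in the upper half -/
def ph (a : ℕ) (h : n ≤ 2 * a) (ha : a ≤ n) : FF Ω (q ^ n * M) →ₐ[Ω] LaurentSeries Ω :=
  (exists_phi (k := Ω) (cast_ne Ω (q ^ n * M)) X.hco (Nat.add_sub_cancel' ha) (by omega)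
    (by have := X.hn; omega) (X.zΩ_prim ha)).choose

theorem ph_jm (a : ℕ) (h : n ≤ 2 * a) (ha : a ≤ n) {i : ℕ} (hi : i ≤ n) {d : ℕ+}
    (hd : (d : ℕ) ∣ M) :
    X.ph a h ha (jm Ω (pp q ^ i * d) (dvd_qd hi hd)) =
      Jc (X.ZΩ ^ (q ^ cx n a i * (d : ℕ))) (pp q ^ dl n a i * d) := by
  have h1 := (exists_phi (k := Ω) (cast_ne Ω (q ^ n * M)) X.hco (Nat.add_sub_cancel' ha) (by omega)
    (by have := X.hn; omega) (X.zΩ_prim ha)).choose_spec d hd i hi (dvd_qd hi hd)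
  refine h1.trans ?_
  rw [cx, dl, if_pos h, if_pos h]
  by_cases hia : i ≤ a
  · rw [if_pos hia, if_pos hia, pow_mul, X.ZΩ_pow (by omega), one_pow]
  · rw [if_neg hia, if_neg hia, zΩ_eq, ← pow_mul, ← mul_assoc, ← pow_add]
    rw [show a + (n - i) = n + a - i by omega]

/-- the embeddings at the components -/
def phΩ (a : Fin (n + 1)) : FF Ω (q ^ n * M) →ₐ[Ω] LaurentSeries Ω :=
  if h : n ≤ 2 * (a : ℕ) then X.ph a h (Nat.lt_succ_iff.1 a.2)
  else (X.ph (n - a) (by omega) (Nat.sub_le _ _)).comp (wq' (Ω := Ω) n X.hco).toAlgHom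

theorem phΩ_jm (a : Fin (n + 1)) {i : ℕ} (hi : i ≤ n) {d : ℕ+} (hd : (d : ℕ) ∣ M) :
    X.phΩ a (jm Ω (pp q ^ i * d) (dvd_qd hi hd)) =
      Jc (X.ZΩ ^ (q ^ cx n a i * (d : ℕ))) (pp q ^ dl n a i * d) := by
  have ha := Nat.lt_succ_iff.1 a.2
  rw [phΩ]
  split_ifs with h
  · exact X.ph_jm a h ha hi hd
  · rw [AlgHom.comp_apply]
    change X.ph (n - a) _ _ (wq' n X.hco (jm Ω (pp q ^ i * d) (dvd_qd hi hd))) = _
    rw [wq'_jm n X.hco hi hd, X.ph_jm (n - a) (by omega) (Nat.sub_le _ _) (Nat.sub_le n i) hd]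
    congr 3
    · congr 1
      rw [cx, cx, if_pos (by omega), if_neg h]
      omega
    · rw [dl, dl, if_pos (by omega), if_neg h]
      by_cases hai : (a : ℕ) ≤ i
      · rw [if_pos (by omega), if_pos hai]
      · rw [if_neg (by omega), if_neg hai]
        omega

/-- the embeddings of the small field -/
def mp (a : Fin (n + 1)) : FF K0 (q ^ n * M) →+* LaurentSeries Ω :=
  (X.phΩ a : FF Ω (q ^ n * M) →+* LaurentSeries Ω).comp (emb K0 Ω (q ^ n * M))

theorem mp_apply (a : Fin (n + 1)) (x : FF K0 (q ^ n * M)) :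
    X.mp a x = X.phΩ a (emb K0 Ω (q ^ n * M) x) := rfl

theorem mp_algebraMap (a : Fin (n + 1)) (c : K0) :
    X.mp a (algebraMap K0 (FF K0 (q ^ n * M)) c) = HahnSeries.C (algebraMap K0 Ω c) := by
  rw [mp_apply, emb_algebraMap, AlgHom.commutes, algebraMap_eq_C]

theorem mp_jm (a : Fin (n + 1)) {i : ℕ} (hi : i ≤ n) {d : ℕ+} (hd : (d : ℕ) ∣ M) :
    X.mp a (jm K0 (pp q ^ i * d) (dvd_qd hi hd)) =
      Jc (X.ZΩ ^ (q ^ cx n a i * (d : ℕ))) (pp q ^ dl n a i * d) := by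
  rw [mp_apply, emb_jm, X.phΩ_jm a hi hd]

/-- expansions over `A` -/
theorem mp_jm_incL (a : Fin (n + 1)) {i : ℕ} (hi : i ≤ n) {d : ℕ+} (hd : (d : ℕ) ∣ M) :
    X.mp a (jm K0 (pp q ^ i * d) (dvd_qd hi hd)) =
      incL A Ω (JA (X.Z ^ (q ^ cx n a i * (d : ℕ))) (pp q ^ dl n a i * d)) := by
  rw [X.mp_jm a hi hd, JA_incL, ZΩ, map_pow]

/-- the involution over the small field -/
def w0 : FF K0 (q ^ n * M) ≃ₐ[K0] FF K0 (q ^ n * M) := wK n X.hco X.B.alg X.B.fixed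

theorem w0_w0 (x : FF K0 (q ^ n * M)) : X.w0 (X.w0 x) = x := wK_wK n X.hco X.B.alg X.B.fixed x

theorem emb_w0 (x : FF K0 (q ^ n * M)) : emb K0 Ω (q ^ n * M) (X.w0 x) =
    wq' n X.hco (emb K0 Ω (q ^ n * M) x) := emb_wK n X.hco X.B.alg X.B.fixed x

theorem w0_jm {i : ℕ} (hi : i ≤ n) {d : ℕ+} (hd : (d : ℕ) ∣ M) :
    X.w0 (jm K0 (pp q ^ i * d) (dvd_qd hi hd)) =
      jm K0 (pp q ^ (n - i) * d) (dvd_qd (Nat.sub_le n i) hd) :=
  wK_jm n X.hco X.B.alg X.B.fixed hi hd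

theorem w0_jj {i : ℕ} (hi : i ≤ n) : X.w0 (jj K0 q M n i) = jj K0 q M n (n - i) := by
  rw [jj_eq n K0 hi, jj_eq n K0 (Nat.sub_le n i)]
  exact X.w0_jm hi (d1M M)

/-- swapping the components -/
theorem mp_w0 {a : Fin (n + 1)} (h : 2 * (a : ℕ) ≠ n) (x : FF K0 (q ^ n * M)) :
    X.mp a (X.w0 x) = X.mp (Fin.rev a) x := by
  have hr : ((Fin.rev a : Fin (n + 1)) : ℕ) = n - a := by rw [Fin.val_rev]; omega
  have ha := Nat.lt_succ_iff.1 a.2
  rw [mp_apply, mp_apply, emb_w0]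
  have key : ∀ (b c : ℕ) (hbc : b = c) (h1 : n ≤ 2 * b) (h1' : b ≤ n) (h2 : n ≤ 2 * c)
      (h2' : c ≤ n), X.ph b h1 h1' = X.ph c h2 h2' := by
    rintro b c rfl h1 h1' h2 h2'; rfl
  by_cases h1 : n ≤ 2 * (a : ℕ)
  · rw [phΩ, phΩ, dif_pos h1, dif_neg (by rw [hr]; omega), AlgHom.comp_apply]
    change _ = X.ph _ _ _ (wq' n X.hco (emb K0 Ω (q ^ n * M) x))
    rw [key a (n - (Fin.rev a : Fin (n + 1))) (by rw [hr]; omega) h1 ha (by rw [hr]; omega)
      (Nat.sub_le _ _)]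
  · rw [phΩ, phΩ, dif_neg h1, dif_pos (by rw [hr]; omega), AlgHom.comp_apply]
    change X.ph _ _ _ (wq' n X.hco (wq' n X.hco (emb K0 Ω (q ^ n * M) x))) = _
    rw [wq'_wq', key (n - a) (Fin.rev a : Fin (n + 1)) hr.symm (by omega) (Nat.sub_le _ _)
      (by rw [hr]; omega) (by omega)]

/-! ### the Gauss valuations -/

theorem scale_D {a : Fin (n + 1)} (ϖ : A) (D : Subring A) (hϖ : ϖ ≠ 0)
    (hD : ∀ d ∈ D, d ≠ 0 → PU k ϖ d) (hR : ∀ a : R0, algebraMap R0 A a ∈ D)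
    (hj : ∀ (i : ℕ) (d : ℕ+) (m : ℤ), i ≤ n →
      (((X.Z ^ (q ^ cx n a i * (d : ℕ))) ^ m : Aˣ) : A) ∈ D)
    (x : FF K0 (q ^ n * M)) (hx : x ≠ 0) : ∃ (m : ℤ) (w : LaurentSeries Ω), IsU A Ω k w ∧
      X.mp a x = HahnSeries.C (algebraMap A Ω ϖ) ^ m * w := by
  refine exists_scale_of_TF (D := D) hϖ hD ?_ hx
  refine mem_TF_all X.B _ (X.mp_algebraMap a) D hR ?_ x
  intro m hm
  obtain ⟨i, d, hi, hd, rfl⟩ := div_cases X.hco hm
  exact ⟨_, JA_mem_SD _ _ (fun m => hj i d m hi) _, X.mp_jm_incL a hi hd⟩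

theorem cx_ge {a i : ℕ} (ha : a ≤ n) (hi : i ≤ n) (h : n ≤ 2 * a) : a ≤ cx n a i := by
  rw [cx, if_pos h]; omega

theorem cx_ge' {a i : ℕ} (ha : a ≤ n) (hi : i ≤ n) (h : ¬ n ≤ 2 * a) : n - a ≤ cx n a i := by
  rw [cx, if_neg h]; omega

/-- the uniformiser in `A` at the component `a` -/
def ϖc (a : Fin (n + 1)) : A :=
  if min (a : ℕ) (n - a) = 0 then (q : A) else 1 - (X.zz (n - min (a : ℕ) (n - a)) : A)

theorem mu_le (a : Fin (n + 1)) : min (a : ℕ) (n - a) ≤ n := (min_le_right _ _).trans (Nat.sub_le _ _)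

theorem zz_mu_prim (a : Fin (n + 1)) :
    IsPrimitiveRoot ((X.zz (n - min (a : ℕ) (n - a)) : Aˣ) : A) (q ^ (min (a : ℕ) (n - a))) := by
  have h := X.zz_prim (a := n - min (a : ℕ) (n - a)) (Nat.sub_le _ _)
  rw [Nat.sub_sub_self (mu_le a)] at h
  exact IsPrimitiveRoot.coe_units_iff.2 h

theorem ϖc_red (a : Fin (n + 1)) : algebraMap A k (X.ϖc a) = 0 := by
  rw [ϖc]
  split_ifs with h
  · exact red_q
  · exact red_lam (X.zz_mu_prim a)

theorem ϖc_ne (a : Fin (n + 1)) : X.ϖc a ≠ 0 := by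
  rw [ϖc]
  split_ifs with h
  · exact q_ne A Ω
  · exact lam_ne (X.zz_mu_prim a) h

theorem scale (a : Fin (n + 1)) (x : FF K0 (q ^ n * M)) (hx : x ≠ 0) :
    ∃ (m : ℤ) (w : LaurentSeries Ω), IsU A Ω k w ∧
      X.mp a x = HahnSeries.C (algebraMap A Ω (X.ϖc a)) ^ m * w := by
  have ha := Nat.lt_succ_iff.1 a.2
  by_cases h : min (a : ℕ) (n - a) = 0
  · refine X.scale_D (X.ϖc a) (D0 A R0) (X.ϖc_ne a) ?_ (fun a => ⟨a, rfl⟩) ?_ x hx
    · rw [ϖc, if_pos h]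
      exact PU_D0 X.B.pu'
    · intro i d m hi
      have hn := X.hn
      have h1 : X.Z ^ (q ^ cx n a i * (d : ℕ)) = 1 := by
        rw [pow_mul, X.Z_pow, one_pow]
        rw [cx]
        split_ifs with h2
        · omega
        · omega
      rw [h1, one_zpow]
      exact one_mem _
  · refine X.scale_D (X.ϖc a) (D1 R0 ((X.zz (n - min (a : ℕ) (n - a)) : Aˣ) : A)) (X.ϖc_ne a) ?_
      (algebraMap_mem_D1 _) ?_ x hx
    · rw [ϖc, if_neg h]
      exact PU_D1 (X.zz_mu_prim a) X.B.pu' h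
    · intro i d m hi
      have hle : n - min (a : ℕ) (n - a) ≤ cx n a i := by
        rw [cx]
        split_ifs with h2 <;> omega
      obtain ⟨c, hc⟩ := Nat.exists_eq_add_of_le hle
      have h1 : X.Z ^ (q ^ cx n a i * (d : ℕ)) =
          (X.zz (n - min (a : ℕ) (n - a))) ^ (q ^ c * (d : ℕ)) := by
        rw [zz, ← pow_mul, hc, pow_add, mul_assoc]
      rw [h1, ← zpow_natCast, ← zpow_mul]
      refine unit_zpow_mem_D1 (N := q ^ (min (a : ℕ) (n - a))) (pow_ne_zero _ hq.out.ne_zero) ?_ _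
      have := (X.zz_mu_prim a).pow_eq_one
      exact Units.ext (by rw [Units.val_pow_eq_pow_val, this, Units.val_one])

/-- the uniformising functions -/
def uu (K : Type*) [Field K] (q M n : ℕ) [hq : Fact q.Prime] [NeZero M] (a : ℕ) :
    FF K (q ^ n * M) :=
  if min a (n - a) = 0 then (q : FF K (q ^ n * M))
  else jj K q M n (a - min a (n - a)) - jj K q M n (a + min a (n - a))

end Ctx

end Fermat.Agent.CQ
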