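import Fermat.Agent.CQ.Core

/-!
# The Gauss valuations at the components and integral expansions
-/

set_option autoImplicit false
set_option linter.style.haveILetI false
set_option linter.unusedSectionVars false

noncomputable section

namespace Fermat.Agent.CQ

open ModularCurve Polynomial IntermediateField Fermat.Agent.ModPoly Fermat.Agent.Cusp AlgebraicCurve
open Fermat.Agent.SemiSt Fermat.Agent.RedMod
open Fermat.Agent.CarE

section JAmore

variable {A k : Type*} [CommRing A] [Field k] [Algebra A k]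

/-- integral substitution `q ↦ c q ^ e` -/
def SbR (c : Aˣ) (e : ℕ+) : LaurentSeries A →+* LaurentSeries A :=
  haveI : NeZero (e : ℕ) := ⟨e.ne_zero⟩
  (qExpand A (e : ℕ)).comp (twist c)

theorem SbR_coeff_mul (c : Aˣ) (e : ℕ+) (s : LaurentSeries A) (m : ℤ) :
    (SbR c e s).coeff ((e : ℕ) * m) = ((c ^ m : Aˣ) : A) * s.coeff m := by
  haveI : NeZero (e : ℕ) := ⟨e.ne_zero⟩
  rw [SbR, RingHom.comp_apply, qExpand_coeff_mul, twist_coeff]

theorem SbR_coeff_of_not_dvd (c : Aˣ) (e : ℕ+) (s : LaurentSeries A) {m : ℤ}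
    (hm : ¬ ((e : ℕ) : ℤ) ∣ m) : (SbR c e s).coeff m = 0 := by
  haveI : NeZero (e : ℕ) := ⟨e.ne_zero⟩
  rw [SbR, RingHom.comp_apply, qExpand_coeff_of_not_dvd _ _ hm]

theorem SbR_jq (c : Aˣ) (e : ℕ+) : SbR c e (jqModC A) = JA c e := rfl

theorem SbR_field {K : Type*} [Field K] (c : Kˣ) (e : ℕ+) (s : LaurentSeries K) :
    SbR c e s = Sb c e s := rfl

theorem coeffMap_SbR {B : Type*} [CommRing B] (f : A →+* B) (c : Aˣ) (e : ℕ+)
    (s : LaurentSeries A) :
    coeffMap f (SbR c e s) = SbR (Units.map (f : A →* B) c) e (coeffMap f s) := by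
  ext m
  rw [coeffMap_coeff]
  by_cases hm : ((e : ℕ) : ℤ) ∣ m
  · obtain ⟨m, rfl⟩ := hm
    rw [SbR_coeff_mul, SbR_coeff_mul, map_mul, coeffMap_coeff]
    congr 1
    rw [← map_zpow]
    rfl
  · rw [SbR_coeff_of_not_dvd _ _ _ hm, SbR_coeff_of_not_dvd _ _ _ hm, map_zero]

theorem SbR_one_inj (e : ℕ+) {s : LaurentSeries A} (h : SbR 1 e s = 0) : s = 0 := by
  ext m
  have h1 := congrArg (fun x => HahnSeries.coeff x ((e : ℕ) * m)) h
  change (SbR 1 e s).coeff _ = 0 at h1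
  rw [SbR_coeff_mul, one_zpow, Units.val_one, one_mul] at h1
  exact h1

theorem SbR_C (c : Aˣ) (e : ℕ+) (a : A) : SbR c e (HahnSeries.C a) = HahnSeries.C a := by
  ext m
  by_cases hm : ((e : ℕ) : ℤ) ∣ m
  · obtain ⟨m, rfl⟩ := hm
    rw [SbR_coeff_mul, HahnSeries.C_apply]
    by_cases h0 : m = 0
    · subst h0
      rw [mul_zero, HahnSeries.coeff_single_same, zpow_zero, Units.val_one, one_mul]
    · rw [HahnSeries.coeff_single_of_ne h0, mul_zero, HahnSeries.coeff_single_of_ne]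
      intro h1
      rcases mul_eq_zero.1 h1 with h2 | h2
      · exact e.ne_zero (by exact_mod_cast h2)
      · exact h0 h2
  · rw [SbR_coeff_of_not_dvd _ _ _ hm, HahnSeries.C_apply, HahnSeries.coeff_single_of_ne]
    rintro rfl
    exact hm (dvd_zero _)

theorem SbR_comp (c c' : Aˣ) (e e' : ℕ+) (s : LaurentSeries A) :
    SbR c e (SbR c' e' s) = SbR (c ^ (e' : ℕ) * c') (e * e') s := by
  ext m
  by_cases hm : ((e : ℕ) : ℤ) ∣ m
  · obtain ⟨m, rfl⟩ := hm
    rw [SbR_coeff_mul]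
    by_cases hm' : ((e' : ℕ) : ℤ) ∣ m
    · obtain ⟨m, rfl⟩ := hm'
      have h1 := SbR_coeff_mul (c ^ (e' : ℕ) * c') (e * e') s m
      rw [PNat.mul_coe] at h1
      push_cast at h1
      rw [SbR_coeff_mul, ← mul_assoc ((e : ℕ) : ℤ), h1, mul_zpow, ← zpow_natCast, ← zpow_mul]
      push_cast
      ring
    · rw [SbR_coeff_of_not_dvd _ _ _ hm', mul_zero, SbR_coeff_of_not_dvd]
      rw [PNat.mul_coe]
      push_cast
      intro h
      exact hm' ((mul_dvd_mul_iff_left (by exact_mod_cast e.ne_zero)).1 h)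
  · rw [SbR_coeff_of_not_dvd _ _ _ hm, SbR_coeff_of_not_dvd]
    rw [PNat.mul_coe]
    push_cast
    exact fun h => hm ((dvd_mul_right _ _).trans h)

end JAmore

/-! ### the inclusions of level `M` -/

section Lev

variable {K : Type*} [Field K] {q M : ℕ} [hq : Fact q.Prime] [NeZero M]

theorem lev_dvd {n i : ℕ} (hi : i ≤ n) : q ^ i * M ∣ q ^ n * M :=
  mul_dvd_mul (pow_dvd_pow q hi) dvd_rfl

/-- the inclusion of level `M` by the `i`-th curve -/
def lev (K : Type*) [Field K] (q M n i : ℕ) [hq : Fact q.Prime] [NeZero M] (hi : i ≤ n) :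
    FF K M →ₐ[K] FF K (q ^ n * M) :=
  (incl K (lev_dvd hi)).comp (qe K (q ^ i) M)

theorem coe_lev {n i : ℕ} (hi : i ≤ n) (x : FF K M) :
    (lev K q M n i hi x : LaurentSeries K) = Sb 1 (pp q ^ i) (x : LaurentSeries K) := by
  change ((incl K (lev_dvd hi) (qe K (q ^ i) M x) : FF K (q ^ n * M)) : LaurentSeries K) = _
  rw [coe_incl, coe_qe]
  exact qExpand_eq_Sb (q ^ i) (pp q ^ i) (by rw [PNat.pow_coe, coe_pp]) _

theorem lev_jm {n i : ℕ} (hi : i ≤ n) {d : ℕ+} (hd : (d : ℕ) ∣ M) :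
    lev K q M n i hi (jm K d hd) = jm K (pp q ^ i * d) (dvd_qd hi hd) := by
  apply Subtype.ext
  rw [coe_lev]
  change Sb 1 (pp q ^ i) (Jc 1 d) = Jc 1 (pp q ^ i * d)
  rw [Sb_Jc, one_pow, one_mul]

theorem lev_jF {n i : ℕ} (hi : i ≤ n) : lev K q M n i hi (jF' K M) = jj K q M n i := by
  rw [jj_eq n K hi]
  exact lev_jm hi (d1M M)

theorem emb_lev {Ω : Type*} [Field Ω] [Algebra K Ω] {n i : ℕ} (hi : i ≤ n) (x : FF K M) :
    emb K Ω (q ^ n * M) (lev K q M n i hi x) = lev Ω q M n i hi (emb K Ω M x) := by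
  apply Subtype.ext
  rw [coe_emb, coe_lev, coe_lev, coe_emb]
  have h := coeffMap_SbR (algebraMap K Ω) 1 (pp q ^ i) (x : LaurentSeries K)
  rw [map_one] at h
  exact h

variable {Ω : Type*} [Field Ω] [IsAlgClosed Ω] [CharZero Ω]

theorem wq'_lev {n : ℕ} (hco : q.Coprime M) {i : ℕ} (hi : i ≤ n) (x : FF Ω M) :
    wq' n hco (lev Ω q M n i hi x) = lev Ω q M n (n - i) (Nat.sub_le n i) x := by
  have h : (wq' (Ω := Ω) n hco).toAlgHom.comp (lev Ω q M n i hi) =
      lev Ω q M n (n - i) (Nat.sub_le n i) := by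
    apply hom_ext
    intro d hd
    rw [AlgHom.comp_apply, lev_jm hi hd, lev_jm (Nat.sub_le n i) hd]
    exact wq'_jm n hco hi hd
  exact AlgHom.congr_fun h x

end Lev

namespace Ctx

variable {R0 K0 A Ω k : Type*} [CommRing R0] [IsDomain R0] [Field K0] [Algebra R0 K0]
  [IsFractionRing R0 K0] [CommRing A] [IsDomain A] [ValuationRing A] [Field Ω]
  [IsAlgClosed Ω] [CharZero Ω]
  [Algebra A Ω] [IsFractionRing A Ω] [Field k] [Algebra A k] [Algebra K0 Ω] [Algebra R0 A]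
  [Algebra R0 k] {q M n : ℕ} [hq : Fact q.Prime] [NeZero M] [CharP k q]
  (X : Ctx R0 K0 A Ω k q M n)

include X in
theorem map_Z_one : Units.map (algebraMap A k : A →* k) X.Z = 1 := by
  apply Units.ext
  exact red_z (A := A) (k := k) (IsPrimitiveRoot.coe_units_iff.2 X.hZ)

theorem w0_lev {i : ℕ} (hi : i ≤ n) (x : FF K0 M) :
    X.w0 (lev K0 q M n i hi x) = lev K0 q M n (n - i) (Nat.sub_le n i) x := by
  apply emb_injective (K := K0) (Ω := Ω)
  rw [emb_w0, emb_lev, emb_lev, wq'_lev]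

theorem phΩ_lev (a : Fin (n + 1)) {i : ℕ} (hi : i ≤ n) (x : FF Ω M) :
    X.phΩ a (lev Ω q M n i hi x) =
      Sb (X.ZΩ ^ (q ^ cx n a i)) (pp q ^ dl n a i) (x : LaurentSeries Ω) := by
  have h : (X.phΩ a).comp (lev Ω q M n i hi) =
      (SbA (X.ZΩ ^ (q ^ cx n a i)) (pp q ^ dl n a i)).comp (FF Ω M).val := by
    apply hom_ext
    intro d hd
    rw [AlgHom.comp_apply, lev_jm hi hd, X.phΩ_jm a hi hd, AlgHom.comp_apply]
    change _ = Sb _ _ (Jc 1 d)
    rw [Sb_Jc, mul_one, ← pow_mul]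
  exact AlgHom.congr_fun h x

/-- the expansion of an element of level `M` -/
theorem mp_lev (a : Fin (n + 1)) {i : ℕ} (hi : i ≤ n) {x : FF K0 M} {s : LaurentSeries A}
    (h : coeffMap (algebraMap K0 Ω) (x : LaurentSeries K0) = incL A Ω s) :
    X.mp a (lev K0 q M n i hi x) =
      incL A Ω (SbR (X.Z ^ (q ^ cx n a i)) (pp q ^ dl n a i) s) := by
  have h0 : (emb K0 Ω M x : LaurentSeries Ω) = incL A Ω s := h
  rw [mp_apply, emb_lev, phΩ_lev, h0]
  have h1 := coeffMap_SbR (algebraMap A Ω) (X.Z ^ (q ^ cx n a i)) (pp q ^ dl n a i) s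
  rw [map_pow] at h1
  exact h1.symm

theorem redL_JA_Z (m : ℕ) (e : ℕ+) : redL A k (JA (X.Z ^ m) e) = Jc 1 e := by
  rw [redL, coeffMap_JA, map_pow, X.map_Z_one, one_pow]
  rfl

theorem redL_SbR_Z (m : ℕ) (e : ℕ+) (s : LaurentSeries A) :
    redL A k (SbR (X.Z ^ m) e s) = Sb 1 e (redL A k s) := by
  have h1 := coeffMap_SbR (algebraMap A k) (X.Z ^ m) e s
  rw [map_pow, X.map_Z_one, one_pow] at h1
  exact h1

include hq in
theorem Jc_pow (i : ℕ) : (Jc 1 (pp q ^ i * 1) : LaurentSeries k) = jqModC k ^ (q ^ i) := by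
  induction i with
  | zero => rw [pow_zero, pow_zero, mul_one, pow_one, Jc_one_one]
  | succ i ih =>
    rw [pow_succ', mul_assoc, Jc_pp_mul, ih, ← pow_mul, ← pow_succ]

/-! ### uniformisers -/

/-- the expansion of the uniformising function -/
theorem exists_uu (a : Fin (n + 1)) : ∃ w : LaurentSeries Ω, IsU A Ω k w ∧
    X.mp a (uu K0 q M n a) = HahnSeries.C (algebraMap A Ω (X.ϖc a)) * w := by
  have ha := Nat.lt_succ_iff.1 a.2
  rw [uu, ϖc]
  by_cases h : min (a : ℕ) (n - a) = 0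
  · rw [if_pos h, if_pos h]
    refine ⟨1, IsU.one, ?_⟩
    rw [map_natCast, map_natCast, map_natCast, mul_one]
  · rw [if_neg h, if_neg h]
    have hle : (a : ℕ) - min (a : ℕ) (n - a) ≤ n := by omega
    have hle' : (a : ℕ) + min (a : ℕ) (n - a) ≤ n := by omega
    have e0 : ∀ (i : ℕ) (e : ℕ+), JA (X.Z ^ (i * ((1 : ℕ+) : ℕ))) (e * 1) = JA (X.Z ^ i) e := by
      intro i e
      rw [PNat.one_coe, mul_one, mul_one]
    rw [jj_eq n K0 hle, jj_eq n K0 hle', map_sub, X.mp_jm_incL a hle (d1M M),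
      X.mp_jm_incL a hle' (d1M M), e0, e0]
    obtain ⟨G, hG, hG'⟩ := exists_quot (A := A) (k := k) (z := X.zz (n - min (a : ℕ) (n - a)))
      (IsPrimitiveRoot.coe_units_iff.1 (X.zz_mu_prim a)) (jqModC A)
    have hdl : dl n a (a - min (a : ℕ) (n - a)) = dl n a (a + min (a : ℕ) (n - a)) := by
      rw [dl, dl]
      split_ifs <;> omega
    have key : ∀ e : ℕ+, JA 1 e - JA (X.zz (n - min (a : ℕ) (n - a))) e =
        HahnSeries.C (1 - (X.zz (n - min (a : ℕ) (n - a)) : A)) * SbR 1 e G := by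
      intro e
      have h1 := congrArg (SbR 1 e) hG
      rw [map_sub, map_mul, SbR_C] at h1
      rw [← h1]
      congr 1
      · have h2 := SbR_comp 1 (X.zz (n - min (a : ℕ) (n - a))) e 1 (jqModC A)
        rw [one_pow, one_mul, mul_one] at h2
        rw [← SbR_jq, ← h2]
        congr 1
        ext m
        have h3 := SbR_coeff_mul (X.zz (n - min (a : ℕ) (n - a))) 1 (jqModC A) m
        rw [PNat.one_coe, Nat.cast_one, one_mul] at h3
        rw [h3, twist_coeff]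
    have hU : ∀ e : ℕ+, redL A k (SbR 1 e G) ≠ 0 := by
      intro e h0
      have h1 := X.redL_SbR_Z 0 e G
      rw [pow_zero, h0] at h1
      exact quot_ne hG' (SbR_one_inj (A := k) e h1.symm)
    by_cases h2 : n ≤ 2 * (a : ℕ)
    · have c1 : X.Z ^ (q ^ cx n a (a - min (a : ℕ) (n - a))) = 1 := by
        apply X.Z_pow
        rw [cx, if_pos h2]; omega
      have c2 : X.Z ^ (q ^ cx n a (a + min (a : ℕ) (n - a))) =
          X.zz (n - min (a : ℕ) (n - a)) := by
        rw [zz]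
        congr 2
        rw [cx, if_pos h2]; omega
      rw [c1, c2, hdl, ← map_sub, key, map_mul, coeffMap_C]
      exact ⟨_, isU_incL (hU _), rfl⟩
    · have c1 : X.Z ^ (q ^ cx n a (a + min (a : ℕ) (n - a))) = 1 := by
        apply X.Z_pow
        rw [cx, if_neg h2]; omega
      have c2 : X.Z ^ (q ^ cx n a (a - min (a : ℕ) (n - a))) =
          X.zz (n - min (a : ℕ) (n - a)) := by
        rw [zz]
        congr 2
        rw [cx, if_neg h2]; omega
      rw [c1, c2, hdl, ← map_sub, ← neg_sub, key, map_neg, map_mul, coeffMap_C, ← mul_neg]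
      refine ⟨_, isU_incL (y := -(SbR 1 (pp q ^ dl n a (a + min (a : ℕ) (n - a))) G)) ?_, ?_⟩
      · rw [map_neg, neg_ne_zero]
        exact hU _
      · rw [map_neg]

/-- **the Gauss valuation at the component `a`** -/
def E (a : Fin (n + 1)) : EData A Ω k (FF K0 (q ^ n * M)) where
  φ := X.mp a
  ϖA := X.ϖc a
  red := X.ϖc_red a
  neA := X.ϖc_ne a
  scale := X.scale a
  ϖ := uu K0 q M n a
  hϖ := X.exists_uu a

theorem E_φ (a : Fin (n + 1)) : (X.E a).φ = X.mp a := rfl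

theorem E_ϖA (a : Fin (n + 1)) : (X.E a).ϖA = X.ϖc a := rfl

/-- integral expansions at the components -/
def HasL (x : FF K0 (q ^ n * M)) (s : Fin (n + 1) → LaurentSeries A) : Prop :=
  ∀ j, X.mp j x = incL A Ω (s j)

variable {X}

theorem HasL.mul {x y : FF K0 (q ^ n * M)} {s s' : Fin (n + 1) → LaurentSeries A}
    (h : X.HasL x s) (h' : X.HasL y s') : X.HasL (x * y) (s * s') := by
  intro j
  rw [map_mul, h j, h' j, ← map_mul]
  rfl

theorem HasL.add {x y : FF K0 (q ^ n * M)} {s s' : Fin (n + 1) → LaurentSeries A}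
    (h : X.HasL x s) (h' : X.HasL y s') : X.HasL (x + y) (s + s') := by
  intro j
  rw [map_add, h j, h' j, ← map_add]
  rfl

theorem HasL.sub {x y : FF K0 (q ^ n * M)} {s s' : Fin (n + 1) → LaurentSeries A}
    (h : X.HasL x s) (h' : X.HasL y s') : X.HasL (x - y) (s - s') := by
  intro j
  rw [map_sub, h j, h' j, ← map_sub]
  rfl

theorem HasL.pow {x : FF K0 (q ^ n * M)} {s : Fin (n + 1) → LaurentSeries A}
    (h : X.HasL x s) (m : ℕ) : X.HasL (x ^ m) (s ^ m) := by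
  intro j
  rw [map_pow, h j, ← map_pow]
  rfl

theorem HasL.mem {x : FF K0 (q ^ n * M)} {s : Fin (n + 1) → LaurentSeries A}
    (h : X.HasL x s) (j : Fin (n + 1)) : x ∈ (X.E j).W := by
  rw [EData.mem_W, E_φ, h j]; exact incL_mem _

/-- the valuation from an expansion -/
theorem HasL.v {x : FF K0 (q ^ n * M)} {s : Fin (n + 1) → LaurentSeries A}
    (h : X.HasL x s) (κ : IntermediateField k (LaurentSeries k)) {j : Fin (n + 1)}
    (hκ : ∀ (x : FF K0 (q ^ n * M)) (h : x ∈ (X.E j).W), (X.E j).πW ⟨x, h⟩ ∈ κ) {m : ℕ}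
    {u : LaurentSeries A} (hu : redL A k u ≠ 0) (hs : s j = HahnSeries.C ((X.ϖc j) ^ m) * u) :
    ((X.E j).comp κ hκ).v x = m := by
  refine (X.E j).v_nat κ hκ (isU_incL hu) ?_
  rw [E_φ, h j, hs, map_mul, coeffMap_C, map_pow, map_pow, E_ϖA]

/-- the residue from an expansion -/
theorem HasL.r {x : FF K0 (q ^ n * M)} {s : Fin (n + 1) → LaurentSeries A}
    (h : X.HasL x s) (κ : IntermediateField k (LaurentSeries k)) {j : Fin (n + 1)}
    (hκ : ∀ (x : FF K0 (q ^ n * M)) (h : x ∈ (X.E j).W), (X.E j).πW ⟨x, h⟩ ∈ κ) :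
    (((X.E j).comp κ hκ).r x : LaurentSeries k) = redL A k (s j) :=
  (X.E j).coe_r_of_eq κ hκ (h j)

variable (X)

theorem hasL_const (a : R0) : X.HasL (algebraMap R0 (FF K0 (q ^ n * M)) a)
    (fun _ => HahnSeries.C (algebraMap R0 A a)) := by
  intro j
  rw [algebraMap_R0, coeffMap_C, X.B.comm]
  exact X.mp_algebraMap j _

theorem hasL_jm {i : ℕ} (hi : i ≤ n) {d : ℕ+} (hd : (d : ℕ) ∣ M) :
    X.HasL (jm K0 (pp q ^ i * d) (dvd_qd hi hd))
      (fun a => JA (X.Z ^ (q ^ cx n a i * (d : ℕ))) (pp q ^ dl n a i * d)) :=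
  fun a => X.mp_jm_incL a hi hd

/-- the expansions of `j_i` -/
def jL (i : ℕ) (a : Fin (n + 1)) : LaurentSeries A :=
  JA (X.Z ^ (q ^ cx n a i)) (pp q ^ dl n a i * 1)

theorem hasL_jj {i : ℕ} (hi : i ≤ n) : X.HasL (jj K0 q M n i) (X.jL i) := by
  intro a
  rw [jj_eq n K0 hi, X.mp_jm_incL a hi (d1M M), PNat.one_coe, mul_one]
  rfl

theorem redL_jL (i : ℕ) (a : Fin (n + 1)) :
    redL A k (X.jL i a) = jqModC k ^ (q ^ dl n a i) := by
  rw [jL, redL_JA_Z, Jc_pow]

theorem hasL_lev {i : ℕ} (hi : i ≤ n) {x : FF K0 M} {s : LaurentSeries A}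
    (h : coeffMap (algebraMap K0 Ω) (x : LaurentSeries K0) = incL A Ω s) :
    X.HasL (lev K0 q M n i hi x)
      (fun a => SbR (X.Z ^ (q ^ cx n a i)) (pp q ^ dl n a i) s) :=
  fun a => X.mp_lev a hi h

/-- the valuation of `q` -/
theorem q_eq (a : Fin (n + 1)) : ∃ ε : A, algebraMap A k ε ≠ 0 ∧
    (q : A) = X.ϖc a ^ ee q n a * ε := by
  rw [ϖc, ee]
  split_ifs with h
  · exact ⟨1, by rw [map_one]; exact one_ne_zero, by rw [h]; simp⟩
  · exact exists_lam_pow (X.zz_mu_prim a) h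

end Ctx

end Fermat.Agent.CQ
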