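import Fermat.Agent.CarK.Main
import Fermat.Agent.CarK.Bridge
import Fermat.Agent.S45A.Cond

/-!
# Kummer dictionary for the claim at level `q ^ n M`
-/

set_option autoImplicit false
set_option linter.unusedSectionVars false
set_option linter.style.haveILetI false

noncomputable section

namespace Fermat.Agent.CQ

open Fermat.Agent.MFLib ModularCurve AlgebraicCurve Fermat.Agent.ModPoly Fermat.Agent.Curve
  Fermat.Agent.X0Genus Fermat.Agent.KumF Fermat.Agent.RR Fermat.Agent.CarK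
  Fermat.Agent.HeckeHom Fermat.Agent.Kum Fermat.Agent.HeckeProd Fermat.Agent.ALCoh
  Fermat.Agent.Nod Fermat.Agent.AL Fermat.Agent.Cusp

section W

variable {q M : ℕ} [hq : Fact q.Prime] [NeZero M]

/-- the Atkin-Lehner involution at `q ^ n` -/
def wn (Ω : Type*) [Field Ω] [IsAlgClosed Ω] [CharZero Ω] (hco : q.Coprime M) (n : ℕ) :
    FF Ω (q ^ n * M) ≃ₐ[Ω] FF Ω (q ^ n * M) :=
  SemiSt.wq (Q := q ^ n) (CarE.cast_ne Ω (q ^ n * M)) (hco.pow_left n)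

theorem wn_wn {Ω : Type*} [Field Ω] [IsAlgClosed Ω] [CharZero Ω] (hco : q.Coprime M) (n : ℕ)
    (x : FF Ω (q ^ n * M)) : wn Ω hco n (wn Ω hco n x) = x := SemiSt.wq_wq _ _ x

end W

section Norm

variable {K : Type*} [Field K] [IsAlgClosed K] [CharZero K] [Algebra ℚ K] (ι : K →+* ℂ)

variable {q M n : ℕ} [hq : Fact q.Prime] [NeZero M] (hco : q.Coprime M) {m : ℕ} [NeZero m]

theorem coeffMap_wn (hQN : q ^ n ∣ q ^ n * M) (hco' : (q ^ n).Coprime (q ^ n * M / q ^ n))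
    (x : FF K (q ^ n * M)) :
    coeffMap ι (wn K hco n x : LaurentSeries K) =
      wx (N := q ^ n * M) hQN hco' (coeffMap ι (x : LaurentSeries K)) :=
  coeffMap_wq ι _ _ hQN hco' x

theorem coprime_aux' (hco : q.Coprime M) :
    (q ^ (n - 1)).Coprime (q ^ (n - 1) * M / q ^ (n - 1)) := by
  rw [Nat.mul_div_cancel_left _ (pow_pos hq.out.pos _)]
  exact hco.pow_left _

/-- the norm of `w x` is an `m`-th power if the transfer of the character of `x` vanishes -/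
theorem exists_NN_wn (hn : 2 ≤ n) {x : FF K (q ^ n * M)}
    {φ : Additive (G0 (q ^ n * M)) →+ ZMod m}
    (h : Rep (q ^ n * M) (coeffMap ι (x : LaurentSeries K)) φ) (hMN : q ^ (n - 1) * M ∣ q ^ n * M)
    (htr : tr hMN (ZMod m) φ = 0) {ζ : Kˣ} (hζ : IsPrimitiveRoot ζ q) :
    ∃ z : FF K (q ^ (n - 1) * M),
      NN q ζ (wn K hco n x : LaurentSeries K) = (z : LaurentSeries K) ^ m := by
  have hQN : q ^ n ∣ q ^ n * M := dvd_mul_right _ _
  have hco' : (q ^ n).Coprime (q ^ n * M / q ^ n) := by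
    rw [Nat.mul_div_cancel_left _ (pow_pos hq.out.pos n)]
    exact hco.pow_left n
  have hζ' : IsPrimitiveRoot (Units.map (ι : K →* ℂ) ζ) q :=
    hζ.map_of_injective (f := Units.map (ι : K →* ℂ)) (Units.map_injective ι.injective)
  have hpow : q ^ n = q ^ (n - 1) * q := by
    rw [← pow_succ]
    congr 1
    omega
  apply exists_pow_of_rep ι
  rw [coeffMap_NN, coeffMap_wn ι hco hQN hco']
  have h1 := rep_NN_wx' (N := q ^ n * M) (M' := q ^ (n - 1) * M) (Q := q ^ (n - 1)) (Q' := q ^ n)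
    (by rw [hpow]; ring) hpow hq.out (dvd_mul_right _ M) (dvd_pow_self q (by omega))
    (coprime_aux' hco) hQN hco' hMN hζ' h
  rwa [htr, map_zero] at h1

include hco in
/-- the norm of `x` is an `m`-th power if the transfer of the character of `w x` vanishes -/
theorem exists_NN' (hn : 2 ≤ n) {x : FF K (q ^ n * M)}
    {φ : Additive (G0 (q ^ n * M)) →+ ZMod m}
    (h : Rep (q ^ n * M) (coeffMap ι (x : LaurentSeries K)) φ) (hMN : q ^ (n - 1) * M ∣ q ^ n * M)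
    (hQN : q ^ n ∣ q ^ n * M) (hco' : (q ^ n).Coprime (q ^ n * M / q ^ n))
    (htr : tr hMN (ZMod m) (wop hQN hco' (ZMod m) φ) = 0) {ζ : Kˣ} (hζ : IsPrimitiveRoot ζ q) :
    ∃ z : FF K (q ^ (n - 1) * M), NN q ζ (x : LaurentSeries K) = (z : LaurentSeries K) ^ m := by
  have h1 : Rep (q ^ n * M) (coeffMap ι (wn K hco n x : LaurentSeries K))
      (wop hQN hco' (ZMod m) φ) := by
    rw [coeffMap_wn ι hco hQN hco']
    exact rep_wx hQN hco' h
  obtain ⟨z, hz⟩ := exists_NN_wn ι hco hn h1 hMN htr hζ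
  rw [wn_wn] at hz
  exact ⟨z, hz⟩

end Norm

local notation "Qb" => AlgebraicClosure ℚ

variable {q M : ℕ} [hq : Fact q.Prime] [NeZero M]

/-- The output of the geometric argument: functions over the fixed field of inertia whose divisor
is divisible by `m` and whose two norms are `m`-th powers are `m`-th powers up to the
exponent `c`. -/
def CarFn (A : ValuationSubring Qb) (hco : q.Coprime M) (ζ : Qbˣ) (n c : ℕ) : Prop :=
  ∀ m : ℕ, ¬ q ∣ m → m ≠ 0 → ∀ f : FF (Flat.K0 A) (q ^ n * M), f ≠ 0 →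
    (∀ v : Place Qb (FF Qb (q ^ n * M)), (m : ℤ) ∣ v.ord (CarE.emb (Flat.K0 A) Qb (q ^ n * M) f)) →
    (∃ z : FF Qb (q ^ (n - 1) * M), NN q ζ (CarE.emb (Flat.K0 A) Qb (q ^ n * M) f :
      LaurentSeries Qb) = (z : LaurentSeries Qb) ^ m) →
    (∃ z : FF Qb (q ^ (n - 1) * M), NN q ζ (wn Qb hco n (CarE.emb (Flat.K0 A) Qb (q ^ n * M) f) :
      LaurentSeries Qb) = (z : LaurentSeries Qb) ^ m) →
    ∃ x : FF Qb (q ^ n * M), x ^ m = CarE.emb (Flat.K0 A) Qb (q ^ n * M) f ^ c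

variable {A : ValuationSubring Qb} {hco : q.Coprime M} {ζ : Qbˣ} {n c : ℕ}

theorem CarFn.apply_E (h : CarFn A hco ζ n c) {m : ℕ} (hm : ¬ q ∣ m) (hm0 : m ≠ 0)
    {E : IntermediateField Qb (LaurentSeries Qb)} (hE : E = modularFunctionFieldFullC Qb (q ^ n * M))
    {y : E} (hy : y ≠ 0) (hD : ∀ v : Place Qb E, (m : ℤ) ∣ v.ord y)
    (hK : ∀ i : ℤ, (y : LaurentSeries Qb).coeff i ∈ Flat.K0 A)
    {x₀ : FF Qb (q ^ n * M)} (hx₀ : (x₀ : LaurentSeries Qb) = y)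
    (h1 : ∃ z : FF Qb (q ^ (n - 1) * M), NN q ζ (x₀ : LaurentSeries Qb) =
      (z : LaurentSeries Qb) ^ m)
    (h2 : ∃ z : FF Qb (q ^ (n - 1) * M), NN q ζ (wn Qb hco n x₀ : LaurentSeries Qb) =
      (z : LaurentSeries Qb) ^ m) : ∃ t : E, y ^ c = t ^ m := by
  subst hE
  have hxy : x₀ = y := Subtype.ext hx₀
  subst hxy
  obtain ⟨f, hf⟩ := CarE.exists_of_coeff (K := Flat.K0 A) (Ω := Qb) (N := q ^ n * M) (y := x₀)
    (fun i => ⟨⟨_, hK i⟩, rfl⟩)
  rw [← hf] at hy hD h1 h2 ⊢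
  have hf0 : f ≠ 0 := by
    rintro rfl
    exact hy (map_zero _)
  obtain ⟨t, ht⟩ := h m hm hm0 f hf0 hD h1 h2
  exact ⟨t, ht.symm⟩

/-- classes fixed by inertia with vanishing transfers are killed by `c` -/
theorem CarFn.nsmul_eq_zero (h : CarFn A hco ζ n c) (hn : 2 ≤ n) (hζ : IsPrimitiveRoot ζ q)
    (ι : Qb →+* ℂ) {m : ℕ}
    [NeZero m] (hm : ¬ q ∣ m) (hMN : q ^ (n - 1) * M ∣ q ^ n * M) (hQN : q ^ n ∣ q ^ n * M)
    (hco' : (q ^ n).Coprime (q ^ n * M / q ^ n)) (φ : LZ (q ^ n * M))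
    (hφ : ∀ σ ∈ A.inertiaSubgroupIn ℚ, rhoF ι m σ (mkX φ : XL (q ^ n * M) m) = mkX φ)
    (h1 : tr hMN (ZMod m) (redI m φ) = 0)
    (h2 : tr hMN (ZMod m) (wop hQN hco' (ZMod m) (redI m φ)) = 0) :
    c • (mkX φ : XL (q ^ n * M) m) = 0 := by
  obtain ⟨x, y, z, hx, hxφ, hz, hyx, hkd, hfix⟩ := exists_fixed_rep (K := Qb) ι
    (I := (A.inertiaSubgroupIn ℚ : Set (Qb ≃ₐ[ℚ] Qb))) (ξ := (mkX φ : XL (q ^ n * M) m)) hφ
  have hrep : Rep (q ^ n * M) (coeffMap ι x.1) (redI m φ) := by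
    obtain ⟨ψ, hψ⟩ := hx.exists_mk ι
    have e1 := cls_eq ι hx hψ
    rw [hxφ, mkX_eq_iff] at e1
    rw [e1]
    exact hψ
  have hrepy : Rep (q ^ n * M) (coeffMap ι y.1) (redI m φ) := by
    have e1 : Rep (q ^ n * M) (coeffMap ι z.1 ^ m) (0 : Additive (G0 (q ^ n * M)) →+ ZMod m) :=
      rep_pow (coeffMap_mem_MFun ι z.2) (KD.coeffMap_ne_zero ι hz)
    have e2 := hrep.mul e1
    rw [add_zero, ← map_pow, ← map_mul] at e2
    rw [hyx]
    exact e2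
  have hE : FK Qb (q ^ n * M) = modularFunctionFieldFullC Qb (q ^ n * M) :=
    X0Genus.baseChange_eq Qb (q ^ n * M)
  let x₀ : FF Qb (q ^ n * M) := ⟨y.1, le_of_eq hE y.2⟩
  have hrep₀ : Rep (q ^ n * M) (coeffMap ι (x₀ : LaurentSeries Qb)) (redI m φ) := hrepy
  have hK : ∀ i : ℤ, (y : LaurentSeries Qb).coeff i ∈ Flat.K0 A := by
    intro i
    rw [Flat.K0, IntermediateField.mem_fixedField_iff]
    intro σ hσ
    have e1 := congrArg (fun w : FK Qb (q ^ n * M) => (w : LaurentSeries Qb).coeff i) (hfix σ hσ)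
    have e2 : ((galK σ y : FK Qb (q ^ n * M)) : LaurentSeries Qb).coeff i =
        σ ((y : LaurentSeries Qb).coeff i) := by
      rw [coe_galK, coeffMap_coeff]
      rfl
    rw [← e2]
    exact e1
  obtain ⟨t, ht⟩ := h.apply_E hm (NeZero.ne m) hE hkd.1 hkd.2 hK (x₀ := x₀) rfl
    (exists_NN' ι hco hn hrep₀ hMN hQN hco' h2 hζ) (exists_NN_wn ι hco hn hrep₀ hMN h1 hζ)
  rw [← hxφ]
  exact nsmul_eq_zero_of_pow ι hx hz hyx ht

/-- **ClaimQ** from the geometric argument. -/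
theorem claimQ_of_car (ι : Qb →+* ℂ) {N N' Q q M n p : ℕ} [NeZero N] [NeZero M] [Fact q.Prime]
    [Fact p.Prime] (hn : 2 ≤ n) (hN : N = q ^ n * M) (hN' : N' = q ^ (n - 1) * M) (hQ : Q = q ^ n)
    (hco : q.Coprime M) (hqp : q ≠ p)
    (hcar : ∀ A : ValuationSubring Qb, A.LiesOverPrime q → ∀ ζ : Qbˣ, IsPrimitiveRoot ζ q →
      ∃ c : ℕ, 0 < c ∧ CarFn A hco ζ n c) : S45A.ClaimQ ι N N' q Q p := by
  subst hN
  subst hN'
  subst hQ
  intro hMN hQN hco'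
  have hqq : q.Prime := Fact.out
  have hp : p.Prime := Fact.out
  obtain ⟨A, hA⟩ := Places.exists_liesOverPrime Qb hqq
  obtain ⟨ζ, hζ⟩ := Cusp.exists_zeta (k := Qb) (N := q) (CarE.cast_ne Qb q)
  obtain ⟨c, hc, hcar'⟩ := hcar A hA ζ hζ
  refine ⟨A, hA, c, hc, fun k φ hφ h1 h2 => ?_⟩
  have hm : ¬ q ∣ p ^ k := fun hd =>
    hqp ((Nat.prime_dvd_prime_iff_eq hqq hp).1 (hqq.dvd_of_dvd_pow hd))
  refine hcar'.nsmul_eq_zero hn hζ ι hm hMN hQN hco' φ hφ ?_ ?_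
  · have := comp_tr hMN (Int.castAddHom (ZMod (p ^ k))) φ.1
    rw [h1, AddMonoidHom.comp_zero] at this
    exact this.symm
  · have e1 := comp_tr hMN (Int.castAddHom (ZMod (p ^ k))) (wop hQN hco' ℤ φ.1)
    have e2 := comp_wop hQN hco' (Int.castAddHom (ZMod (p ^ k))) φ.1
    rw [h2, e2, AddMonoidHom.comp_zero] at e1
    exact e1.symm

/-- the hypothesis of `S45A.claimAll_of`, from the geometric argument -/
theorem hclaim_of_car (ι : Qb →+* ℂ)
    (hcar : ∀ n : ℕ, 3 ≤ n → ∀ (q M r : ℕ) [Fact q.Prime] [NeZero M] (hco : q.Coprime M), r.Prime →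
      r % 12 = 11 → r ∣ M → ∀ A : ValuationSubring Qb, A.LiesOverPrime q → ∀ ζ : Qbˣ,
      IsPrimitiveRoot ζ q → ∃ c : ℕ, 0 < c ∧ CarFn A hco ζ n c)
    (M₀ q r p k : ℕ) [NeZero (q ^ k * M₀ * r)] [Fact p.Prime] (hk : 3 ≤ k) (hq : q.Prime)
    (hr : r.Prime) (hr11 : r % 12 = 11) (hqM : ¬ q ∣ M₀) (hrM : ¬ r ∣ q * M₀) (hqp : q ≠ p)
    (_hrp : r ≠ p) :
    S45A.ClaimQ ι (q ^ k * M₀ * r) (q ^ (k - 1) * M₀ * r) q (q ^ k) p := by
  haveI : Fact q.Prime := ⟨hq⟩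
  have h0 := NeZero.ne (q ^ k * M₀ * r)
  have hM0 : M₀ * r ≠ 0 := by
    rintro h
    apply h0
    rw [mul_assoc, h, mul_zero]
  haveI : NeZero (M₀ * r) := ⟨hM0⟩
  have hco : q.Coprime (M₀ * r) := by
    rw [Nat.Prime.coprime_iff_not_dvd hq]
    intro hd
    rcases hq.dvd_mul.1 hd with h | h
    · exact hqM h
    · rw [Nat.prime_dvd_prime_iff_eq hq hr] at h
      exact hrM (by rw [h]; exact dvd_mul_right _ _)
  exact claimQ_of_car ι (by omega) (mul_assoc _ _ _) (mul_assoc _ _ _) rfl hco hqp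
    (hcar k hk q (M₀ * r) r hco hr hr11 (dvd_mul_left _ _))

/-- **all geometric claims** from the geometric argument -/
theorem claimAll_of_car (ι : Qb →+* ℂ)
    (hcar : ∀ n : ℕ, 3 ≤ n → ∀ (q M r : ℕ) [Fact q.Prime] [NeZero M] (hco : q.Coprime M), r.Prime →
      r % 12 = 11 → r ∣ M → ∀ A : ValuationSubring Qb, A.LiesOverPrime q → ∀ ζ : Qbˣ,
      IsPrimitiveRoot ζ q → ∃ c : ℕ, 0 < c ∧ CarFn A hco ζ n c) : S45A.ClaimAll ι :=
  S45A.claimAll_of ι (fun M₀ q r p k _ _ hk hq hr hr11 hqM hrM hqp hrp =>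
    hclaim_of_car ι hcar M₀ q r p k hk hq hr hr11 hqM hrM hqp hrp)

end Fermat.Agent.CQ
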