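import Fermat.Agent.CQ.Core
import Fermat.Agent.CQ.KD
import Fermat.Agent.CarM.LiftsInst
import Fermat.Agent.CarE.BaseInst

/-!
# The context over the fixed field of inertia
-/

set_option autoImplicit false
set_option linter.style.haveILetI false
set_option linter.unusedSectionVars false

noncomputable section

namespace Fermat.Agent.CQ

open ModularCurve Polynomial IntermediateField Fermat.Agent.ModPoly Fermat.Agent.Red AlgebraicCurve
open Fermat.Agent.RR Fermat.Agent.Cusp Fermat.Agent.RedMod Fermat.Agent.Spec Fermat.Agent.Curve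
open Fermat.Agent.Flat Fermat.Agent.PRem Fermat.Agent.CarE

attribute [local instance] ThmC.algRK

local notation "Qb" => AlgebraicClosure ℚ

/-- roots of unity in `A` -/
theorem exists_primRoot (A : ValuationSubring (AlgebraicClosure ℚ)) {N : ℕ} (hN : N ≠ 0) :
    ∃ Z : Aˣ, IsPrimitiveRoot Z N := by
  haveI : NeZero (N : Qb) := ⟨Nat.cast_ne_zero.2 hN⟩
  obtain ⟨ζ, hζ⟩ := HasEnoughRootsOfUnity.exists_primitiveRoot Qb N
  have hmem : ζ ∈ A := by
    rcases A.mem_or_inv_mem ζ with h | h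
    · exact h
    · have h1 : ζ = (ζ⁻¹) ^ (N - 1) := by
        have h2 := hζ.pow_eq_one
        have h3 : ζ ^ (N - 1) * ζ = 1 := by
          rw [← pow_succ, Nat.sub_add_cancel (Nat.one_le_iff_ne_zero.2 hN), h2]
        rw [inv_pow, eq_comm, inv_eq_iff_eq_inv, eq_comm]
        exact (eq_inv_of_mul_eq_one_left h3).symm
      rw [h1]
      exact pow_mem h _
  have h1 : (⟨ζ, hmem⟩ : A) ^ N = 1 := Subtype.ext hζ.pow_eq_one
  let z : Aˣ := Units.ofPowEqOne ⟨ζ, hmem⟩ N h1 hN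
  have h2 : IsPrimitiveRoot ((algebraMap A Qb) ((z : Aˣ) : A)) N := hζ
  exact ⟨z, IsPrimitiveRoot.coe_units_iff.1
    (IsPrimitiveRoot.of_map_of_injective h2 (IsFractionRing.injective A Qb))⟩

/-- **the context over the fixed field of inertia** -/
theorem exists_ctx (q M n : ℕ) [Fact q.Prime] [NeZero M] (hco : q.Coprime M) (hn : 3 ≤ n)
    (A : ValuationSubring Qb) (hA : A.LiesOverPrime q) :
    haveI := ThmC.isFractionRing_RK (A := A)
    Nonempty (Ctx (R0 A) (K0 A) A Qb (kk A) q M n) := by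
  haveI := ThmC.isFractionRing_RK (A := A)
  have hq : q.Prime := Fact.out
  have hqM : ¬ q ∣ M := (Nat.Prime.coprime_iff_not_dvd hq).1 hco
  obtain ⟨Z, hZ⟩ := exists_primRoot A (N := q ^ n) (pow_ne_zero n hq.ne_zero)
  exact ⟨⟨base_inst hA, hco, Z, hZ, hn, natCast_residue_ne_zero hA hqM⟩⟩

/-- **the statement over the fixed field of inertia from the geometric statement** -/
theorem car_Fn_of
    (geo : ∀ (R0 K0 A Ω k : Type) [CommRing R0] [IsDomain R0] [IsDiscreteValuationRing R0]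
      [Field K0] [Algebra R0 K0]
      [IsFractionRing R0 K0] [CommRing A] [IsDomain A] [ValuationRing A] [Field Ω]
      [IsAlgClosed Ω] [CharZero Ω] [CharZero K0]
      [Algebra A Ω] [IsFractionRing A Ω] [Field k] [Algebra A k] [Algebra K0 Ω] [Algebra R0 A]
      [Algebra R0 k] (q M n : ℕ) [Fact q.Prime] [NeZero M] [CharP k q] [IsAlgClosed k]
      (X : Ctx R0 K0 A Ω k q M n) (_ : CarM.Lifts M K0 A Ω k) (_ : Ω →+* ℂ) (ζ : Ωˣ)
      (_ : IsPrimitiveRoot ζ q) (m : ℕ) (_ : (m : k) ≠ 0) (f : FF K0 (q ^ n * M)) (_ : f ≠ 0)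
      (_ : ∀ v : Place Ω (FF Ω (q ^ n * M)), (m : ℤ) ∣ v.ord (CarE.emb K0 Ω (q ^ n * M) f))
      (_ : ∃ y : FF Ω (q ^ (n - 1) * M), HeckeProd.NN q ζ
        (CarE.emb K0 Ω (q ^ n * M) f : LaurentSeries Ω) = (y : LaurentSeries Ω) ^ m)
      (_ : ∃ y : FF Ω (q ^ (n - 1) * M), HeckeProd.NN q ζ
        (wq' n X.hco (CarE.emb K0 Ω (q ^ n * M) f) : LaurentSeries Ω) =
          (y : LaurentSeries Ω) ^ m),
      ∃ x : FF Ω (q ^ n * M), x ^ m = CarE.emb K0 Ω (q ^ n * M) f ^ (q ^ 3)) :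
    ∀ n : ℕ, 3 ≤ n → ∀ (q M r : ℕ) [Fact q.Prime] [NeZero M] (hco : q.Coprime M), r.Prime →
      r % 12 = 11 → r ∣ M → ∀ A : ValuationSubring Qb, A.LiesOverPrime q → ∀ ζ : Qbˣ,
      IsPrimitiveRoot ζ q → ∃ c : ℕ, 0 < c ∧ CarFn A hco ζ n c := by
  intro n hn q M r _ _ hco hr hr12 hrM A hA ζ hζ
  have hq : q.Prime := Fact.out
  have hqM : ¬ q ∣ M := (Nat.Prime.coprime_iff_not_dvd hq).1 hco
  haveI := ThmC.isFractionRing_RK (A := A)
  haveI := charP_residue hA
  haveI : IsAlgClosed (IsLocalRing.ResidueField A) := isAlgClosed_residueField A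
  haveI : IsDiscreteValuationRing (R0 A) := isDVR hA
  have ι : Qb →+* ℂ := (IsAlgClosed.lift (R := ℚ) (M := ℂ) (S := Qb)).toRingHom
  have HL : CarM.Lifts M (K0 A) A Qb (kk A) := CarM.lifts_inst hA hqM hr hr12 hrM
  obtain ⟨X⟩ := exists_ctx q M n hco hn A hA
  refine ⟨q ^ 3, pow_pos hq.pos 3, ?_⟩
  intro m hqm hm0 f hf hdvd h1 h2
  exact geo (R0 A) (K0 A) A Qb (kk A) q M n X HL ι ζ hζ m (natCast_residue_ne_zero hA hqm) f hf
    hdvd h1 h2

end Fermat.Agent.CQ
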