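import Fermat.Agent.CQ.Core
import Fermat.Agent.CarM.CuspT

/-!
# Orders of the functions `j_i` at the cusps of level `q ^ n M`
-/

set_option autoImplicit false
set_option linter.style.haveILetI false
set_option linter.unusedSectionVars false

noncomputable section

namespace Fermat.Agent.CQ

open ModularCurve Polynomial IntermediateField Fermat.Agent.ModPoly Fermat.Agent.Cusp AlgebraicCurve
open Fermat.Agent.SemiSt Fermat.Agent.CarE Fermat.Agent.Curve Fermat.Agent.RR Fermat.Agent.Nod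

section

variable {K : Type*} [Field K] [IsAlgClosed K] [CharZero K] {q M n : ℕ} [hq : Fact q.Prime]
  [NeZero M]

theorem jj_zero : jj K q M n 0 = jF' K (q ^ n * M) := by
  rw [jj_eq n K (Nat.zero_le n)]
  exact jm_congr (by rw [pow_zero, one_mul]) _ _

theorem jj_ne (i : ℕ) (hi : i ≤ n) : jj K q M n i ≠ 0 := by
  rw [jj_eq n K hi]
  intro h
  have h1 : Jc (k := K) 1 (pp q ^ i * 1) = 0 := congrArg Subtype.val h
  have h2 := order_Jc (k := K) 1 (pp q ^ i * 1)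
  rw [h1, HahnSeries.order_zero] at h2
  have := (pp q ^ i * 1 : ℕ+).pos
  omega

/-- **orders at the cusps** -/
theorem cusp_orders (hco : q.Coprime M) (v : Place K (FF K (q ^ n * M)))
    (hv : v.ord (jj K q M n 0) < 0) :
    ∃ c ≤ n, ∃ W : ℤ, 0 < W ∧ ∀ i ≤ n, - v.ord (jj K q M n i) * q ^ i = W * q ^ (2 * min i c) := by
  rw [jj_zero] at hv
  have hN : ((q ^ n * M : ℕ) : K) ≠ 0 := cast_ne K _
  haveI := finite_Emb (k := K) (N := q ^ n * M) hN
  letI := Fintype.ofFinite (Emb K (q ^ n * M))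
  obtain ⟨pl, h1, -, h3, -, -⟩ := exists_places (k := K) (N := q ^ n * M) hN
  obtain ⟨τ, rfl⟩ := h3 v hv
  set g : ℤ := (Nat.gcd (q ^ n * M) (τ.s ^ 2) : ℤ) with hg
  have hg0 : 0 < g := by
    rw [hg]
    exact_mod_cast Nat.gcd_pos_of_pos_left _ (NeZero.pos (q ^ n * M))
  have hv' := h1 τ
  rw [← hg] at hv'
  obtain ⟨c, e, κ, h⟩ := τ.exists_data' hN
  obtain ⟨s1, s2, hs1, hs2, hs⟩ := Nat.dvd_mul.1 (τ.s_dvd hN)
  obtain ⟨a, han, rfl⟩ := (Nat.dvd_prime_pow hq.out).1 hs1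
  have hco2 : q.Coprime s2 := hco.coprime_dvd_right hs2
  haveI : NeZero s2 := ⟨fun h0 => NeZero.ne M (Nat.eq_zero_of_zero_dvd (h0 ▸ hs2))⟩
  have key : ∀ i ≤ n, g * (- (pl τ).ord (jj K q M n i)) * q ^ i =
      ((q ^ n * M : ℕ) : ℤ) * q ^ (2 * min i a) := by
    intro i hi
    rw [jj_eq n K hi]
    have hd := h (pp q ^ i * 1) (dvd_qd hi (d1M M))
    have e1 := hd.mul_eq
    have e2 : τ.1 (jm K (pp q ^ i * 1) (dvd_qd hi (d1M M))) =
      Jc (c (pp q ^ i * 1 : ℕ+)) (e (pp q ^ i * 1 : ℕ+)) := hd.map_j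
    have e3 := hv' (jm K (pp q ^ i * 1) (dvd_qd hi (d1M M))) (by
      rw [← jj_eq n K hi]; exact jj_ne i hi)
    rw [e2, order_Jc] at e3
    generalize e (pp q ^ i * 1 : ℕ+) = E at e1 e2 e3
    rw [coe_qd, ← hs, PNat.one_coe, gcd_pow hco2 i a (one_dvd _)] at e1
    have e4 : ((E : ℕ) : ℤ) * (q ^ i * 1) =
        ((q ^ n * M : ℕ) : ℤ) * (q ^ min i a * 1) ^ 2 := by exact_mod_cast e1
    rw [mul_neg, ← e3, neg_neg]
    rw [mul_one, mul_one, ← pow_mul, mul_comm (min i a)] at e4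
    rw [e4]
  have h0 := key 0 (Nat.zero_le n)
  rw [pow_zero, mul_one, Nat.zero_min, mul_zero, pow_zero, mul_one] at h0
  refine ⟨a, han, - (pl τ).ord (jj K q M n 0), ?_, fun i hi => ?_⟩
  · rw [jj_zero]; omega
  · have h2 := key i hi
    rw [← h0] at h2
    apply mul_left_cancel₀ hg0.ne'
    linear_combination h2

/-- regularity at the finite points -/
theorem jj_reg (v : Place K (FF K (q ^ n * M))) (hv : 0 ≤ v.ord (jj K q M n 0)) {i : ℕ} (hi : i ≤ n) :
    0 ≤ v.ord (jj K q M n i) := by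
  rw [jj_eq n K hi]
  rw [jj_zero] at hv
  exact CarM.jm_regular v hv _

end

end Fermat.Agent.CQ
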