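import Fermat.Agent.CQ.Cu1

/-!
# Regular functions at the cusps of level `q ^ n M`
-/

set_option autoImplicit false
set_option linter.style.haveILetI false
set_option linter.unusedSectionVars false

noncomputable section

namespace Fermat.Agent.CQ

open ModularCurve Polynomial IntermediateField Fermat.Agent.ModPoly Fermat.Agent.Cusp AlgebraicCurve
open Fermat.Agent.SemiSt Fermat.Agent.CarE Fermat.Agent.Curve Fermat.Agent.RR Fermat.Agent.Nod

/-- the function equal to `1` on the component `a`, vanishing at the other cusps -/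
def Fa (K : Type*) [Field K] (q M n : ℕ) [hq : Fact q.Prime] [NeZero M] (a : ℕ) :
    FF K (q ^ n * M) :=
  jj K q M n a ^ 2 / (jj K q M n 0 ^ q ^ a * jj K q M n n ^ q ^ (n - a))

/-- the index of the denominator -/
def dn (n a : ℕ) : ℕ := if n ≤ 2 * a then n else 0

/-- the other index -/
def bn (n a : ℕ) : ℕ := if n ≤ 2 * a then 2 * a - n else 2 * a

/-- the uniformising function at the cusps of the component `a` -/
def uI (K : Type*) [Field K] (q M n : ℕ) [hq : Fact q.Prime] [NeZero M] (a : ℕ) :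
    FF K (q ^ n * M) :=
  (jj K q M n (a - min a (n - a)) - jj K q M n (a + min a (n - a))) *
    (Fa K q M n a ^ 2 * (jj K q M n (dn n a))⁻¹)

section Num

variable {q : ℕ} (hq : 2 ≤ q)

include hq

theorem num_max {a c : ℕ} (h : a ≠ c) :
    (q : ℤ) ^ (2 * max a c) ≤ 2 * ((q : ℤ) ^ (2 * a) + q ^ (2 * c) - 2 * q ^ (2 * min a c)) := by
  have hq' : (2 : ℤ) ≤ q := by exact_mod_cast hq
  have key : ∀ x y : ℕ, x < y → (q : ℤ) ^ (2 * y) ≤
      2 * ((q : ℤ) ^ (2 * x) + q ^ (2 * y) - 2 * q ^ (2 * x)) := by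
    intro x y hxy
    obtain ⟨d, rfl⟩ := Nat.exists_eq_add_of_lt hxy
    have h1 : (q : ℤ) ^ (2 * (x + d + 1)) = q ^ (2 * x) * (q ^ (2 * d) * (q * q)) := by ring
    have h2 : (1 : ℤ) ≤ (q : ℤ) ^ (2 * d) := one_le_pow₀ (by linarith)
    have h3 : (0 : ℤ) < (q : ℤ) ^ (2 * x) := by positivity
    have h4 : (4 : ℤ) ≤ q * q := by nlinarith
    have h5 : (4 : ℤ) ≤ q ^ (2 * d) * (q * q) := by nlinarith
    rw [h1]
    nlinarith
  rcases lt_or_gt_of_ne h with h | h
  · rw [max_eq_right h.le, min_eq_left h.le]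
    exact key a c h
  · rw [max_eq_left h.le, min_eq_right h.le]
    have := key c a h
    linarith

theorem num_nonneg (a c : ℕ) :
    (0 : ℤ) ≤ (q : ℤ) ^ (2 * a) + q ^ (2 * c) - 2 * q ^ (2 * min a c) := by
  by_cases h : a = c
  · subst h
    rw [min_self]; linarith
  · have h1 := num_max hq h
    have h2 : (0 : ℤ) < (q : ℤ) ^ (2 * max a c) := by positivity
    linarith

end Num

section

variable {K : Type*} [Field K] [IsAlgClosed K] [CharZero K] {q M n : ℕ} [hq : Fact q.Prime]
  [NeZero M]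

theorem ge_inv' {E : Type*} [Field E] [Algebra K E] {v : Place K E} (x : E) : Ge v (-v.ord x) x⁻¹ :=
  Ge.of_le (by rw [v.ord_inv])

theorem Fa_ne {a : ℕ} (ha : a ≤ n) : Fa K q M n a ≠ 0 := by
  rw [Fa]
  exact div_ne_zero (pow_ne_zero _ (jj_ne a ha)) (mul_ne_zero (pow_ne_zero _ (jj_ne 0 (Nat.zero_le n)))
    (pow_ne_zero _ (jj_ne n le_rfl)))

theorem ord_Fa (v : Place K (FF K (q ^ n * M))) {a : ℕ} (ha : a ≤ n) :
    v.ord (Fa K q M n a) = 2 * v.ord (jj K q M n a) - (q ^ a * v.ord (jj K q M n 0) +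
      q ^ (n - a) * v.ord (jj K q M n n)) := by
  have h0 : jj K q M n 0 ^ q ^ a ≠ 0 := pow_ne_zero _ (jj_ne 0 (Nat.zero_le n))
  have h1 : jj K q M n n ^ q ^ (n - a) ≠ 0 := pow_ne_zero _ (jj_ne n le_rfl)
  rw [Fa, div_eq_mul_inv, v.ord_mul (pow_ne_zero _ (jj_ne a ha)) (inv_ne_zero (mul_ne_zero h0 h1)),
    v.ord_inv, v.ord_mul h0 h1, ord_pow, ord_pow, ord_pow]
  push_cast
  ring

/-- orders at a cusp of type `c` -/
structure CuspAt (v : Place K (FF K (q ^ n * M))) (c : ℕ) (W : ℤ) : Prop where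
  le : c ≤ n
  pos : 0 < W
  ord : ∀ i ≤ n, - v.ord (jj K q M n i) * q ^ i = W * q ^ (2 * min i c)

theorem exists_cuspAt (hco : q.Coprime M) (v : Place K (FF K (q ^ n * M)))
    (hv : v.ord (jj K q M n 0) < 0) : ∃ c W, CuspAt v c W := by
  obtain ⟨c, hc, W, hW, h⟩ := cusp_orders hco v hv
  exact ⟨c, W, hc, hW, h⟩

namespace CuspAt

variable {v : Place K (FF K (q ^ n * M))} {c : ℕ} {W : ℤ} (h : CuspAt v c W)

include h

theorem ord_zero : v.ord (jj K q M n 0) = -W := by
  have := h.ord 0 (Nat.zero_le n)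
  rw [pow_zero, mul_one, Nat.zero_min, mul_zero, pow_zero, mul_one] at this
  linarith

theorem qpos (i : ℕ) : (0 : ℤ) < (q : ℤ) ^ i := pow_pos (by exact_mod_cast hq.out.pos) i

theorem ord_Fa_mul {a : ℕ} (ha : a ≤ n) : v.ord (Fa K q M n a) * q ^ a =
    W * ((q : ℤ) ^ (2 * a) + q ^ (2 * c) - 2 * q ^ (2 * min a c)) := by
  have h0 := h.ord_zero
  have h1 := h.ord a ha
  have h2 := h.ord n le_rfl
  rw [min_eq_right h.le] at h2
  rw [ord_Fa v ha, h0]
  have e1 : (q : ℤ) ^ (n - a) * q ^ a = q ^ n := by rw [← pow_add, Nat.sub_add_cancel ha]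
  have e2 : (q : ℤ) ^ (2 * a) = q ^ a * q ^ a := by rw [two_mul, pow_add]
  rw [e2]
  linear_combination (-2 : ℤ) * h1 + h2 - v.ord (jj K q M n n) * e1

theorem ord_Fa_nonneg {a : ℕ} (ha : a ≤ n) : 0 ≤ v.ord (Fa K q M n a) := by
  have h1 := h.ord_Fa_mul ha
  have h2 := num_nonneg hq.out.two_le a c
  have h3 := mul_nonneg h.pos.le h2
  rw [← h1] at h3
  exact nonneg_of_mul_nonneg_left h3 (h.qpos a)

/-- the main inequality -/
theorem key {a : ℕ} (ha : a ≤ n) :
    v.ord (jj K q M n (dn n a)) - v.ord (jj K q M n (bn n a)) ≤ 2 * v.ord (Fa K q M n a) := by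
  have hF := h.ord_Fa_mul ha
  have hF0 := h.ord_Fa_nonneg ha
  have h0 := h.ord_zero
  have hn := h.ord n le_rfl
  rw [min_eq_right h.le] at hn
  have hq1 : (1 : ℤ) ≤ q := by exact_mod_cast hq.out.one_le
  have hneg : v.ord (jj K q M n n) ≤ 0 := by
    by_contra hc
    push Not at hc
    have := mul_pos hc (h.qpos n)
    have := mul_pos h.pos (h.qpos (2 * c))
    linarith
  by_cases hna : n ≤ 2 * a
  · rw [dn, bn, if_pos hna, if_pos hna]
    obtain ⟨b, hb⟩ : ∃ b, b = 2 * a - n := ⟨_, rfl⟩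
    rw [← hb]
    have hbn : b ≤ n := by omega
    have hbv := h.ord b hbn
    by_cases hac : a = c
    · subst hac
      have e1 : min b a = b := by omega
      rw [e1] at hbv
      have e2 : - v.ord (jj K q M n b) = W * q ^ b := by
        apply mul_right_cancel₀ (h.qpos b).ne'
        rw [hbv, two_mul, pow_add]; ring
      have e3 : - v.ord (jj K q M n n) = W * q ^ b := by
        apply mul_right_cancel₀ (h.qpos n).ne'
        rw [hn, show 2 * a = b + n by omega, pow_add]; ring
      linarith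
    · have h1 := num_max hq.out.two_le hac
      have e1 : - v.ord (jj K q M n b) ≤ W * q ^ b := by
        apply le_of_mul_le_mul_right _ (h.qpos b)
        rw [hbv, mul_assoc, ← pow_add]
        exact mul_le_mul_of_nonneg_left (pow_le_pow_right₀ hq1 (by omega)) h.pos.le
      have e2 : - v.ord (jj K q M n b) * q ^ a ≤ W * q ^ (2 * max a c) := by
        refine (mul_le_mul_of_nonneg_right e1 (h.qpos a).le).trans ?_
        rw [mul_assoc, ← pow_add]
        exact mul_le_mul_of_nonneg_left (pow_le_pow_right₀ hq1 (by omega)) h.pos.le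
      have e3 : - v.ord (jj K q M n b) * q ^ a ≤ 2 * v.ord (Fa K q M n a) * q ^ a := by
        refine e2.trans ?_
        have := mul_le_mul_of_nonneg_left h1 h.pos.le
        linarith
      have e4 := le_of_mul_le_mul_right e3 (h.qpos a)
      linarith
  · rw [dn, bn, if_neg hna, if_neg hna]
    obtain ⟨b, hb⟩ : ∃ b, b = 2 * a := ⟨_, rfl⟩
    rw [← hb]
    have hbn : b ≤ n := by omega
    have hbv := h.ord b hbn
    by_cases hac : a = c
    · subst hac
      have e1 : min b a = a := by omega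
      rw [e1] at hbv
      have e2 : - v.ord (jj K q M n b) = W := by
        apply mul_right_cancel₀ (h.qpos b).ne'
        rw [hbv, hb]
      linarith
    · have h1 := num_max hq.out.two_le hac
      have e2 : - v.ord (jj K q M n b) * q ^ a ≤ W * q ^ (2 * max a c) := by
        apply le_of_mul_le_mul_right _ (h.qpos a)
        have e5 : - v.ord (jj K q M n b) * q ^ a * q ^ a = - v.ord (jj K q M n b) * q ^ b := by
          rw [hb, two_mul, pow_add]; ring
        rw [e5, hbv, mul_assoc, ← pow_add]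
        exact mul_le_mul_of_nonneg_left (pow_le_pow_right₀ hq1 (by omega)) h.pos.le
      have e3 : - v.ord (jj K q M n b) * q ^ a ≤ 2 * v.ord (Fa K q M n a) * q ^ a := by
        refine e2.trans ?_
        have := mul_le_mul_of_nonneg_left h1 h.pos.le
        linarith
      have e4 := le_of_mul_le_mul_right e3 (h.qpos a)
      have := h.pos
      linarith

end CuspAt

/-- regularity where the parameter has no zero -/
theorem regI_of (hco : q.Coprime M) {x : FF K (q ^ n * M)}
    (h1 : ∀ v : Place K (FF K (q ^ n * M)), (∀ i ≤ n, 0 ≤ v.ord (jj K q M n i)) →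
      v.ord (jj K q M n 0) = 0 → v.ord (jj K q M n n) = 0 → Ge v 0 x)
    (h2 : ∀ v : Place K (FF K (q ^ n * M)), ∀ c W, CuspAt v c W → Ge v 0 x) :
    Reg K (jj K q M n 0 * jj K q M n n)⁻¹ x := by
  intro v hv
  rw [v.ord_inv, v.ord_mul (jj_ne 0 (Nat.zero_le n)) (jj_ne n le_rfl)] at hv
  by_cases h0 : 0 ≤ v.ord (jj K q M n 0)
  · have hn := jj_reg v h0 le_rfl
    exact h1 v (fun i hi => jj_reg v h0 hi) (by omega) (by omega)
  · push Not at h0
    obtain ⟨c, W, h⟩ := exists_cuspAt hco v h0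
    exact h2 v c W h

theorem regI_Fa (hco : q.Coprime M) {a : ℕ} (ha : a ≤ n) :
    Reg K (jj K q M n 0 * jj K q M n n)⁻¹ (Fa K q M n a) := by
  refine regI_of hco (fun v hv h0 hn => Ge.of_le ?_) fun v c W h => Ge.of_le (h.ord_Fa_nonneg ha)
  rw [ord_Fa v ha, h0, hn]
  have := hv a ha
  linarith

theorem ge_jj_sub {v : Place K (FF K (q ^ n * M))} {a : ℕ} {m : ℤ}
    (h1 : m ≤ v.ord (jj K q M n (dn n a))) (h2 : m ≤ v.ord (jj K q M n (bn n a))) :
    Ge v m (jj K q M n (a - min a (n - a)) - jj K q M n (a + min a (n - a))) := by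
  by_cases hna : n ≤ 2 * a
  · rw [dn, if_pos hna] at h1
    rw [bn, if_pos hna] at h2
    by_cases han : a ≤ n
    · rw [show a - min a (n - a) = 2 * a - n by omega, show a + min a (n - a) = n by omega]
      exact (Ge.of_le h2).sub (Ge.of_le h1)
    · rw [show min a (n - a) = 0 by omega, Nat.sub_zero, Nat.add_zero, sub_self]
      exact Ge.zero _ _
  · rw [dn, if_neg hna] at h1
    rw [bn, if_neg hna] at h2
    rw [show a - min a (n - a) = 0 by omega, show a + min a (n - a) = 2 * a by omega]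
    exact (Ge.of_le h1).sub (Ge.of_le h2)

theorem dn_le (n a : ℕ) : dn n a ≤ n := by rw [dn]; split_ifs <;> omega

theorem bn_le {n a : ℕ} (ha : a ≤ n) : bn n a ≤ n := by rw [bn]; split_ifs <;> omega

theorem regI_uI (hco : q.Coprime M) {a : ℕ} (ha : a ≤ n) :
    Reg K (jj K q M n 0 * jj K q M n n)⁻¹ (uI K q M n a) := by
  refine regI_of hco (fun v hv h0 hn => ?_) fun v c W h => ?_
  · have hd : v.ord (jj K q M n (dn n a)) = 0 := by
      rw [dn]; split_ifs
      · exact hn
      · exact h0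
    have hF : 0 ≤ v.ord (Fa K q M n a) := by
      rw [ord_Fa v ha, h0, hn]
      have := hv a ha
      linarith
    have g1 := ge_jj_sub (v := v) (a := a) (m := 0) hd.ge (hv _ (bn_le ha))
    have g2 := ((Ge.of_le hF).pow 2).mul (ge_inv' (v := v) (jj K q M n (dn n a)))
    refine (g1.mul g2).mono ?_
    rw [hd]; simp
  · have hF := h.ord_Fa_nonneg ha
    have hk := h.key ha
    set o1 := v.ord (jj K q M n (dn n a)) with ho1
    set o2 := v.ord (jj K q M n (bn n a)) with ho2
    have g1 := ge_jj_sub (v := v) (a := a) (m := min o1 o2) (min_le_left _ _) (min_le_right _ _)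
    have g2 := ((Ge.of_le (le_refl (v.ord (Fa K q M n a)))).pow 2).mul
      (ge_inv' (v := v) (jj K q M n (dn n a)))
    refine (g1.mul g2).mono ?_
    rw [← ho1]
    push_cast
    rcases le_total o1 o2 with h3 | h3
    · rw [min_eq_left h3]; linarith
    · rw [min_eq_right h3]; linarith

end

end Fermat.Agent.CQ
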