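import Fermat.Agent.CQ.Star3
import Fermat.Agent.CarM.ChartI1

/-!
# The order of the residue of the local equation at a cusp
-/

set_option autoImplicit false
set_option linter.style.haveILetI false
set_option linter.unusedSectionVars false

noncomputable section

namespace Fermat.Agent.CQ

open ModularCurve Polynomial IntermediateField Fermat.Agent.ModPoly Fermat.Agent.Cusp AlgebraicCurve
open Fermat.Agent.SemiSt Fermat.Agent.HeckeProd Fermat.Agent.Curve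
open Fermat.Agent.RedMod Fermat.Agent.Car Fermat.Agent.RR Fermat.Agent.Red Fermat.Agent.PRem
open Fermat.Agent.ThmC Fermat.Agent.Nod Fermat.Agent.CarM

variable {k : Type*} [Field k] [IsAlgClosed k] {q M : ℕ} [hq : Fact q.Prime] [NeZero M] [CharP k q]

section Alg

/-- the algebraic identity for the residue -/
theorem alg_cusp {L : Type*} [Field L] {d th G Y S X c : L} {Qa e m q : ℕ} (hd : d ≠ 0) (hc : c ≠ 0)
    (hth : th ^ 6 = G * d ^ Qa) (hm : Qa * e + m = q * m) (hX : X = S * (th * Y) ^ e / c) :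
    X ^ 6 * c ^ 6 * (d / d ^ q) ^ m = S ^ 6 * G ^ e * Y ^ (6 * e) := by
  have h1 : X * c = S * (th * Y) ^ e := by rw [hX, div_mul_cancel₀ _ hc]
  have h2 : X ^ 6 * c ^ 6 = S ^ 6 * (G ^ e * d ^ (Qa * e)) * Y ^ (6 * e) := by
    rw [← mul_pow, h1]
    have : (S * (th * Y) ^ e) ^ 6 = S ^ 6 * (th ^ 6) ^ e * Y ^ (6 * e) := by ring
    rw [this, hth, mul_pow, ← pow_mul]
  have h3 : d ^ (Qa * e) * (d / d ^ q) ^ m = 1 := by
    rw [div_pow, ← pow_mul, mul_div_assoc', ← pow_add, hm]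
    exact div_self (pow_ne_zero _ hd)
  rw [h2]
  calc S ^ 6 * (G ^ e * d ^ (Qa * e)) * Y ^ (6 * e) * (d / d ^ q) ^ m =
      S ^ 6 * G ^ e * Y ^ (6 * e) * (d ^ (Qa * e) * (d / d ^ q) ^ m) := by ring
    _ = _ := by rw [h3, mul_one]

end Alg

variable (k M) in
/-- the function `j ^ 4 (j - 1728) ^ 3` -/
def GJ : FF k M := jF' k M ^ 4 * (jF' k M - 1728) ^ 3

variable [FunField k (FF k M)]

theorem ord_GJ {Q : Place k (FF k M)} (hQ : Q.ord (jF' k M) < 0) :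
    GJ k M ≠ 0 ∧ Q.ord (GJ k M) = 7 * Q.ord (jF' k M) := by
  obtain ⟨h17, ho17⟩ := ord_sub_1728 hQ
  have hJ0 : jF' k M ≠ 0 := jF_ne
  refine ⟨mul_ne_zero (pow_ne_zero _ hJ0) (pow_ne_zero _ h17), ?_⟩
  rw [GJ, Q.ord_mul (pow_ne_zero _ hJ0) (pow_ne_zero _ h17), ord_pow, ord_pow, ho17]
  push_cast
  ring

theorem coe_GJ : ((GJ k M : FF k M) : LaurentSeries k) =
    jqModC k ^ 4 * (jqModC k - 1728) ^ 3 := by
  have : ((GJ k M : FF k M) : LaurentSeries k) =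
    ((jF' k M : FF k M) : LaurentSeries k) ^ 4 *
      (((jF' k M : FF k M) : LaurentSeries k) - 1728) ^ 3 := rfl
  rw [this, coe_jF]

/-- **the order of the residue at a cusp** -/
theorem val_res_cusp (hM : (M : k) ≠ 0) {Q : Place k (FF k M)} (hQ : Q.ord (jF' k M) < 0)
    {s μ : ℕ} (hμ : μ ≠ 0) {X Y S : FF k M} {th : LaurentSeries k} {ε : k} (hε : ε ≠ 0)
    (hSv : val Q S ≠ 0)
    (hth : th ^ 6 = qExpand k (q ^ s) (theta (jqModC k) ^ 6))
    (hY0 : Y ≠ 0) (hY : Q.ord Y = -((q : ℤ) ^ s * Q.ord (jF' k M)))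
    (hX : (X : LaurentSeries k) = (S : LaurentSeries k) *
      (th * (Y : LaurentSeries k)) ^ (q ^ μ).totient / HahnSeries.C ε) : val Q X ≠ 0 := by
  have hS0 : S ≠ 0 := by
    rintro rfl
    rw [val_zero] at hSv
    exact hSv rfl
  have hSo : Q.ord S = 0 := ord_eq_zero_of_val_ne hSv
  obtain ⟨e, he⟩ : ∃ e, e = (q ^ μ).totient := ⟨_, rfl⟩
  obtain ⟨m, hm⟩ : ∃ m, m = q ^ s * q ^ (μ - 1) := ⟨_, rfl⟩
  have hte : e = q ^ (μ - 1) * (q - 1) := by
    rw [he, Nat.totient_prime_pow hq.out (Nat.pos_of_ne_zero hμ)]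
  obtain ⟨r, hr⟩ : ∃ r, q = r + 1 := ⟨q - 1, (Nat.succ_pred_prime hq.out).symm⟩
  have hme : q ^ s * e + m = q * m := by
    rw [hte, hm, show q - 1 = r by omega]
    conv_rhs => rw [hr]
    conv_lhs => rw [hr]
    ring
  have hd := Dc_ne_zero (k := k) 1 1
  have hCe : (HahnSeries.C ε : LaurentSeries k) ≠ 0 := HahnSeries.C_ne_zero hε
  have hth' : th ^ 6 = ((sg k q M s (GJ k M) : FF k M) : LaurentSeries k) * Dc 1 1 ^ (q ^ s) := by
    rw [hth, theta_jq_pow, ← Dc_one_one', map_mul, qExpand_pow_Dc, coe_sg, coe_GJ]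
  rw [← he] at hX
  have hid := alg_cusp (m := m) (q := q) hd hCe hth' hme hX
  have hid' : X ^ 6 * algebraMap k (FF k M) (ε ^ 6) * hs k q M ^ m =
      S ^ 6 * sg k q M s (GJ k M) ^ e * Y ^ (6 * e) := by
    apply Subtype.ext
    have e1 : ((algebraMap k (FF k M) (ε ^ 6) : FF k M) : LaurentSeries k) =
        HahnSeries.C ε ^ 6 := by
      change algebraMap k (LaurentSeries k) _ = _
      rw [algebraMap_eq_C, map_pow]
    have e2 : ((hs k q M : FF k M) : LaurentSeries k) = Dc 1 1 / Dc 1 1 ^ q := by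
      rw [coe_hs, hsL_eq]
    rw [MulMemClass.coe_mul, MulMemClass.coe_mul, SubmonoidClass.coe_pow, e1, SubmonoidClass.coe_pow,
      e2, MulMemClass.coe_mul, MulMemClass.coe_mul, SubmonoidClass.coe_pow, SubmonoidClass.coe_pow,
      SubmonoidClass.coe_pow]
    exact hid
  have hGs : sg k q M s (GJ k M) ≠ 0 := (_root_.map_ne_zero _).2 (ord_GJ hQ).1
  have hGo : Q.ord (sg k q M s (GJ k M)) = (q : ℤ) ^ s * (7 * Q.ord (jF' k M)) := by
    rw [ord_sg, (ord_GJ (Q := (fd k q M).g ^ s • Q) (by rw [ord_jF_pow]; exact hQ)).2, ord_jF_pow]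
  have hrhs : S ^ 6 * sg k q M s (GJ k M) ^ e * Y ^ (6 * e) ≠ 0 :=
    mul_ne_zero (mul_ne_zero (pow_ne_zero _ hS0) (pow_ne_zero _ hGs)) (pow_ne_zero _ hY0)
  have hX0 : X ≠ 0 := by
    rintro rfl
    apply hrhs
    rw [← hid']
    ring
  have hee : algebraMap k (FF k M) (ε ^ 6) ≠ 0 := (_root_.map_ne_zero _).2 (pow_ne_zero _ hε)
  have ho := congrArg Q.ord hid'
  rw [Q.ord_mul (mul_ne_zero (pow_ne_zero _ hX0) hee) (pow_ne_zero _ (hs_ne (k := k))),
    Q.ord_mul (pow_ne_zero _ hX0) hee,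
    ord_pow, ord_algebraMap, ord_pow, hs_ord hM Q hQ,
    Q.ord_mul (mul_ne_zero (pow_ne_zero _ hS0) (pow_ne_zero _ hGs)) (pow_ne_zero _ hY0),
    Q.ord_mul (pow_ne_zero _ hS0) (pow_ne_zero _ hGs), ord_pow, ord_pow, ord_pow, hSo, hGo, hY] at ho
  apply val_ne_of_ord hX0
  have hme' : (q : ℤ) ^ s * e + m = q * m := by exact_mod_cast hme
  push_cast at ho
  have : 6 * Q.ord X = 0 := by linear_combination ho + Q.ord (jF' k M) * hme'
  omega

end Fermat.Agent.CQ
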