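import Fermat.Agent.CQ.Core
import Fermat.Agent.CarM.RegI

/-!
# Functions separating the components at the cusps
-/

set_option autoImplicit false
set_option linter.style.haveILetI false
set_option linter.unusedSectionVars false

noncomputable section

namespace Fermat.Agent.CQ

open ModularCurve Polynomial IntermediateField Fermat.Agent.ModPoly Fermat.Agent.Cusp AlgebraicCurve
open Fermat.Agent.SemiSt Fermat.Agent.CarE Fermat.Agent.Curve Fermat.Agent.RR Fermat.Agent.Nod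
open Fermat.Agent.Car

/-! ### arithmetic -/

/-- the exponent `|n - 2 a|` -/
def uaX (n a : ℕ) : ℕ := (n - 2 * a) + (2 * a - n)

/-- the exponent of the residue of `j_a` at the component `a` -/
def Da (n a : ℕ) : ℕ := max a (n - a)

theorem key_le {q n a l : ℕ} (hq : 1 ≤ q) (ha : a ≤ n) (hl : l ≤ n) :
    (1 + q ^ uaX n a) * q ^ (2 * min a l) * q ^ (n - a) ≤ q ^ Da n a * (q ^ n + q ^ (2 * l)) := by
  have hp : ∀ {i j : ℕ}, i ≤ j → q ^ i ≤ q ^ j := fun h => Nat.pow_le_pow_right hq h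
  have e1 : (1 + q ^ uaX n a) * q ^ (2 * min a l) * q ^ (n - a) =
      q ^ (2 * min a l + (n - a)) + q ^ (uaX n a + 2 * min a l + (n - a)) := by
    rw [pow_add, pow_add, pow_add]; ring
  have e2 : q ^ Da n a * (q ^ n + q ^ (2 * l)) = q ^ (Da n a + n) + q ^ (Da n a + 2 * l) := by
    rw [pow_add, pow_add]; ring
  rw [e1, e2]
  rcases le_total n (2 * a) with h | h
  · rcases le_total a l with h2 | h2
    · rw [min_eq_left h2]
      refine add_le_add (hp ?_) (hp ?_)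
      · rw [Da]; omega
      · rw [Da, uaX]; omega
    · rw [min_eq_right h2]
      refine add_le_add (hp ?_) (hp ?_)
      · rw [Da]; omega
      · rw [Da, uaX]; omega
  · rcases le_total a l with h2 | h2
    · rw [min_eq_left h2, add_comm (q ^ (2 * a + (n - a)))]
      refine add_le_add (hp ?_) (hp ?_)
      · rw [Da, uaX]; omega
      · rw [Da]; omega
    · rw [min_eq_right h2, add_comm (q ^ (2 * l + (n - a)))]
      refine add_le_add (hp ?_) (hp ?_)
      · rw [Da, uaX]; omega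
      · rw [Da]; omega

theorem key_lt {q n a l : ℕ} (hq : 2 ≤ q) (ha : a ≤ n) (hl : l ≤ n) (hal : a ≠ l) :
    (1 + q ^ uaX n a) * q ^ (2 * min a l) * q ^ (n - a) < q ^ Da n a * (q ^ n + q ^ (2 * l)) := by
  have hp : ∀ {i j : ℕ}, i ≤ j → q ^ i ≤ q ^ j := fun h => Nat.pow_le_pow_right (by omega) h
  have hs : ∀ {i j : ℕ}, i < j → q ^ i < q ^ j := fun h => Nat.pow_lt_pow_right (by omega) h
  have e1 : (1 + q ^ uaX n a) * q ^ (2 * min a l) * q ^ (n - a) =
      q ^ (2 * min a l + (n - a)) + q ^ (uaX n a + 2 * min a l + (n - a)) := by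
    rw [pow_add, pow_add, pow_add]; ring
  have e2 : q ^ Da n a * (q ^ n + q ^ (2 * l)) = q ^ (Da n a + n) + q ^ (Da n a + 2 * l) := by
    rw [pow_add, pow_add]; ring
  rw [e1, e2]
  rcases le_total n (2 * a) with h | h
  · rcases lt_or_gt_of_ne hal with h2 | h2
    · rw [min_eq_left h2.le]
      refine add_lt_add_of_le_of_lt (hp ?_) (hs ?_)
      · rw [Da]; omega
      · rw [Da, uaX]; omega
    · rw [min_eq_right h2.le]
      refine add_lt_add_of_lt_of_le (hs ?_) (hp ?_)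
      · rw [Da]; omega
      · rw [Da, uaX]; omega
  · rcases lt_or_gt_of_ne hal with h2 | h2
    · rw [min_eq_left h2.le, add_comm (q ^ (2 * a + (n - a)))]
      refine add_lt_add_of_le_of_lt (hp ?_) (hs ?_)
      · rw [Da, uaX]; omega
      · rw [Da]; omega
    · rw [min_eq_right h2.le, add_comm (q ^ (2 * l + (n - a)))]
      refine add_lt_add_of_lt_of_le (hs ?_) (hp ?_)
      · rw [Da, uaX]; omega
      · rw [Da]; omega

theorem key_eq {q n a : ℕ} (ha : a ≤ n) :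
    (1 + q ^ uaX n a) * q ^ (2 * a) * q ^ (n - a) = q ^ Da n a * (q ^ n + q ^ (2 * a)) := by
  have e1 : (1 + q ^ uaX n a) * q ^ (2 * a) * q ^ (n - a) =
      q ^ (2 * a + (n - a)) + q ^ (uaX n a + 2 * a + (n - a)) := by
    rw [pow_add, pow_add, pow_add]; ring
  have e2 : q ^ Da n a * (q ^ n + q ^ (2 * a)) = q ^ (Da n a + n) + q ^ (Da n a + 2 * a) := by
    rw [pow_add, pow_add]; ring
  rw [e1, e2]
  rcases le_total n (2 * a) with h | h
  · congr 2
    · rw [Da]; omega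
    · rw [Da, uaX]; omega
  · rw [add_comm (q ^ (2 * a + (n - a)))]
    congr 2
    · rw [Da, uaX]; omega
    · rw [Da]; omega

theorem dl_add {n l i : ℕ} (hl : l ≤ n) (hi : i ≤ n) :
    dl n l i + i = (n - 2 * l) + 2 * min i l := by
  rw [dl]
  rcases le_total i l with h | h
  · rw [min_eq_left h]
    split_ifs <;> omega
  · rw [min_eq_right h]
    split_ifs <;> omega

/-- the exponents of the residues of numerator and denominator -/
def ex (q n a l : ℕ) : ℕ := (1 + q ^ uaX n a) * q ^ dl n l a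

def ey (q n a l : ℕ) : ℕ := q ^ Da n a * (q ^ dl n l 0 + q ^ dl n l n)

theorem ex_mul {q n a l : ℕ} (ha : a ≤ n) (hl : l ≤ n) :
    ex q n a l * q ^ n =
      q ^ (n - 2 * l) * ((1 + q ^ uaX n a) * q ^ (2 * min a l) * q ^ (n - a)) := by
  have h1 : q ^ n = q ^ a * q ^ (n - a) := by rw [← pow_add]; congr 1; omega
  have h2 : q ^ dl n l a * q ^ a = q ^ (n - 2 * l) * q ^ (2 * min a l) := by
    rw [← pow_add, ← pow_add, dl_add hl ha]
  rw [ex, h1]
  calc (1 + q ^ uaX n a) * q ^ dl n l a * (q ^ a * q ^ (n - a)) =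
      (1 + q ^ uaX n a) * (q ^ dl n l a * q ^ a) * q ^ (n - a) := by ring
    _ = _ := by rw [h2]; ring

theorem ey_mul {q n a l : ℕ} (hl : l ≤ n) :
    ey q n a l * q ^ n = q ^ (n - 2 * l) * (q ^ Da n a * (q ^ n + q ^ (2 * l))) := by
  have h1 : q ^ dl n l 0 = q ^ (n - 2 * l) := by
    have := dl_add (i := 0) hl (Nat.zero_le n)
    rw [Nat.zero_min, mul_zero, add_zero, add_zero] at this
    rw [this]
  have h2 : q ^ dl n l n * q ^ n = q ^ (n - 2 * l) * q ^ (2 * l) := by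
    rw [← pow_add, ← pow_add, dl_add hl le_rfl, min_eq_right hl]
  rw [ey, h1]
  calc q ^ Da n a * (q ^ (n - 2 * l) + q ^ dl n l n) * q ^ n =
      q ^ Da n a * (q ^ (n - 2 * l) * q ^ n + q ^ dl n l n * q ^ n) := by ring
    _ = _ := by rw [h2]; ring

theorem ex_eq {q n a : ℕ} (hq : 2 ≤ q) (ha : a ≤ n) : ex q n a a = ey q n a a := by
  have h : 0 < q ^ n := pow_pos (by omega) _
  apply Nat.eq_of_mul_eq_mul_right h
  rw [ex_mul ha ha, ey_mul ha, min_self, key_eq ha]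

theorem ex_lt {q n a l : ℕ} (hq : 2 ≤ q) (ha : a ≤ n) (hl : l ≤ n) (hal : a ≠ l) :
    ex q n a l < ey q n a l := by
  have h : 0 < q ^ n := pow_pos (by omega) _
  apply Nat.lt_of_mul_lt_mul_right (a := q ^ n)
  rw [ex_mul ha hl, ey_mul hl]
  exact Nat.mul_lt_mul_of_pos_left (key_lt hq ha hl hal) (pow_pos (by omega) _)

/-! ### the cusps in characteristic zero -/

section Cusps

variable {K : Type*} [Field K] [IsAlgClosed K] [CharZero K] {q M : ℕ} [hq : Fact q.Prime]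
  [NeZero M] {n : ℕ} (hco : q.Coprime M)

include hco in
/-- the orders of the functions `j_i` at a cusp -/
theorem ord_jj (v : Place K (FF K (q ^ n * M))) (hv : v.ord (jF' K (q ^ n * M)) < 0) :
    ∃ (g P : ℤ) (l : ℕ), 0 < g ∧ 0 < P ∧ l ≤ n ∧ ∀ i, i ≤ n →
      g * v.ord (jj K q M n i) * (q : ℤ) ^ i = -(P * (q : ℤ) ^ (2 * min i l)) := by
  have hN : ((q ^ n * M : ℕ) : K) ≠ 0 := cast_ne K _
  haveI := finite_Emb (k := K) (N := q ^ n * M) hN
  letI := Fintype.ofFinite (Emb K (q ^ n * M))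
  obtain ⟨pl, h1, -, h3, -, -⟩ := exists_places (k := K) (N := q ^ n * M) hN
  obtain ⟨τ, rfl⟩ := h3 v hv
  have hF := fam (k := K) (N := q ^ n * M) hN
  have hs : τ.s ∣ q ^ n * M := hF.dvd τ
  have hs0 : 0 < τ.s := Nat.pos_of_dvd_of_pos hs (NeZero.pos _)
  obtain ⟨l, d, hl, hd, hsd⟩ := div_cases hco (m := ⟨τ.s, hs0⟩) hs
  have hsd' : τ.s = q ^ l * d := by
    have := congrArg (fun x : ℕ+ => (x : ℕ)) hsd
    simpa [coe_qd] using this
  have hcod : q.Coprime d := hco.coprime_dvd_right hd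
  haveI : NeZero (d : ℕ) := ⟨d.pos.ne'⟩
  refine ⟨(Nat.gcd (q ^ n * M) (τ.s ^ 2) : ℤ), ((q ^ n * M : ℕ) : ℤ), l, ?_, ?_, hl, ?_⟩
  · exact_mod_cast Nat.gcd_pos_of_pos_left _ (NeZero.pos (q ^ n * M))
  · exact_mod_cast NeZero.pos (q ^ n * M)
  intro i hi
  have hv' := h1 τ
  obtain ⟨c, e, κ, h⟩ := τ.exists_data' hN
  have hm : ((pp q ^ i * 1 : ℕ+) : ℕ) ∣ q ^ n * M := dvd_qd hi (d1M M)
  have h4 := h (pp q ^ i * 1) hm
  have hmj : τ.1 (jm K (pp q ^ i * 1) hm) = Jc (c (pp q ^ i * 1 : ℕ+)) (e (pp q ^ i * 1 : ℕ+)) :=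
    h4.map_j
  have hj0 : jj K q M n i ≠ 0 := by
    rw [jj_eq n K hi]
    intro h0
    have h5 := hmj
    rw [h0, map_zero] at h5
    have h6 := order_Jc (k := K) (c (pp q ^ i * 1 : ℕ+)) (e (pp q ^ i * 1 : ℕ+))
    rw [← h5, HahnSeries.order_zero] at h6
    have := (e (pp q ^ i * 1 : ℕ+)).pos
    omega
  have h5 := hv' _ hj0
  rw [jj_eq n K hi] at h5 ⊢
  rw [hmj, order_Jc] at h5
  rw [← h5]
  have h6 := h4.mul_eq
  obtain ⟨E, hE⟩ : ∃ E, E = e (pp q ^ i * 1 : ℕ+) := ⟨_, rfl⟩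
  rw [← hE] at h6 ⊢
  have h7 : Nat.gcd ((pp q ^ i * 1 : ℕ+) : ℕ) τ.s = q ^ min i l := by
    rw [coe_qd, hsd', PNat.one_coe, gcd_pow hcod i l (one_dvd _), mul_one]
  rw [h7, coe_qd, PNat.one_coe, mul_one, ← pow_mul, mul_comm (min i l)] at h6
  have h8 : ((E : ℕ) : ℤ) * (q : ℤ) ^ i =
      ((q ^ n * M : ℕ) : ℤ) * (q : ℤ) ^ (2 * min i l) := by exact_mod_cast h6
  rw [neg_mul, h8]

theorem jj_regular (v : Place K (FF K (q ^ n * M))) (hv : 0 ≤ v.ord (jF' K (q ^ n * M))) (i : ℕ) :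
    0 ≤ v.ord (jj K q M n i) := by
  by_cases hi : i ≤ n
  · rw [jj_eq n K hi]; exact CarM.jm_regular v hv _
  · rw [jj, dif_neg hi, v.ord_zero]

/-- the functions separating the cusps -/
def xa (K : Type*) [Field K] (q M n a : ℕ) [Fact q.Prime] [NeZero M] : FF K (q ^ n * M) :=
  jj K q M n a ^ (1 + q ^ uaX n a) / (jj K q M n 0 * jj K q M n n) ^ (q ^ Da n a)

include hco in
/-- **the separating functions are regular at the points where `t` does not vanish** -/
theorem regI_xa {a : ℕ} (ha : a ≤ n) :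
    Reg K (jj K q M n 0 * jj K q M n n)⁻¹ (xa K q M n a) := by
  intro v hv
  rw [v.ord_inv, neg_nonneg] at hv
  have hq1 : 1 ≤ q := hq.out.pos
  have e0 : jF' K (q ^ n * M) = jj K q M n 0 := by
    rw [jj_eq n K (Nat.zero_le n)]
    exact jm_congr (by rw [pow_zero, one_mul]) _ _
  by_cases hj : 0 ≤ v.ord (jF' K (q ^ n * M))
  · -- finite points
    have h0 := jj_regular v hj
    by_cases h1 : jj K q M n 0 * jj K q M n n = 0
    · rw [xa, h1, zero_pow (pow_pos hq.out.pos _).ne', div_zero]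
      exact Ge.zero _ _
    have h2 : v.ord (jj K q M n 0 * jj K q M n n) = 0 := by
      refine le_antisymm hv ?_
      rw [v.ord_mul (left_ne_zero_of_mul h1) (right_ne_zero_of_mul h1)]
      exact add_nonneg (h0 0) (h0 n)
    have h3 := ((Ge.of_le (h0 a) : Ge v 0 (jj K q M n a)).pow (1 + q ^ uaX n a)).mul
      (CarM.ge_inv (v := v) ((jj K q M n 0 * jj K q M n n) ^ (q ^ Da n a)))
    rw [← div_eq_mul_inv] at h3
    refine h3.mono ?_
    rw [ord_pow, h2]
    simp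
  · -- cusps
    push Not at hj
    obtain ⟨g, P, l, hg, hP, hl, h⟩ := ord_jj hco v hj
    have hq0 : (0 : ℤ) < q := by exact_mod_cast hq.out.pos
    have hjne : ∀ i, i ≤ n → jj K q M n i ≠ 0 := by
      intro i hi h0
      have h1 := h i hi
      rw [h0, v.ord_zero, mul_zero, zero_mul] at h1
      have h2 : 0 < P * (q : ℤ) ^ (2 * min i l) := by positivity
      linarith
    have hJ := hjne a ha
    have h00 := hjne 0 (Nat.zero_le n)
    have hnn := hjne n le_rfl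
    apply Ge.of_le
    rw [xa, div_eq_mul_inv, v.ord_mul (pow_ne_zero _ hJ)
      (inv_ne_zero (pow_ne_zero _ (mul_ne_zero h00 hnn))), v.ord_inv, ord_pow, ord_pow,
      v.ord_mul h00 hnn]
    have k1 := h a ha
    have k2 := h 0 (Nat.zero_le n)
    have k3 := h n le_rfl
    rw [Nat.zero_min, mul_zero, pow_zero, mul_one, mul_one] at k2
    rw [min_eq_right hl] at k3
    have hkey := key_le hq1 ha hl
    have hkey' : ((1 + (q : ℤ) ^ uaX n a) * (q : ℤ) ^ (2 * min a l)) * (q : ℤ) ^ (n - a) ≤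
        (q : ℤ) ^ Da n a * ((q : ℤ) ^ n + (q : ℤ) ^ (2 * l)) := by exact_mod_cast hkey
    have hqn : (q : ℤ) ^ n = (q : ℤ) ^ a * (q : ℤ) ^ (n - a) := by
      rw [← pow_add]; congr 1; omega
    have hpos : 0 < g * (q : ℤ) ^ n := by positivity
    apply nonneg_of_mul_nonneg_right (a := g * (q : ℤ) ^ n) _ hpos
    push_cast
    have e1 : g * (q : ℤ) ^ n * ((1 + (q : ℤ) ^ uaX n a) * v.ord (jj K q M n a) +
        -((q : ℤ) ^ Da n a * (v.ord (jj K q M n 0) + v.ord (jj K q M n n)))) =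
        (1 + (q : ℤ) ^ uaX n a) * (q : ℤ) ^ (n - a) * (g * v.ord (jj K q M n a) * (q : ℤ) ^ a) -
        (q : ℤ) ^ Da n a * ((q : ℤ) ^ n * (g * v.ord (jj K q M n 0)) +
          g * v.ord (jj K q M n n) * (q : ℤ) ^ n) := by
      rw [hqn]; ring
    rw [e1, k1, k2, k3]
    have e2 : (1 + (q : ℤ) ^ uaX n a) * (q : ℤ) ^ (n - a) * -(P * (q : ℤ) ^ (2 * min a l)) -
        (q : ℤ) ^ Da n a * ((q : ℤ) ^ n * -P + -(P * (q : ℤ) ^ (2 * l))) =
        P * ((q : ℤ) ^ Da n a * ((q : ℤ) ^ n + (q : ℤ) ^ (2 * l)) -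
          ((1 + (q : ℤ) ^ uaX n a) * (q : ℤ) ^ (2 * min a l)) * (q : ℤ) ^ (n - a)) := by ring
    rw [e2]
    exact mul_nonneg hP.le (by linarith)

end Cusps

end Fermat.Agent.CQ
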