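import Fermat.Agent.CQ.Core2
import Fermat.Agent.CQ.Xa
import Fermat.Agent.CarM.ChartI

/-!
# Functions separating the components at the cusps: residues
-/

set_option autoImplicit false
set_option linter.style.haveILetI false
set_option linter.unusedSectionVars false

noncomputable section

namespace Fermat.Agent.CQ

open ModularCurve Polynomial IntermediateField Fermat.Agent.ModPoly Fermat.Agent.Cusp AlgebraicCurve
open Fermat.Agent.SemiSt Fermat.Agent.CarE Fermat.Agent.Curve Fermat.Agent.RR Fermat.Agent.Nod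
open Fermat.Agent.RedMod Fermat.Agent.Car Fermat.Agent.PRem

theorem emb_jj' {K Ω : Type*} [Field K] [Field Ω] [Algebra K Ω] {q M n : ℕ} [hq : Fact q.Prime]
    [NeZero M] (i : ℕ) :
    CarE.emb K Ω (q ^ n * M) (jj K q M n i) = jj Ω q M n i := by
  by_cases hi : i ≤ n
  · rw [jj_eq n K hi, jj_eq n Ω hi]; exact emb_jm _
  · rw [jj, jj, dif_neg hi, dif_neg hi, map_zero]

theorem emb_xa {K Ω : Type*} [Field K] [Field Ω] [Algebra K Ω] {q M n : ℕ} [hq : Fact q.Prime]
    [NeZero M] (a : ℕ) :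
    CarE.emb K Ω (q ^ n * M) (xa K q M n a) = xa Ω q M n a := by
  rw [xa, map_div₀, map_pow, map_pow, map_mul, emb_jj', emb_jj', emb_jj', xa]

/-- the function vanishing on all components but the `a`-th one -/
def Sa (K : Type*) [Field K] (q M n a : ℕ) [Fact q.Prime] [NeZero M] : FF K (q ^ n * M) :=
  ∏ l ∈ (Finset.range (n + 1)).erase a, (1 - xa K q M n l)

theorem emb_Sa {K Ω : Type*} [Field K] [Field Ω] [Algebra K Ω] {q M n : ℕ} [hq : Fact q.Prime]
    [NeZero M] (a : ℕ) :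
    CarE.emb K Ω (q ^ n * M) (Sa K q M n a) = Sa Ω q M n a := by
  rw [Sa, map_prod, Sa]
  refine Finset.prod_congr rfl fun l _ => ?_
  rw [map_sub, map_one, emb_xa]

theorem reg_prod {k E : Type*} [Field k] [Field E] [Algebra k E] {t : E} {ι : Type*} (s : Finset ι)
    (f : ι → E) (h : ∀ i ∈ s, Reg k t (f i)) : Reg k t (∏ i ∈ s, f i) := by
  classical
  induction s using Finset.induction_on with
  | empty => rw [Finset.prod_empty]; exact Reg.one _
  | insert a s ha ih =>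
    rw [Finset.prod_insert ha]
    exact (h a (Finset.mem_insert_self _ _)).mul
      (ih fun i hi => h i (Finset.mem_insert_of_mem hi))

theorem regI_Sa {K : Type*} [Field K] [IsAlgClosed K] [CharZero K] {q M n : ℕ} [hq : Fact q.Prime]
    [NeZero M] (hco : q.Coprime M) (a : ℕ) :
    Reg K (jj K q M n 0 * jj K q M n n)⁻¹ (Sa K q M n a) := by
  refine reg_prod _ _ fun l hl => ?_
  have hl' : l ≤ n := by
    have := Finset.mem_range.1 (Finset.mem_of_mem_erase hl)
    omega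
  exact (Reg.one _).sub (regI_xa hco hl')

namespace Ctx

variable {R0 K0 A Ω k : Type*} [CommRing R0] [IsDomain R0] [Field K0] [Algebra R0 K0]
  [IsFractionRing R0 K0] [CommRing A] [IsDomain A] [ValuationRing A] [Field Ω]
  [IsAlgClosed Ω] [CharZero Ω]
  [Algebra A Ω] [IsFractionRing A Ω] [Field k] [Algebra A k] [Algebra K0 Ω] [Algebra R0 A]
  [Algebra R0 k] {q M n : ℕ} [hq : Fact q.Prime] [NeZero M] [CharP k q]
  (X : Ctx R0 K0 A Ω k q M n)
  (hres : ∀ (l : Fin (n + 1)) (x : FF K0 (q ^ n * M)) (h : x ∈ (X.E l).W),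
    (X.E l).πW ⟨x, h⟩ ∈ FF k M)

theorem coe_jFX : ((jF' k M : FF k M) : LaurentSeries k) = jqModC k := Jc_one_one

theorem jq_pow_ne (m : ℕ) : jqModC k ^ m ≠ 0 := by
  apply pow_ne_zero
  intro h
  have h2 := order_Jc (k := k) 1 1
  rw [Jc_one_one, h, HahnSeries.order_zero, PNat.one_coe] at h2
  norm_num at h2

theorem mem_jj {i : ℕ} (hi : i ≤ n) (l : Fin (n + 1)) :
    jj K0 q M n i ∈ ((X.E l).comp (FF k M) (hres l)).W := (X.hasL_jj hi).mem l

theorem v_jj {i : ℕ} (hi : i ≤ n) (l : Fin (n + 1)) :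
    ((X.E l).comp (FF k M) (hres l)).v (jj K0 q M n i) = 0 := by
  have := (X.hasL_jj (M := M) hi).v (FF k M) (hres l) (m := 0) (u := X.jL i l) (by
    rw [X.redL_jL]; exact jq_pow_ne _) (by rw [pow_zero, map_one, one_mul])
  exact_mod_cast this

theorem r_jj {i : ℕ} (hi : i ≤ n) (l : Fin (n + 1)) :
    ((X.E l).comp (FF k M) (hres l)).r (jj K0 q M n i) = jF' k M ^ (q ^ dl n l i) := by
  apply Subtype.ext
  rw [(X.hasL_jj hi).r (FF k M) (hres l), X.redL_jL, SubmonoidClass.coe_pow, coe_jFX]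

theorem jj_ne {i : ℕ} (hi : i ≤ n) : jj K0 q M n i ≠ 0 := by
  rw [jj_eq n K0 hi]
  intro h
  have h1 : (Jc (k := K0) 1 (pp q ^ i * 1)) = 0 := congrArg Subtype.val h
  have h2 := order_Jc (k := K0) 1 (pp q ^ i * 1)
  rw [h1, HahnSeries.order_zero] at h2
  have := (pp q ^ i * 1 : ℕ+).pos
  omega

theorem v_den (l : Fin (n + 1)) (m : ℕ) :
    ((X.E l).comp (FF k M) (hres l)).v ((jj K0 q M n 0 * jj K0 q M n n) ^ m) = 0 := by
  rw [Comp.v_pow, Comp.v_mul _ (jj_ne (Nat.zero_le n)) (jj_ne le_rfl),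
    X.v_jj hres (Nat.zero_le n), X.v_jj hres le_rfl, add_zero, mul_zero]

theorem mem_xa {a : ℕ} (ha : a ≤ n) (l : Fin (n + 1)) :
    xa K0 q M n a ∈ ((X.E l).comp (FF k M) (hres l)).W := by
  rw [xa, div_eq_mul_inv]
  exact mul_mem (pow_mem (X.mem_jj hres ha l) _)
    (Comp.mem_of_v (by rw [Comp.v_inv, X.v_den hres l, neg_zero]))

theorem r_xa {a : ℕ} (ha : a ≤ n) (l : Fin (n + 1)) :
    ((X.E l).comp (FF k M) (hres l)).r (xa K0 q M n a) =
      jF' k M ^ ex q n a l / jF' k M ^ ey q n a l := by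
  have h0 := X.mem_jj hres (Nat.zero_le n) l
  have hn := X.mem_jj hres (le_refl n) l
  rw [xa, Comp.r_div (pow_mem (X.mem_jj hres ha l) _) (X.v_den hres l _),
    Comp.r_pow (X.mem_jj hres ha l), Comp.r_pow (mul_mem h0 hn), Comp.r_mul h0 hn,
    X.r_jj hres ha, X.r_jj hres (Nat.zero_le n), X.r_jj hres le_rfl, ← pow_mul, ← pow_add,
    ← pow_mul, ex, ey]
  congr 2 <;> ring

theorem jF_ne' : jF' k M ≠ 0 := by
  intro h
  have h1 := congrArg (fun x : FF k M => (x : LaurentSeries k)) h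
  have h2 := jq_pow_ne (k := k) 1
  rw [pow_one] at h2
  apply h2
  rw [← coe_jFX (M := M)]
  exact h1

/-- the separating function is one on its component -/
theorem r_xa_self (a : Fin (n + 1)) :
    ((X.E a).comp (FF k M) (hres a)).r (xa K0 q M n a) = 1 := by
  have ha := Nat.lt_succ_iff.1 a.2
  rw [X.r_xa hres ha, ex_eq hq.out.two_le ha]
  exact div_self (pow_ne_zero _ jF_ne')

variable [IsAlgClosed k] [FunField k (FF k M)]

/-- the separating function vanishes at the cusps of the other components -/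
theorem ge_r_xa {a : ℕ} (ha : a ≤ n) {l : Fin (n + 1)} (hl : a ≠ l) {Q : Place k (FF k M)}
    (hQ : Q.ord (jF' k M) < 0) :
    Ge Q 1 (((X.E l).comp (FF k M) (hres l)).r (xa K0 q M n a)) := by
  rw [X.r_xa hres ha]
  apply Ge.of_le
  rw [div_eq_mul_inv, Q.ord_mul (pow_ne_zero _ jF_ne') (inv_ne_zero (pow_ne_zero _ jF_ne')),
    Q.ord_inv, ord_pow, ord_pow]
  have h1 : ((ex q n a l : ℕ) : ℤ) + 1 ≤ ((ey q n a l : ℕ) : ℤ) := by
    exact_mod_cast ex_lt hq.out.two_le ha (Nat.lt_succ_iff.1 l.2) hl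
  have h2 : Q.ord (jF' k M) ≤ -1 := by omega
  nlinarith [mul_nonneg (sub_nonneg.2 h1) (by linarith : (0 : ℤ) ≤ -Q.ord (jF' k M) - 1)]

theorem val_r_xa {a : ℕ} (ha : a ≤ n) {l : Fin (n + 1)} (hl : a ≠ l) {Q : Place k (FF k M)}
    (hQ : Q.ord (jF' k M) < 0) :
    val Q (((X.E l).comp (FF k M) (hres l)).r (xa K0 q M n a)) = 0 :=
  val_of_pos (X.ge_r_xa hres ha hl hQ)

omit [IsAlgClosed k] [FunField k (FF k M)] in
theorem mem_one_sub_xa {a : ℕ} (ha : a ≤ n) (l : Fin (n + 1)) :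
    1 - xa K0 q M n a ∈ ((X.E l).comp (FF k M) (hres l)).W :=
  sub_mem (one_mem _) (X.mem_xa hres ha l)

omit [IsAlgClosed k] [FunField k (FF k M)] in
theorem mem_Sa (a : ℕ) (l : Fin (n + 1)) :
    Sa K0 q M n a ∈ ((X.E l).comp (FF k M) (hres l)).W := by
  refine prod_mem fun i hi => X.mem_one_sub_xa hres ?_ l
  have := Finset.mem_range.1 (Finset.mem_of_mem_erase hi)
  omega

omit [IsAlgClosed k] [FunField k (FF k M)] in
/-- `S_a` vanishes on the other components -/
theorem ge_Sa {a : ℕ} {l : Fin (n + 1)} (hl : a ≠ l) :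
    ((X.E l).comp (FF k M) (hres l)).Ge 1 (Sa K0 q M n a) := by
  have hmem : (l : ℕ) ∈ (Finset.range (n + 1)).erase a :=
    Finset.mem_erase.2 ⟨fun h => hl h.symm, Finset.mem_range.2 l.2⟩
  have hl' := Nat.lt_succ_iff.1 l.2
  rw [Sa, ← Finset.mul_prod_erase _ _ hmem]
  have h1 : ((X.E l).comp (FF k M) (hres l)).Ge 1 (1 - xa K0 q M n l) := by
    rw [← Comp.r_eq_zero_iff (X.mem_one_sub_xa hres hl' l),
      Comp.r_sub (one_mem _) (X.mem_xa hres hl' l), Comp.r_one, X.r_xa_self hres, sub_self]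
  have h2 : ((X.E l).comp (FF k M) (hres l)).Ge 0
      (∏ i ∈ ((Finset.range (n + 1)).erase a).erase (l : ℕ), (1 - xa K0 q M n i)) := by
    apply Comp.ge_of_mem
    refine prod_mem fun i hi => X.mem_one_sub_xa hres ?_ l
    have := Finset.mem_range.1 (Finset.mem_of_mem_erase (Finset.mem_of_mem_erase hi))
    omega
  have := h1.mul h2
  rwa [add_zero] at this

omit [IsAlgClosed k] [FunField k (FF k M)] in
theorem r_prod {ι : Type*} (C : Comp (FF K0 (q ^ n * M)) (FF k M)) (s : Finset ι)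
    (f : ι → FF K0 (q ^ n * M)) (h : ∀ i ∈ s, f i ∈ C.W) :
    C.r (∏ i ∈ s, f i) = ∏ i ∈ s, C.r (f i) := by
  classical
  induction s using Finset.induction_on with
  | empty => simp
  | insert a s ha ih =>
    rw [Finset.prod_insert ha, Finset.prod_insert ha, Comp.r_mul (h a (Finset.mem_insert_self _ _))
      (prod_mem fun i hi => h i (Finset.mem_insert_of_mem hi)),
      ih fun i hi => h i (Finset.mem_insert_of_mem hi)]

/-- `S_a` is one at the cusps of its component -/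
theorem val_Sa (a : Fin (n + 1)) {Q : Place k (FF k M)} (hQ : Q.ord (jF' k M) < 0) :
    val Q (((X.E a).comp (FF k M) (hres a)).r (Sa K0 q M n a)) = 1 := by
  have hle : ∀ i ∈ (Finset.range (n + 1)).erase (a : ℕ), i ≤ n := by
    intro i hi
    have := Finset.mem_range.1 (Finset.mem_of_mem_erase hi)
    omega
  have h1 : ∀ i ∈ (Finset.range (n + 1)).erase (a : ℕ),
      Ge Q 1 (1 - ((X.E a).comp (FF k M) (hres a)).r (1 - xa K0 q M n i)) := by
    intro i hi
    rw [Comp.r_sub (one_mem _) (X.mem_xa hres (hle i hi) a), Comp.r_one, sub_sub_cancel]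
    exact X.ge_r_xa hres (hle i hi) (Finset.ne_of_mem_erase hi) hQ
  rw [Sa, r_prod _ _ _ fun i hi => X.mem_one_sub_xa hres (hle i hi) a]
  obtain ⟨f, hf⟩ : ∃ f : ℕ → FF k M, f = fun i =>
      ((X.E a).comp (FF k M) (hres a)).r (1 - xa K0 q M n i) := ⟨_, rfl⟩
  have h2 : ∀ i ∈ (Finset.range (n + 1)).erase (a : ℕ), Ge Q 1 (1 - f i) := by
    intro i hi; rw [hf]; exact h1 i hi
  change val Q (∏ i ∈ (Finset.range (n + 1)).erase (a : ℕ),
    ((X.E a).comp (FF k M) (hres a)).r (1 - xa K0 q M n i)) = 1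
  have e : ∏ i ∈ (Finset.range (n + 1)).erase (a : ℕ),
      ((X.E a).comp (FF k M) (hres a)).r (1 - xa K0 q M n i) =
      ∏ i ∈ (Finset.range (n + 1)).erase (a : ℕ), f i := by rw [hf]
  rw [e]
  generalize (Finset.range (n + 1)).erase (a : ℕ) = s at h2
  classical
  have key : Ge Q 0 (∏ i ∈ s, f i) ∧ val Q (∏ i ∈ s, f i) = 1 := by
    induction s using Finset.induction_on with
    | empty => rw [Finset.prod_empty]; exact ⟨Ge.one Q, val_one Q⟩
    | insert b s hb ih =>
      obtain ⟨h3, h4⟩ := ih fun i hi => h2 i (Finset.mem_insert_of_mem hi)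
      have h5 := h2 b (Finset.mem_insert_self _ _)
      have h6 : Ge Q 0 (1 - f b) := h5.mono (by norm_num)
      have e6 : f b = 1 - (1 - f b) := by ring
      have h7 : Ge Q 0 (f b) := by rw [e6]; exact (Ge.one Q).sub h6
      have h8 : val Q (f b) = 1 := by
        rw [e6, val_sub (Ge.one Q) h6, val_of_pos h5, val_one, sub_zero]
      rw [Finset.prod_insert hb]
      refine ⟨(h7.mul h3).mono (by norm_num), ?_⟩
      rw [val_mul h7 h3, h8, h4, one_mul]
  exact key.2

end Ctx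

end Fermat.Agent.CQ
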