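import Fermat.Agent.CQ.Cu2
import Fermat.Agent.CQ.Cu3
import Fermat.Agent.CQ.Xb
import Fermat.Agent.CQ.CmL

/-!
# The chart at infinity of level `q ^ n M`: local equations at the cusps
-/

set_option autoImplicit false
set_option linter.style.haveILetI false
set_option linter.unusedSectionVars false

noncomputable section

namespace Fermat.Agent.CQ

open ModularCurve Polynomial IntermediateField Fermat.Agent.ModPoly Fermat.Agent.Cusp AlgebraicCurve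
open Fermat.Agent.SemiSt Fermat.Agent.HeckeProd Fermat.Agent.Curve
open Fermat.Agent.RedMod Fermat.Agent.Car Fermat.Agent.RR Fermat.Agent.Red Fermat.Agent.PRem
open Fermat.Agent.ThmC Fermat.Agent.Nod Fermat.Agent.CarE

theorem emb_Fa {K Ω : Type*} [Field K] [Field Ω] [Algebra K Ω] {q M n : ℕ} [hq : Fact q.Prime]
    [NeZero M] (a : ℕ) : CarE.emb K Ω (q ^ n * M) (Fa K q M n a) = Fa Ω q M n a := by
  rw [Fa, map_div₀, map_mul, map_pow, map_pow, map_pow, emb_jj', emb_jj', emb_jj', Fa]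

theorem emb_uI {K Ω : Type*} [Field K] [Field Ω] [Algebra K Ω] {q M n : ℕ} [hq : Fact q.Prime]
    [NeZero M] (a : ℕ) : CarE.emb K Ω (q ^ n * M) (uI K q M n a) = uI Ω q M n a := by
  rw [uI, map_mul, map_sub, map_mul, map_pow, map_inv₀, emb_jj', emb_jj', emb_jj', emb_Fa, uI]

theorem regI_pow {k E : Type*} [Field k] [Field E] [Algebra k E] {t x : E} (h : Reg k t x)
    (m : ℕ) : Reg k t (x ^ m) := by
  intro v hv
  exact ((h v hv).pow m).mono (by simp)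

theorem dl_bn {n : ℕ} (a : ℕ) (ha : a ≤ n) : dl n a (dn n a) = dl n a (a - min a (n - a)) := by
  rw [dn, dl, dl]
  split_ifs <;> omega

theorem dl_Fa (n : ℕ) {a : ℕ} (ha : a ≤ n) :
    dl n a 0 + a = dl n a a ∧ dl n a n + (n - a) = dl n a a := by
  rw [dl, dl, dl]
  split_ifs <;> omega

namespace Ctx

variable {R0 K0 A Ω k : Type*} [CommRing R0] [IsDomain R0] [IsDiscreteValuationRing R0]
  [Field K0] [Algebra R0 K0]
  [IsFractionRing R0 K0] [CommRing A] [IsDomain A] [ValuationRing A] [Field Ω]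
  [IsAlgClosed Ω] [CharZero Ω]
  [Algebra A Ω] [IsFractionRing A Ω] [Field k] [Algebra A k] [Algebra K0 Ω] [Algebra R0 A]
  [Algebra R0 k] {q M n : ℕ} [hq : Fact q.Prime] [NeZero M] [CharP k q]
  (X : Ctx R0 K0 A Ω k q M n)

theorem cu_coe_r {j : Fin (n + 1)} {x : FF K0 (q ^ n * M)} {a : LaurentSeries k}
    (h : Rd A (X.mp j x) a) : ((X.cm.comp j).r x : LaurentSeries k) = a := by
  obtain ⟨h1, h2⟩ := h
  rw [← h2]
  exact (X.E j).coe_r (FF k M) (X.res_mem j) h1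

theorem cu_v {j : Fin (n + 1)} {x : FF K0 (q ^ n * M)} {a : LaurentSeries k} {w : LaurentSeries Ω}
    {m : ℕ} (hw : Rd A w a) (ha : a ≠ 0)
    (h : X.mp j x = HahnSeries.C (algebraMap A Ω (X.ϖc j)) ^ m * w) :
    (X.cm.comp j).v x = m :=
  (X.E j).v_nat (FF k M) (X.res_mem j) (hw.isU ha) h

theorem cu_rd {j : Fin (n + 1)} {x : FF K0 (q ^ n * M)} (h : x ∈ (X.cm.comp j).W) :
    Rd A (X.mp j x) ((X.cm.comp j).r x : LaurentSeries k) :=
  ⟨h, ((X.E j).coe_r (FF k M) (X.res_mem j) h).symm⟩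

/-- membership in the chart at infinity -/
theorem mem_invB {x : FF K0 (q ^ n * M)} (h : ∀ j, x ∈ (X.cm.comp j).W)
    (h' : Reg Ω (jj Ω q M n 0 * jj Ω q M n n)⁻¹ (CarE.emb K0 Ω (q ^ n * M) x)) :
    x ∈ X.cm.inv.B := by
  refine ⟨(X.cm.inv.mem_W x).2 h, ?_⟩
  change Reg Ω (CarE.emb K0 Ω (q ^ n * M) (tt K0 q n M)⁻¹) _
  rw [map_inv₀, emb_tt, tt_eq_jj]
  exact h'

theorem regI_iff {x : FF K0 (q ^ n * M)} : Reg Ω (X.cm.inv.emb X.cm.inv.t) (X.cm.inv.emb x) ↔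
    Reg Ω (jj Ω q M n 0 * jj Ω q M n n)⁻¹ (CarE.emb K0 Ω (q ^ n * M) x) := by
  change Reg Ω (CarE.emb K0 Ω (q ^ n * M) (tt K0 q n M)⁻¹) _ ↔ _
  rw [map_inv₀, emb_tt, tt_eq_jj]
  rfl

theorem mem_jj' {i : ℕ} (hi : i ≤ n) (l : Fin (n + 1)) : jj K0 q M n i ∈ (X.cm.comp l).W :=
  X.mem_jj X.res_mem hi l

theorem v_jj' {i : ℕ} (hi : i ≤ n) (l : Fin (n + 1)) : (X.cm.comp l).v (jj K0 q M n i) = 0 :=
  X.v_jj X.res_mem hi l

theorem r_jj' {i : ℕ} (hi : i ≤ n) (l : Fin (n + 1)) :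
    (X.cm.comp l).r (jj K0 q M n i) = jF' k M ^ (q ^ dl n l i) :=
  X.r_jj X.res_mem hi l

theorem v_Fden (a : ℕ) (l : Fin (n + 1)) : (X.cm.comp l).v
    (jj K0 q M n 0 ^ q ^ a * jj K0 q M n n ^ q ^ (n - a)) = 0 := by
  rw [Comp.v_mul _ (pow_ne_zero _ (jj_ne (Nat.zero_le n))) (pow_ne_zero _ (jj_ne le_rfl)),
    Comp.v_pow, Comp.v_pow, X.v_jj' (Nat.zero_le n), X.v_jj' le_rfl, mul_zero, mul_zero, add_zero]

theorem mem_Fa {a : ℕ} (ha : a ≤ n) (l : Fin (n + 1)) : Fa K0 q M n a ∈ (X.cm.comp l).W := by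
  rw [Fa, div_eq_mul_inv]
  exact mul_mem (pow_mem (X.mem_jj' ha l) _)
    (Comp.mem_of_v (by rw [Comp.v_inv, X.v_Fden, neg_zero]))

theorem mem_jinv {i : ℕ} (hi : i ≤ n) (l : Fin (n + 1)) :
    (jj K0 q M n i)⁻¹ ∈ (X.cm.comp l).W :=
  Comp.mem_of_v (by rw [Comp.v_inv, X.v_jj' hi, neg_zero])

theorem jF_ne2 : jF' k M ≠ 0 := jF_ne'

theorem r_Fa_self (a : Fin (n + 1)) : (X.cm.comp a).r (Fa K0 q M n a) = 1 := by
  have ha := Nat.lt_succ_iff.1 a.2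
  have h0 := X.mem_jj' (Nat.zero_le n) a
  have hn := X.mem_jj' (le_refl n) a
  obtain ⟨e1, e2⟩ := dl_Fa n ha
  rw [Fa, Comp.r_div (pow_mem (X.mem_jj' ha a) _) (X.v_Fden a a),
    Comp.r_pow (X.mem_jj' ha a), Comp.r_mul (pow_mem h0 _) (pow_mem hn _), Comp.r_pow h0,
    Comp.r_pow hn, X.r_jj' ha, X.r_jj' (Nat.zero_le n), X.r_jj' le_rfl, ← pow_mul, ← pow_mul,
    ← pow_mul, ← pow_add, ← pow_add, ← pow_add, e1, e2, mul_two]
  exact div_self (pow_ne_zero _ jF_ne2)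

/-- the auxiliary factor -/
def yI (K : Type*) [Field K] (q M n : ℕ) [hq : Fact q.Prime] [NeZero M] (a : ℕ) :
    FF K (q ^ n * M) := Fa K q M n a ^ 2 * (jj K q M n (dn n a))⁻¹

theorem mem_yI {a : ℕ} (ha : a ≤ n) (l : Fin (n + 1)) : yI K0 q M n a ∈ (X.cm.comp l).W :=
  mul_mem (pow_mem (X.mem_Fa ha l) _) (X.mem_jinv (dn_le n a) l)

theorem r_yI_self (a : Fin (n + 1)) : (X.cm.comp a).r (yI K0 q M n a) =
    (jF' k M ^ (q ^ dl n a (a - min (a : ℕ) (n - a))))⁻¹ := by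
  have ha := Nat.lt_succ_iff.1 a.2
  rw [yI, Comp.r_mul (pow_mem (X.mem_Fa ha a) _) (X.mem_jinv (dn_le n a) a),
    Comp.r_pow (X.mem_Fa ha a), X.r_Fa_self, one_pow, one_mul,
    Comp.r_inv (X.v_jj' (dn_le n a) a), X.r_jj' (dn_le n a), dl_bn _ ha]

theorem mem_uI {a : ℕ} (ha : a ≤ n) (l : Fin (n + 1)) : uI K0 q M n a ∈ (X.cm.comp l).W :=
  mul_mem (sub_mem (X.mem_jj' (by omega) l) (X.mem_jj' (by omega) l)) (X.mem_yI ha l)

theorem uI_eq (a : Fin (n + 1)) : uI K0 q M n a = uy K0 (q := q) a (jF' K0 M) *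
    yI K0 q M n a := by
  rw [uy, lev_jF, lev_jF]; rfl

section Chart

variable [IsAlgClosed k] [FunField k (FF k M)] [FunField Ω (FF Ω (q ^ n * M))]

/-- the prime as a function -/
def pF : FF K0 (q ^ n * M) := algebraMap R0 (FF K0 (q ^ n * M)) (q : R0)

theorem v_pF (l : Fin (n + 1)) : (X.cm.comp l).v
    (algebraMap R0 (FF K0 (q ^ n * M)) (q : R0)) = ee q n l := X.cm.v_p l

include X in
theorem pF_ne : algebraMap R0 (FF K0 (q ^ n * M)) (q : R0) ≠ 0 := by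
  intro h0
  have h1 := X.v_pF 0
  rw [h0, Comp.v_zero] at h1
  have := ee_pos q n (0 : Fin (n + 1))
  omega

theorem regI_pinv : Reg Ω (jj Ω q M n 0 * jj Ω q M n n)⁻¹ (CarE.emb K0 Ω (q ^ n * M)
    (algebraMap R0 (FF K0 (q ^ n * M)) (q : R0))⁻¹) := by
  have e1 : CarE.emb K0 Ω (q ^ n * M) (algebraMap R0 (FF K0 (q ^ n * M)) (q : R0))⁻¹ =
      algebraMap Ω _ (algebraMap K0 Ω (algebraMap R0 K0 (q : R0))⁻¹) := by
    rw [map_inv₀, algebraMap_R0, emb_algebraMap, ← map_inv₀, ← map_inv₀]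
  rw [e1]
  exact Reg.algebraMap _ _

include X in
theorem regI_Sa' (a : ℕ) : Reg Ω (jj Ω q M n 0 * jj Ω q M n n)⁻¹
    (CarE.emb K0 Ω (q ^ n * M) (Sa K0 q M n a)) := by
  rw [emb_Sa]; exact regI_Sa X.hco a

theorem mem_Sa' (a : ℕ) (l : Fin (n + 1)) : Sa K0 q M n a ∈ (X.cm.comp l).W :=
  X.mem_Sa X.res_mem a l

/-- the general construction -/
theorem starI_of {a : Fin (n + 1)} {Q : Place k (FF k M)} (hQ : Q.ord (jF' k M) < 0)
    {u : FF K0 (q ^ n * M)} (hu : u ∈ X.cm.inv.B) (hu1 : (X.cm.comp a).v u = 1)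
    (hval : val Q ((X.cm.comp a).r (Sa K0 q M n a ^ (q ^ n) * u ^ ee q n a /
      algebraMap R0 (FF K0 (q ^ n * M)) (q : R0))) ≠ 0) :
    StarAt X.cm.inv a Q := by
  obtain ⟨p, hp⟩ : ∃ p : FF K0 (q ^ n * M), p = algebraMap R0 (FF K0 (q ^ n * M)) (q : R0) :=
    ⟨_, rfl⟩
  have hp0 : p ≠ 0 := by rw [hp]; exact X.pF_ne
  have hvp : ∀ l, (X.cm.comp l).v p = ee q n l := fun l => by rw [hp]; exact X.v_pF l
  rw [← hp] at hval
  obtain ⟨e, he⟩ : ∃ e, ee q n a = e + 1 := ⟨ee q n a - 1, by have := ee_pos q n a; omega⟩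
  have hSv := X.val_Sa X.res_mem a hQ
  have hS1 : val Q ((X.cm.comp a).r (Sa K0 q M n a)) ≠ 0 := by
    change val Q (((X.E a).comp (FF k M) (X.res_mem a)).r (Sa K0 q M n a)) ≠ 0
    rw [hSv]; exact one_ne_zero
  have hS0 : Sa K0 q M n a ≠ 0 := by
    intro h0
    apply hS1
    rw [h0, Comp.r_zero, val_zero]
  have hvS : (X.cm.comp a).v (Sa K0 q M n a) = 0 := by
    rw [← Comp.r_ne_zero_iff hS0]
    intro h0
    apply hS1
    rw [h0, val_zero]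
  have hu0 : u ≠ 0 := by
    intro h0
    rw [h0, Comp.v_zero] at hu1
    exact zero_ne_one hu1
  have huW : ∀ l, (X.cm.comp l).Ge 0 u := fun l => Comp.ge_of_mem (X.cm.inv.memj hu.1 l)
  refine ⟨u, hu, hu1, Sa K0 q M n a ^ (q ^ n) * (u ^ e * p⁻¹), ?_, ?_, ?_, ?_⟩
  · rw [regI_iff, map_mul, map_mul, map_pow, map_pow]
    refine (regI_pow (X.regI_Sa' a) _).mul ((regI_pow ?_ _).mul ?_)
    · exact X.regI_iff.1 hu.2
    · rw [hp]; exact regI_pinv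
  · change (X.cm.comp a).v _ = -1
    rw [Comp.v_mul _ (pow_ne_zero _ hS0) (mul_ne_zero (pow_ne_zero _ hu0) (inv_ne_zero hp0)),
      Comp.v_mul _ (pow_ne_zero _ hu0) (inv_ne_zero hp0), Comp.v_pow, Comp.v_pow, Comp.v_inv, hvS,
      hu1, hvp, he]
    push_cast
    ring
  · intro l hl
    change (X.cm.comp l).Ge 0 _
    have hpg : (X.cm.comp l).Ge (-(ee q n l : ℤ)) p⁻¹ := by
      right
      rw [Comp.v_inv, hvp]
    have h1 : (X.cm.comp l).Ge 1 (Sa K0 q M n a) := X.ge_Sa X.res_mem (fun h => hl (Fin.ext h.symm))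
    refine ((h1.pow (q ^ n)).mul (((huW l).pow e).mul hpg)).mono ?_
    have h2 : ((ee q n l : ℕ) : ℤ) ≤ ((q ^ n : ℕ) : ℤ) := by
      exact_mod_cast ee_le q n l (Nat.lt_succ_iff.1 l.2)
    linarith
  · change val Q ((X.cm.comp a).r (u * (Sa K0 q M n a ^ (q ^ n) * (u ^ e * p⁻¹)))) ≠ 0
    have hxe : u * (Sa K0 q M n a ^ (q ^ n) * (u ^ e * p⁻¹)) =
        Sa K0 q M n a ^ (q ^ n) * u ^ ee q n a / p := by
      rw [he, pow_succ, div_eq_mul_inv]; ring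
    rwa [hxe]

end Chart

end Ctx

end Fermat.Agent.CQ
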