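import Fermat.Agent.CQ.Cu4

/-!
# The chart at infinity of level `q ^ n M` is regular
-/

set_option autoImplicit false
set_option linter.style.haveILetI false
set_option linter.unusedSectionVars false

noncomputable section

namespace Fermat.Agent.CQ

open ModularCurve Polynomial IntermediateField Fermat.Agent.ModPoly Fermat.Agent.Cusp AlgebraicCurve
open Fermat.Agent.SemiSt Fermat.Agent.HeckeProd Fermat.Agent.Curve
open Fermat.Agent.RedMod Fermat.Agent.Car Fermat.Agent.RR Fermat.Agent.Red Fermat.Agent.PRem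
open Fermat.Agent.ThmC Fermat.Agent.Nod Fermat.Agent.CarE

namespace Ctx

variable {R0 K0 A Ω k : Type*} [CommRing R0] [IsDomain R0] [IsDiscreteValuationRing R0]
  [Field K0] [Algebra R0 K0]
  [IsFractionRing R0 K0] [CommRing A] [IsDomain A] [ValuationRing A] [Field Ω]
  [IsAlgClosed Ω] [CharZero Ω]
  [Algebra A Ω] [IsFractionRing A Ω] [Field k] [Algebra A k] [Algebra K0 Ω] [Algebra R0 A]
  [Algebra R0 k] {q M n : ℕ} [hq : Fact q.Prime] [NeZero M] [CharP k q]
  (X : Ctx R0 K0 A Ω k q M n)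
  [IsAlgClosed k] [FunField k (FF k M)] [FunField Ω (FF Ω (q ^ n * M))]

/-- the cusps of the outer components -/
theorem starI_outer {a : Fin (n + 1)} (hμ : min (a : ℕ) (n - a) = 0) {Q : Place k (FF k M)}
    (hQ : Q.ord (jF' k M) < 0) : StarAt X.cm.inv a Q := by
  have hee : ee q n a = 1 := by rw [ee, hμ, pow_zero, Nat.totient_one]
  have hp0 := X.pF_ne
  refine X.starI_of hQ (u := algebraMap R0 (FF K0 (q ^ n * M)) (q : R0))
    (X.cm.inv.algebraMap_mem_B (q : R0)) ?_ ?_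
  · rw [X.v_pF, hee, Nat.cast_one]
  · rw [hee, pow_one, mul_div_assoc, div_self hp0, mul_one, Comp.r_pow (X.mem_Sa' a a)]
    have h1 : val Q ((X.cm.comp a).r (Sa K0 q M n a)) = 1 := X.val_Sa X.res_mem a hQ
    rw [val_pow (ge_of_val_ne (by rw [h1]; exact one_ne_zero)), h1, one_pow]
    exact one_ne_zero

/-- the cusps of the middle components -/
theorem starI_mid {a : Fin (n + 1)} (hμ : min (a : ℕ) (n - a) ≠ 0) {Q : Place k (FF k M)}
    (hQ : Q.ord (jF' k M) < 0) : StarAt X.cm.inv a Q := by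
  have ha := Nat.lt_succ_iff.1 a.2
  obtain ⟨W, th, hW, hth, hφ⟩ := X.mp_uy hμ
    (CarM.rd_jF (K0 := K0) (A := A) (Ω := Ω) (k := k) (M := M))
  set s := dl n a (a - min (a : ℕ) (n - a)) with hs
  have hJ0 : jF' k M ≠ 0 := jF_ne2
  set Y := (X.cm.comp a).r (yI K0 q M n a) with hYdef
  have hYe : Y = (jF' k M ^ (q ^ s))⁻¹ := X.r_yI_self a
  have hY0 : Y ≠ 0 := by rw [hYe]; exact inv_ne_zero (pow_ne_zero _ hJ0)
  have hYc : (Y : LaurentSeries k) ≠ 0 := fun h => hY0 (Subtype.ext h)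
  have hYo : Q.ord Y = -((q : ℤ) ^ s * Q.ord (jF' k M)) := by
    rw [hYe, Q.ord_inv, ord_pow]; push_cast; ring
  have hRy := X.cu_rd (X.mem_yI ha a)
  rw [← hYdef] at hRy
  have hRs := X.cu_rd (X.mem_Sa' a a)
  set S := (X.cm.comp a).r (Sa K0 q M n a) with hSdef
  have hSv : val Q S = 1 := X.val_Sa X.res_mem a hQ
  have hthne : th ≠ 0 := by
    rintro rfl
    rw [zero_pow (by norm_num)] at hth
    exact (pow_ne_zero 6 theta_jq_ne) ((map_eq_zero (qExpand k (q ^ s))).1 hth.symm)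
  have hRu := hW.mul hRy
  have hφu : X.mp a (uI K0 q M n a) = HahnSeries.C (algebraMap A Ω (X.ϖc a)) *
      (W * X.mp a (yI K0 q M n a)) := by
    rw [uI_eq, map_mul, hφ, mul_assoc]
  have hu1 : (X.cm.comp a).v (uI K0 q M n a) = 1 := by
    have := X.cu_v (m := 1) hRu (mul_ne_zero hthne hYc) (by rw [hφu, pow_one])
    exact_mod_cast this
  refine X.starI_of hQ (u := uI K0 q M n a)
    (X.mem_invB (fun j => X.mem_uI ha j) (by rw [emb_uI]; exact regI_uI X.hco ha)) hu1 ?_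
  obtain ⟨ε, hε, heq⟩ := X.q_eq a
  have hcc : (HahnSeries.C (algebraMap A Ω (X.ϖc a)) : LaurentSeries Ω) ≠ 0 := by
    apply HahnSeries.C_ne_zero
    rw [Ne, IsFractionRing.to_map_eq_zero_iff]
    exact X.ϖc_ne a
  have hφp : X.mp a (algebraMap R0 (FF K0 (q ^ n * M)) (q : R0)) =
      HahnSeries.C (algebraMap A Ω (X.ϖc a)) ^ ee q n a * HahnSeries.C (algebraMap A Ω ε) := by
    have h1 := X.hasL_const (M := M) (q : R0) a
    rw [map_natCast (algebraMap R0 A), coeffMap_C, heq, map_mul, map_pow, map_mul, map_pow] at h1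
    exact h1
  have hφx : X.mp a (Sa K0 q M n a ^ (q ^ n) * uI K0 q M n a ^ ee q n a /
      algebraMap R0 (FF K0 (q ^ n * M)) (q : R0)) =
      X.mp a (Sa K0 q M n a) ^ (q ^ n) * (W * X.mp a (yI K0 q M n a)) ^ ee q n a /
        HahnSeries.C (algebraMap A Ω ε) := by
    rw [map_div₀, map_mul, map_pow, map_pow, hφu, hφp, mul_pow, mul_left_comm,
      mul_div_mul_left _ _ (pow_ne_zero _ hcc)]
  have hCε : (HahnSeries.C (algebraMap A k ε) : LaurentSeries k) ≠ 0 := HahnSeries.C_ne_zero hε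
  have hRd := ((hRs.pow (q ^ n)).mul (hRu.pow (ee q n a))).div
    (Rd.C (K := Ω) (k := k) ε) hCε
  rw [← hφx] at hRd
  have hSn : val Q (S ^ (q ^ n)) ≠ 0 := by
    rw [val_pow (ge_of_val_ne (by rw [hSv]; exact one_ne_zero)), hSv, one_pow]
    exact one_ne_zero
  refine val_res_cusp (s := s) (μ := min (a : ℕ) (n - a)) X.hM hQ hμ hε hSn hth hY0 hYo ?_
  rw [SubmonoidClass.coe_pow]
  exact X.cu_coe_r hRd

/-- **local equations at the cusps** -/
theorem starI (a : Fin (n + 1)) {Q : Place k (FF k M)}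
    (hQ : Q.ord (jF' k M) < 0) : StarAt X.cm.inv a Q := by
  by_cases hμ : min (a : ℕ) (n - a) = 0
  · exact X.starI_outer hμ hQ
  · exact X.starI_mid hμ hQ

/-- **the chart at infinity is regular** -/
theorem good_inv (H : X.cm.Good)
    (hsurj : ∀ (j : Fin (n + 1)) (x : FF k M), Reg k (X.cm.inv.tb j) x →
      ∃ y ∈ X.cm.inv.B, (X.cm.inv.comp j).r y = x) :
    X.cm.inv.Good where
  surj := hsurj
  star := by
    haveI := X.B.alg
    intro j Q hQ
    rw [CModel.tb_inv, Q.ord_inv, neg_nonneg] at hQ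
    rcases hQ.eq_or_lt with h | h
    · exact CModel.star_inv H h
    · have h' : Q.ord (jF' k M) < 0 := (X.ord_tb_neg j Q).1 h
      refine ⟨j, Q, ?_, fun x _ => rfl, X.starI j h'⟩
      rw [CModel.tb_inv, Q.ord_inv, neg_nonneg]
      exact hQ

end Ctx

end Fermat.Agent.CQ
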