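import Fermat.Agent.CarE.Deg
import Fermat.Agent.RR.LevelH

/-!
# The degree of the modular function field over the field generated by `j_0 * j_n`
-/

set_option autoImplicit false
set_option linter.style.haveILetI false
set_option linter.unusedSectionVars false

noncomputable section

namespace Fermat.Agent.CQ

open Module ModularCurve AlgebraicCurve Polynomial IntermediateField Fermat.Agent.ModPoly
  Fermat.Agent.Cusp Fermat.Agent.SemiSt Fermat.Agent.Curve Fermat.Agent.RR

section Gen

variable {K F : Type*} [Field K] [IsAlgClosed K] [Field F] [Algebra K F] [hF : FunField K F]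

theorem poleDiv_mul_le' (f g : F) : poleDiv K (f * g) ≤ poleDiv K f + poleDiv K g := by
  intro v
  rw [Finsupp.add_apply, poleDiv_apply, poleDiv_apply, poleDiv_apply]
  rcases eq_or_ne f 0 with rfl | hf
  · rw [zero_mul, v.ord_zero]; simp
  rcases eq_or_ne g 0 with rfl | hg
  · rw [mul_zero, v.ord_zero]; simp
  rw [v.ord_mul hf hg]
  omega

/-- the degree over the field generated by a product -/
theorem finrank_mul_le {f g : F} (hf : Transcendental K f) (hg : Transcendental K g)
    (hfg : Transcendental K (f * g)) :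
    finrank K⟮f * g⟯ F ≤ finrank K⟮f⟯ F + finrank K⟮g⟯ F := by
  have h1 := degree_mono (poleDiv_mul_le' (K := K) f g)
  rw [map_add, degree_poleDiv hf, degree_poleDiv hg, degree_poleDiv hfg] at h1
  exact_mod_cast h1

end Gen

section Deg

variable {k : Type*} [Field k] [IsAlgClosed k] {q n M : ℕ} [hq : Fact q.Prime]
  [NeZero M]

theorem dvd_z (q n M : ℕ) [Fact q.Prime] : ((1 : ℕ+) : ℕ) ∣ q ^ n * M := by
  rw [PNat.one_coe]; exact one_dvd _

theorem dvd_n (q n M : ℕ) [Fact q.Prime] : ((pp q ^ n : ℕ+) : ℕ) ∣ q ^ n * M := by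
  rw [PNat.pow_coe, coe_pp]
  exact dvd_mul_right _ _

variable (k q n M) in
/-- the parameter `j_0 * j_n` -/
def tt : FF k (q ^ n * M) := jm k 1 (dvd_z q n M) * jm k (pp q ^ n) (dvd_n q n M)

/-- `w j_0 = j_n` -/
theorem wq_jm_one (hN : ((q ^ n * M : ℕ) : k) ≠ 0) (hco : (q ^ n).Coprime M) :
    wq hN hco (jm k 1 (dvd_z q n M)) = jm k (pp q ^ n) (dvd_n q n M) := by
  have h4 := wq_jm hN hco (r := 1) (r' := pp q ^ n) (d := 1)
    (by rw [PNat.one_coe, one_mul, PNat.pow_coe, coe_pp]) (by rw [PNat.one_coe]; exact one_dvd _)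
    (by rw [mul_one]; exact dvd_z q n M) (by rw [mul_one]; exact dvd_n q n M)
  simp only [mul_one] at h4
  exact h4

theorem wq_jm_n (hN : ((q ^ n * M : ℕ) : k) ≠ 0) (hco : (q ^ n).Coprime M) :
    wq hN hco (jm k (pp q ^ n) (dvd_n q n M)) = jm k 1 (dvd_z q n M) := by
  rw [← wq_jm_one hN hco, wq_wq]

/-- the parameter is invariant -/
theorem wq_tt (hN : ((q ^ n * M : ℕ) : k) ≠ 0) (hco : (q ^ n).Coprime M) :
    wq hN hco (tt k q n M) = tt k q n M := by
  change wq hN hco (jm k 1 (dvd_z q n M) * jm k (pp q ^ n) (dvd_n q n M)) =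
    jm k 1 (dvd_z q n M) * jm k (pp q ^ n) (dvd_n q n M)
  rw [map_mul]
  exact (congrArg₂ (· * ·) (wq_jm_one hN hco) (wq_jm_n hN hco)).trans (mul_comm _ _)

theorem coe_tt : ((tt k q n M : FF k (q ^ n * M)) : LaurentSeries k) = Jc 1 1 * Jc 1 (pp q ^ n) :=
  rfl

theorem order_tt : ((tt k q n M : FF k (q ^ n * M)) : LaurentSeries k).order =
    -1 - (q : ℤ) ^ n := by
  have h1 : (Jc 1 1 : LaurentSeries k) ≠ 0 := fun h => by
    have := order_Jc (k := k) 1 1
    rw [h, HahnSeries.order_zero, PNat.one_coe] at this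
    simp at this
  have h2 : (Jc 1 (pp q ^ n) : LaurentSeries k) ≠ 0 := fun h => by
    have := order_Jc (k := k) 1 (pp q ^ n)
    rw [h, HahnSeries.order_zero] at this
    have h3 := (pp q ^ n).pos
    omega
  rw [coe_tt, HahnSeries.order_mul h1 h2, order_Jc, order_Jc, PNat.pow_coe, coe_pp, PNat.one_coe]
  push_cast
  ring

theorem transcendental_of_order {N : ℕ} [NeZero N] (_hN : (N : k) ≠ 0) {x : FF k N}
    (hx : (x : LaurentSeries k).order ≠ 0) : Transcendental k x := by
  intro h
  obtain ⟨a, ha⟩ := mem_range_of_isAlgebraic h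
  apply hx
  have h1 : (x : LaurentSeries k) = algebraMap k (LaurentSeries k) a :=
    (congrArg (fun x : FF k N => (x : LaurentSeries k)) ha).symm
  rw [h1, algebraMap_eq_C, HahnSeries.order_C]

instance neZero_level : NeZero (q ^ n * M) :=
  ⟨mul_ne_zero (pow_ne_zero _ hq.out.ne_zero) (NeZero.ne M)⟩

theorem transcendental_tt (hN : ((q ^ n * M : ℕ) : k) ≠ 0) :
    Transcendental k (tt k q n M) := by
  refine transcendental_of_order hN ?_
  rw [order_tt]
  have : (0 : ℤ) ≤ (q : ℤ) ^ n := by positivity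
  omega

theorem transcendental_jm {N : ℕ} [NeZero N] (hN : (N : k) ≠ 0) (d : ℕ+) (hd : (d : ℕ) ∣ N) :
    Transcendental k (jm k d hd) := by
  refine transcendental_of_order hN ?_
  change (Jc 1 d : LaurentSeries k).order ≠ 0
  rw [order_Jc]
  have := d.pos
  omega

theorem finrank_z (hN : ((q ^ n * M : ℕ) : k) ≠ 0) :
    finrank k⟮jm k 1 (dvd_z q n M)⟯ (FF k (q ^ n * M)) = dedekindPsi (q ^ n * M) :=
  finrank_E' hN

theorem finrank_n (hN : ((q ^ n * M : ℕ) : k) ≠ 0) (hco : (q ^ n).Coprime M) :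
    finrank k⟮jm k (pp q ^ n) (dvd_n q n M)⟯ (FF k (q ^ n * M)) = dedekindPsi (q ^ n * M) := by
  have h5 := CarE.finrank_transport (wq hN hco) (jm k 1 (dvd_z q n M))
  rw [finrank_z hN] at h5
  rw [h5, wq_jm_one]

/-- the degree over the field generated by the parameter -/
theorem finrank_tt_le (hN : ((q ^ n * M : ℕ) : k) ≠ 0) (hco : (q ^ n).Coprime M) :
    finrank k⟮tt k q n M⟯ (FF k (q ^ n * M)) ≤ 2 * dedekindPsi (q ^ n * M) := by
  haveI := funField_FF hN
  have h := finrank_mul_le (transcendental_jm hN 1 (dvd_z q n M))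
    (transcendental_jm hN (pp q ^ n) (dvd_n q n M)) (transcendental_tt hN)
  rw [finrank_z hN, finrank_n hN hco] at h
  rw [two_mul]
  exact h

theorem finiteDimensional_tt (hN : ((q ^ n * M : ℕ) : k) ≠ 0) :
    FiniteDimensional k⟮tt k q n M⟯ (FF k (q ^ n * M)) := by
  haveI := funField_FF hN
  exact fd (transcendental_tt hN)

/-- a family of too many elements is dependent over the polynomials in the parameter -/
theorem exists_dep (hN : ((q ^ n * M : ℕ) : k) ≠ 0) (hco : (q ^ n).Coprime M)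
    {I : Type*} [Fintype I] (hI : 2 * dedekindPsi (q ^ n * M) < Fintype.card I)
    (v : I → FF k (q ^ n * M)) :
    ∃ P : I → k[X], P ≠ 0 ∧ ∑ i, aeval (tt k q n M) (P i) * v i = 0 := by
  haveI := finiteDimensional_tt (k := k) (q := q) (n := n) (M := M) hN
  exact CarE.exists_dep_gen (tt k q n M) (transcendental_tt hN)
    ((finrank_tt_le hN hco).trans_lt hI) v

end Deg

end Fermat.Agent.CQ
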