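import Fermat.Agent.CarE.Emb1

/-!
# The embeddings of the modular function field of level `q ^ n M` at the components
-/

set_option autoImplicit false
set_option linter.style.haveILetI false
set_option linter.unusedSectionVars false

noncomputable section

namespace Fermat.Agent.CQ

open ModularCurve Polynomial IntermediateField Fermat.Agent.ModPoly Fermat.Agent.Cusp AlgebraicCurve
open Fermat.Agent.SemiSt Fermat.Agent.CarE

variable {k : Type*} [Field k] [IsAlgClosed k] {q M : ℕ} [hq : Fact q.Prime] [NeZero M]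

theorem gcd_pow (hco : q.Coprime M) (i a : ℕ) {d : ℕ} (hd : d ∣ M) :
    Nat.gcd (q ^ i * d) (q ^ a * M) = q ^ (min i a) * d := by
  rcases le_total i a with h | h
  · rw [min_eq_left h]
    exact Nat.gcd_eq_left (mul_dvd_mul (pow_dvd_pow q h) hd)
  · obtain ⟨t, rfl⟩ := Nat.exists_eq_add_of_le h
    rw [min_eq_right h, pow_add, mul_assoc, Nat.gcd_mul_left,
      Nat.Coprime.gcd_mul_left_cancel _ (hco.pow_left t), Nat.gcd_eq_left hd]

theorem psi_pow (hco : q.Coprime M) {n a : ℕ} (ha : 1 ≤ a) (han : a ≤ n) :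
    dedekindPsi (q ^ n * M) = q ^ (n - a) * dedekindPsi (q ^ a * M) := by
  have hM := NeZero.ne M
  rw [dedekindPsi_mul_coprime (pow_ne_zero n hq.out.ne_zero) M hM (hco.pow_left n),
    dedekindPsi_mul_coprime (pow_ne_zero a hq.out.ne_zero) M hM (hco.pow_left a)]
  obtain ⟨a', rfl⟩ : ∃ a', a = a' + 1 := ⟨a - 1, by omega⟩
  obtain ⟨n', rfl⟩ : ∃ n', n = n' + 1 := ⟨n - 1, by omega⟩
  rw [dedekindPsi_prime_pow hq.out, dedekindPsi_prime_pow hq.out]
  have : q ^ n' = q ^ (n' + 1 - (a' + 1)) * q ^ a' := by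
    rw [← pow_add]; congr 1; omega
  rw [this]
  ring

theorem card_dvd_pow (hco : q.Coprime M) {n a : ℕ} (hN : ((q ^ n * M : ℕ) : k) ≠ 0) (ha : 1 ≤ a)
    (han : a ≤ n) [Fintype (Emb k (q ^ n * M))] :
    (Finset.univ.filter fun τ : Emb k (q ^ n * M) => q ^ a * M ∣ τ.s).card = q ^ (n - a) := by
  have hF := fam (k := k) (N := q ^ n * M) hN
  have h1 := hF.card_dvd (NeZero.pos _) (q ^ a * M) (mul_dvd_mul (pow_dvd_pow q han) dvd_rfl)
  rw [psi_pow hco ha han, mul_comm (q ^ (n - a))] at h1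
  exact Nat.eq_of_mul_eq_mul_left (dedekindPsi_pos (NeZero.pos _)) h1

theorem card_mid {n a b : ℕ} (hN : ((q ^ n * M : ℕ) : k) ≠ 0) (hco : q.Coprime M)
    (hab : a + b = n) (ha : 1 ≤ a) [Fintype (Emb k (q ^ n * M))] :
    (Finset.univ.filter fun τ : Emb k (q ^ n * M) => τ.s = q ^ a * M).card = (q ^ b).totient := by
  classical
  have hF := fam (k := k) (N := q ^ n * M) hN
  have h1 := card_dvd_pow hco hN ha (a := a) (by omega)
  rcases Nat.eq_zero_or_pos b with rfl | hb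
  · obtain rfl : a = n := by omega
    rw [pow_zero, Nat.totient_one]
    rw [Nat.sub_self, pow_zero] at h1
    rw [← h1]
    congr 1
    ext τ
    simp only [Finset.mem_filter, Finset.mem_univ, true_and]
    constructor
    · intro h; rw [h]
    · intro h
      refine Nat.dvd_antisymm ?_ h
      exact hF.dvd τ
  have h2 := card_dvd_pow hco hN (a := a + 1) (by omega) (by omega)
  have h3 : (Finset.univ.filter fun τ : Emb k (q ^ n * M) => q ^ a * M ∣ τ.s) =
      (Finset.univ.filter fun τ : Emb k (q ^ n * M) => τ.s = q ^ a * M) ∪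
      (Finset.univ.filter fun τ : Emb k (q ^ n * M) => q ^ (a + 1) * M ∣ τ.s) := by
    ext τ
    simp only [Finset.mem_filter, Finset.mem_univ, true_and, Finset.mem_union]
    constructor
    · intro h
      obtain ⟨c, hc⟩ := h
      have h4 := hF.dvd τ
      rw [hc] at h4
      have h5 : c ∣ q ^ b := by
        apply Nat.dvd_of_mul_dvd_mul_left (NeZero.pos (q ^ a * M))
        rw [show q ^ a * M * q ^ b = q ^ n * M by rw [← hab, pow_add]; ring]
        exact h4
      obtain ⟨i, hi, rfl⟩ := (Nat.dvd_prime_pow hq.out).1 h5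
      rcases Nat.eq_zero_or_pos i with rfl | hi0
      · left; rw [hc, pow_zero, mul_one]
      · right
        rw [hc]
        obtain ⟨i', rfl⟩ : ∃ i', i = i' + 1 := ⟨i - 1, by omega⟩
        exact ⟨q ^ i', by ring⟩
    · rintro (h | h)
      · rw [h]
      · exact (mul_dvd_mul (pow_dvd_pow q (Nat.le_succ a)) dvd_rfl).trans h
  have h4 : Disjoint (Finset.univ.filter fun τ : Emb k (q ^ n * M) => τ.s = q ^ a * M)
      (Finset.univ.filter fun τ : Emb k (q ^ n * M) => q ^ (a + 1) * M ∣ τ.s) := by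
    rw [Finset.disjoint_filter]
    intro τ _ h5 h6
    rw [h5] at h6
    have h7 := Nat.le_of_dvd (NeZero.pos _) h6
    have h8 := hq.out.one_lt
    have h9 := NeZero.pos (q ^ a * M)
    rw [pow_succ] at h7
    nlinarith
  rw [h3, Finset.card_union_of_disjoint h4, h2] at h1
  rw [Nat.totient_prime_pow hq.out hb]
  have e1 : q ^ (n - a) = q ^ (b - 1) * q := by rw [← pow_succ]; congr 1; omega
  have e2 : n - (a + 1) = b - 1 := by omega
  rw [e1, e2] at h1
  rw [Nat.mul_sub, mul_one]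
  omega

theorem coe_qd (i : ℕ) (d : ℕ+) : ((pp q ^ i * d : ℕ+) : ℕ) = q ^ i * d := by
  rw [PNat.mul_coe, PNat.pow_coe, coe_pp]

theorem dvd_qd {n i : ℕ} (hi : i ≤ n) {d : ℕ+} (hd : (d : ℕ) ∣ M) :
    ((pp q ^ i * d : ℕ+) : ℕ) ∣ q ^ n * M := by
  rw [coe_qd]
  exact mul_dvd_mul (pow_dvd_pow q hi) hd

theorem div_cases (hco : q.Coprime M) {n : ℕ} {m : ℕ+} (hm : (m : ℕ) ∣ q ^ n * M) :
    ∃ (i : ℕ) (d : ℕ+), i ≤ n ∧ (d : ℕ) ∣ M ∧ m = pp q ^ i * d := by
  haveI : NeZero (q ^ n) := ⟨pow_ne_zero n hq.out.ne_zero⟩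
  obtain ⟨r, r', d, rfl, hr, hd⟩ := exists_factor (hco.pow_left n) (NeZero.pos (q ^ n)) hm
  have h1 : (r : ℕ) ∣ q ^ n := ⟨r', hr.symm⟩
  obtain ⟨i, hi, hi'⟩ := (Nat.dvd_prime_pow hq.out).1 h1
  refine ⟨i, d, hi, hd, ?_⟩
  congr 1
  exact PNat.eq (by rw [hi', PNat.pow_coe, coe_pp])

/-- the data of an embedding -/
theorem data_mid {n a b : ℕ} (hN : ((q ^ n * M : ℕ) : k) ≠ 0) (hco : q.Coprime M)
    (hab : a + b = n) (hba : b ≤ a)
    (τ : Emb k (q ^ n * M)) (hτ : τ.s = q ^ a * M) :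
    ∃ z : kˣ, IsPrimitiveRoot z (q ^ b) ∧ ∀ (d : ℕ+) (_ : (d : ℕ) ∣ M) (i : ℕ) (_ : i ≤ n)
      (h : ((pp q ^ i * d : ℕ+) : ℕ) ∣ q ^ n * M), τ.1 (jm k (pp q ^ i * d) h) =
        if i ≤ a then Jc 1 (pn (q ^ n * M) * (pp q ^ i * d))
        else Jc (z ^ (q ^ (n - i) * (d : ℕ))) (pn (q ^ n * M) * (pp q ^ (2 * a - i) * d)) := by
  obtain ⟨c, e, κ, h⟩ := τ.exists_data' hN
  rw [hτ] at h
  have hup : ∀ (p : ℕ) [Fact p.Prime] (m : ℕ+) (_ : ((pp p * m : ℕ+) : ℕ) ∣ q ^ n * M),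
      Nat.gcd (pp p * m : ℕ+) (q ^ a * M) ≠ Nat.gcd m (q ^ a * M) →
        c (pp p * m : ℕ+) = c m ^ p := by
    intro p _ m hpm hne
    have hm := ppm_dvd hpm
    have h3 := h (pp p * m) hpm
    rcases (h m hm).next (p := p) hpm with ⟨κ', h'⟩ | ⟨c', e', κ', hc', -, h'⟩
    · exact (h3.unique h').2
    · exact absurd (h3.unique_s h') hne
  have hdown : ∀ (p : ℕ) [Fact p.Prime] (m : ℕ+) (_ : ((pp p * m : ℕ+) : ℕ) ∣ q ^ n * M),
      Nat.gcd (pp p * m : ℕ+) (q ^ a * M) = Nat.gcd m (q ^ a * M) →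
        c (pp p * m : ℕ+) ^ p = c m := by
    intro p _ m hpm hne
    have hm := ppm_dvd hpm
    have h3 := h (pp p * m) hpm
    rcases (h m hm).next (p := p) hpm with ⟨κ', h'⟩ | ⟨c', e', κ', hc', -, h'⟩
    · exfalso
      have h4 := h3.unique_s h'
      rw [hne] at h4
      have h5 : 0 < Nat.gcd m (q ^ a * M) := Nat.gcd_pos_of_pos_left _ m.pos
      have h6 := (Fact.out : p.Prime).one_lt
      nlinarith
    · rw [(h3.unique h').2, hc']
  have hc1 : c 1 = 1 := by
    have := τ.c_one (h 1 (one_dvd _)).map_j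
    exact this.1
  have h1M : ((1 : ℕ+) : ℕ) ∣ M := by rw [PNat.one_coe]; exact one_dvd M
  have hq1 := hq.out.one_lt
  -- the increasing part
  have hcs : ∀ i, i ≤ a → c (pp q ^ i * 1 : ℕ+) = 1 := by
    intro i
    induction i with
    | zero => intro _; rw [pow_zero, one_mul]; exact hc1
    | succ i ih =>
      intro hi
      have hdv : ((pp q * (pp q ^ i * 1) : ℕ+) : ℕ) ∣ q ^ n * M := by
        rw [← mul_assoc, ← pow_succ']
        exact dvd_qd (by omega) h1M
      rw [pow_succ', mul_assoc, hup q _ hdv, ih (by omega), one_pow]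
      rw [← mul_assoc, ← pow_succ', coe_qd, coe_qd, gcd_pow hco _ _ h1M, gcd_pow hco _ _ h1M,
        min_eq_left hi, min_eq_left (by omega : i ≤ a)]
      intro h8
      have h9 := Nat.eq_of_mul_eq_mul_right (1 : ℕ+).pos h8
      exact absurd (Nat.pow_right_injective hq.out.two_le h9) (by omega)
  -- the decreasing part
  obtain ⟨z, hz⟩ : ∃ z, z = c (pp q ^ n * 1 : ℕ+) := ⟨_, rfl⟩
  have hcd1 : ∀ t, t ≤ b → c (pp q ^ (n - t) * 1 : ℕ+) = z ^ q ^ t := by
    intro t
    induction t with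
    | zero => intro _; rw [Nat.sub_zero, pow_zero, pow_one, hz]
    | succ t ih =>
      intro ht
      have e1 : n - t = (n - (t + 1)) + 1 := by omega
      have hdv : ((pp q * (pp q ^ (n - (t + 1)) * 1) : ℕ+) : ℕ) ∣ q ^ n * M := by
        rw [← mul_assoc, ← pow_succ', ← e1]
        exact dvd_qd (by omega) h1M
      have h3 := hdown q _ hdv (by
        rw [← mul_assoc, ← pow_succ', coe_qd, coe_qd, gcd_pow hco _ _ h1M, gcd_pow hco _ _ h1M,
          min_eq_right (by omega), min_eq_right (by omega)])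
      rw [← h3, ← mul_assoc, ← pow_succ', ← e1, ih (by omega), ← pow_mul, ← pow_succ]
  have hcd : ∀ i, i ≤ n → ∀ d : ℕ+, (d : ℕ) ∣ M → c (pp q ^ i * d : ℕ+) =
      c (pp q ^ i * 1 : ℕ+) ^ (d : ℕ) := by
    intro i hi d
    induction d using pnat_prime_induction with
    | h1 => intro _; rw [PNat.one_coe, pow_one]
    | h2 p m ih =>
      intro hd
      have hm : (m : ℕ) ∣ M := (Dvd.intro_left p (by simp)).trans hd
      have e1 : pp q ^ i * (pp p * m) = pp p * (pp q ^ i * m) := by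
        rw [← mul_assoc, mul_comm _ (pp p), mul_assoc (pp p)]
      have h1 : ((pp q ^ i * (pp p * m) : ℕ+) : ℕ) ∣ q ^ n * M := dvd_qd hi hd
      rw [e1] at h1
      rw [e1, hup p (pp q ^ i * m) h1, ih hm, ← pow_mul]
      · congr 1
        rw [PNat.mul_coe, coe_pp, mul_comm]
      · rw [← e1, coe_qd, coe_qd, gcd_pow hco _ _ hd, gcd_pow hco _ _ hm]
        have h6 := (Fact.out : p.Prime).one_lt
        have h7 := m.pos
        intro h9
        have h10 := Nat.eq_of_mul_eq_mul_left (pow_pos hq.out.pos _) h9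
        rw [PNat.mul_coe, coe_pp] at h10
        nlinarith
  have hzb : z ^ q ^ b = 1 := by
    rw [← hcd1 b le_rfl, show n - b = a by omega]
    exact hcs a le_rfl
  -- the exponents
  have key : ∀ (i : ℕ) (_ : i ≤ n) (d : ℕ+) (_ : (d : ℕ) ∣ M)
      (h' : ((pp q ^ i * d : ℕ+) : ℕ) ∣ q ^ n * M), τ.1 (jm k (pp q ^ i * d) h') =
      Jc (c (pp q ^ i * d : ℕ+)) (pn (q ^ n * M) * (pp q ^ (2 * min i a - i) * d)) := by
    intro i hi d hd h'
    have h1 : τ.1 (jm k (pp q ^ i * d) h') = Jc (c (pp q ^ i * d : ℕ+)) (e (pp q ^ i * d : ℕ+)) :=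
      (h _ h').map_j
    have h2 : e (pp q ^ i * d : ℕ+) = pn (q ^ n * M) * (pp q ^ (2 * min i a - i) * d) := by
      apply PNat.eq
      apply Nat.eq_of_mul_eq_mul_right (pp q ^ i * d).pos
      rw [(h _ h').mul_eq, coe_qd, gcd_pow hco _ _ hd, PNat.mul_coe, coe_qd, coe_pn]
      have e2 : 2 * min i a - i + i = 2 * min i a := by
        rcases le_total i a with h | h
        · rw [min_eq_left h]; omega
        · rw [min_eq_right h]; omega
      calc q ^ n * M * (q ^ min i a * ↑d) ^ 2 = q ^ n * M * (q ^ (2 * min i a) * (d * d)) := by ring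
        _ = q ^ n * M * (q ^ (2 * min i a - i + i) * (d * d)) := by rw [e2]
        _ = _ := by rw [pow_add]; ring
    rw [h1, h2]
  refine ⟨z, ?_, fun d hd i hi h' => ?_⟩
  · rcases Nat.eq_zero_or_pos b with rfl | hb
    · rw [pow_zero, pow_one] at hzb
      rw [pow_zero, hzb]
      exact IsPrimitiveRoot.one
    obtain ⟨b', rfl⟩ : ∃ b', b = b' + 1 := ⟨b - 1, by omega⟩
    have hne : z ^ q ^ b' ≠ 1 := by
      intro hz1
      have hdv1 : ((pp q ^ (a + 1) * 1 : ℕ+) : ℕ) ∣ q ^ n * M := dvd_qd (by omega) h1M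
      have hdv2 : ((pp q ^ (a - 1) * 1 : ℕ+) : ℕ) ∣ q ^ n * M := dvd_qd (by omega) h1M
      have h1 := key (a + 1) (by omega) 1 h1M hdv1
      have h2 := key (a - 1) (by omega) 1 h1M hdv2
      have h3 := hcd1 b' (by omega)
      rw [show n - b' = a + 1 by omega, hz1] at h3
      rw [h3, min_eq_right (by omega), show 2 * a - (a + 1) = a - 1 by omega] at h1
      rw [hcs (a - 1) (by omega), min_eq_left (by omega),
        show 2 * (a - 1) - (a - 1) = a - 1 by omega] at h2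
      have h4 := τ.1.toRingHom.injective (h1.trans h2.symm)
      have h5 := congrArg (fun x : FF k (q ^ n * M) => (x : LaurentSeries k)) h4
      have h6 : (Jc 1 (pp q ^ (a + 1) * 1) : LaurentSeries k) = Jc 1 (pp q ^ (a - 1) * 1) := h5
      have h7 := Jc_inj_e h6
      have h8 := congrArg (fun x : ℕ+ => (x : ℕ)) h7
      simp only [mul_one, PNat.pow_coe, coe_pp] at h8
      exact absurd (Nat.pow_right_injective hq.out.two_le h8) (by omega)
    have h1 : orderOf z = q ^ (b' + 1) := orderOf_eq_prime_pow hne hzb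
    rw [← h1]
    exact IsPrimitiveRoot.orderOf z
  · rw [key i hi d hd h', hcd i hi d hd]
    split_ifs with hia
    · rw [hcs i hia, one_pow, min_eq_left hia, show 2 * i - i = i by omega]
    · have h3 := hcd1 (n - i) (by omega)
      rw [show n - (n - i) = i by omega] at h3
      rw [h3, min_eq_right (by omega), ← pow_mul]

theorem Z_finite (m : ℕ) (hm : 0 < m) : Finite {z : kˣ // IsPrimitiveRoot z m} := by
  haveI : NeZero m := ⟨hm.ne'⟩
  refine Finite.of_injective (β := rootsOfUnity m k)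
    (fun z => ⟨z.1, (mem_rootsOfUnity _ _).2 z.2.pow_eq_one⟩) fun a b hab => ?_
  have := congrArg (fun u : rootsOfUnity m k => (u : kˣ)) hab
  exact Subtype.ext this

theorem Z_card (m : ℕ) (hm : 0 < m) : Nat.card {z : kˣ // IsPrimitiveRoot z m} ≤ m.totient := by
  classical
  haveI := Z_finite (k := k) m hm
  have h1 : Nat.card {z : kˣ // IsPrimitiveRoot z m} ≤ Nat.card (primitiveRoots m k) := by
    haveI : Finite (primitiveRoots m k) := inferInstance
    refine Nat.card_le_card_of_injective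
      (fun z => ⟨(z.1 : k), (mem_primitiveRoots hm).2 (IsPrimitiveRoot.coe_units_iff.2 z.2)⟩)
      fun a b hab => ?_
    have := congrArg Subtype.val hab
    exact Subtype.ext (Units.ext this)
  refine h1.trans ?_
  rw [Nat.card_eq_fintype_card, Fintype.card_coe]
  by_cases h : ∃ z : k, IsPrimitiveRoot z m
  · obtain ⟨z, hz⟩ := h
    rw [hz.card_primitiveRoots]
  · have : primitiveRoots m k = ∅ := by
      ext x
      rw [mem_primitiveRoots hm]
      simp only [Finset.notMem_empty, iff_false]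
      exact fun hx => h ⟨x, hx⟩
    rw [this, Finset.card_empty]
    exact Nat.zero_le _

/-- **The embeddings at the components.** -/
theorem exists_phi {n a b : ℕ} (hN : ((q ^ n * M : ℕ) : k) ≠ 0) (hco : q.Coprime M)
    (hab : a + b = n) (hba : b ≤ a) (ha : 1 ≤ a) {z : kˣ} (hz : IsPrimitiveRoot z (q ^ b)) :
    ∃ T : FF k (q ^ n * M) →ₐ[k] LaurentSeries k, ∀ (d : ℕ+) (_ : (d : ℕ) ∣ M) (i : ℕ) (_ : i ≤ n)
      (h : ((pp q ^ i * d : ℕ+) : ℕ) ∣ q ^ n * M), T (jm k (pp q ^ i * d) h) =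
        if i ≤ a then Jc 1 (pp q ^ i * d)
        else Jc (z ^ (q ^ (n - i) * (d : ℕ))) (pp q ^ (2 * a - i) * d) := by
  classical
  haveI := finite_Emb (k := k) (N := q ^ n * M) hN
  letI := Fintype.ofFinite (Emb k (q ^ n * M))
  have hqb : 0 < q ^ b := pow_pos hq.out.pos b
  let X := {τ : Emb k (q ^ n * M) // τ.s = q ^ a * M}
  let Z := {z : kˣ // IsPrimitiveRoot z (q ^ b)}
  choose ζ hζ1 hζ2 using fun τ : X => data_mid hN hco hab hba τ.1 τ.2
  let f : X → Z := fun τ => ⟨ζ τ, hζ1 τ⟩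
  have hinj : Function.Injective f := by
    intro τ τ' h
    have h0 : ζ τ = ζ τ' := congrArg Subtype.val h
    apply Subtype.ext
    apply Emb.ext'
    intro m hm
    obtain ⟨i, d, hi, hd, rfl⟩ := div_cases hco hm
    rw [hζ2 τ d hd i hi hm, hζ2 τ' d hd i hi hm, h0]
  have hXcard : Nat.card X = (q ^ b).totient := by
    rw [Nat.card_eq_fintype_card, Fintype.card_subtype, card_mid hN hco hab ha]
  haveI : Finite Z := Z_finite _ hqb
  have hbij := Function.Injective.bijective_of_nat_card_le hinj (by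
    rw [hXcard]; exact Z_card _ hqb)
  obtain ⟨τ, hτ⟩ := hbij.2 ⟨z, hz⟩
  have hτz : ζ τ = z := congrArg Subtype.val hτ
  have h3 := hζ2 τ
  rw [hτz] at h3
  have e1 : ∀ (c : kˣ) (m : ℕ+), SbA 1 (pn (q ^ n * M)) (Jc c m) = Jc c (pn (q ^ n * M) * m) := by
    intro c m
    rw [SbA_apply, Sb_Jc, one_pow, one_mul]
  have e2 : ∀ (d : ℕ+) (_ : (d : ℕ) ∣ M) (i : ℕ) (_ : i ≤ n)
      (h : ((pp q ^ i * d : ℕ+) : ℕ) ∣ q ^ n * M), τ.1.1 (jm k (pp q ^ i * d) h) =
        SbA 1 (pn (q ^ n * M)) (if i ≤ a then Jc 1 (pp q ^ i * d)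
        else Jc (z ^ (q ^ (n - i) * (d : ℕ))) (pp q ^ (2 * a - i) * d)) := by
    intro d hd i hi h
    rw [h3 d hd i hi h]
    split_ifs
    · rw [e1]
    · rw [e1]
  obtain ⟨T, hT⟩ := exists_descend (SbA 1 (pn (q ^ n * M))) τ.1.1 (by
    intro m hm
    obtain ⟨i, d, hi, hd, rfl⟩ := div_cases hco hm
    exact ⟨_, (e2 d hd i hi hm).symm⟩)
  have hinj' := SbA_injective (k := k) 1 (pn (q ^ n * M))
  refine ⟨T, fun d hd i hi h => hinj' ?_⟩
  rw [hT]
  exact e2 d hd i hi h

end Fermat.Agent.CQ
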