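import Fermat.Agent.Car.Thru

/-!
# Regularity of a chart from modular units
-/

set_option autoImplicit false
set_option linter.unusedSectionVars false
set_option linter.style.haveILetI false

namespace Fermat.Agent.CQ

open Module Polynomial IntermediateField AlgebraicCurve Fermat.Agent.Red Fermat.Agent.RR
  Fermat.Agent.Nod Fermat.Agent.Curve Fermat.Agent.Car

variable {A K F k R κ Ω L : Type*} [CommRing A] [IsDomain A] [IsDiscreteValuationRing A]
    [Field K] [Algebra A K] [IsFractionRing A K] [Field F] [Algebra K F] [Algebra A F]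
    [IsScalarTower A K F] [Field k] [Algebra A k] [CommRing R] [Algebra k R] [Algebra A R]
    [IsScalarTower A k R] [Field κ] [Algebra k κ] [Field Ω] [Field L] [Algebra Ω L] [Algebra K Ω]
    {ι J : Type*} [Fintype ι] [Fintype J]

/-- modular units on a model -/
structure UnitsM (M : CModel A K F k R κ Ω L ι J) where
  H : J → F
  H_B : ∀ l, H l ∈ M.B
  H_ne : ∀ l, H l ≠ 0
  H_reg : ∀ l, Reg Ω (M.emb M.t) (M.emb (H l)⁻¹)
  v_H : ∀ l j, l ≠ j → (M.comp j).v (H l) = 0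
  S : Place k κ → Prop
  val_H : ∀ l j, l ≠ j → ∀ Q : Place k κ, 0 ≤ Q.ord (M.tb j) →
    (val Q ((M.comp j).r (H l)) = 0 ↔ S Q)

/-- regularity at a point of a component -/
def StarAt (M : CModel A K F k R κ Ω L ι J) (i : J) (Q' : Place k κ) : Prop :=
  ∃ u ∈ M.B, (M.comp i).v u = 1 ∧ ∃ z, Reg Ω (M.emb M.t) (M.emb z) ∧
      (M.comp i).v z = -1 ∧ (∀ l, l ≠ i → (M.comp l).Ge 0 z) ∧
      val Q' ((M.comp i).r (u * z)) ≠ 0

variable {M : CModel A K F k R κ Ω L ι J} (U : UnitsM M)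

/-- regularity at the ordinary points of a reduced component -/
theorem starAt_ord {j : J} (he : M.e j = 1) {h : F} (hB : h ∈ M.B) (h0 : h ≠ 0)
    (hv : (M.comp j).v h = 0) (hvl : ∀ l, l ≠ j → (M.e l : ℤ) ≤ (M.comp l).v h)
    {Q : Place k κ} (hval : val Q ((M.comp j).r h) ≠ 0) : StarAt M j Q := by
  have hp0 : algebraMap A F M.p ≠ 0 := by
    intro h0
    have h1 := M.v_p j
    rw [h0, Comp.v_zero] at h1
    have h2 := M.e_pos j
    omega
  refine ⟨algebraMap A F M.p, M.algebraMap_mem_B M.p, by rw [M.v_p, he, Nat.cast_one],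
    h * (algebraMap A F M.p)⁻¹, ?_, ?_, ?_, ?_⟩
  · rw [map_mul]
    refine hB.2.mul ?_
    rw [map_inv₀, IsScalarTower.algebraMap_apply A K F, M.hemb, ← map_inv₀]
    exact Reg.algebraMap _ _
  · rw [Comp.v_mul _ h0 (inv_ne_zero hp0), Comp.v_inv, hv, M.v_p, he]
    norm_num
  · intro l hl
    right
    rw [Comp.v_mul _ h0 (inv_ne_zero hp0), Comp.v_inv, M.v_p]
    have := hvl l hl
    linarith
  · rw [show algebraMap A F M.p * (h * (algebraMap A F M.p)⁻¹) = h by
      rw [mul_comm h, mul_inv_cancel_left₀ hp0]]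
    exact hval

/-- regularity along the non-reduced components -/
theorem starAt_mid {j : J} {h u : F} (h0 : h ≠ 0) (hreg : Reg Ω (M.emb M.t) (M.emb h⁻¹))
    (hvl : ∀ l, l ≠ j → (M.comp l).v h = 0) (hu : u ∈ M.B) (hu1 : (M.comp j).v u = 1)
    {m : ℕ} (hm : 1 ≤ m) (hvh : (M.comp j).v h = m)
    {Q : Place k κ} (hval : val Q ((M.comp j).r (u ^ m / h)) ≠ 0) : StarAt M j Q := by
  have hu0 : u ≠ 0 := by
    intro h0
    rw [h0, Comp.v_zero] at hu1
    exact zero_ne_one hu1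
  refine ⟨u, hu, hu1, u ^ (m - 1) * h⁻¹, ?_, ?_, ?_, ?_⟩
  · rw [map_mul, map_pow]
    have h2 : ∀ n : ℕ, Reg Ω (M.emb M.t) (M.emb u ^ n) := by
      intro n
      induction n with
      | zero => rw [pow_zero]; exact Reg.one _
      | succ n ih => rw [pow_succ]; exact ih.mul hu.2
    exact (h2 _).mul hreg
  · rw [Comp.v_mul _ (pow_ne_zero _ hu0) (inv_ne_zero h0), Comp.v_pow, Comp.v_inv, hu1, hvh]
    push_cast [hm]
    ring
  · intro l hl
    have h1 : (M.comp l).Ge 0 (u ^ (m - 1)) := by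
      have := (Comp.ge_of_mem (M.memj hu.1 l)).pow (m - 1)
      rwa [mul_zero] at this
    have h2 : (M.comp l).Ge 0 h⁻¹ := by
      right
      rw [Comp.v_inv, hvl l hl, neg_zero]
    have := h1.mul h2
    rwa [add_zero] at this
  · have hxe : u * (u ^ (m - 1) * h⁻¹) = u ^ m / h := by
      rw [← mul_assoc, ← pow_succ', div_eq_mul_inv]
      congr 2
      omega
    rwa [hxe]

section

variable [IsAlgClosed Ω] [CharZero Ω] [FunField Ω L] [Algebra.IsAlgebraic K Ω] [Nonempty J]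
  [IsAlgClosed k] [FunField k κ]

include U in
/-- **supersingular points lie on all components** -/
theorem thru_ss (hsurj : ∀ j (z : κ), Reg k (M.tb j) z → ∃ x ∈ M.B, (M.comp j).r x = z)
    {l j : J} (hlj : l ≠ j) {Q : Place k κ} (hQ : 0 ≤ Q.ord (M.tb j)) (hS : U.S Q) :
    ∃ Q' : Place k κ, 0 ≤ Q'.ord (M.tb l) ∧ M.SameAt j Q l Q' := by
  obtain ⟨l', hl', Q', hQ', hs⟩ := M.thru hsurj (U.H_B l) (U.H_ne l) (U.H_reg l) hQ
    ((U.val_H l j hlj Q hQ).2 hS)
  by_cases hll : l = l'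
  · subst hll
    exact ⟨Q', hQ', hs⟩
  · rw [U.v_H l l' hll] at hl'
    exact absurd hl' (lt_irrefl _)

include U in
/-- **regularity** -/
theorem good_of (hsurj : ∀ j (z : κ), Reg k (M.tb j) z → ∃ x ∈ M.B, (M.comp j).r x = z)
    (mid : J → Prop) (l0 : J) (hl0 : mid l0)
    (hmid : ∀ j, mid j → ∀ Q : Place k κ, 0 ≤ Q.ord (M.tb j) → StarAt M j Q)
    (hout : ∀ j, ¬ mid j → M.e j = 1 ∧ ∃ h ∈ M.B, h ≠ 0 ∧ (M.comp j).v h = 0 ∧
      (∀ l, l ≠ j → (M.e l : ℤ) ≤ (M.comp l).v h) ∧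
      ∀ Q : Place k κ, 0 ≤ Q.ord (M.tb j) → val Q ((M.comp j).r h) = 0 → U.S Q) : M.Good where
  surj := hsurj
  star j Q hQ := by
    by_cases hj : mid j
    · exact ⟨j, Q, hQ, fun x _ => rfl, hmid j hj Q hQ⟩
    · obtain ⟨he, h, hB, h0, hv, hvl, hval⟩ := hout j hj
      by_cases hS : U.S Q
      · have hne : l0 ≠ j := by
          rintro rfl
          exact hj hl0
        obtain ⟨Q', hQ', hs⟩ := thru_ss U hsurj hne hQ hS
        exact ⟨l0, Q', hQ', hs, hmid l0 hl0 Q' hQ'⟩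
      · exact ⟨j, Q, hQ, fun x _ => rfl, starAt_ord he hB h0 hv hvl fun h => hS (hval Q hQ h)⟩

end

end Fermat.Agent.CQ
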