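import Fermat.Agent.CQ.Un2
import Fermat.Agent.CQ.Core2
import Fermat.Agent.CQ.Xa
import Fermat.Agent.CQ.Star2

/-!
# Modular units of level `q ^ n M`: valuations and residues at the components
-/

set_option autoImplicit false
set_option linter.style.haveILetI false
set_option linter.unusedSectionVars false

noncomputable section

namespace Fermat.Agent.CQ

open ModularCurve Polynomial IntermediateField Fermat.Agent.ModPoly Fermat.Agent.Cusp AlgebraicCurve
open Fermat.Agent.SemiSt Fermat.Agent.CarE Fermat.Agent.HeckeProd Fermat.Agent.Curve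
open Fermat.Agent.RedMod Fermat.Agent.CarM Fermat.Agent.Red Fermat.Agent.Nod

section T

variable {K : Type*} [Field K] [IsAlgClosed K] [CharZero K] {q M n : ℕ} [hq : Fact q.Prime]
  [NeZero M]

theorem jF_eq_jj : jF' K (q ^ n * M) = jj K q M n 0 := by
  rw [jj_eq n K (Nat.zero_le n)]
  exact jm_congr (by rw [pow_zero, one_mul]) _ _

theorem jj_ne_zero {i : ℕ} (hi : i ≤ n) : jj K q M n i ≠ 0 := by
  rw [jj_eq n K hi]
  intro h
  have h1 : (Jc 1 (pp q ^ i * 1) : LaurentSeries K) = 0 := congrArg Subtype.val h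
  have h2 := order_Jc (k := K) 1 (pp q ^ i * 1)
  rw [h1, HahnSeries.order_zero] at h2
  have h3 := (pp q ^ i * 1).pos
  omega

/-- the poles of `t = j_0 j_n` are the poles of `j` -/
theorem t_reg (hco : q.Coprime M) (v : Place K (FF K (q ^ n * M))) :
    0 ≤ v.ord (jj K q M n 0 * jj K q M n n) ↔ 0 ≤ v.ord (jF' K (q ^ n * M)) := by
  constructor
  · intro h
    by_contra hcon
    push Not at hcon
    obtain ⟨g, P, l, hg, hP, hl, hord⟩ := ord_jj hco v hcon
    have h0 := hord 0 (Nat.zero_le n)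
    have hn := hord n le_rfl
    have hq0 : (0 : ℤ) < (q : ℤ) ^ n := pow_pos (by exact_mod_cast hq.out.pos) _
    have hq1 : (0 : ℤ) < (q : ℤ) ^ (2 * min n l) := pow_pos (by exact_mod_cast hq.out.pos) _
    rw [pow_zero, mul_one, Nat.zero_min, mul_zero, pow_zero, mul_one] at h0
    rw [v.ord_mul (jj_ne_zero (Nat.zero_le n)) (jj_ne_zero le_rfl)] at h
    have h1 : v.ord (jj K q M n 0) < 0 := by
      by_contra h2
      push Not at h2
      have := mul_nonneg hg.le h2
      omega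
    have h3 : v.ord (jj K q M n n) < 0 := by
      by_contra h2
      push Not at h2
      have h4 := mul_nonneg (mul_nonneg hg.le h2) hq0.le
      have h5 := mul_pos hP hq1
      linarith
    omega
  · intro h
    rw [v.ord_mul (jj_ne_zero (Nat.zero_le n)) (jj_ne_zero le_rfl)]
    have h1 := jj_regular v h 0
    have h2 := jj_regular v h n
    omega

end T

section geom

variable {k : Type*} [Field k] {q : ℕ} [hq : Fact q.Prime] [CharP k q]

/-- `Δ / Δ^(q^n)` as a power of the Hasse function -/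
theorem hsL_geom (n : ℕ) : (Dc 1 1 : LaurentSeries k) * ((Dc 1 1 : LaurentSeries k) ^ (q ^ n))⁻¹ =
    hsL k q ^ (∑ i ∈ Finset.range n, q ^ i) := by
  have hd := Dc_ne_zero (k := k) 1 1
  induction n with
  | zero => rw [pow_zero, pow_one, mul_inv_cancel₀ hd, Finset.sum_range_zero, pow_zero]
  | succ n ih =>
    rw [Finset.sum_range_succ, pow_add (hsL k q), ← ih, ← pow_div_pow, mul_assoc,
      inv_mul_cancel_left₀ (pow_ne_zero _ hd)]

end geom

namespace Ctx

variable {R0 K0 A Ω k : Type*} [CommRing R0] [IsDomain R0] [Field K0] [Algebra R0 K0]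
  [IsFractionRing R0 K0] [CommRing A] [IsDomain A] [ValuationRing A] [Field Ω]
  [IsAlgClosed Ω] [CharZero Ω]
  [Algebra A Ω] [IsFractionRing A Ω] [Field k] [Algebra A k] [Algebra K0 Ω] [Algebra R0 A]
  [Algebra R0 k] {q M n : ℕ} [hq : Fact q.Prime] [NeZero M] [CharP k q]
  (X : Ctx R0 K0 A Ω k q M n)

/-- the modular units have no zeros and poles at the places where `t` is finite -/
theorem HH_reg (a : ℕ) : Reg Ω (jj Ω q M n 0 * jj Ω q M n n) (emb K0 Ω (q ^ n * M) (X.HH a)) ∧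
    Reg Ω (jj Ω q M n 0 * jj Ω q M n n) (emb K0 Ω (q ^ n * M) (X.HH a)⁻¹) := by
  constructor
  · intro v hv
    right
    rw [X.HH_ord v ((t_reg X.hco v).1 hv)]
  · intro v hv
    right
    rw [map_inv₀, v.ord_inv, X.HH_ord v ((t_reg X.hco v).1 hv), neg_zero]

theorem hH_reg (a : ℕ) : Reg Ω (jj Ω q M n 0 * jj Ω q M n n) (emb K0 Ω (q ^ n * M) (X.hH a)) ∧
    Reg Ω (jj Ω q M n 0 * jj Ω q M n n) (emb K0 Ω (q ^ n * M) (X.hH a)⁻¹) := by
  constructor
  · intro v hv
    right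
    rw [X.hH_ord v ((t_reg X.hco v).1 hv)]
  · intro v hv
    right
    rw [map_inv₀, v.ord_inv, X.hH_ord v ((t_reg X.hco v).1 hv), neg_zero]

theorem hasL_HH {a : ℕ} (ha : a ≤ n) : X.HasL (X.HH a) (fun l => X.sH a l) :=
  fun l => X.mp_HH a ha l

theorem hasL_hH {a : ℕ} (ha : a ≤ n) : X.HasL (X.hH a) (fun l => X.sh a l) :=
  fun l => X.mp_hH a ha l

section comp

variable (κ : IntermediateField k (LaurentSeries k)) {l : Fin (n + 1)}
    (hκ : ∀ (x : FF K0 (q ^ n * M)) (h : x ∈ (X.E l).W), (X.E l).πW ⟨x, h⟩ ∈ κ)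

/-- the modular unit `HH a` is a unit at the other components -/
theorem v_HH_ne {a : ℕ} (ha : a ≤ n) (h : a ≠ l) : ((X.E l).comp κ hκ).v (X.HH a) = 0 := by
  have h1 := (X.hasL_HH ha).v κ hκ (m := 0) (u := X.sH a l) (by
    rw [X.redL_sH ha (Nat.lt_succ_iff.1 l.2) h]
    exact pow_ne_zero _ (hsL_ne k q)) (by rw [pow_zero, map_one, one_mul])
  exact_mod_cast h1

theorem v_HH_self : ((X.E l).comp κ hκ).v (X.HH l) = (12 * ee q n l : ℕ) := by
  obtain ⟨u, hu, h1⟩ := X.sH_self l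
  exact (X.hasL_HH (Nat.lt_succ_iff.1 l.2)).v κ hκ hu h1

theorem v_hH {a : ℕ} (ha : a ≤ n) :
    ((X.E l).comp κ hκ).v (X.hH a) = (12 * ee q n l * ((a - l) + (l - a)) : ℕ) := by
  obtain ⟨u, hu, h1⟩ := X.sh_eq a l
  exact (X.hasL_hH ha).v κ hκ hu h1

theorem coe_r_HH {a : ℕ} (ha : a ≤ n) (h : a ≠ l) :
    (((X.E l).comp κ hκ).r (X.HH a) : LaurentSeries k) = hsL k q ^ nu q n l a := by
  rw [(X.hasL_HH ha).r κ hκ]
  exact X.redL_sH ha (Nat.lt_succ_iff.1 l.2) h

end comp

/-- the modular unit `HH a` at the component `a`, for `1 ≤ a ≤ n - 1` -/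
theorem HH_mid (a : Fin (n + 1)) (h1 : 1 ≤ (a : ℕ)) (h2 : (a : ℕ) < n) :
    ∃ D' : LaurentSeries A, X.mp a (X.HH a) = incL A Ω (HahnSeries.C ((q : A) ^ 12) * D') ∧
      redL A k D' = Dc 1 1 ^ (2 * (q ^ (max (a : ℕ) (n - a)) - q ^ (max (a : ℕ) (n - a) - 1))) := by
  have hd := Dc_ne_zero (k := k) 1 1
  refine ⟨X.dA a a ^ 2 * X.dI a (a - 1) * X.dI a (min (a + 1) n), ?_, ?_⟩
  · rw [X.mp_HH a (by omega) a, sH, if_pos rfl]
  · rw [X.redL_dd a a _ rfl, min_eq_left (by omega : (a : ℕ) + 1 ≤ n)]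
    have e0 : dl n a a = max (a : ℕ) (n - a) := by
      rw [dl]; split_ifs <;> omega
    have e1 : dl n a (a - 1) = max (a : ℕ) (n - a) - 1 := by
      rw [dl]; split_ifs <;> omega
    have e2 : dl n a (a + 1) = max (a : ℕ) (n - a) - 1 := by
      rw [dl]; split_ifs <;> omega
    rw [e0, e1, e2]
    generalize hm : max (a : ℕ) (n - a) = m
    have hle : q ^ (m - 1) ≤ q ^ m := Nat.pow_le_pow_right hq.out.pos (Nat.sub_le _ _)
    have h3 : (Dc 1 1 : LaurentSeries k) ^ (q ^ (m - 1)) ≠ 0 := pow_ne_zero _ hd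
    have h4 : ((Dc 1 1 : LaurentSeries k) ^ (q ^ m)) ^ 2 =
        (Dc 1 1 : LaurentSeries k) ^ (2 * (q ^ m - q ^ (m - 1))) *
          ((Dc 1 1 : LaurentSeries k) ^ (q ^ (m - 1)) * (Dc 1 1 : LaurentSeries k) ^ (q ^ (m - 1))) := by
      rw [← pow_mul, ← pow_add, ← pow_add]
      congr 1
      omega
    rw [h4, mul_assoc, ← mul_inv, mul_assoc, mul_inv_cancel₀ (mul_ne_zero h3 h3), mul_one]

/-- the residue of the modular unit `hH a` at the component `a`, for `a = 0` and `a = n` -/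
theorem redL_sh_ext (a : Fin (n + 1)) (h : (a : ℕ) = 0 ∨ (a : ℕ) = n) :
    redL A k (X.sh a a) = hsL k q ^ (∑ i ∈ Finset.range n, q ^ i) := by
  have hd := Dc_ne_zero (k := k) 1 1
  rw [sh, Nat.sub_self, add_zero, pow_zero, one_mul, map_mul, map_mul, map_pow, X.redL_dA,
    X.redL_dA, X.redL_dI, ← hsL_geom]
  have h3 : (Dc 1 1 : LaurentSeries k) ^ (q ^ n) ≠ 0 := pow_ne_zero _ hd
  rcases h with h | h
  · have e0 : dl n a 0 = n := by
      rw [dl, h]; split_ifs <;> omega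
    have e1 : dl n a n = 0 := by
      rw [dl, h]; split_ifs <;> omega
    have e2 : dl n a a = n := by
      rw [dl, h]; split_ifs <;> omega
    rw [e0, e1, e2, pow_zero, pow_one, sq]
    field_simp
  · have e0 : dl n a 0 = 0 := by
      rw [dl, h]; split_ifs <;> omega
    have e1 : dl n a n = n := by
      rw [dl, h]; split_ifs <;> omega
    have e2 : dl n a a = n := by
      rw [dl, h]; split_ifs <;> omega
    rw [e0, e1, e2, pow_zero, pow_one, sq]
    field_simp

end Ctx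

end Fermat.Agent.CQ
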