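import Fermat.Agent.CQ.CmL
import Fermat.Agent.CQ.Un3

/-!
# Modular units on the model of level `q ^ n M`
-/

set_option autoImplicit false
set_option linter.style.haveILetI false
set_option linter.unusedSectionVars false

noncomputable section

namespace Fermat.Agent.CQ

open Module ModularCurve AlgebraicCurve Polynomial IntermediateField Fermat.Agent.ModPoly
  Fermat.Agent.Cusp
open Fermat.Agent.SemiSt Fermat.Agent.RedMod Fermat.Agent.Car Fermat.Agent.Red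
open Fermat.Agent.CarE Fermat.Agent.Curve Fermat.Agent.Nod Fermat.Agent.CarM Fermat.Agent.RR

namespace Ctx

variable {R0 K0 A Ω k : Type*} [CommRing R0] [IsDomain R0] [IsDiscreteValuationRing R0]
  [Field K0] [Algebra R0 K0]
  [IsFractionRing R0 K0] [CommRing A] [IsDomain A] [ValuationRing A] [Field Ω]
  [IsAlgClosed Ω] [CharZero Ω]
  [Algebra A Ω] [IsFractionRing A Ω] [Field k] [Algebra A k] [Algebra K0 Ω] [Algebra R0 A]
  [Algebra R0 k] {q M n : ℕ} [hq : Fact q.Prime] [NeZero M] [CharP k q]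
  (X : Ctx R0 K0 A Ω k q M n)

set_option synthInstance.maxHeartbeats 400000

/-- membership in the ring of the chart, from expansions and regularity -/
theorem mem_cm_B {x : FF K0 (q ^ n * M)} {s : Fin (n + 1) → LaurentSeries A} (h : X.HasL x s)
    (hr : Reg Ω (jj Ω q M n 0 * jj Ω q M n n) (emb K0 Ω (q ^ n * M) x)) : x ∈ X.cm.B := by
  refine ⟨?_, ?_⟩
  · rw [X.cm.mem_W]
    exact fun j => h.mem j
  · rw [X.cm_emb_t, tt_eq_jj]
    exact hr

theorem reg_cm_of {x : FF K0 (q ^ n * M)}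
    (hr : Reg Ω (jj Ω q M n 0 * jj Ω q M n n) (emb K0 Ω (q ^ n * M) x)) :
    Reg Ω (X.cm.emb X.cm.t) (X.cm.emb x) := by
  rw [X.cm_emb_t, tt_eq_jj]
  exact hr

theorem HH_B {a : ℕ} (ha : a ≤ n) : X.HH a ∈ X.cm.B :=
  X.mem_cm_B (X.hasL_HH ha) (X.HH_reg a).1

theorem hH_B {a : ℕ} (ha : a ≤ n) : X.hH a ∈ X.cm.B :=
  X.mem_cm_B (X.hasL_hH ha) (X.hH_reg a).1

theorem HH_inv_reg (a : ℕ) : Reg Ω (X.cm.emb X.cm.t) (X.cm.emb (X.HH a)⁻¹) :=
  X.reg_cm_of (X.HH_reg a).2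

theorem hH_inv_reg (a : ℕ) : Reg Ω (X.cm.emb X.cm.t) (X.cm.emb (X.hH a)⁻¹) :=
  X.reg_cm_of (X.hH_reg a).2

/-- valuations of the modular units `HH` at the other components -/
theorem cm_v_HH_ne {a : ℕ} (ha : a ≤ n) {l : Fin (n + 1)} (h : a ≠ l) :
    (X.cm.comp l).v (X.HH a) = 0 :=
  X.v_HH_ne (FF k M) (X.res_mem l) ha h

theorem cm_v_HH_self (l : Fin (n + 1)) : (X.cm.comp l).v (X.HH l) = (12 * ee q n l : ℕ) :=
  X.v_HH_self (FF k M) (X.res_mem l)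

theorem cm_r_HH_self (l : Fin (n + 1)) : (X.cm.comp l).r (X.HH l) = 0 := by
  rw [Comp.r_eq_zero_iff ((X.hasL_HH (Nat.lt_succ_iff.1 l.2)).mem l)]
  right
  rw [X.cm_v_HH_self]
  have := ee_pos q n l
  have h2 : 1 ≤ 12 * ee q n l := by omega
  exact_mod_cast h2

theorem cm_v_hH {a : ℕ} (ha : a ≤ n) (l : Fin (n + 1)) :
    (X.cm.comp l).v (X.hH a) = (12 * ee q n l * ((a - l) + (l - a)) : ℕ) :=
  X.v_hH (FF k M) (X.res_mem l) ha

theorem cm_v_hH_self (a : Fin (n + 1)) : (X.cm.comp a).v (X.hH a) = 0 := by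
  rw [X.cm_v_hH (Nat.lt_succ_iff.1 a.2) a, Nat.sub_self, add_zero, mul_zero]
  rfl

/-- the modular unit `hH a` vanishes to order at least `e_l` at the components `l ≠ a` -/
theorem cm_ee_le_v_hH {a l : Fin (n + 1)} (h : l ≠ a) :
    (X.cm.e l : ℤ) ≤ (X.cm.comp l).v (X.hH a) := by
  rw [X.cm_v_hH (Nat.lt_succ_iff.1 a.2) l]
  have h1 : (l : ℕ) ≠ a := fun h2 => h (Fin.ext h2)
  have h2 : 1 ≤ ((a : ℕ) - l) + (l - a) := by omega
  have h3 : X.cm.e l ≤ 12 * ee q n l * ((a - l) + (l - a)) := by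
    rw [X.cm_e]
    calc ee q n l = 1 * ee q n l * 1 := by ring
      _ ≤ 12 * ee q n l * (((a : ℕ) - l) + (l - a)) := by
        refine Nat.mul_le_mul (Nat.mul_le_mul_right _ (by norm_num)) h2
  exact_mod_cast h3

theorem sum_q_pos (q n : ℕ) (hn : n ≠ 0) : ∑ i ∈ Finset.range n, q ^ i ≠ 0 := by
  obtain ⟨m, rfl⟩ := Nat.exists_eq_succ_of_ne_zero hn
  rw [Finset.sum_range_succ', pow_zero]
  omega

variable [IsAlgClosed k]

/-- residues of the modular units `HH` -/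
theorem cm_r_HH {a : ℕ} (ha : a ≤ n) {l : Fin (n + 1)} (h : a ≠ l) :
    (X.cm.comp l).r (X.HH a) = hs k q M ^ nu q n l a := by
  apply Subtype.ext
  have h1 : (((X.cm.comp l).r (X.HH a) : FF k M) : LaurentSeries k) = hsL k q ^ nu q n l a :=
    X.coe_r_HH (FF k M) (X.res_mem l) ha h
  rw [h1, SubmonoidClass.coe_pow, coe_hs]

/-- residues of the modular units `hH` at the reduced components -/
theorem cm_r_hH (a : Fin (n + 1)) (h : (a : ℕ) = 0 ∨ (a : ℕ) = n) :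
    (X.cm.comp a).r (X.hH a) = hs k q M ^ (∑ i ∈ Finset.range n, q ^ i) := by
  apply Subtype.ext
  have h1 := cm_coe_r (X.hasL_hH (Nat.lt_succ_iff.1 a.2)) a
  rw [X.redL_sh_ext a h] at h1
  rw [SubmonoidClass.coe_pow, coe_hs]
  exact h1

variable [FunField k (FF k M)]

theorem val_hs_pw {Q : Place k (FF k M)} (hQ : 0 ≤ Q.ord (jF' k M)) (n : ℕ) :
    val Q (hs k q M ^ n) = val Q (hs k q M) ^ n :=
  val_pow (Ge.of_le (hs_reg Q hQ)) n

theorem val_cm_r_HH {a : ℕ} (ha : a ≤ n) {l : Fin (n + 1)} (h : a ≠ l)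
    {Q : Place k (FF k M)} (hQ : 0 ≤ Q.ord (jF' k M)) :
    val Q ((X.cm.comp l).r (X.HH a)) = 0 ↔ val Q (hs k q M) = 0 := by
  rw [X.cm_r_HH ha h, val_hs_pw hQ]
  exact pow_eq_zero_iff (nu_pos hq.out _ _ _).ne'

theorem val_cm_r_hH (a : Fin (n + 1)) (h : (a : ℕ) = 0 ∨ (a : ℕ) = n)
    {Q : Place k (FF k M)} (hQ : 0 ≤ Q.ord (jF' k M)) :
    val Q ((X.cm.comp a).r (X.hH a)) = 0 ↔ val Q (hs k q M) = 0 := by
  rw [X.cm_r_hH a h, val_hs_pw hQ]
  have := X.hn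
  exact pow_eq_zero_iff (sum_q_pos q n (by omega))

/-- **modular units on the model** -/
def unitsM : UnitsM X.cm where
  H l := X.HH l
  H_B l := X.HH_B (Nat.lt_succ_iff.1 l.2)
  H_ne l := X.HH_ne l
  H_reg l := X.HH_inv_reg l
  v_H l j h := X.cm_v_HH_ne (Nat.lt_succ_iff.1 l.2) fun h1 => h (Fin.ext h1)
  S Q := val Q (hs k q M) = 0
  val_H l _ h Q hQ := X.val_cm_r_HH (Nat.lt_succ_iff.1 l.2) (fun h1 => h (Fin.ext h1))
    ((X.ord_tb_nonneg _ Q).1 hQ)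

theorem unitsM_S (Q : Place k (FF k M)) : X.unitsM.S Q ↔ val Q (hs k q M) = 0 := Iff.rfl

theorem unitsM_H (l : Fin (n + 1)) : X.unitsM.H l = X.HH l := rfl

theorem unitsM_r (l : Fin (n + 1)) : (X.cm.comp l).r (X.unitsM.H l) = 0 := X.cm_r_HH_self l

end Ctx

end Fermat.Agent.CQ
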