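import Fermat.Agent.CQ.Geo2
import Fermat.Agent.CQ.Un4
import Fermat.Agent.CQ.CtxInst

/-!
# The geometric claim at level `q ^ n M`
-/

set_option autoImplicit false
set_option linter.style.haveILetI false
set_option linter.unusedSectionVars false

noncomputable section

namespace Fermat.Agent.CQ

open ModularCurve Polynomial IntermediateField Fermat.Agent.ModPoly Fermat.Agent.Cusp AlgebraicCurve
open Fermat.Agent.SemiSt Fermat.Agent.CarE Fermat.Agent.HeckeProd Fermat.Agent.Curve
open Fermat.Agent.RedMod Fermat.Agent.Car Fermat.Agent.RR Fermat.Agent.Red Fermat.Agent.PRem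
open Fermat.Agent.Nod

set_option synthInstance.maxHeartbeats 400000 in
/-- **all geometric claims** -/
theorem claimAll (ι : AlgebraicClosure ℚ →+* ℂ) : S45A.ClaimAll ι := by
  refine claimAll_of_car ι (car_Fn_of ?_)
  intro R0 K0 A Ω k _ _ _ _ _ _ _ _ _ _ _ _ _ _ _ _ _ _ _ _ q M n _ _ _ _ X HL ι' ζ hζ m hm f hf
    hdvd h1 h2
  haveI : FunField k (FF k M) := funField_FF X.hM
  exact X.geo2 HL ι' X.unitsM (fun _ h => h) X.unitsM_r hζ hm hf hdvd h1 h2

end Fermat.Agent.CQ
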