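import Fermat.Agent.CQ.Nm1
import Fermat.Agent.CQ.Cm
import Fermat.Agent.CQ.AbsM
import Fermat.Agent.CarM.DescP

/-!
# Descent of the roots of the norms, and the geometric theorem at level `q ^ n M`
-/

set_option autoImplicit false
set_option linter.style.haveILetI false
set_option linter.unusedSectionVars false

noncomputable section

namespace Fermat.Agent.CQ

open ModularCurve Polynomial IntermediateField Fermat.Agent.ModPoly Fermat.Agent.Cusp AlgebraicCurve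
open Fermat.Agent.SemiSt Fermat.Agent.CarE Fermat.Agent.HeckeProd Fermat.Agent.Curve
open Fermat.Agent.RedMod Fermat.Agent.Car Fermat.Agent.RR Fermat.Agent.Red Fermat.Agent.PRem

namespace Ctx

section Desc

variable {R0 K0 A Ω k : Type*} [CommRing R0] [IsDomain R0] [Field K0] [Algebra R0 K0]
  [IsFractionRing R0 K0] [CommRing A] [IsDomain A] [ValuationRing A] [Field Ω]
  [IsAlgClosed Ω] [CharZero Ω]
  [Algebra A Ω] [IsFractionRing A Ω] [Field k] [Algebra A k] [Algebra K0 Ω] [Algebra R0 A]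
  [Algebra R0 k] {q M n : ℕ} [hq : Fact q.Prime] [NeZero M] [CharP k q]
  (X : Ctx R0 K0 A Ω k q M n)

/-- the norms as powers -/
theorem NN0_desc {ζ : Ωˣ} (hζ : IsPrimitiveRoot ζ q) {m : ℕ} (hm : m ≠ 0)
    {f : FF K0 (q ^ n * M)} (hf : f ≠ 0)
    (h : ∃ y : FF Ω (q ^ (n - 1) * M), NN q ζ (CarE.emb K0 Ω (q ^ n * M) f :
      LaurentSeries Ω) = (y : LaurentSeries Ω) ^ m) :
    ∃ (c : K0) (y : FF K0 (q ^ n * M)),
      X.NN0 f = algebraMap K0 (FF K0 (q ^ n * M)) c * y ^ m := by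
  have hn := X.hn
  obtain ⟨y, hy⟩ := exists_pow_NLn X.hco (by omega) hζ h
  rw [← X.emb_NN0] at hy
  exact CarM.exists_root_desc X.B.alg X.B.fixed (X.NN0_ne hf) hm hy

theorem w0_ne {f : FF K0 (q ^ n * M)} (hf : f ≠ 0) : X.w0 f ≠ 0 := by
  rwa [Ne, EmbeddingLike.map_eq_zero_iff]

end Desc

variable {R0 K0 A Ω k : Type*} [CommRing R0] [IsDomain R0] [IsDiscreteValuationRing R0]
  [Field K0] [Algebra R0 K0]
  [IsFractionRing R0 K0] [CommRing A] [IsDomain A] [ValuationRing A] [Field Ω]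
  [IsAlgClosed Ω] [CharZero Ω] [CharZero K0]
  [Algebra A Ω] [IsFractionRing A Ω] [Field k] [Algebra A k] [Algebra K0 Ω] [Algebra R0 A]
  [Algebra R0 k] {q M n : ℕ} [hq : Fact q.Prime] [NeZero M] [CharP k q] [IsAlgClosed k]
  (X : Ctx R0 K0 A Ω k q M n)

set_option synthInstance.maxHeartbeats 400000 in
/-- **the geometric theorem**, from the regularity of the model -/
theorem geo_of (N : NormJ X.cm q) (hNN : ∀ x, N.NN x = X.NN0 x) (hw : ∀ x, N.w x = X.w0 x)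
    (H : X.cm.Good) (H' : X.cm.inv.Good) (hN : N.Node)
    (hcusp : ∀ (j : Fin (n + 1)) (Q : Place k (FF k M)) (i : Fin (n + 1)) (Q' : Place k (FF k M)),
      Q.ord (X.cm.tb j) < 0 → Q'.ord (X.cm.tb i) < 0 → X.cm.inv.SameAt j Q i Q' → j = i)
    (hS : N.Stab) {ζ : Ωˣ} (hζ : IsPrimitiveRoot ζ q)
    {m : ℕ} (hm : (m : k) ≠ 0) {f : FF K0 (q ^ n * M)} (hf : f ≠ 0)
    (hdvd : ∀ v : Place Ω (FF Ω (q ^ n * M)), (m : ℤ) ∣ v.ord (CarE.emb K0 Ω (q ^ n * M) f))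
    (h1 : ∃ y : FF Ω (q ^ (n - 1) * M), NN q ζ (CarE.emb K0 Ω (q ^ n * M) f : LaurentSeries Ω) =
      (y : LaurentSeries Ω) ^ m)
    (h2 : ∃ y : FF Ω (q ^ (n - 1) * M), NN q ζ (wq' n X.hco (CarE.emb K0 Ω (q ^ n * M) f) :
      LaurentSeries Ω) = (y : LaurentSeries Ω) ^ m) :
    ∃ x : FF Ω (q ^ n * M), x ^ m = CarE.emb K0 Ω (q ^ n * M) f ^ (q ^ 3) := by
  haveI := X.B.alg
  haveI : FunField k (FF k M) := funField_FF X.hM
  haveI : FunField Ω (FF Ω (q ^ n * M)) := funField_FF (natCast_ne_zero_K Ω (q ^ n * M))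
  have hm0 : m ≠ 0 := by rintro rfl; simp at hm
  obtain ⟨c₁, z₁, e1⟩ := X.NN0_desc hζ hm0 hf h1
  obtain ⟨c₂, z₂, e2⟩ := X.NN0_desc hζ hm0 (X.w0_ne hf) (by
    obtain ⟨y, hy⟩ := h2
    exact ⟨y, by rw [X.emb_w0]; exact hy⟩)
  exact NormJ.carayol N H H' hN hcusp hS hm hf hdvd ((hNN f).trans e1)
    ((hNN _).trans ((congrArg X.NN0 (hw f)).trans e2))

end Ctx

end Fermat.Agent.CQ
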