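import Fermat.Agent.CQ.Core2
import Fermat.Agent.CarE.Inv

/-!
# The Atkin-Lehner involution and the components
-/

set_option autoImplicit false
set_option linter.style.haveILetI false
set_option linter.unusedSectionVars false

noncomputable section

namespace Fermat.Agent.CQ

open ModularCurve Polynomial IntermediateField Fermat.Agent.ModPoly Fermat.Agent.Cusp AlgebraicCurve
open Fermat.Agent.SemiSt Fermat.Agent.RedMod Fermat.Agent.Car
open Fermat.Agent.CarE

/-- homomorphisms agreeing on constants and generators agree -/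
theorem ringHom_ext_jm {K : Type*} [Field K] {N : ℕ} [NeZero N] {B : Type*} [Field B]
    {f g : FF K N →+* B} (hc : ∀ c, f (algebraMap K (FF K N) c) = g (algebraMap K (FF K N) c))
    (hj : ∀ (m : ℕ+) (hm : (m : ℕ) ∣ N), f (jm K m hm) = g (jm K m hm)) (x : FF K N) :
    f x = g x := by
  have h4 : x ∈ IntermediateField.adjoin K
      {x : FF K N | ∃ (m : ℕ+) (hm : (m : ℕ) ∣ N), x = jm K m hm} := by
    rw [adjoin_jm_eq_top]; exact IntermediateField.mem_top
  induction h4 using IntermediateField.adjoin_induction with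
  | mem x hx =>
    obtain ⟨m, hm, rfl⟩ := hx
    exact hj m hm
  | algebraMap c => exact hc c
  | add x y _ _ hx hy => rw [map_add, map_add, hx, hy]
  | inv x _ hx => rw [map_inv₀, map_inv₀, hx]
  | mul x y _ _ hx hy => rw [map_mul, map_mul, hx, hy]

section Conj

variable {R0 K0 A Ω k : Type*} [CommRing R0] [IsDomain R0] [Field K0] [Algebra R0 K0]
  [IsFractionRing R0 K0] [CommRing A] [IsDomain A] [ValuationRing A] [Field Ω]
  [IsAlgClosed Ω] [CharZero Ω]
  [Algebra A Ω] [IsFractionRing A Ω] [Field k] [Algebra A k] [Algebra K0 Ω] [Algebra R0 A]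
  [Algebra R0 k] {q : ℕ} [hq : Fact q.Prime] [CharP k q]
  (B : Base q R0 K0 A Ω k)

include B in
/-- an automorphism inverting a root of unity of `q`-power order -/
theorem exists_conj {z : A} {m : ℕ} (hm : m ≠ 0) (hz : IsPrimitiveRoot z (q ^ m)) :
    ∃ σ : Ω ≃ₐ[K0] Ω, σ (algebraMap A Ω z) = (algebraMap A Ω z)⁻¹ := by
  haveI := B.alg
  haveI : IsAlgClosure K0 Ω := ⟨inferInstance, inferInstance⟩
  haveI : Normal K0 Ω := IsAlgClosure.normal K0 Ω
  haveI : CharZero K0 := by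
    refine ⟨fun a b h => ?_⟩
    have h1 := congrArg (algebraMap K0 Ω) h
    rw [map_natCast, map_natCast] at h1
    exact_mod_cast h1
  haveI : NeZero (q ^ m) := ⟨pow_ne_zero m hq.out.ne_zero⟩
  set ζ : Ω := algebraMap A Ω z with hζ
  have hζp : IsPrimitiveRoot ζ (q ^ m) := hz.map_of_injective (IsFractionRing.injective A Ω)
  have hint : IsIntegral K0 ζ := Algebra.IsIntegral.isIntegral ζ
  have hdvd : minpoly K0 ζ ∣ cyclotomic (q ^ m) K0 := by
    apply minpoly.dvd
    exact aeval_cyclotomic_z (R0 := K0) hζp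
  have hdeg : Nat.totient (q ^ m) ≤ (minpoly K0 ζ).natDegree := by
    by_contra hlt
    push Not at hlt
    obtain ⟨b, hb, hb'⟩ := IsLocalization.integerNormalization_spec
      (nonZeroDivisors R0) (minpoly K0 ζ)
    set P := IsLocalization.integerNormalization (nonZeroDivisors R0) (minpoly K0 ζ) with hP
    have hb0 : algebraMap R0 K0 b ≠ 0 := by
      rw [Ne, map_eq_zero_iff _ (IsFractionRing.injective R0 K0)]
      exact nonZeroDivisors.ne_zero hb
    have hPm : P.map (algebraMap R0 K0) = C (algebraMap R0 K0 b) * minpoly K0 ζ := by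
      rw [hb', ← algebraMap_smul K0 b, smul_eq_C_mul]
    have hPd : P.natDegree < Nat.totient (q ^ m) := by
      rw [← natDegree_map_eq_of_injective (IsFractionRing.injective R0 K0), hPm,
        natDegree_C_mul hb0]
      exact hlt
    have hPz : aeval z P = 0 := by
      apply IsFractionRing.injective A Ω
      rw [map_zero]
      have h1 : algebraMap A Ω (aeval z P) = aeval ζ (P.map (algebraMap R0 K0)) := by
        rw [aeval_def, hom_eval₂, aeval_def, eval₂_map]
        congr 1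
        exact RingHom.ext B.comm
      rw [h1, hPm, map_mul, minpoly.aeval, mul_zero]
    have hP0 : P ≠ 0 := by
      intro h2
      have h3 : P.map (algebraMap R0 K0) = 0 := by rw [h2, Polynomial.map_zero]
      rw [hPm] at h3
      rcases mul_eq_zero.1 h3 with h4 | h4
      · exact hb0 (C_eq_zero.1 h4)
      · exact minpoly.ne_zero hint h4
    have h1 : aeval (1 - z) (P.comp (1 - X)) = aeval z P := by
      rw [aeval_comp]
      simp
    have h2 : P.comp (1 - X) ≠ 0 := by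
      intro h0
      apply hP0
      have : (P.comp (1 - X)).comp (1 - X) = P := by
        rw [comp_assoc]
        simp
      rw [← this, h0, zero_comp]
    have h3 := PU_aeval_lam (k := k) hz B.pu' hm ((natDegree_comp_lam_le P).trans_lt hPd) h2
    exact h3.ne_zero (lam_ne hz hm) (h1.trans hPz)
  have heq : minpoly K0 ζ = cyclotomic (q ^ m) K0 := by
    refine (eq_of_monic_of_dvd_of_natDegree_le (minpoly.monic hint)
      (cyclotomic.monic _ _) hdvd ?_).symm
    rw [natDegree_cyclotomic]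
    exact hdeg
  have hroot : aeval ζ⁻¹ (minpoly K0 ζ) = 0 := by
    rw [heq]
    exact aeval_cyclotomic_z (R0 := K0) hζp.inv
  obtain ⟨σ, hσ⟩ := minpoly.exists_algEquiv_of_root (Algebra.IsAlgebraic.isAlgebraic ζ) hroot
  exact ⟨σ.symm, by rw [AlgEquiv.symm_apply_eq]; exact hσ.symm⟩

omit [IsAlgClosed Ω] [CharZero Ω] [Algebra K0 Ω] [Algebra R0 A] [Algebra R0 k] [CharP k q]
  [IsFractionRing R0 K0] [IsDomain R0] hq in
/-- twisting by a unit congruent to one does not change reductions -/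
theorem twist_mem_WL {z : Aˣ} (hz : Units.map (algebraMap A k : A →* k) z = 1)
    {x : LaurentSeries Ω} (hx : x ∈ WL A Ω k) :
    ∃ h : SbA (Units.map (algebraMap A Ω : A →* Ω) z) 1 x ∈ WL A Ω k,
      πL A Ω k ⟨_, h⟩ = πL A Ω k ⟨x, hx⟩ := by
  obtain ⟨u, v, hv, h⟩ := mem_WL.1 hx
  have hred : ∀ w : LaurentSeries A, redL A k (twist z w) = redL A k w := by
    intro w
    ext n
    rw [coeffMap_coeff, twist_coeff, map_mul, coeffMap_coeff]
    have h1 : algebraMap A k ((z ^ n : Aˣ) : A) = 1 := by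
      have h3 : Units.map (algebraMap A k : A →* k) (z ^ n) = 1 := by
        rw [map_zpow, hz, one_zpow]
      exact congrArg Units.val h3
    rw [h1, one_mul]
  have htw : ∀ w : LaurentSeries A, SbA (Units.map (algebraMap A Ω : A →* Ω) z) 1 (incL A Ω w) =
      incL A Ω (twist z w) := by
    intro w
    ext n
    have h1 := Sb_coeff_mul (Units.map (algebraMap A Ω : A →* Ω) z) 1 (incL A Ω w) n
    rw [PNat.one_coe, Nat.cast_one, one_mul] at h1
    refine h1.trans ?_
    rw [coeffMap_coeff, coeffMap_coeff, twist_coeff, map_mul, ← map_zpow]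
    rfl
  have hv' : redL A k (twist z v) ≠ 0 := by rw [hred]; exact hv
  have h3 : incL A Ω (twist z v) * SbA (Units.map (algebraMap A Ω : A →* Ω) z) 1 x =
      incL A Ω (twist z u) := by rw [← htw, ← htw, ← h, map_mul]
  refine ⟨⟨_, _, hv', h3⟩, ?_⟩
  rw [πL_eq ⟨_, ⟨_, _, hv', h3⟩⟩ hv' h3, πL_eq ⟨x, hx⟩ hv h, hred, hred]

end Conj

namespace Ctx

variable {R0 K0 A Ω k : Type*} [CommRing R0] [IsDomain R0] [Field K0] [Algebra R0 K0]
  [IsFractionRing R0 K0] [CommRing A] [IsDomain A] [ValuationRing A] [Field Ω]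
  [IsAlgClosed Ω] [CharZero Ω]
  [Algebra A Ω] [IsFractionRing A Ω] [Field k] [Algebra A k] [Algebra K0 Ω] [Algebra R0 A]
  [Algebra R0 k] {q M n : ℕ} [hq : Fact q.Prime] [NeZero M] [CharP k q]
  (X : Ctx R0 K0 A Ω k q M n)

theorem val_rev (a : Fin (n + 1)) : ((Fin.rev a : Fin (n + 1)) : ℕ) = n - a := by
  rw [Fin.val_rev]; omega

/-- the middle embedding and the involution -/
theorem mp_mid {a : Fin (n + 1)} (h : 2 * (a : ℕ) = n) {σ : Ω ≃ₐ[K0] Ω}
    (hσ : σ (X.zΩ a : Ω) = (X.zΩ a : Ω)⁻¹) (x : FF K0 (q ^ n * M)) :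
    X.mp a (X.w0 x) = SbA (X.zΩ a) 1 (coeffMap (σ.toRingEquiv : Ω →+* Ω) (X.mp a x)) := by
  have ha := Nat.lt_succ_iff.1 a.2
  let f : FF K0 (q ^ n * M) →+* LaurentSeries Ω := (X.mp a).comp (X.w0).toRingEquiv.toRingHom
  let g : FF K0 (q ^ n * M) →+* LaurentSeries Ω := (SbA (X.zΩ a) 1).toRingHom.comp
    ((coeffMap (σ.toRingEquiv : Ω →+* Ω)).comp (X.mp a))
  change f x = g x
  have hσ' : Units.map ((σ.toRingEquiv : Ω →+* Ω) : Ω →* Ω) (X.zΩ a) = (X.zΩ a)⁻¹ := by
    apply Units.ext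
    rw [Units.val_inv_eq_inv_val]
    exact hσ
  refine ringHom_ext_jm (f := f) (g := g) ?_ ?_ x
  · intro c
    change X.mp a (X.w0 (algebraMap K0 _ c)) = SbA (X.zΩ a) 1
      (coeffMap (σ.toRingEquiv : Ω →+* Ω) (X.mp a (algebraMap K0 _ c)))
    rw [AlgEquiv.commutes, X.mp_algebraMap, coeffMap_C, ← algebraMap_eq_C]
    have h1 : (σ.toRingEquiv : Ω →+* Ω) (algebraMap K0 Ω c) = algebraMap K0 Ω c := σ.commutes c
    rw [h1, AlgHom.commutes]
  · intro m hm
    obtain ⟨i, d, hi, hd, rfl⟩ := div_cases X.hco hm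
    change X.mp a (X.w0 (jm K0 (pp q ^ i * d) _)) = SbA (X.zΩ a) 1
      (coeffMap (σ.toRingEquiv : Ω →+* Ω) (X.mp a (jm K0 (pp q ^ i * d) _)))
    rw [X.w0_jm hi hd, X.mp_jm a (Nat.sub_le n i) hd, X.mp_jm a hi hd, coeffMap_Jc, SbA_one_Jc,
      coe_qd]
    have hdl : dl n a (n - i) = dl n a i := by
      have h' : n ≤ 2 * (a : ℕ) := by omega
      simp only [dl, if_pos h']
      split_ifs <;> omega
    rw [hdl]
    congr 1
    have e1 : cx n a (n - i) = a + i := by rw [cx, if_pos (by omega)]; omega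
    have e2 : cx n a i = a + (n - i) := by rw [cx, if_pos (by omega)]; omega
    have e3 : Units.map ((σ.toRingEquiv : Ω →+* Ω) : Ω →* Ω)
        (X.ZΩ ^ (q ^ (a + (n - i)) * (d : ℕ))) = ((X.zΩ a) ^ (q ^ (n - i) * (d : ℕ)))⁻¹ := by
      have : X.ZΩ ^ (q ^ (a + (n - i)) * (d : ℕ)) = (X.zΩ a) ^ (q ^ (n - i) * (d : ℕ)) := by
        rw [zΩ_eq, ← pow_mul, ← mul_assoc, ← pow_add]
      rw [this, map_pow, hσ', inv_pow]
    have e4 : X.ZΩ ^ (q ^ (a + i) * (d : ℕ)) = (X.zΩ a) ^ (q ^ i * (d : ℕ)) := by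
      rw [zΩ_eq, ← pow_mul, ← mul_assoc, ← pow_add]
    have hb : ∀ e, n - a ≤ e → (X.zΩ a) ^ (q ^ e * (d : ℕ)) = 1 := by
      intro e he
      rw [zΩ_eq, ← pow_mul, ← mul_assoc, ← pow_add, pow_mul, X.ZΩ_pow (by omega), one_pow]
    rw [e1, e2, e3, e4]
    by_cases hia : i ≤ a
    · have : dl n a i = i := by rw [dl, if_pos (by omega), if_pos hia]
      rw [this, hb (n - i) (by omega), inv_one, mul_one]
    · have : dl n a i = n - i := by rw [dl, if_pos (by omega), if_neg hia]; omega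
      rw [this, hb i (by omega), mul_inv_cancel]

/-- residues and the involution -/
theorem mp_w0_mem (a : Fin (n + 1)) {x : FF K0 (q ^ n * M)}
    (hx : X.mp (Fin.rev a) x ∈ WL A Ω k) : ∃ h : X.mp a (X.w0 x) ∈ WL A Ω k,
      πL A Ω k ⟨_, h⟩ = πL A Ω k ⟨_, hx⟩ := by
  by_cases h2 : 2 * (a : ℕ) = n
  · have hn := X.hn
    have hr : Fin.rev a = a := Fin.ext (by rw [val_rev]; omega)
    have hx' : X.mp a x ∈ WL A Ω k := by rw [hr] at hx; exact hx
    obtain ⟨σ, hσ⟩ := exists_conj X.B (m := n - a) (by omega)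
      (IsPrimitiveRoot.coe_units_iff.2 (X.zz_prim (a := a) (by omega)))
    choose f hf hf' using X.B.inert σ
    have hinj := IsFractionRing.injective A Ω
    let τ : A →+* A :=
      { toFun := f
        map_one' := hinj (by rw [← hf, map_one, map_one])
        map_zero' := hinj (by rw [← hf, map_zero, map_zero])
        map_mul' := fun a b => hinj (by rw [← hf, map_mul, map_mul, hf, hf, map_mul])
        map_add' := fun a b => hinj (by rw [← hf, map_add, map_add, hf, hf, map_add]) }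
    obtain ⟨h4, h5⟩ := coeffMap_mem_WL τ (σ.toRingEquiv : Ω →+* Ω) (RingHom.id k) hf
      (fun a => (hf' a).symm) hx'
    have hz1 : Units.map (algebraMap A k : A →* k) (X.zz a) = 1 := by
      rw [zz, map_pow, X.map_Z_one, one_pow]
    obtain ⟨h6, h7⟩ := twist_mem_WL hz1 h4
    have h8 := X.mp_mid h2 (σ := σ) hσ x
    have h9 : X.mp a (X.w0 x) ∈ WL A Ω k := by
      rw [h8]; exact h6
    refine ⟨h9, ?_⟩
    have h10 : (⟨_, h9⟩ : WL A Ω k) = ⟨_, h6⟩ := Subtype.ext h8
    have h11 : (⟨_, hx⟩ : WL A Ω k) = ⟨_, hx'⟩ :=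
      Subtype.ext (congrArg (fun b : Fin (n + 1) => X.mp b x) hr)
    rw [h10, h7, h5, h11]
    exact coeffMap_id _
  · have h3 := X.mp_w0 h2 x
    have h4 : X.mp a (X.w0 x) ∈ WL A Ω k := by rw [h3]; exact hx
    exact ⟨h4, congrArg (πL A Ω k) (Subtype.ext h3)⟩

theorem rev_rev_mem {a : Fin (n + 1)} {x : FF K0 (q ^ n * M)}
    (hx : X.mp a (X.w0 x) ∈ WL A Ω k) : X.mp (Fin.rev a) x ∈ WL A Ω k := by
  have h1 : X.mp (Fin.rev (Fin.rev a)) (X.w0 x) ∈ WL A Ω k := by rwa [Fin.rev_rev]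
  obtain ⟨h2, -⟩ := X.mp_w0_mem (Fin.rev a) h1
  rwa [X.w0_w0] at h2

variable (κ : IntermediateField k (LaurentSeries k))
  (hκ : ∀ j (x : FF K0 (q ^ n * M)) (h : x ∈ (X.E j).W), (X.E j).πW ⟨x, h⟩ ∈ κ)

/-- **residues and the involution** -/
theorem r_w0 (a : Fin (n + 1)) (x : FF K0 (q ^ n * M)) :
    ((X.E a).comp κ (hκ a)).r (X.w0 x) = ((X.E (Fin.rev a)).comp κ (hκ _)).r x := by
  by_cases h : x ∈ (X.E (Fin.rev a)).W
  · obtain ⟨h', h2⟩ := X.mp_w0_mem a h
    apply Subtype.ext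
    rw [(X.E a).coe_r κ (hκ a) h', (X.E (Fin.rev a)).coe_r κ (hκ _) h]
    exact h2
  · have h' : X.w0 x ∉ (X.E a).W := fun h1 => h (X.rev_rev_mem h1)
    have e1 : ((X.E a).comp κ (hκ a)).r (X.w0 x) = 0 := dif_neg h'
    have e2 : ((X.E (Fin.rev a)).comp κ (hκ _)).r x = 0 := dif_neg h
    rw [e1, e2]

theorem w0_uu (a : Fin (n + 1)) : X.w0 (uu K0 q M n a) = uu K0 q M n (Fin.rev a : Fin (n + 1)) ∨
    X.w0 (uu K0 q M n a) = - uu K0 q M n (Fin.rev a : Fin (n + 1)) := by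
  have ha := Nat.lt_succ_iff.1 a.2
  have hr := val_rev a
  rw [uu, uu, hr]
  have hmin : min (n - (a : ℕ)) (n - (n - a)) = min (a : ℕ) (n - a) := by
    rw [Nat.sub_sub_self ha, min_comm]
  rw [hmin]
  split_ifs with h
  · left
    exact map_natCast X.w0 q
  · right
    rw [map_sub, X.w0_jj (by omega), X.w0_jj (by omega), neg_sub]
    congr 2 <;> omega

/-- **valuations and the involution** -/
theorem v_w0 (a : Fin (n + 1)) (x : FF K0 (q ^ n * M)) :
    ((X.E a).comp κ (hκ a)).v (X.w0 x) = ((X.E (Fin.rev a)).comp κ (hκ _)).v x := by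
  rcases eq_or_ne x 0 with rfl | hx
  · rw [map_zero, Comp.v_zero, Comp.v_zero]
  set C := (X.E a).comp κ (hκ a) with hC
  set C' := (X.E (Fin.rev a)).comp κ (hκ _) with hC'
  obtain ⟨y, hy, h⟩ := C'.v_spec hx
  have hϖ' : C'.ϖ = uu K0 q M n (Fin.rev a : Fin (n + 1)) := rfl
  have hy0 : (y : FF K0 (q ^ n * M)) ≠ 0 := C'.ne_zero_of_π hy
  have hwy0 : X.w0 (y : FF K0 (q ^ n * M)) ≠ 0 := by
    rw [Ne, EmbeddingLike.map_eq_zero_iff]; exact hy0
  have hry : C'.r (y : FF K0 (q ^ n * M)) ≠ 0 := by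
    rw [Comp.r_eq y.2]; exact hy
  have h2 : C.v (X.w0 y) = 0 := by
    rw [← Comp.r_ne_zero_iff hwy0, hC, X.r_w0 κ hκ]
    exact hry
  have hvu : C.v (X.w0 (uu K0 q M n (Fin.rev a : Fin (n + 1)))) = 1 := by
    have h3 : C.v (uu K0 q M n a) = 1 := C.v_ϖ
    rcases X.w0_uu (Fin.rev a) with h4 | h4
    · rw [h4, Fin.rev_rev]; exact h3
    · rw [h4, Fin.rev_rev, Comp.v_neg]; exact h3
  have hu0 : X.w0 (uu K0 q M n (Fin.rev a : Fin (n + 1))) ≠ 0 := by
    intro h0
    rw [h0, Comp.v_zero] at hvu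
    exact zero_ne_one hvu
  conv_lhs => rw [h, map_mul, map_zpow₀, hϖ', Comp.v_mul _ (zpow_ne_zero _ hu0) hwy0, h2,
    Comp.v_zpow, hvu]
  ring

end Ctx

end Fermat.Agent.CQ
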