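import Fermat.Agent.CQ.Nm2
import Fermat.Agent.CQ.CmL
import Fermat.Agent.CQ.WInv
import Fermat.Agent.CQ.AbsM

/-!
# The degeneracy operators of the model of level `q ^ n M`
-/

set_option autoImplicit false
set_option linter.style.haveILetI false
set_option linter.unusedSectionVars false

noncomputable section

namespace Fermat.Agent.CQ

open Module ModularCurve AlgebraicCurve Polynomial IntermediateField Fermat.Agent.ModPoly
  Fermat.Agent.Cusp
open Fermat.Agent.SemiSt Fermat.Agent.RedMod Fermat.Agent.Car Fermat.Agent.Red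
open Fermat.Agent.CarE Fermat.Agent.Curve Fermat.Agent.Nod

namespace Ctx

variable {R0 K0 A Ω k : Type*} [CommRing R0] [IsDomain R0] [IsDiscreteValuationRing R0]
  [Field K0] [Algebra R0 K0]
  [IsFractionRing R0 K0] [CommRing A] [IsDomain A] [ValuationRing A] [Field Ω]
  [IsAlgClosed Ω] [CharZero Ω]
  [Algebra A Ω] [IsFractionRing A Ω] [Field k] [Algebra A k] [Algebra K0 Ω] [Algebra R0 A]
  [Algebra R0 k] {q M n : ℕ} [hq : Fact q.Prime] [NeZero M] [CharP k q]
  (X : Ctx R0 K0 A Ω k q M n)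

include X in
theorem one_lt_n1 : 1 < n + 1 := by have := X.hn; omega

theorem ee_rev (a : Fin (n + 1)) : ee q n (Fin.rev a : Fin (n + 1)) = ee q n a := by
  have ha := Nat.lt_succ_iff.1 a.2
  rw [ee, ee, val_rev]
  congr 2
  omega

set_option synthInstance.maxHeartbeats 400000 in
/-- **the degeneracy operators of the model** -/
def nm : NormJ X.cm q where
  NN := X.NN0
  w := X.w0.toRingEquiv
  rv := Fin.rev
  up a := n ≤ 2 * (a : ℕ)
  up_or a := by
    have ha := Nat.lt_succ_iff.1 a.2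
    rw [val_rev]
    omega
  rv_rv := Fin.rev_rev
  j0 := ⟨0, Nat.succ_pos n⟩
  j1 := ⟨1, X.one_lt_n1⟩
  up0 := by rw [val_rev]; change n ≤ 2 * (n - 0); omega
  up1 := by
    have := X.hn
    rw [val_rev]
    change n ≤ 2 * (n - 1)
    omega
  e0 := by
    change ee q n 0 = 1
    rw [ee, Nat.zero_min, pow_zero, Nat.totient_one]
  e1 := by
    have := X.hn
    change ee q n 1 = q - 1
    rw [ee, show min 1 (n - 1) = 1 by omega, pow_one, Nat.totient_prime hq.out]
  e_rv a := ee_rev a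
  NN_ne _ hx := X.NN0_ne hx
  NN_K := X.NN0_K
  w_K := X.w0.commutes
  v_NN0 _ hx := X.v_NN0 (FF k M) X.res_mem rfl rfl hx
  r_NN0 _ hx := X.r_NN0 (FF k M) X.res_mem rfl rfl hx
  v_NN a ha _ hx := X.v_NN (FF k M) X.res_mem a (by have := X.hn; omega) hx
  r_NN a ha _ hx := X.r_NN (FF k M) X.res_mem a (by have := X.hn; omega) hx
  v_w a x := X.v_w0 (FF k M) X.res_mem a x
  r_w a x := X.r_w0 (FF k M) X.res_mem a x

set_option synthInstance.maxHeartbeats 400000 in
/-- **stability of the finite chart** -/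
theorem stab_nm : X.nm.Stab where
  NN_B x hx := by
    refine ⟨fun j => X.NN0_mem hx.1 j, ?_⟩
    have h1 := hx.2
    change Reg Ω _ (emb K0 Ω (q ^ n * M) (X.NN0 x))
    rw [cm_emb_t] at h1 ⊢
    exact X.reg_NN0 h1
  w_B x hx := by
    refine ⟨fun j => (X.mp_w0_mem j (hx.1 (Fin.rev j))).1, ?_⟩
    have h1 := hx.2
    change Reg Ω _ (emb K0 Ω (q ^ n * M) (X.w0 x))
    rw [cm_emb_t] at h1 ⊢
    exact X.reg_w0 h1

end Ctx

end Fermat.Agent.CQ
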