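import Fermat.Agent.CQ.Deg
import Fermat.Agent.CarM.CuspT
import Fermat.Agent.CarE.Sinf3

/-!
# Places of the modular curve of level `q ^ n M` and the parameter `j_0 j_n`
-/

set_option autoImplicit false
set_option linter.style.haveILetI false
set_option linter.unusedSectionVars false

noncomputable section

namespace Fermat.Agent.CQ

open Module ModularCurve AlgebraicCurve Polynomial IntermediateField Fermat.Agent.ModPoly
  Fermat.Agent.Cusp Fermat.Agent.SemiSt Fermat.Agent.Curve Fermat.Agent.RR Fermat.Agent.Nod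

section Geo

variable {Ω : Type*} [Field Ω] [IsAlgClosed Ω] [CharZero Ω] {q n M : ℕ} [hq : Fact q.Prime]
  [NeZero M] (hco : q.Coprime M)

instance funField_lev (N : ℕ) [NeZero N] : FunField Ω (FF Ω N) := funField_FF (CarE.cast_ne Ω N)

/-- the Atkin-Lehner involution over `Ω` -/
def wΩ (n : ℕ) (hco : q.Coprime M) : FF Ω (q ^ n * M) ≃ₐ[Ω] FF Ω (q ^ n * M) :=
  wq (CarE.cast_ne Ω (q ^ n * M)) (hco.pow_left n)

theorem wΩ_wΩ (x : FF Ω (q ^ n * M)) : wΩ n hco (wΩ n hco x) = x := wq_wq _ _ x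

theorem wΩ_jF : wΩ n hco (jF' Ω (q ^ n * M)) = jm Ω (pp q ^ n) (dvd_n q n M) :=
  wq_jm_one _ _

theorem wΩ_jn : wΩ n hco (jm Ω (pp q ^ n) (dvd_n q n M)) = jF' Ω (q ^ n * M) :=
  wq_jm_n _ _

theorem wΩ_tt : wΩ n hco (tt Ω q n M) = tt Ω q n M := wq_tt _ _

theorem tt_eq : tt Ω q n M = jF' Ω (q ^ n * M) * jm Ω (pp q ^ n) (dvd_n q n M) := rfl

theorem jFz_ne : jF' Ω (q ^ n * M) ≠ 0 := jF_ne_zero

include hco in
theorem jn_ne : jm Ω (pp q ^ n) (dvd_n q n M) ≠ 0 := by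
  rw [← wΩ_jF hco]
  exact (_root_.map_ne_zero _).2 jFz_ne

include hco in
/-- the cusps are the poles of any `j (d τ)` -/
theorem ord_jn_iff (v : Place Ω (FF Ω (q ^ n * M))) :
    0 ≤ v.ord (jm Ω (pp q ^ n) (dvd_n q n M)) ↔ 0 ≤ v.ord (jF' Ω (q ^ n * M)) := by
  constructor
  · intro h
    let φ : FF Ω (q ^ n * M) →ₐ[Ω] FF Ω (q ^ n * M) := (wΩ n hco).toAlgHom
    have h1 : 0 ≤ (MW.rs φ v).ord (jF' Ω (q ^ n * M)) := by
      rw [← MW.le_zero_iff φ v]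
      change 0 ≤ v.ord (wΩ n hco (jF' Ω (q ^ n * M)))
      rw [wΩ_jF]; exact h
    have h2 := CarM.jm_regular (MW.rs φ v) h1 (dvd_n q n M)
    rw [← MW.le_zero_iff φ v] at h2
    change 0 ≤ v.ord (wΩ n hco (jm Ω (pp q ^ n) (dvd_n q n M))) at h2
    rwa [wΩ_jn] at h2
  · intro h
    exact CarM.jm_regular v h (dvd_n q n M)

include hco in
/-- the parameter is finite exactly outside the cusps -/
theorem ord_tt_iff (v : Place Ω (FF Ω (q ^ n * M))) :
    0 ≤ v.ord (tt Ω q n M) ↔ 0 ≤ v.ord (jF' Ω (q ^ n * M)) := by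
  rw [tt_eq, v.ord_mul jFz_ne (jn_ne hco)]
  have h := ord_jn_iff hco v
  constructor
  · intro h1
    by_contra hc
    have h2 : ¬ 0 ≤ v.ord (jm Ω (pp q ^ n) (dvd_n q n M)) := fun h3 => hc (h.1 h3)
    omega
  · intro h1
    have h2 := h.2 h1
    omega

include hco in
/-- where the parameter does not vanish -/
theorem ord_tt_nonpos (v : Place Ω (FF Ω (q ^ n * M))) (hv : v.ord (tt Ω q n M) ≤ 0) :
    v.ord (jF' Ω (q ^ n * M)) ≤ 0 := by
  by_contra hc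
  push Not at hc
  have h1 := (ord_jn_iff hco v).2 hc.le
  rw [tt_eq, v.ord_mul jFz_ne (jn_ne hco)] at hv
  omega

include hco in
theorem ord_tt_nonpos' (v : Place Ω (FF Ω (q ^ n * M))) (hv : v.ord (tt Ω q n M) ≤ 0) :
    v.ord (jm Ω (pp q ^ n) (dvd_n q n M)) ≤ 0 := by
  by_contra hc
  push Not at hc
  have h1 := (ord_jn_iff hco v).1 hc.le
  rw [tt_eq, v.ord_mul jFz_ne (jn_ne hco)] at hv
  omega

/-- regularity is invariant under the involution -/
theorem reg_wΩ {s y : FF Ω (q ^ n * M)} (hs : wΩ n hco s = s) (hy : Reg Ω s y) :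
    Reg Ω s (wΩ n hco y) :=
  CarE.reg_aut (wΩ n hco).toAlgHom hs hy

theorem reg_tt_wΩ {y : FF Ω (q ^ n * M)} (hy : Reg Ω (tt Ω q n M) y) :
    Reg Ω (tt Ω q n M) (wΩ n hco y) := reg_wΩ hco (wΩ_tt hco) hy

theorem reg_ti_wΩ {y : FF Ω (q ^ n * M)} (hy : Reg Ω (tt Ω q n M)⁻¹ y) :
    Reg Ω (tt Ω q n M)⁻¹ (wΩ n hco y) :=
  reg_wΩ hco (by rw [map_inv₀, wΩ_tt]) hy

include hco in
theorem reg_tt_iff {x : FF Ω (q ^ n * M)} :
    Reg Ω (tt Ω q n M) x ↔ Reg Ω (jF' Ω (q ^ n * M)) x := by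
  constructor
  · intro h v hv
    exact h v ((ord_tt_iff hco v).2 hv)
  · intro h v hv
    exact h v ((ord_tt_iff hco v).1 hv)

theorem dvd_M (q n M : ℕ) : M ∣ q ^ n * M := dvd_mul_left M (q ^ n)

include hco in
/-- functions of level `M` regular outside the cusps -/
theorem reg_incl {y : FF Ω M} (hy : ∀ v : Place Ω (FF Ω M), 0 ≤ v.ord (jF' Ω M) → 0 ≤ v.ord y) :
    Reg Ω (tt Ω q n M) (incl Ω (dvd_M q n M) y) := by
  rw [reg_tt_iff hco]
  intro v hv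
  rw [← incl_jF (dvd_M q n M), MW.le_zero_iff] at hv
  apply Ge.of_le
  rw [MW.le_zero_iff]
  exact hy _ hv

/-- functions of level `M` with poles bounded by those of `j` -/
theorem ge_incl {f : FF Ω M} {a : ℕ}
    (hf : ∀ v : Place Ω (FF Ω M), Ge v (-(a * max (-v.ord (jF' Ω M)) 0)) f)
    (v : Place Ω (FF Ω (q ^ n * M))) :
    Ge v (-(a * max (-v.ord (jF' Ω (q ^ n * M))) 0)) (incl Ω (dvd_M q n M) f) := by
  rcases hf (MW.rs (incl Ω (dvd_M q n M)) v) with rfl | h1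
  · rw [map_zero]; exact Ge.zero v _
  refine Ge.of_le ?_
  have e1 : jF' Ω (q ^ n * M) = incl Ω (dvd_M q n M) (jF' Ω M) := (incl_jF _).symm
  rw [e1, MW.ord_map, MW.ord_map]
  have hc := MW.re_pos (incl Ω (dvd_M q n M)) v
  set c := MW.re (incl Ω (dvd_M q n M)) v with hcd
  set P := MW.rs (incl Ω (dvd_M q n M)) v with hP
  have h4 : max (-(c * P.ord (jF' Ω M))) 0 = c * max (-P.ord (jF' Ω M)) 0 := by
    rw [mul_max_of_nonneg _ _ hc.le, mul_zero, mul_neg]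
  rw [h4]
  have := mul_le_mul_of_nonneg_left h1 hc.le
  linarith [mul_left_comm (a : ℤ) c (max (-P.ord (jF' Ω M)) 0)]

include hco in
/-- **regularity for the chart at infinity** -/
theorem reg_inf {f : FF Ω M} {a : ℕ}
    (hf : ∀ v : Place Ω (FF Ω M), Ge v (-(a * max (-v.ord (jF' Ω M)) 0)) f) :
    Reg Ω (tt Ω q n M)⁻¹ (incl Ω (dvd_M q n M) f * (jF' Ω (q ^ n * M))⁻¹ ^ a) := by
  intro v hv
  rw [v.ord_inv, neg_nonneg] at hv
  have h1 := ord_tt_nonpos hco v hv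
  have g1 := ge_incl (q := q) (n := n) hf v
  have g2 : Ge v (a * -v.ord (jF' Ω (q ^ n * M))) ((jF' Ω (q ^ n * M))⁻¹ ^ a) := by
    refine Ge.of_le ?_
    rw [ord_pow, v.ord_inv]
  refine (g1.mul g2).mono ?_
  rw [max_eq_left (by omega)]
  linarith

end Geo

end Fermat.Agent.CQ
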