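import Fermat.Agent.CQ.Core2
import Fermat.Agent.CQ.Sj1
import Fermat.Agent.PRem.ConcW

/-!
# Expansions of functions of level `M` at the components; lifting
-/

set_option autoImplicit false
set_option linter.style.haveILetI false
set_option linter.unusedSectionVars false

noncomputable section

namespace Fermat.Agent.CQ

open ModularCurve Polynomial IntermediateField Fermat.Agent.ModPoly Fermat.Agent.Cusp AlgebraicCurve
open Fermat.Agent.SemiSt Fermat.Agent.RedMod Fermat.Agent.CarE Fermat.Agent.Nod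
open Fermat.Agent.Curve Fermat.Agent.PRem Fermat.Agent.RR

section Gen

variable {A Ω k : Type*} [CommRing A] [IsDomain A] [ValuationRing A]
  [Field Ω] [Algebra A Ω] [IsFractionRing A Ω] [Field k] [Algebra A k]

/-- reduction of a substituted series -/
theorem rd_SbJ {c : Aˣ} (hc : algebraMap A k c = 1) (e : ℕ+) {x : LaurentSeries Ω}
    {a : LaurentSeries k} (h : Rd A x a) :
    Rd A (Sb (Units.map (algebraMap A Ω : A →* Ω) c) e x) (Sb 1 e a) := by
  obtain ⟨h1, rfl⟩ := h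
  haveI : NeZero (e : ℕ) := ⟨e.ne_zero⟩
  have h2 : twist (Units.map (algebraMap A Ω : A →* Ω) c) x ∈ WL A Ω k ∧
      ∀ h : twist (Units.map (algebraMap A Ω : A →* Ω) c) x ∈ WL A Ω k,
        πL A Ω k ⟨_, h⟩ = πL A Ω k ⟨x, h1⟩ := by
    obtain ⟨u, v, hv, h⟩ := mem_WL.1 h1
    have hc' : Units.map (algebraMap A k : A →* k) c = 1 := Units.ext hc
    have e1 : ∀ u : LaurentSeries A, incL A Ω (twist c u) =
        twist (Units.map (algebraMap A Ω : A →* Ω) c) (incL A Ω u) := fun u => coeffMap_twist _ c u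
    have e2 : ∀ u : LaurentSeries A, redL A k (twist c u) = redL A k u := by
      intro u
      rw [redL, coeffMap_twist, hc', twist_one]
    have hv' : redL A k (twist c v) ≠ 0 := by rw [e2]; exact hv
    have h3 : incL A Ω (twist c v) * twist (Units.map (algebraMap A Ω : A →* Ω) c) x =
        incL A Ω (twist c u) := by rw [e1, e1, ← map_mul, h]
    have h4 : twist (Units.map (algebraMap A Ω : A →* Ω) c) x ∈ WL A Ω k := ⟨_, _, hv', h3⟩
    refine ⟨h4, fun h4 => ?_⟩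
    rw [πL_eq ⟨_, h4⟩ hv' h3, πL_eq ⟨x, h1⟩ hv h, e2, e2]
  have h3 : qExpand Ω (e : ℕ) (twist (Units.map (algebraMap A Ω : A →* Ω) c) x) ∈ WL A Ω k :=
    qExpand_mem_WL h2.1
  refine ⟨h3, ?_⟩
  have h4 := πL_qExpand h2.1 h3
  rw [h2.2] at h4
  refine h4.trans ?_
  rw [Sb_apply, twist_one]

end Gen

section Dl

variable {q n : ℕ}

theorem dl_zero_up {a : ℕ} (h : n ≤ 2 * a) : dl n a 0 = 0 := by
  rw [dl, if_pos h, if_pos (Nat.zero_le a)]

theorem dl_last_dn {a : ℕ} (h : ¬ n ≤ 2 * a) : dl n a n = 0 := by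
  rw [dl, if_neg h, if_pos (by omega), Nat.sub_self]

/-- the level whose functions are the residues -/
def i0 (n a : ℕ) : ℕ := if n ≤ 2 * a then 0 else n

theorem i0_le (n a : ℕ) : i0 n a ≤ n := by
  rw [i0]; split_ifs <;> omega

theorem dl_i0 (n a : ℕ) : dl n a (i0 n a) = 0 := by
  rw [i0]
  split_ifs with h
  · exact dl_zero_up h
  · exact dl_last_dn h

end Dl

section Geo

variable {Ω : Type*} [Field Ω] [IsAlgClosed Ω] [CharZero Ω] {q n M : ℕ} [hq : Fact q.Prime]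
  [NeZero M] (hco : q.Coprime M)

theorem lev_zero (y : FF Ω M) :
    lev Ω q M n 0 (Nat.zero_le n) y = incl Ω (dvd_M q n M) y := by
  apply Subtype.ext
  rw [coe_lev, coe_incl, pow_zero, ← twist_eq_Sb, twist_one]

theorem lev_last (y : FF Ω M) :
    lev Ω q M n n le_rfl y = wΩ n hco (incl Ω (dvd_M q n M) y) := by
  have h := wq'_lev (n := n) hco (Nat.zero_le n) y
  rw [lev_zero] at h
  exact h.symm

include hco in
/-- regularity at the finite chart -/
theorem reg_lev_i0 (a : ℕ) {y : FF Ω M}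
    (hy : ∀ v : Place Ω (FF Ω M), 0 ≤ v.ord (jF' Ω M) → 0 ≤ v.ord y) :
    Reg Ω (tt Ω q n M) (lev Ω q M n (i0 n a) (i0_le n a) y) := by
  by_cases h : n ≤ 2 * a
  · have e : i0 n a = 0 := if_pos h
    have h1 : ∀ (i : ℕ) (hi : i ≤ n), i = 0 → Reg Ω (tt Ω q n M) (lev Ω q M n i hi y) := by
      rintro i hi rfl
      rw [lev_zero]
      exact reg_incl hco hy
    exact h1 _ _ e
  · have e : i0 n a = n := if_neg h
    have h1 : ∀ (i : ℕ) (hi : i ≤ n), i = n → Reg Ω (tt Ω q n M) (lev Ω q M n i hi y) := by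
      rintro i hi rfl
      rw [lev_last hco]
      exact reg_tt_wΩ hco (reg_incl hco hy)
    exact h1 _ _ e

include hco in
/-- regularity at the chart at infinity -/
theorem reg_inf_i0 (a : ℕ) {y : FF Ω M} {m : ℕ}
    (hf : ∀ v : Place Ω (FF Ω M), Ge v (-(m * max (-v.ord (jF' Ω M)) 0)) y) :
    Reg Ω (tt Ω q n M)⁻¹ (lev Ω q M n (i0 n a) (i0_le n a) (y * (jF' Ω M)⁻¹ ^ m)) := by
  have e0 : incl Ω (dvd_M q n M) (y * (jF' Ω M)⁻¹ ^ m) =
      incl Ω (dvd_M q n M) y * (jF' Ω (q ^ n * M))⁻¹ ^ m := by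
    rw [map_mul, map_pow, map_inv₀, incl_jF]
  by_cases h : n ≤ 2 * a
  · have e : i0 n a = 0 := if_pos h
    have h1 : ∀ (i : ℕ) (hi : i ≤ n), i = 0 →
        Reg Ω (tt Ω q n M)⁻¹ (lev Ω q M n i hi (y * (jF' Ω M)⁻¹ ^ m)) := by
      rintro i hi rfl
      rw [lev_zero, e0]
      exact reg_inf hco hf
    exact h1 _ _ e
  · have e : i0 n a = n := if_neg h
    have h1 : ∀ (i : ℕ) (hi : i ≤ n), i = n →
        Reg Ω (tt Ω q n M)⁻¹ (lev Ω q M n i hi (y * (jF' Ω M)⁻¹ ^ m)) := by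
      rintro i hi rfl
      rw [lev_last hco, e0]
      exact reg_ti_wΩ hco (reg_inf hco hf)
    exact h1 _ _ e

end Geo

namespace Ctx

section Basic

variable {R0 K0 A Ω k : Type*} [CommRing R0] [IsDomain R0] [Field K0] [Algebra R0 K0]
  [IsFractionRing R0 K0] [CommRing A] [IsDomain A] [ValuationRing A] [Field Ω]
  [IsAlgClosed Ω] [CharZero Ω]
  [Algebra A Ω] [IsFractionRing A Ω] [Field k] [Algebra A k] [Algebra K0 Ω] [Algebra R0 A]
  [Algebra R0 k] {q M n : ℕ} [hq : Fact q.Prime] [NeZero M] [CharP k q]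
  (X : Ctx R0 K0 A Ω k q M n)

include X in
theorem red_Z_pow (m : ℕ) : algebraMap A k (X.Z ^ m : Aˣ) = 1 := by
  have h := congrArg Units.val X.map_Z_one
  rw [Units.val_pow_eq_pow_val, map_pow]
  have h1 : algebraMap A k (X.Z : A) = 1 := h
  rw [h1, one_pow]

/-- the reduction of the expansion of a function of level `M` -/
theorem rd_levJ (a : Fin (n + 1)) {i : ℕ} (hi : i ≤ n) {y : FF K0 M} {z : LaurentSeries k}
    (h : Rd A (CarE.emb K0 Ω M y : LaurentSeries Ω) z) :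
    Rd A (X.mp a (lev K0 q M n i hi y)) (Sb 1 (pp q ^ dl n a i) z) := by
  rw [mp_apply, emb_lev, X.phΩ_lev]
  have h1 : X.ZΩ ^ (q ^ cx n a i) =
      Units.map (algebraMap A Ω : A →* Ω) (X.Z ^ (q ^ cx n a i)) := by rw [map_pow]; rfl
  rw [h1]
  exact rd_SbJ (X.red_Z_pow _) _ h

/-- the residue is the function itself -/
theorem rd_i0 (a : Fin (n + 1)) {y : FF K0 M} {z : LaurentSeries k}
    (h : Rd A (CarE.emb K0 Ω M y : LaurentSeries Ω) z) :
    Rd A (X.mp a (lev K0 q M n (i0 n a) (i0_le n a) y)) z := by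
  have h1 := X.rd_levJ a (i0_le n a) h
  rw [dl_i0, pow_zero, ← twist_eq_Sb, twist_one] at h1
  exact h1

theorem mem_lev (a : Fin (n + 1)) {i : ℕ} (hi : i ≤ n) {y : FF K0 M} {z : LaurentSeries k}
    (h : Rd A (CarE.emb K0 Ω M y : LaurentSeries Ω) z) :
    X.mp a (lev K0 q M n i hi y) ∈ WL A Ω k := (X.rd_levJ a hi h).choose

end Basic

section Lift

variable {R0 K0 A Ω k : Type*} [CommRing R0] [IsDomain R0] [IsDiscreteValuationRing R0]
  [Field K0] [Algebra R0 K0]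
  [IsFractionRing R0 K0] [CommRing A] [IsDomain A] [ValuationRing A] [Field Ω]
  [IsAlgClosed Ω] [CharZero Ω]
  [Algebra A Ω] [IsFractionRing A Ω] [Field k] [IsAlgClosed k] [Algebra A k] [Algebra K0 Ω]
  [Algebra R0 A]
  [Algebra R0 k] {q M n : ℕ} [hq : Fact q.Prime] [NeZero M] [CharP k q]
  (X : Ctx R0 K0 A Ω k q M n) (ι : Ω →+* ℂ)

include X ι in
/-- lifting a function regular where `j` is finite -/
theorem exists_lift_fin (z : FF k M)
    (hz : ∀ Q : Place k (FF k M), 0 ≤ Q.ord (jF' k M) → 0 ≤ Q.ord z) :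
    ∃ y : FF K0 M, Rd A (CarE.emb K0 Ω M y : LaurentSeries Ω) (z : LaurentSeries k) ∧
      ∀ v : Place Ω (FF Ω M), 0 ≤ v.ord (jF' Ω M) → 0 ≤ v.ord (CarE.emb K0 Ω M y) := by
  haveI := funField_FF (k := k) (M := M) X.hM
  obtain ⟨n0, hn0⟩ := exists_lift_LL X.B X.hM ι
  obtain ⟨a0, ha0⟩ := ThmC.exists_pole_bound (K := k) (F := FF k M) (jF' k M) (y := z) hz
  rw [ThmC.mem_LL_iff_ge] at ha0
  obtain ⟨y, hy, hyz, hyp⟩ := hn0 (n0 + a0) (Nat.le_add_right _ _) z (fun Q => by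
    refine (ha0 Q).mono ?_
    have h1 : (0 : ℤ) ≤ max (-Q.ord (jF' k M)) 0 := le_max_right _ _
    push_cast
    nlinarith [mul_nonneg (Int.natCast_nonneg n0) h1])
  refine ⟨y, ⟨hy, hyz⟩, fun v hv => ?_⟩
  have h1 := hyp v
  rw [max_eq_right (by omega), mul_zero, neg_zero] at h1
  rcases h1 with h1 | h1
  · rw [h1, v.ord_zero]
  · exact h1

include ι in
/-- **functions with given residue, finite chart** -/
theorem exists_fin (a : Fin (n + 1)) (z : FF k M)
    (hz : ∀ Q : Place k (FF k M), 0 ≤ Q.ord (jF' k M) → 0 ≤ Q.ord z) :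
    ∃ x : FF K0 (q ^ n * M), (∀ l, X.mp l x ∈ WL A Ω k) ∧
      Reg Ω (tt Ω q n M) (CarE.emb K0 Ω (q ^ n * M) x) ∧
      Rd A (X.mp a x) (z : LaurentSeries k) := by
  obtain ⟨y, hy, hyr⟩ := X.exists_lift_fin ι z hz
  refine ⟨lev K0 q M n (i0 n a) (i0_le n a) y, fun l => X.mem_lev l _ hy, ?_, X.rd_i0 a hy⟩
  rw [emb_lev]
  exact reg_lev_i0 X.hco a hyr

include ι in
/-- **functions with given residue, chart at infinity** -/
theorem exists_inf (a : Fin (n + 1)) (z : FF k M)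
    (hz : ∀ Q : Place k (FF k M), Q.ord (jF' k M) ≤ 0 → 0 ≤ Q.ord z) :
    ∃ x : FF K0 (q ^ n * M), (∀ l, X.mp l x ∈ WL A Ω k) ∧
      Reg Ω (tt Ω q n M)⁻¹ (CarE.emb K0 Ω (q ^ n * M) x) ∧
      Rd A (X.mp a x) (z : LaurentSeries k) := by
  obtain ⟨n0, hn0⟩ := exists_lift_LL X.B X.hM ι
  obtain ⟨a0, ha0⟩ := exists_mul_pow hz X.hM
  obtain ⟨y, hy, hyz, hyp⟩ := hn0 (n0 + a0) (Nat.le_add_right _ _) (z * jF' k M ^ (n0 + a0))
    (ha0 (n0 + a0) (Nat.le_add_left _ _))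
  set m := n0 + a0 with hm
  have hy' : Rd A (CarE.emb K0 Ω M y : LaurentSeries Ω)
      ((z : LaurentSeries k) * jqModC k ^ m) := by
    refine ⟨hy, hyz.trans ?_⟩
    have e2 : ((jF' k M : FF k M) : LaurentSeries k) = jqModC k := Jc_one_one
    rw [IntermediateField.coe_mul, IntermediateField.coe_pow, e2]
  have hj : Rd A (CarE.emb K0 Ω M (jF' K0 M)⁻¹ : LaurentSeries Ω) ((jqModC k)⁻¹) := by
    have h1 : (CarE.emb K0 Ω M (jF' K0 M)⁻¹ : LaurentSeries Ω) = (jqModC Ω)⁻¹ := by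
      rw [map_inv₀, emb_jm]
      change (Jc 1 1 : LaurentSeries Ω)⁻¹ = _
      rw [Jc_one_one]
    rw [h1]
    have h2 : Rd A (jqModC Ω) (jqModC k) := by
      have := Rd.incL (A := A) (K := Ω) (k := k) (jqModC A)
      rwa [incL, redL, coeffMap_jqModC, coeffMap_jqModC] at this
    have h3 := Rd.one.div h2 J_ne
    rwa [one_div, one_div] at h3
  have hx : Rd A (CarE.emb K0 Ω M (y * (jF' K0 M)⁻¹ ^ m) : LaurentSeries Ω)
      (z : LaurentSeries k) := by
    have h1 := hy'.mul (hj.pow m)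
    rw [mul_assoc, ← mul_pow, mul_inv_cancel₀ J_ne, one_pow, mul_one] at h1
    rw [map_mul, map_pow]
    exact h1
  refine ⟨lev K0 q M n (i0 n a) (i0_le n a) (y * (jF' K0 M)⁻¹ ^ m),
    fun l => X.mem_lev l _ hx, ?_, X.rd_i0 a hx⟩
  rw [emb_lev, map_mul, map_pow, map_inv₀, emb_jm]
  exact reg_inf_i0 X.hco a hyp

end Lift

end Ctx

end Fermat.Agent.CQ
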