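import Fermat.Agent.CQ.Cm
import Fermat.Agent.CQ.Sj2
import Fermat.Agent.Car.Good

/-!
# Surjectivity of the residues for both charts
-/

set_option autoImplicit false
set_option linter.style.haveILetI false
set_option linter.unusedSectionVars false

noncomputable section

namespace Fermat.Agent.CQ

open ModularCurve Polynomial IntermediateField Fermat.Agent.ModPoly Fermat.Agent.Cusp AlgebraicCurve
open Fermat.Agent.SemiSt Fermat.Agent.RedMod Fermat.Agent.Nod Fermat.Agent.CarE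
open Fermat.Agent.Curve Fermat.Agent.PRem Fermat.Agent.RR Fermat.Agent.Car

namespace Ctx

section Basic

variable {R0 K0 A Ω k : Type*} [CommRing R0] [IsDomain R0] [IsDiscreteValuationRing R0]
  [Field K0] [Algebra R0 K0]
  [IsFractionRing R0 K0] [CommRing A] [IsDomain A] [ValuationRing A] [Field Ω]
  [IsAlgClosed Ω] [CharZero Ω]
  [Algebra A Ω] [IsFractionRing A Ω] [Field k] [Algebra A k] [Algebra K0 Ω]
  [Algebra R0 A]
  [Algebra R0 k] {q M n : ℕ} [hq : Fact q.Prime] [NeZero M] [CharP k q]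
  (X : Ctx R0 K0 A Ω k q M n)

set_option synthInstance.maxHeartbeats 400000

theorem sj_mem_W {a : Fin (n + 1)} {x : FF K0 (q ^ n * M)} (h : X.mp a x ∈ WL A Ω k) :
    x ∈ (X.cm.comp a).W := h

theorem sj_r {a : Fin (n + 1)} {x : FF K0 (q ^ n * M)} {z : LaurentSeries k}
    (h : Rd A (X.mp a x) z) : ((X.cm.comp a).r x : LaurentSeries k) = z := by
  obtain ⟨h1, h2⟩ := h
  rw [← h2]
  exact (X.E a).coe_r (FF k M) (X.res_mem a) h1

theorem sj_r_eq {a : Fin (n + 1)} {x : FF K0 (q ^ n * M)} {z : FF k M}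
    (h : Rd A (X.mp a x) (z : LaurentSeries k)) : (X.cm.comp a).r x = z :=
  Subtype.ext (X.sj_r h)

theorem sj_emb_t : X.cm.emb X.cm.t = CQ.tt Ω q n M := Ctx.emb_tt

theorem sj_mem_B {x : FF K0 (q ^ n * M)} : x ∈ X.cm.B ↔
    (∀ j, x ∈ (X.cm.comp j).W) ∧ Reg Ω (tt Ω q n M) (CarE.emb K0 Ω (q ^ n * M) x) := by
  have h1 : x ∈ X.cm.B ↔ x ∈ X.cm.G.W ∧ Reg Ω (X.cm.emb X.cm.t) (X.cm.emb x) := Iff.rfl
  rw [h1, X.cm.mem_W, sj_emb_t]
  rfl

theorem sj_mem_Bi {x : FF K0 (q ^ n * M)} : x ∈ X.cm.inv.B ↔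
    (∀ j, x ∈ (X.cm.comp j).W) ∧ Reg Ω (tt Ω q n M)⁻¹ (CarE.emb K0 Ω (q ^ n * M) x) := by
  have h1 : x ∈ X.cm.inv.B ↔ x ∈ X.cm.inv.G.W ∧ Reg Ω (X.cm.inv.emb X.cm.inv.t) (X.cm.inv.emb x) :=
    Iff.rfl
  have h2 : X.cm.inv.emb X.cm.inv.t = (tt Ω q n M)⁻¹ := by
    have h : X.cm.inv.emb X.cm.inv.t = (X.cm.emb X.cm.t)⁻¹ := by
      rw [← map_inv₀]
      rfl
    rw [h, sj_emb_t]
  rw [h1, X.cm.inv.mem_W, h2]
  rfl

theorem sj_tb (a : Fin (n + 1)) : X.cm.tb a = jF' k M ^ rr q n a := by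
  apply Subtype.ext
  have h1 := Ctx.coe_r_tt X (FF k M) X.res_mem a
  refine h1.trans ?_
  rw [IntermediateField.coe_pow]
  congr 1
  exact Jc_one_one.symm

theorem rr_pos (q n a : ℕ) : 0 < rr q n a := by rw [rr]; omega

theorem sj_ord_tb {a : Fin (n + 1)} {Q : Place k (FF k M)} :
    0 ≤ Q.ord (X.cm.tb a) ↔ 0 ≤ Q.ord (jF' k M) := by
  rw [X.sj_tb, ord_pow]
  have h := rr_pos q n a
  have h' : (0 : ℤ) < rr q n a := by exact_mod_cast h
  constructor
  · intro h1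
    exact nonneg_of_mul_nonneg_right h1 h'
  · intro h1
    exact mul_nonneg h'.le h1

theorem sj_ord_tbi {a : Fin (n + 1)} {Q : Place k (FF k M)} :
    0 ≤ Q.ord (X.cm.inv.tb a) ↔ Q.ord (jF' k M) ≤ 0 := by
  rw [X.cm.tb_inv, Q.ord_inv, X.sj_tb, ord_pow]
  have h := rr_pos q n a
  have h' : (0 : ℤ) < rr q n a := by exact_mod_cast h
  constructor
  · intro h1
    by_contra hc
    push Not at hc
    have := mul_pos h' hc
    omega
  · intro h1
    have := mul_nonneg h'.le (neg_nonneg.2 h1)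
    linarith

end Basic

section Main

variable {R0 K0 A Ω k : Type*} [CommRing R0] [IsDomain R0] [IsDiscreteValuationRing R0]
  [Field K0] [Algebra R0 K0]
  [IsFractionRing R0 K0] [CommRing A] [IsDomain A] [ValuationRing A] [Field Ω]
  [IsAlgClosed Ω] [CharZero Ω]
  [Algebra A Ω] [IsFractionRing A Ω] [Field k] [IsAlgClosed k] [Algebra A k] [Algebra K0 Ω]
  [Algebra R0 A]
  [Algebra R0 k] {q M n : ℕ} [hq : Fact q.Prime] [NeZero M] [CharP k q]
  (X : Ctx R0 K0 A Ω k q M n) (ι : Ω →+* ℂ)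

set_option synthInstance.maxHeartbeats 400000

include ι in
/-- **surjectivity of the residues, finite chart** -/
theorem surj_fin (a : Fin (n + 1)) (z : FF k M) (hz : Reg k (X.cm.tb a) z) :
    ∃ x ∈ X.cm.B, (X.cm.comp a).r x = z := by
  obtain ⟨x, h1, h2, h3⟩ := X.exists_fin ι a z (fun Q hQ => by
    rcases hz Q (X.sj_ord_tb.2 hQ) with h | h
    · rw [h, Q.ord_zero]
    · exact h)
  exact ⟨x, X.sj_mem_B.2 ⟨fun j => X.sj_mem_W (h1 j), h2⟩, X.sj_r_eq h3⟩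

include ι in
/-- **surjectivity of the residues, chart at infinity** -/
theorem surj_inf (a : Fin (n + 1)) (z : FF k M) (hz : Reg k (X.cm.inv.tb a) z) :
    ∃ x ∈ X.cm.inv.B, (X.cm.inv.comp a).r x = z := by
  obtain ⟨x, h1, h2, h3⟩ := X.exists_inf ι a z (fun Q hQ => by
    rcases hz Q (X.sj_ord_tbi.2 hQ) with h | h
    · rw [h, Q.ord_zero]
    · exact h)
  exact ⟨x, X.sj_mem_Bi.2 ⟨fun j => X.sj_mem_W (h1 j), h2⟩, X.sj_r_eq h3⟩

end Main

end Ctx

end Fermat.Agent.CQ
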