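import Fermat.Agent.CQ.Nd
import Fermat.Agent.CQ.NmJ
import Fermat.Agent.CQ.Sj3

/-!
# The intersection points of the finite chart of the model of level `q ^ n M`
-/

set_option autoImplicit false
set_option linter.style.haveILetI false
set_option linter.unusedSectionVars false

noncomputable section

namespace Fermat.Agent.CQ

open ModularCurve Polynomial IntermediateField Fermat.Agent.ModPoly Fermat.Agent.Cusp AlgebraicCurve
open Fermat.Agent.SemiSt Fermat.Agent.CarE Fermat.Agent.HeckeProd Fermat.Agent.Curve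
open Fermat.Agent.RedMod Fermat.Agent.Car Fermat.Agent.RR Fermat.Agent.Red Fermat.Agent.PRem
open Fermat.Agent.ThmC Fermat.Agent.Nod

namespace Ctx

variable {R0 K0 A Ω k : Type*} [CommRing R0] [IsDomain R0] [IsDiscreteValuationRing R0]
  [Field K0] [Algebra R0 K0]
  [IsFractionRing R0 K0] [CommRing A] [IsDomain A] [ValuationRing A] [Field Ω]
  [IsAlgClosed Ω] [CharZero Ω]
  [Algebra A Ω] [IsFractionRing A Ω] [Field k] [IsAlgClosed k] [Algebra A k] [Algebra K0 Ω]
  [Algebra R0 A]
  [Algebra R0 k] {q M n : ℕ} [hq : Fact q.Prime] [NeZero M] [CharP k q]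
  (X : Ctx R0 K0 A Ω k q M n)

set_option synthInstance.maxHeartbeats 400000

/-- **the intersection points** -/
theorem node_nm (ι : Ω →+* ℂ) (HL : CarM.Lifts M K0 A Ω k) (U : UnitsM X.cm)
    (hr : ∀ l, (X.cm.comp l).r (U.H l) = 0) : X.nm.Node := by
  haveI := X.B.alg
  haveI : FunField k (FF k M) := funField_FF X.hM
  haveI : FunField Ω (FF Ω M) := funField_FF (natCast_ne_zero_K Ω M)
  haveI : FunField Ω (FF Ω (q ^ n * M)) := funField_FF (natCast_ne_zero_K Ω (q ^ n * M))
  have hn := X.hn
  refine ⟨node_all U (X.surj_fin ι) hr, X.cm_h01 HL ?_ ?_⟩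
  · change dl n 0 n = 0
    rw [dl]
    split_ifs <;> omega
  · change dl n 1 n = 0
    rw [dl]
    split_ifs <;> omega

end Ctx

end Fermat.Agent.CQ
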