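import Fermat.Agent.CQ.Star5
import Fermat.Agent.CQ.Sj3

/-!
# The finite chart of the model of level `q ^ n M` is regular
-/

set_option autoImplicit false
set_option linter.style.haveILetI false
set_option linter.unusedSectionVars false

noncomputable section

namespace Fermat.Agent.CQ

open ModularCurve Polynomial IntermediateField Fermat.Agent.ModPoly Fermat.Agent.Cusp AlgebraicCurve
open Fermat.Agent.SemiSt Fermat.Agent.HeckeProd Fermat.Agent.Curve
open Fermat.Agent.RedMod Fermat.Agent.Car Fermat.Agent.RR Fermat.Agent.Red Fermat.Agent.PRem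
open Fermat.Agent.ThmC Fermat.Agent.Nod Fermat.Agent.CarE

namespace Ctx

variable {R0 K0 A Ω k : Type*} [CommRing R0] [IsDomain R0] [IsDiscreteValuationRing R0]
  [Field K0] [Algebra R0 K0]
  [IsFractionRing R0 K0] [CommRing A] [IsDomain A] [ValuationRing A] [Field Ω]
  [IsAlgClosed Ω] [CharZero Ω]
  [Algebra A Ω] [IsFractionRing A Ω] [Field k] [Algebra A k] [Algebra K0 Ω] [Algebra R0 A]
  [Algebra R0 k] {q M n : ℕ} [hq : Fact q.Prime] [NeZero M] [CharP k q]
  (X : Ctx R0 K0 A Ω k q M n) [IsAlgClosed k] [FunField k (FF k M)]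

set_option synthInstance.maxHeartbeats 400000

/-- the outer components -/
theorem out_cm {a : Fin (n + 1)} (h : (a : ℕ) = 0 ∨ (a : ℕ) = n) :
    X.cm.e a = 1 ∧ ∃ h ∈ X.cm.B, h ≠ 0 ∧ (X.cm.comp a).v h = 0 ∧
      (∀ l, l ≠ a → (X.cm.e l : ℤ) ≤ (X.cm.comp l).v h) ∧
      ∀ Q : Place k (FF k M), 0 ≤ Q.ord (X.cm.tb a) → val Q ((X.cm.comp a).r h) = 0 →
        val Q (CarM.hs k q M) = 0 := by
  have ha := Nat.lt_succ_iff.1 a.2
  have hn := X.hn
  refine ⟨?_, X.hH a, ?_, X.hH_ne a, ?_, ?_, ?_⟩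
  · rw [cm_e, ee]
    have : min (a : ℕ) (n - a) = 0 := by omega
    rw [this, pow_zero, Nat.totient_one]
  · rw [cm_mem_B]
    refine ⟨fun j => (X.hasL_hH ha).mem j, ?_⟩
    have h3 := (X.hH_reg a).1
    rwa [← tt_eq_jj] at h3
  · have h1 := X.v_hH (FF k M) (X.res_mem a) (l := a) ha
    rw [Nat.sub_self, add_zero, mul_zero] at h1
    exact_mod_cast h1
  · intro l hl
    have h1 := X.v_hH (FF k M) (X.res_mem l) (l := l) ha
    have h2 : (X.cm.comp l).v (X.hH a) = ((12 * ee q n l * ((a - l) + (l - a)) : ℕ) : ℤ) := h1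
    rw [h2, cm_e]
    have h3 : 1 ≤ ((a : ℕ) - l) + (l - a) := by
      have : (a : ℕ) ≠ l := fun h => hl (Fin.ext h.symm)
      omega
    have h4 : ee q n l ≤ 12 * ee q n l * ((a - l) + (l - a)) := by nlinarith
    exact_mod_cast h4
  · intro Q hQ hv
    rw [ord_tb_nonneg] at hQ
    have h1 : (X.cm.comp a).r (X.hH a) = CarM.hs k q M ^ (∑ i ∈ Finset.range n, q ^ i) := by
      apply Subtype.ext
      rw [cm_coe_r (X.hasL_hH ha) a, X.redL_sh_ext a h, SubmonoidClass.coe_pow, CarM.coe_hs]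
    rw [h1, CarM.val_hs_pow hQ] at hv
    exact pow_eq_zero_iff (by
      obtain ⟨n', rfl⟩ : ∃ n', n = n' + 1 := ⟨n - 1, by omega⟩
      rw [Finset.sum_range_succ']
      simp) |>.1 hv

/-- **the finite chart is regular** -/
theorem cm_good_of (U : UnitsM X.cm) (hS : ∀ Q : Place k (FF k M), val Q (CarM.hs k q M) = 0 → U.S Q)
    (hsurj : ∀ j (z : FF k M), Reg k (X.cm.tb j) z → ∃ x ∈ X.cm.B, (X.cm.comp j).r x = z)
    (HL : CarM.Lifts M K0 A Ω k) : X.cm.Good := by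
  haveI := X.B.alg
  have hn := X.hn
  refine good_of U hsurj (fun a => 1 ≤ (a : ℕ) ∧ (a : ℕ) < n) (⟨1, by omega⟩ : Fin (n + 1))
    ⟨le_rfl, by change 1 < n; omega⟩ ?_ ?_
  · intro j hj Q hQ
    rw [ord_tb_nonneg] at hQ
    exact X.starAt_cm HL hj.1 hj.2 hQ
  · intro j hj
    obtain ⟨h1, h, h2, h3, h4, h5, h6⟩ := X.out_cm (a := j) (by
      have := Nat.lt_succ_iff.1 j.2
      omega)
    exact ⟨h1, h, h2, h3, h4, h5, fun Q hQ hv => hS Q (h6 Q hQ hv)⟩

end Ctx

end Fermat.Agent.CQ
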