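import Fermat.Agent.CQ.Geo0
import Fermat.Agent.CQ.NmJ
import Fermat.Agent.CQ.NdM
import Fermat.Agent.CQ.Star6

/-!
# The geometric theorem at level `q ^ n M`, from the modular units and the chart at infinity
-/

set_option autoImplicit false
set_option linter.style.haveILetI false
set_option linter.unusedSectionVars false

noncomputable section

namespace Fermat.Agent.CQ

open ModularCurve Polynomial IntermediateField Fermat.Agent.ModPoly Fermat.Agent.Cusp AlgebraicCurve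
open Fermat.Agent.SemiSt Fermat.Agent.CarE Fermat.Agent.HeckeProd Fermat.Agent.Curve
open Fermat.Agent.RedMod Fermat.Agent.Car Fermat.Agent.RR Fermat.Agent.Red Fermat.Agent.PRem
open Fermat.Agent.Nod

namespace Ctx

variable {R0 K0 A Ω k : Type*} [CommRing R0] [IsDomain R0] [IsDiscreteValuationRing R0]
  [Field K0] [Algebra R0 K0]
  [IsFractionRing R0 K0] [CommRing A] [IsDomain A] [ValuationRing A] [Field Ω]
  [IsAlgClosed Ω] [CharZero Ω] [CharZero K0]
  [Algebra A Ω] [IsFractionRing A Ω] [Field k] [Algebra A k] [Algebra K0 Ω] [Algebra R0 A]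
  [Algebra R0 k] {q M n : ℕ} [hq : Fact q.Prime] [NeZero M] [CharP k q] [IsAlgClosed k]
  (X : Ctx R0 K0 A Ω k q M n)

set_option synthInstance.maxHeartbeats 400000 in
/-- **the geometric theorem** -/
theorem geo1 (HL : CarM.Lifts M K0 A Ω k) (ι : Ω →+* ℂ) (U : UnitsM X.cm)
    (hUS : ∀ Q : Place k (FF k M), val Q (CarM.hs k q M) = 0 → U.S Q)
    (hr : ∀ l, (X.cm.comp l).r (U.H l) = 0) (H' : X.cm.inv.Good)
    {ζ : Ωˣ} (hζ : IsPrimitiveRoot ζ q)
    {m : ℕ} (hm : (m : k) ≠ 0) {f : FF K0 (q ^ n * M)} (hf : f ≠ 0)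
    (hdvd : ∀ v : Place Ω (FF Ω (q ^ n * M)), (m : ℤ) ∣ v.ord (CarE.emb K0 Ω (q ^ n * M) f))
    (h1 : ∃ y : FF Ω (q ^ (n - 1) * M), NN q ζ (CarE.emb K0 Ω (q ^ n * M) f : LaurentSeries Ω) =
      (y : LaurentSeries Ω) ^ m)
    (h2 : ∃ y : FF Ω (q ^ (n - 1) * M), NN q ζ (wq' n X.hco (CarE.emb K0 Ω (q ^ n * M) f) :
      LaurentSeries Ω) = (y : LaurentSeries Ω) ^ m) :
    ∃ x : FF Ω (q ^ n * M), x ^ m = CarE.emb K0 Ω (q ^ n * M) f ^ (q ^ 3) := by
  haveI := X.B.alg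
  haveI : FunField k (FF k M) := funField_FF X.hM
  haveI : FunField Ω (FF Ω M) := funField_FF (natCast_ne_zero_K Ω M)
  haveI : FunField Ω (FF Ω (q ^ n * M)) := funField_FF (natCast_ne_zero_K Ω (q ^ n * M))
  exact X.geo_of X.nm (fun _ => rfl) (fun _ => rfl) (X.cm_good_of U hUS (X.surj_fin ι) HL) H'
    (X.node_nm ι HL U hr) X.cm_hcusp X.stab_nm hζ hm hf hdvd h1 h2

end Ctx

end Fermat.Agent.CQ
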