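import Fermat.Agent.CarE.Mod3

/-!
# Independence of the residues of the basis elements
-/

set_option autoImplicit false
set_option linter.style.haveILetI false
set_option linter.unusedSectionVars false

noncomputable section

namespace Fermat.Agent.CQ

open ModularCurve Polynomial IntermediateField Fermat.Agent.ModPoly Fermat.Agent.Cusp
open Fermat.Agent.SemiSt Fermat.Agent.RedMod Fermat.Agent.Car Fermat.Agent.CarE

section IndepL

variable {k : Type*} [Field k] {q M : ℕ} [hq : Fact q.Prime] [NeZero M] [CharP k q]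
  (hM : (M : k) ≠ 0)

theorem indepL {m : ℕ} (hm : 0 < m) (P : Fin (dedekindPsi M) × Fin m → k[X])
    (h : ∑ x, aeval (jqModC k ^ m) (P x) * (cst k (monos hM x.1) * jqModC k ^ (x.2 : ℕ)) = 0) :
    P = 0 := by
  have h3 : ∀ i, ∑ a, expand k m (P (i, a)) * X ^ (a : ℕ) = 0 := by
    refine monos_indep hM (fun i => ∑ a, expand k m (P (i, a)) * X ^ (a : ℕ)) ?_
    rw [← h, Fintype.sum_prod_type]
    refine Finset.sum_congr rfl fun i _ => ?_
    rw [evT_eq_aeval, map_sum, Finset.sum_mul]
    refine Finset.sum_congr rfl fun a _ => ?_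
    rw [map_mul, map_pow, aeval_X, expand_aeval]
    ring
  funext x
  obtain ⟨i, a⟩ := x
  exact eq_zero_of_sum_expand hm _ (h3 i) a

end IndepL

end Fermat.Agent.CQ
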