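import Fermat.Agent.CQ.Core2
import Fermat.Agent.CQ.Ind
import Fermat.Agent.CQ.PreM2
import Fermat.Agent.CQ.Deg

/-!
# The model data of the modular function field of level `q ^ n M`
-/

set_option autoImplicit false
set_option linter.style.haveILetI false
set_option linter.unusedSectionVars false

noncomputable section

namespace Fermat.Agent.CQ

open ModularCurve Polynomial IntermediateField Fermat.Agent.ModPoly Fermat.Agent.Cusp
open Fermat.Agent.SemiSt Fermat.Agent.RedMod Fermat.Agent.Car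
open Fermat.Agent.CarE

/-! ### exponents -/

theorem dl_succ_lt {n a i : ℕ} (ha : a ≤ n) (hi : i < a) : dl n a (i + 1) = dl n a i + 1 := by
  unfold dl; split_ifs <;> omega

theorem dl_succ_ge {n a i : ℕ} (h : a ≤ i) (hi : i < n) : dl n a i = dl n a (i + 1) + 1 := by
  unfold dl; split_ifs <;> omega

theorem dl_zero (n a : ℕ) : dl n a 0 = n - 2 * a := by
  unfold dl; split_ifs <;> omega

theorem dl_last {n a : ℕ} (ha : a ≤ n) : dl n a n = 2 * a - n := by
  unfold dl; split_ifs <;> omega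

/-- exponent of the parameter at the component `a` -/
def rr (q n a : ℕ) : ℕ := 1 + q ^ (n - 2 * min a (n - a))

theorem rr_pos (q n a : ℕ) : 0 < rr q n a := by rw [rr]; omega

theorem rr_eq {q n a : ℕ} (ha : a ≤ n) : q ^ dl n a 0 + q ^ dl n a n = rr q n a := by
  rw [dl_zero, dl_last ha, rr]
  rcases le_total n (2 * a) with h | h
  · rw [show n - 2 * a = 0 by omega, pow_zero, show n - 2 * min a (n - a) = 2 * a - n by omega]
  · rw [show 2 * a - n = 0 by omega, pow_zero, show n - 2 * min a (n - a) = n - 2 * a by omega,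
      add_comm]

/-- the copy of level `M` used at the component `a` -/
def kp (n a : ℕ) : ℕ := if n ≤ 2 * a then 0 else n

theorem kp_le (n a : ℕ) : kp n a ≤ n := by unfold kp; split_ifs <;> omega

theorem dl_kp {n a : ℕ} (ha : a ≤ n) : dl n a (kp n a) = 0 := by
  unfold kp; split_ifs with h
  · rw [dl_zero]; omega
  · rw [dl_last ha]; omega

theorem ee_pos (q n a : ℕ) [hq : Fact q.Prime] : 0 < ee q n a :=
  Nat.totient_pos.2 (pow_pos hq.out.pos _)

theorem ee_le (q n a : ℕ) [hq : Fact q.Prime] (ha : a ≤ n) : ee q n a ≤ q ^ n :=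
  (Nat.totient_le _).trans (Nat.pow_le_pow_right hq.out.pos (by omega))

section Jq

variable {k : Type*} [Field k]

theorem jq_pow_inj {a b : ℕ} (h : jqModC k ^ a = jqModC k ^ b) : a = b := by
  have h1 : aeval (jqModC k) (X ^ a - X ^ b : k[X]) = 0 := by simp [h]
  have h2 : (X ^ a - X ^ b : k[X]) = 0 := aeval_jqModC_injective (h1.trans (map_zero _).symm)
  rw [sub_eq_zero] at h2
  have h3 := congrArg natDegree h2
  rwa [natDegree_X_pow, natDegree_X_pow] at h3

end Jq

namespace Ctx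

variable {R0 K0 A Ω k : Type*} [CommRing R0] [IsDomain R0] [Field K0] [Algebra R0 K0]
  [IsFractionRing R0 K0] [CommRing A] [IsDomain A] [ValuationRing A] [Field Ω]
  [IsAlgClosed Ω] [CharZero Ω]
  [Algebra A Ω] [IsFractionRing A Ω] [Field k] [Algebra A k] [Algebra K0 Ω] [Algebra R0 A]
  [Algebra R0 k] {q M n : ℕ} [hq : Fact q.Prime] [NeZero M] [CharP k q]
  (X : Ctx R0 K0 A Ω k q M n)


theorem hasL_one : X.HasL 1 (fun _ => 1) := fun j => by rw [map_one, map_one]

/-! ### separating elements -/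

/-- vanishing at the components above `i` -/
def pa (K : Type*) [Field K] (q M n i : ℕ) [hq : Fact q.Prime] [NeZero M] : FF K (q ^ n * M) :=
  if i < n then jj K q M n i ^ q - jj K q M n (i + 1) else 1

/-- vanishing at the components below `i` -/
def qa (K : Type*) [Field K] (q M n i : ℕ) [hq : Fact q.Prime] [NeZero M] : FF K (q ^ n * M) :=
  if 0 < i then jj K q M n (i - 1) - jj K q M n i ^ q else 1

/-- the separating elements -/
def sp (K : Type*) [Field K] (q M n i : ℕ) [hq : Fact q.Prime] [NeZero M] : FF K (q ^ n * M) :=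
  pa K q M n i * qa K q M n i

/-- expansions of `pa` -/
def paL (i : ℕ) (l : Fin (n + 1)) : LaurentSeries A :=
  if i < n then X.jL i l ^ q - X.jL (i + 1) l else 1

/-- expansions of `qa` -/
def qaL (i : ℕ) (l : Fin (n + 1)) : LaurentSeries A :=
  if 0 < i then X.jL (i - 1) l - X.jL i l ^ q else 1

theorem hasL_pa (i : ℕ) : X.HasL (pa K0 q M n i) (X.paL i) := by
  by_cases h : i < n
  · have h1 := ((X.hasL_jj h.le).pow q).sub (X.hasL_jj (i := i + 1) h)
    intro l
    rw [pa, paL, if_pos h, if_pos h]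
    exact h1 l
  · intro l
    rw [pa, paL, if_neg h, if_neg h]
    exact X.hasL_one l

theorem hasL_qa {i : ℕ} (hi : i ≤ n) : X.HasL (qa K0 q M n i) (X.qaL i) := by
  by_cases h : 0 < i
  · have h1 := (X.hasL_jj (i := i - 1) (by omega)).sub ((X.hasL_jj hi).pow q)
    intro l
    rw [qa, qaL, if_pos h, if_pos h]
    exact h1 l
  · intro l
    rw [qa, qaL, if_neg h, if_neg h]
    exact X.hasL_one l

theorem hasL_sp {i : ℕ} (hi : i ≤ n) : X.HasL (sp K0 q M n i) (fun l => X.paL i l * X.qaL i l) :=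
  (X.hasL_pa i).mul (X.hasL_qa hi)

theorem red_pa_zero {i : ℕ} {l : Fin (n + 1)} (h : i < l) : redL A k (X.paL i l) = 0 := by
  have hl := Nat.lt_succ_iff.1 l.2
  have hi : i < n := by omega
  rw [paL, if_pos hi, map_sub, map_pow, X.redL_jL, X.redL_jL, ← pow_mul,
    ← pow_succ, ← dl_succ_lt hl h, sub_self]

theorem red_pa_ne {i : ℕ} {l : Fin (n + 1)} (h : (l : ℕ) ≤ i) (_hi : i ≤ n) :
    redL A k (X.paL i l) ≠ 0 := by
  rw [paL]
  split_ifs with hin
  · rw [map_sub, map_pow, X.redL_jL, X.redL_jL, ← pow_mul, ← pow_succ,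
      dl_succ_ge h hin, sub_ne_zero]
    intro h1
    have h2 := Nat.pow_right_injective hq.out.two_le (jq_pow_inj h1)
    omega
  · rw [map_one]; exact one_ne_zero

theorem red_qa_zero {i : ℕ} {l : Fin (n + 1)} (h : (l : ℕ) < i) (hi : i ≤ n) :
    redL A k (X.qaL i l) = 0 := by
  obtain ⟨i, rfl⟩ : ∃ i', i = i' + 1 := ⟨i - 1, by omega⟩
  rw [qaL, if_pos (Nat.succ_pos i), Nat.add_sub_cancel, map_sub, map_pow,
    X.redL_jL, X.redL_jL, ← pow_mul, ← pow_succ,
    ← dl_succ_ge (by omega) (by omega), sub_self]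

theorem red_qa_ne {i : ℕ} {l : Fin (n + 1)} (h : i ≤ l) : redL A k (X.qaL i l) ≠ 0 := by
  have hl := Nat.lt_succ_iff.1 l.2
  rw [qaL]
  split_ifs with hi
  · obtain ⟨i, rfl⟩ : ∃ i', i = i' + 1 := ⟨i - 1, by omega⟩
    rw [Nat.add_sub_cancel, map_sub, map_pow,
      X.redL_jL, X.redL_jL, ← pow_mul, ← pow_succ,
      dl_succ_lt hl (by omega), sub_ne_zero]
    intro h1
    have h2 := Nat.pow_right_injective hq.out.two_le (jq_pow_inj h1)
    omega
  · rw [map_one]; exact one_ne_zero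

theorem red_sp_ne {i l : Fin (n + 1)} (h : i ≠ l) :
    redL A k (X.paL i l * X.qaL i l) = 0 := by
  rw [map_mul]
  rcases lt_or_gt_of_ne (Fin.val_ne_of_ne h) with h1 | h1
  · rw [X.red_pa_zero h1, zero_mul]
  · rw [X.red_qa_zero h1 (Nat.lt_succ_iff.1 i.2), mul_zero]

theorem red_sp_self (i : Fin (n + 1)) : redL A k (X.paL i i * X.qaL i i) ≠ 0 := by
  rw [map_mul]
  exact mul_ne_zero (X.red_pa_ne le_rfl (Nat.lt_succ_iff.1 i.2)) (X.red_qa_ne le_rfl)

/-! ### the basis -/

/-- the index type at a component -/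
abbrev Ix (q M n a : ℕ) := Fin (dedekindPsi M) × Fin (rr q n a)

/-- the basis elements -/
def bb (a : Fin (n + 1)) (x : Ix q M n a) : FF K0 (q ^ n * M) :=
  lev K0 q M n (kp n a) (kp_le n a) (mi0 X.hM K0 x.1) * jj K0 q M n (kp n a) ^ (x.2 : ℕ)

/-- expansions of the basis elements -/
def bbL (a : Fin (n + 1)) (x : Ix q M n a) (l : Fin (n + 1)) : LaurentSeries A :=
  SbR (X.Z ^ (q ^ cx n l (kp n a))) (pp q ^ dl n l (kp n a)) (cst A (monos X.hM x.1)) *
    X.jL (kp n a) l ^ (x.2 : ℕ)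

theorem hasL_bb (a : Fin (n + 1)) (x : Ix q M n a) : X.HasL (X.bb a x) (X.bbL a x) := by
  have h1 : coeffMap (algebraMap K0 Ω) ((mi0 X.hM K0 x.1 : FF K0 M) : LaurentSeries K0) =
      incL A Ω (cst A (monos X.hM x.1)) := by
    rw [coeffMap_cst]
    change coeffMap (algebraMap K0 Ω) (cst K0 (monos X.hM x.1)) = _
    rw [coeffMap_cst]
  exact (X.hasL_lev (kp_le n a) h1).mul ((X.hasL_jj (kp_le n a)).pow _)

theorem bb_mem (i j : Fin (n + 1)) (x : Ix q M n i) : X.bb i x ∈ (X.E j).W :=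
  (X.hasL_bb i x).mem j

theorem redL_bb (a : Fin (n + 1)) (x : Ix q M n a) (l : Fin (n + 1)) :
    redL A k (X.bbL a x l) = Sb 1 (pp q ^ dl n l (kp n a)) (cst k (monos X.hM x.1)) *
      (jqModC k ^ (q ^ dl n l (kp n a))) ^ (x.2 : ℕ) := by
  have h2 : redL A k (cst A (monos X.hM x.1)) = cst k (monos X.hM x.1) := coeffMap_cst _ _
  rw [bbL, map_mul, map_pow, X.redL_jL, X.redL_SbR_Z, h2]

theorem redL_bb_self (a : Fin (n + 1)) (x : Ix q M n a) :
    redL A k (X.bbL a x a) = cst k (monos X.hM x.1) * jqModC k ^ (x.2 : ℕ) := by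
  rw [redL_bb, dl_kp (Nat.lt_succ_iff.1 a.2), pow_zero, pow_zero, pow_one]
  congr 1
  ext m
  have h3 := Sb_coeff_mul (1 : kˣ) 1 (cst k (monos X.hM x.1)) m
  rw [PNat.one_coe, Nat.cast_one, one_mul, one_zpow, Units.val_one, one_mul] at h3
  exact h3

theorem exists_phi_q (j : Fin (n + 1)) : ∃ w, IsU A Ω k w ∧
    (X.E j).φ (algebraMap R0 (FF K0 (q ^ n * M)) (q : R0)) =
      HahnSeries.C (algebraMap A Ω (X.E j).ϖA) ^ (ee q n j) * w := by
  obtain ⟨ε, hε, heq⟩ := X.q_eq j
  refine ⟨incL A Ω (HahnSeries.C ε), isU_incL ?_, ?_⟩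
  · rw [coeffMap_C, Ne, map_eq_zero_iff _ HahnSeries.C_injective]
    exact hε
  · rw [E_φ, X.hasL_const (q : R0) j, map_natCast (algebraMap R0 A), heq, coeffMap_C, coeffMap_C,
      E_ϖA, map_mul, map_pow, map_mul, map_pow]

theorem hasL_natCast (m : ℕ) : X.HasL ((m : FF K0 (q ^ n * M))) (fun _ => HahnSeries.C (m : A)) := by
  intro j
  rw [map_natCast, coeffMap_C, map_natCast, map_natCast]

theorem ϖ_mem (i j : Fin (n + 1)) : (X.E i).ϖ ∈ (X.E j).W := by
  change uu K0 q M n i ∈ (X.E j).W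
  have hi := Nat.lt_succ_iff.1 i.2
  rw [uu]
  split_ifs with h
  · exact (X.hasL_natCast q).mem j
  · exact ((X.hasL_jj (i := i - min (i : ℕ) (n - i)) (by omega)).sub
      (X.hasL_jj (i := i + min (i : ℕ) (n - i)) (by omega))).mem j

end Ctx

end Fermat.Agent.CQ
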