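import Fermat.Agent.CQ.Star1
import Fermat.Agent.CQ.Star2
import Fermat.Agent.CQ.Core2

/-!
# Regularity along the non-reduced components of the finite chart
-/

set_option autoImplicit false
set_option linter.style.haveILetI false
set_option linter.unusedSectionVars false

noncomputable section

namespace Fermat.Agent.CQ

open ModularCurve Polynomial IntermediateField Fermat.Agent.ModPoly Fermat.Agent.Cusp AlgebraicCurve
open Fermat.Agent.SemiSt Fermat.Agent.HeckeProd Fermat.Agent.Curve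
open Fermat.Agent.RedMod Fermat.Agent.Car Fermat.Agent.RR Fermat.Agent.Red Fermat.Agent.PRem
open Fermat.Agent.ThmC Fermat.Agent.Nod Fermat.Agent.CarE

section Sb

variable {K : Type*} [Field K] {q : ℕ} [hq : Fact q.Prime]

theorem Sb_qE (c : Kˣ) (s : ℕ) (x : LaurentSeries K) :
    Sb c (pp q ^ s) x = qExpand K (q ^ s) (twist c x) := by
  have h1 : ((pp q ^ s : ℕ+) : ℕ) = q ^ s := by rw [PNat.pow_coe, coe_pp]
  have h2 := qExpand_eq_Sb (q ^ s) (pp q ^ s) h1 (twist c x)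
  rw [h2, ← SbR_field, ← SbR_field]
  change _ = SbR 1 (pp q ^ s) (twist c x)
  haveI : NeZero ((pp q ^ s : ℕ+) : ℕ) := ⟨(pp q ^ s).ne_zero⟩
  rw [SbR, SbR, RingHom.comp_apply, RingHom.comp_apply, HeckeProd.twist_one]

theorem Sb_qE_one (s : ℕ) (x : LaurentSeries K) :
    Sb 1 (pp q ^ s) x = qExpand K (q ^ s) x := by
  rw [Sb_qE, HeckeProd.twist_one]

end Sb

namespace Ctx

variable {R0 K0 A Ω k : Type*} [CommRing R0] [IsDomain R0] [Field K0] [Algebra R0 K0]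
  [IsFractionRing R0 K0] [CommRing A] [IsDomain A] [ValuationRing A] [Field Ω]
  [IsAlgClosed Ω] [CharZero Ω]
  [Algebra A Ω] [IsFractionRing A Ω] [Field k] [Algebra A k] [Algebra K0 Ω] [Algebra R0 A]
  [Algebra R0 k] {q M n : ℕ} [hq : Fact q.Prime] [NeZero M] [CharP k q]
  (X : Ctx R0 K0 A Ω k q M n)

theorem mp_lev' (a : Fin (n + 1)) {i : ℕ} (hi : i ≤ n) (y : FF K0 M) :
    X.mp a (lev K0 q M n i hi y) =
      Sb (X.ZΩ ^ (q ^ cx n a i)) (pp q ^ dl n a i) (emb K0 Ω M y : LaurentSeries Ω) := by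
  rw [mp_apply, emb_lev, phΩ_lev]

theorem le1 (a : Fin (n + 1)) : (a : ℕ) - min (a : ℕ) (n - a) ≤ n :=
  (Nat.sub_le _ _).trans (Nat.lt_succ_iff.1 a.2)

theorem le2 (a : Fin (n + 1)) : (a : ℕ) + min (a : ℕ) (n - a) ≤ n := by
  have := Nat.lt_succ_iff.1 a.2
  omega

/-- the local equation of a non-reduced component -/
def uy (K0 : Type*) [Field K0] {q M n : ℕ} [hq : Fact q.Prime] [NeZero M]
    (a : Fin (n + 1)) (y : FF K0 M) : FF K0 (q ^ n * M) :=
  lev K0 q M n (a - min (a : ℕ) (n - a)) (le1 a) y -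
    lev K0 q M n (a + min (a : ℕ) (n - a)) (le2 a) y

theorem Rd_neg {x : LaurentSeries Ω} {a : LaurentSeries k} (h : Rd A x a) : Rd A (-x) (-a) := by
  have := Rd.zero.sub h
  rwa [zero_sub, zero_sub] at this

theorem mp_uy {a : Fin (n + 1)} (hμ : min (a : ℕ) (n - a) ≠ 0) {y : FF K0 M} {b : LaurentSeries k}
    (hy : Rd A (emb K0 Ω M y : LaurentSeries Ω) b) :
    ∃ (W : LaurentSeries Ω) (th : LaurentSeries k), Rd A W th ∧
      th ^ 6 = qExpand k (q ^ dl n a (a - min (a : ℕ) (n - a))) (theta b ^ 6) ∧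
      X.mp a (uy K0 (q := q) a y) = HahnSeries.C (algebraMap A Ω (X.ϖc a)) * W := by
  have ha := Nat.lt_succ_iff.1 a.2
  have hzp : IsPrimitiveRoot (X.zz (n - min (a : ℕ) (n - a))) (q ^ (min (a : ℕ) (n - a))) :=
    IsPrimitiveRoot.coe_units_iff.1 (X.zz_mu_prim a)
  obtain ⟨w, hw, hwe⟩ := exists_quot_Rd (A := A) (q := q) hzp hy
  have hdl : dl n a (a - min (a : ℕ) (n - a)) = dl n a (a + min (a : ℕ) (n - a)) := by
    rw [dl, dl]
    split_ifs <;> omega
  have hq1 := CarM.rd_qExpand (n := q ^ dl n a (a - min (a : ℕ) (n - a))) hw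
  have hϖ : X.ϖc a = 1 - (X.zz (n - min (a : ℕ) (n - a)) : A) := by rw [ϖc, if_neg hμ]
  have hC : ∀ (s : ℕ) (c : Ω), qExpand Ω (q ^ s) (HahnSeries.C c) = HahnSeries.C c := by
    intro s c
    rw [← Sb_qE_one, ← SbR_field, SbR_C]
  have key := congrArg (qExpand Ω (q ^ dl n a (a - min (a : ℕ) (n - a)))) hwe
  rw [map_sub, map_mul, hC, ← hϖ] at key
  by_cases h2 : n ≤ 2 * (a : ℕ)
  · have c1 : X.ZΩ ^ (q ^ cx n a (a - min (a : ℕ) (n - a))) = 1 := by
      apply X.ZΩ_pow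
      rw [cx, if_pos h2]; omega
    have c2 : X.ZΩ ^ (q ^ cx n a (a + min (a : ℕ) (n - a))) =
        X.zΩ (n - min (a : ℕ) (n - a)) := by
      rw [zΩ_eq]
      congr 2
      rw [cx, if_pos h2]; omega
    refine ⟨_, _, hq1, by rw [← map_pow], ?_⟩
    rw [uy, map_sub, mp_lev', mp_lev', c1, c2, ← hdl, Sb_qE_one, Sb_qE]
    exact key
  · have c1 : X.ZΩ ^ (q ^ cx n a (a + min (a : ℕ) (n - a))) = 1 := by
      apply X.ZΩ_pow
      rw [cx, if_neg h2]; omega
    have c2 : X.ZΩ ^ (q ^ cx n a (a - min (a : ℕ) (n - a))) =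
        X.zΩ (n - min (a : ℕ) (n - a)) := by
      rw [zΩ_eq]
      congr 2
      rw [cx, if_neg h2]; omega
    refine ⟨_, _, Rd_neg hq1, ?_, ?_⟩
    · rw [map_pow]
      ring
    · rw [uy, map_sub, mp_lev', mp_lev', c1, c2, ← hdl, Sb_qE_one, Sb_qE, ← neg_sub, mul_neg]
      exact congrArg Neg.neg key

end Ctx

end Fermat.Agent.CQ
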