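import Fermat.Agent.CQ.Nd0
import Fermat.Agent.CQ.Xb
import Fermat.Agent.CQ.CmL
import Fermat.Agent.CQ.Star3
import Fermat.Agent.CQ.Sj1
import Fermat.Agent.CQ.WInv
import Fermat.Agent.CarM.Chart2

/-!
# Intersection points and cusps of the model of level `q ^ n M`
-/

set_option autoImplicit false
set_option linter.style.haveILetI false
set_option linter.unusedSectionVars false

noncomputable section

namespace Fermat.Agent.CQ

open ModularCurve Polynomial IntermediateField Fermat.Agent.ModPoly Fermat.Agent.Cusp AlgebraicCurve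
open Fermat.Agent.SemiSt Fermat.Agent.CarE Fermat.Agent.HeckeProd Fermat.Agent.Curve
open Fermat.Agent.RedMod Fermat.Agent.Car Fermat.Agent.RR Fermat.Agent.Red Fermat.Agent.PRem
open Fermat.Agent.ThmC Fermat.Agent.Nod

section Rd

variable {A Ω k : Type*} [CommRing A] [IsDomain A] [ValuationRing A] [Field Ω]
  [IsAlgClosed Ω] [CharZero Ω] [Algebra A Ω] [IsFractionRing A Ω] [Field k] [Algebra A k]
  {q : ℕ} [hq : Fact q.Prime]

theorem rd_SbN {z : Aˣ} (hz : Units.map (algebraMap A k : A →* k) z = 1) (s : ℕ)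
    {x : LaurentSeries Ω} {b : LaurentSeries k} (h : Rd A x b) :
    Rd A (Sb (Units.map (algebraMap A Ω : A →* Ω) z) (pp q ^ s) x) (qExpand k (q ^ s) b) := by
  rw [Sb_qE]
  apply CarM.rd_qExpand
  obtain ⟨h1, h2⟩ := h
  obtain ⟨h3, h4⟩ := twist_mem_WL hz h1
  rw [← CarM.Sb_one_right]
  exact ⟨h3, h4.trans h2⟩

end Rd

theorem coe_lev_zero {K : Type*} [Field K] {q M n : ℕ} [hq : Fact q.Prime] [NeZero M] (x : FF K M) :
    (lev K q M n 0 (Nat.zero_le n) x : LaurentSeries K) = x := by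
  rw [coe_lev, Sb_qE_one, qExpand_congr (pow_zero q), qExpand_one_apply]

theorem lev_zero_eq {K : Type*} [Field K] {q M n : ℕ} [hq : Fact q.Prime] [NeZero M] (x : FF K M) :
    lev K q M n 0 (Nat.zero_le n) x = incl K (dvd_M q n M) x := by
  apply Subtype.ext
  rw [coe_lev_zero, coe_incl]

namespace Ctx

variable {R0 K0 A Ω k : Type*} [CommRing R0] [IsDomain R0] [IsDiscreteValuationRing R0]
  [Field K0] [Algebra R0 K0]
  [IsFractionRing R0 K0] [CommRing A] [IsDomain A] [ValuationRing A] [Field Ω]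
  [IsAlgClosed Ω] [CharZero Ω]
  [Algebra A Ω] [IsFractionRing A Ω] [Field k] [Algebra A k] [Algebra K0 Ω] [Algebra R0 A]
  [Algebra R0 k] {q M n : ℕ} [hq : Fact q.Prime] [NeZero M] [CharP k q]
  (X : Ctx R0 K0 A Ω k q M n)

theorem rd_levN (a : Fin (n + 1)) {i : ℕ} (hi : i ≤ n) {y : FF K0 M} {b : LaurentSeries k}
    (hy : Rd A (CarE.emb K0 Ω M y : LaurentSeries Ω) b) :
    Rd A (X.mp a (lev K0 q M n i hi y)) (qExpand k (q ^ dl n a i) b) := by
  rw [mp_lev']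
  have h1 : X.ZΩ ^ (q ^ cx n a i) = Units.map (algebraMap A Ω : A →* Ω) (X.Z ^ (q ^ cx n a i)) := by
    rw [map_pow]; rfl
  rw [h1]
  exact rd_SbN (by rw [map_pow, X.map_Z_one, one_pow]) _ hy

/-- the residue from the reduction of the expansion -/
theorem mem_of_rd {a : Fin (n + 1)} {x : FF K0 (q ^ n * M)} {b : LaurentSeries k}
    (h : Rd A (X.mp a x) b) : x ∈ (X.cm.comp a).W := h.choose

theorem coe_r_of_rd {a : Fin (n + 1)} {x : FF K0 (q ^ n * M)} {b : LaurentSeries k}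
    (h : Rd A (X.mp a x) b) : ((X.cm.comp a).r x : LaurentSeries k) = b := by
  obtain ⟨h1, h2⟩ := h
  rw [← h2]
  exact (X.E a).coe_r (FF k M) (X.res_mem a) h1

theorem cm_mem_B_iff {x : FF K0 (q ^ n * M)} : x ∈ X.cm.B ↔
    (∀ j, x ∈ (X.cm.comp j).W) ∧ Reg Ω (tt Ω q n M) (CarE.emb K0 Ω (q ^ n * M) x) := by
  have h1 : x ∈ X.cm.B ↔ x ∈ X.cm.G.W ∧
      Reg Ω (CarE.emb K0 Ω (q ^ n * M) (tt K0 q n M)) (CarE.emb K0 Ω (q ^ n * M) x) := Iff.rfl
  rw [h1, X.cm.mem_W, emb_tt]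

theorem cm_mem_invB {x : FF K0 (q ^ n * M)} (h : ∀ j, x ∈ (X.cm.comp j).W)
    (h' : Reg Ω (tt Ω q n M)⁻¹ (CarE.emb K0 Ω (q ^ n * M) x)) : x ∈ X.cm.inv.B := by
  refine ⟨(X.cm.inv.mem_W x).2 h, ?_⟩
  have h1 : X.cm.inv.emb X.cm.inv.t = (tt Ω q n M)⁻¹ := by
    change CarE.emb K0 Ω (q ^ n * M) (tt K0 q n M)⁻¹ = _
    rw [map_inv₀, emb_tt]
  rw [h1]
  exact h'

section Reg

variable [IsAlgClosed k] [FunField k (FF k M)] [FunField Ω (FF Ω M)]
  [FunField Ω (FF Ω (q ^ n * M))]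

omit [FunField Ω (FF Ω M)] [FunField Ω (FF Ω (q ^ n * M))] in
theorem cm_ord_tb (a : Fin (n + 1)) (Q : Place k (FF k M)) :
    0 ≤ Q.ord (X.cm.tb a) ↔ 0 ≤ Q.ord (jF' k M) := by
  have h0 : (0 : ℤ) < (rr q n a : ℕ) := by
    have : 0 < rr q n a := by rw [rr]; positivity
    exact_mod_cast this
  rw [cm_tb, ord_pow]
  constructor
  · intro h
    by_contra hc
    push Not at hc
    nlinarith
  · intro h
    positivity

/-- the last inclusion of level `M` -/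
theorem lev_mem_BN {y : FF K0 M} {b : FF k M}
    (hy : Rd A (CarE.emb K0 Ω M y : LaurentSeries Ω) (b : LaurentSeries k))
    (hr : ∀ v : Place Ω (FF Ω M), 0 ≤ v.ord (jF' Ω M) → 0 ≤ v.ord (CarE.emb K0 Ω M y)) :
    lev K0 q M n n le_rfl y ∈ X.cm.B := by
  rw [cm_mem_B_iff]
  refine ⟨fun j => X.mem_of_rd (X.rd_levN j le_rfl hy), ?_⟩
  have h1 := reg_incl (q := q) (n := n) X.hco (y := CarE.emb K0 Ω M y) hr
  have h2 := reg_tt_wΩ X.hco h1
  have h3 : wΩ n X.hco (incl Ω (dvd_M q n M) (CarE.emb K0 Ω M y)) =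
      CarE.emb K0 Ω (q ^ n * M) (lev K0 q M n n le_rfl y) := by
    rw [emb_lev, ← lev_zero_eq]
    exact wq'_lev X.hco (Nat.zero_le n) _
  rw [h3] at h2
  exact h2

omit [IsAlgClosed k] [FunField k (FF k M)] [FunField Ω (FF Ω M)]
  [FunField Ω (FF Ω (q ^ n * M))] in
theorem r_lev_n {a : Fin (n + 1)} (ha : dl n a n = 0) {y : FF K0 M} {b : FF k M}
    (hy : Rd A (CarE.emb K0 Ω M y : LaurentSeries Ω) (b : LaurentSeries k)) :
    (X.cm.comp a).r (lev K0 q M n n le_rfl y) = b := by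
  apply Subtype.ext
  rw [X.coe_r_of_rd (X.rd_levN a le_rfl hy), qExpand_congr (by rw [ha, pow_zero] : q ^ dl n a n = 1),
    qExpand_one_apply]

/-- **the first two components meet at points with the same coordinate** -/
theorem cm_h01 (HL : CarM.Lifts M K0 A Ω k) {j i : Fin (n + 1)} (hj : dl n j n = 0)
    (hi : dl n i n = 0) (Q Q' : Place k (FF k M))
    (hQ : 0 ≤ Q.ord (X.cm.tb j)) (hQ' : 0 ≤ Q'.ord (X.cm.tb i))
    (h : X.cm.SameAt j Q i Q') : Q = Q' := by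
  rw [cm_ord_tb] at hQ hQ'
  apply FrobData.place_eq_of_val (RR.transcendental_jF M) hQ hQ'
  intro x hx
  obtain ⟨y, hy, hyr⟩ := HL.lift x (fun P hP => CarM.reg_of_place hx P hP)
  have h1 := h _ (X.lev_mem_BN hy hyr)
  rwa [X.r_lev_n hj hy, X.r_lev_n hi hy] at h1

omit [IsAlgClosed k] [FunField k (FF k M)] [FunField Ω (FF Ω M)]
  [FunField Ω (FF Ω (q ^ n * M))] in
theorem cm_xa_mem {a : ℕ} (ha : a ≤ n) : xa K0 q M n a ∈ X.cm.inv.B := by
  refine X.cm_mem_invB (fun j => X.mem_xa X.res_mem ha j) ?_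
  rw [emb_xa, tt_eq_jj]
  exact regI_xa X.hco ha

/-- **the components are separated at the cusps** -/
theorem cm_hcusp (j : Fin (n + 1)) (Q : Place k (FF k M)) (i : Fin (n + 1))
    (Q' : Place k (FF k M)) (_ : Q.ord (X.cm.tb j) < 0) (hQ' : Q'.ord (X.cm.tb i) < 0)
    (h : X.cm.inv.SameAt j Q i Q') : j = i := by
  by_contra hji
  have hQ2 : Q'.ord (jF' k M) < 0 := by
    by_contra hc
    push Not at hc
    exact absurd ((X.cm_ord_tb i Q').2 hc) (not_le.2 hQ')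
  have h1 := h _ (X.cm_xa_mem (Nat.lt_succ_iff.1 j.2))
  have h2 : (X.cm.inv.comp j).r (xa K0 q M n j) = 1 := X.r_xa_self X.res_mem j
  have h3 : val Q' ((X.cm.inv.comp i).r (xa K0 q M n j)) = 0 :=
    X.val_r_xa X.res_mem (Nat.lt_succ_iff.1 j.2) (fun hc => hji (Fin.ext hc)) hQ2
  rw [h2, h3, val_one] at h1
  exact one_ne_zero h1

end Reg

end Ctx

end Fermat.Agent.CQ
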