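import Fermat.Agent.CQ.Star2

/-!
# Intersection points from modular units
-/

set_option autoImplicit false
set_option linter.unusedSectionVars false
set_option linter.style.haveILetI false

namespace Fermat.Agent.CQ

open Module Polynomial IntermediateField AlgebraicCurve Fermat.Agent.Red Fermat.Agent.RR
  Fermat.Agent.Nod Fermat.Agent.Curve Fermat.Agent.Car

variable {A K F k R κ Ω L : Type*} [CommRing A] [IsDomain A] [IsDiscreteValuationRing A]
    [Field K] [Algebra A K] [IsFractionRing A K] [Field F] [Algebra K F] [Algebra A F]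
    [IsScalarTower A K F] [Field k] [Algebra A k] [CommRing R] [Algebra k R] [Algebra A R]
    [IsScalarTower A k R] [Field κ] [Algebra k κ] [Field Ω] [Field L] [Algebra Ω L] [Algebra K Ω]
    {ι J : Type*} [Fintype ι] [Fintype J]

variable {M : CModel A K F k R κ Ω L ι J} (U : UnitsM M)

variable [IsAlgClosed Ω] [CharZero Ω] [FunField Ω L] [Algebra.IsAlgebraic K Ω] [Nonempty J]
  [IsAlgClosed k] [FunField k κ]

include U in
/-- points on two components are supersingular -/
theorem ss_of_same (hr : ∀ l, (M.comp l).r (U.H l) = 0) {j i : J} {Q Q' : Place k κ}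
    (hQ : 0 ≤ Q.ord (M.tb j)) (h : M.SameAt j Q i Q') (hji : j ≠ i) : U.S Q := by
  refine (U.val_H i j hji.symm Q hQ).1 ?_
  rw [h _ (U.H_B i), hr, val_zero]

include U in
/-- **the intersection points lie on all components** -/
theorem node_all (hsurj : ∀ j (z : κ), Reg k (M.tb j) z → ∃ x ∈ M.B, (M.comp j).r x = z)
    (hr : ∀ l, (M.comp l).r (U.H l) = 0) (j : J) (Q : Place k κ) (i : J) (Q' : Place k κ)
    (hQ : 0 ≤ Q.ord (M.tb j)) (_ : 0 ≤ Q'.ord (M.tb i)) (h : M.SameAt j Q i Q') (hji : j ≠ i)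
    (l : J) : ∃ P : Place k κ, 0 ≤ P.ord (M.tb l) ∧ M.SameAt j Q l P := by
  by_cases hl : l = j
  · subst hl
    exact ⟨Q, hQ, fun x _ => rfl⟩
  · exact thru_ss U hsurj hl hQ (ss_of_same U hr hQ h hji)

end Fermat.Agent.CQ
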