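import Fermat.Agent.CQ.Emb
import Fermat.Agent.CQ.KD
import Fermat.Agent.CarM.Norm

/-!
# Norms from level `q ^ n M` to level `q ^ (n - 1) M`
-/

set_option autoImplicit false
set_option linter.style.haveILetI false
set_option linter.unusedSectionVars false

noncomputable section

namespace Fermat.Agent.CQ

open ModularCurve Polynomial IntermediateField Fermat.Agent.ModPoly Fermat.Agent.Cusp AlgebraicCurve
open Fermat.Agent.SemiSt Fermat.Agent.CarE Fermat.Agent.HeckeProd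

section IsPhi

variable {k : Type*} [Field k] {q M : ℕ} [hq : Fact q.Prime] [NeZero M]

/-- the expansions of the generators at the embedding with parameters `a` and `z` -/
def IsPhi {n : ℕ} (a : ℕ) (z : kˣ) (T : FF k (q ^ n * M) →ₐ[k] LaurentSeries k) : Prop :=
  ∀ (d : ℕ+) (_ : (d : ℕ) ∣ M) (i : ℕ) (_ : i ≤ n)
      (h : ((pp q ^ i * d : ℕ+) : ℕ) ∣ q ^ n * M), T (jm k (pp q ^ i * d) h) =
        if i ≤ a then Jc 1 (pp q ^ i * d)
        else Jc (z ^ (q ^ (n - i) * (d : ℕ))) (pp q ^ (2 * a - i) * d)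

variable [IsAlgClosed k]

theorem IsPhi.unique {n a : ℕ} (hco : q.Coprime M) {z : kˣ}
    {T T' : FF k (q ^ n * M) →ₐ[k] LaurentSeries k} (h : IsPhi a z T) (h' : IsPhi a z T') :
    T = T' := by
  apply hom_ext
  intro m hm
  obtain ⟨i, d, hi, hd, rfl⟩ := div_cases hco hm
  rw [h d hd i hi hm, h' d hd i hi hm]

theorem isPhi_val (n : ℕ) : IsPhi (q := q) (M := M) (n := n) n (1 : kˣ) (FF k (q ^ n * M)).val := by
  intro d hd i hi h
  rw [if_pos hi]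
  rfl

end IsPhi

section Main

variable {Ω : Type*} [Field Ω] [IsAlgClosed Ω] [CharZero Ω] {q M : ℕ} [hq : Fact q.Prime] [NeZero M]
  (hco : q.Coprime M) {n : ℕ}

theorem dvd_low (q M n : ℕ) : q ^ (n - 1) * M ∣ q ^ n * M :=
  mul_dvd_mul (pow_dvd_pow q (Nat.sub_le n 1)) dvd_rfl

variable (Ω q M n) in
/-- the norm from level `q ^ n M` to level `q ^ (n - 1) M` -/
def Nmn : FF Ω (q ^ n * M) →* FF Ω (q ^ (n - 1) * M) :=
  letI := inclAlg (k := Ω) (dvd_low q M n)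
  Algebra.norm (FF Ω (q ^ (n - 1) * M))

theorem finrank_low (Ω : Type*) [Field Ω] [IsAlgClosed Ω] [CharZero Ω] {q M : ℕ}
    [hq : Fact q.Prime] [NeZero M] (hco : q.Coprime M) {n : ℕ} (hn : 2 ≤ n) :
    letI := inclAlg (k := Ω) (dvd_low q M n)
    Module.finrank (FF Ω (q ^ (n - 1) * M)) (FF Ω (q ^ n * M)) = q := by
  letI := inclAlg (k := Ω) (dvd_low q M n)
  have h1 := finrank_incl (k := Ω) (dvd_low q M n) (natCast_ne_zero_K Ω (q ^ n * M))
  rw [psi_pow hco (n := n) (a := n - 1) (by omega) (by omega),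
    show n - (n - 1) = 1 by omega, pow_one] at h1
  exact Nat.eq_of_mul_eq_mul_left (dedekindPsi_pos (NeZero.pos (q ^ (n - 1) * M)))
    (h1.trans (mul_comm q _))

theorem wn_jm {i : ℕ} (hi : i ≤ n) {d : ℕ+} (hd : (d : ℕ) ∣ M)
    (h : ((pp q ^ i * d : ℕ+) : ℕ) ∣ q ^ n * M) (h' : ((pp q ^ (n - i) * d : ℕ+) : ℕ) ∣ q ^ n * M) :
    wn Ω hco n (jm Ω (pp q ^ i * d) h) = jm Ω (pp q ^ (n - i) * d) h' :=
  wq_jm (Q := q ^ n) (cast_ne Ω (q ^ n * M)) (hco.pow_left n) (r := pp q ^ i)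
    (r' := pp q ^ (n - i)) (d := d) (by
      rw [PNat.pow_coe, PNat.pow_coe, coe_pp, ← pow_add]; congr 1; omega) hd h h'

/-- the norm as an operator of level `q ^ n M`, along `j_(q ^ i d) ↦ j_(q ^ (i + 1) d)` -/
def NLn (n : ℕ) : FF Ω (q ^ n * M) →* FF Ω (q ^ n * M) :=
  ((wn Ω hco n : FF Ω (q ^ n * M) →ₐ[Ω] FF Ω (q ^ n * M)) :
      FF Ω (q ^ n * M) →* FF Ω (q ^ n * M)).comp
    ((((incl Ω (dvd_low q M n) : FF Ω (q ^ (n - 1) * M) →ₐ[Ω] FF Ω (q ^ n * M)) :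
      FF Ω (q ^ (n - 1) * M) →* FF Ω (q ^ n * M)).comp (Nmn Ω q M n)).comp
    ((wn Ω hco n : FF Ω (q ^ n * M) →ₐ[Ω] FF Ω (q ^ n * M)) :
      FF Ω (q ^ n * M) →* FF Ω (q ^ n * M)))

theorem NLn_apply (x : FF Ω (q ^ n * M)) :
    NLn hco n x = wn Ω hco n (incl Ω (dvd_low q M n) (Nmn Ω q M n (wn Ω hco n x))) := rfl

/-- **the norm in terms of a complete family of embeddings** -/
theorem NLn_family (hn : 2 ≤ n) (T : FF Ω (q ^ n * M) →ₐ[Ω] LaurentSeries Ω)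
    {ι : Type*} [Fintype ι] (hcard : Fintype.card ι = q)
    (h : ι → (FF Ω (q ^ n * M) →ₐ[Ω] LaurentSeries Ω)) (hinj : Function.Injective h)
    (hext : ∀ (c : ι) (d : ℕ+) (_ : (d : ℕ) ∣ M) (i : ℕ) (_ : 1 ≤ i) (_ : i ≤ n)
      (hh : ((pp q ^ i * d : ℕ+) : ℕ) ∣ q ^ n * M),
      h c (jm Ω (pp q ^ i * d) hh) = T (jm Ω (pp q ^ i * d) hh)) (x : FF Ω (q ^ n * M)) :
    T (NLn hco n x) = ∏ c, h c x := by
  letI := inclAlg (k := Ω) (dvd_low q M n)
  haveI := finiteDimensional_incl (k := Ω) (dvd_low q M n) (natCast_ne_zero_K Ω (q ^ n * M))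
  haveI := isSeparable_incl (k := Ω) (dvd_low q M n) (natCast_ne_zero_K Ω (q ^ n * M))
  let W : FF Ω (q ^ n * M) →ₐ[Ω] FF Ω (q ^ n * M) := (wn Ω hco n : _ →ₐ[Ω] _)
  have hW : ∀ x, W (W x) = x := fun x => wn_wn hco n x
  have h0 : ∀ c, ((h c).comp W).comp (incl Ω (dvd_low q M n)) =
      (T.comp W).comp (incl Ω (dvd_low q M n)) := by
    intro c
    apply hom_ext
    intro m hm
    obtain ⟨i, d, hi, hd, rfl⟩ := div_cases hco hm
    rw [AlgHom.comp_apply, AlgHom.comp_apply, AlgHom.comp_apply, AlgHom.comp_apply, incl_jm]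
    have h2 : W (jm Ω (pp q ^ i * d) (hm.trans (dvd_low q M n))) =
        jm Ω (pp q ^ (n - i) * d) (dvd_qd (by omega) hd) := wn_jm hco (by omega) hd _ _
    rw [h2]
    exact hext c d hd (n - i) (by omega) (by omega) _
  have h1 := norm_eq_prod_family (E := FF Ω (q ^ (n - 1) * M)) (F := FF Ω (q ^ n * M))
    (L := LaurentSeries Ω) ((T.comp W).comp (incl Ω (dvd_low q M n))).toRingHom
    (fun c : ι => ((h c).comp W).toRingHom)
    (fun c y => AlgHom.congr_fun (h0 c) y)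
    (by
      intro c c' hcc
      apply hinj
      apply AlgHom.ext
      intro y
      have := RingHom.congr_fun hcc (W y)
      change h c (W (W y)) = h c' (W (W y)) at this
      rwa [hW] at this)
    (by rw [hcard, finrank_low Ω hco hn]) (W x)
  change T (W (incl Ω (dvd_low q M n) (Nmn Ω q M n (W x)))) = _
  refine h1.trans (Finset.prod_congr rfl fun c _ => ?_)
  change h c (W (W x)) = h c x
  rw [hW]

/-! ### conjugates of embeddings -/

section Conj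

variable {N : ℕ} [NeZero N]

/-- the conjugate of an embedding -/
def conjT (σ : Ω ≃+* Ω) (T : FF Ω N →ₐ[Ω] LaurentSeries Ω) : FF Ω N →ₐ[Ω] LaurentSeries Ω :=
  { ((coeffMap (σ : Ω →+* Ω)).comp T.toRingHom).comp (act N σ.symm).toRingHom with
    commutes' := by
      intro c
      change coeffMap (σ : Ω →+* Ω) (T (act N σ.symm (algebraMap Ω (FF Ω N) c))) = _
      rw [act_algebraMap, AlgHom.commutes, algebraMap_eq_C, coeffMap_C]
      exact congrArg _ (σ.apply_symm_apply c) }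

theorem conjT_apply (σ : Ω ≃+* Ω) (T : FF Ω N →ₐ[Ω] LaurentSeries Ω) (x : FF Ω N) :
    conjT σ T x = coeffMap (σ : Ω →+* Ω) (T (act N σ.symm x)) := rfl

theorem conjT_jm (σ : Ω ≃+* Ω) (T : FF Ω N →ₐ[Ω] LaurentSeries Ω) {m : ℕ+} (hm : (m : ℕ) ∣ N) :
    conjT σ T (jm Ω m hm) = coeffMap (σ : Ω →+* Ω) (T (jm Ω m hm)) := by
  rw [conjT_apply, act_jm]

theorem conjT_emb {K0 : Type*} [Field K0] [Algebra K0 Ω] (σ : Ω ≃ₐ[K0] Ω)
    (T : FF Ω N →ₐ[Ω] LaurentSeries Ω) (x : FF K0 N) :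
    conjT σ.toRingEquiv T (emb K0 Ω N x) =
      coeffMap (σ.toRingEquiv : Ω →+* Ω) (T (emb K0 Ω N x)) := by
  rw [conjT_apply]
  congr 2
  exact gal_emb σ.symm x

end Conj

theorem isPhi_conjT {a : ℕ} {z : Ωˣ} {T : FF Ω (q ^ n * M) →ₐ[Ω] LaurentSeries Ω}
    (hT : IsPhi a z T) (σ : Ω ≃+* Ω) :
    IsPhi a (Units.map ((σ : Ω →+* Ω) : Ω →* Ω) z) (conjT σ T) := by
  intro d hd i hi h
  rw [conjT_jm, hT d hd i hi h]
  split_ifs with h1
  · rw [coeffMap_Jc, map_one]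
  · rw [coeffMap_Jc, map_pow]

/-! ### the components `a ≥ 2`, `n ≤ 2 a` -/

theorem pow_eq_one_of_pos {ζ : Ωˣ} (hζ : ζ ^ q = 1) (c : ℕ) {i : ℕ} (hi : 1 ≤ i) (d : ℕ) :
    (ζ ^ c) ^ (q ^ i * d) = 1 := by
  obtain ⟨j, rfl⟩ : ∃ j, i = j + 1 := ⟨i - 1, by omega⟩
  rw [← pow_mul, show c * (q ^ (j + 1) * d) = q * (c * q ^ j * d) by ring, pow_mul, hζ, one_pow]

theorem one_le_pp (M : ℕ) : ((1 : ℕ+) : ℕ) ∣ M := by rw [PNat.one_coe]; exact one_dvd M

theorem T_NLn_A (hn : 2 ≤ n) {a : ℕ} (han : a ≤ n) (h2a : n ≤ 2 * a) {z ζ : Ωˣ}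
    (hζ : IsPrimitiveRoot ζ q) {T : FF Ω (q ^ n * M) →ₐ[Ω] LaurentSeries Ω} (hT : IsPhi a z T)
    (σ : ZMod q → (Ω ≃+* Ω))
    (hσ : ∀ c, Units.map ((σ c : Ω →+* Ω) : Ω →* Ω) z =
      z * ((ζ⁻¹) ^ c.val) ^ (q ^ (2 * a - n))) (x : FF Ω (q ^ n * M)) :
    T (NLn hco n x) = ∏ c : ZMod q, SbA (ζ ^ c.val) 1 (conjT (σ c) T x) := by
  refine NLn_family hco hn T (ZMod.card q) (fun c => (SbA (ζ ^ c.val) 1).comp (conjT (σ c) T))
    ?_ ?_ x
  · intro c c' h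
    have h1 := AlgHom.congr_fun h (jm Ω (pp q ^ 0 * 1) (dvd_qd (Nat.zero_le n) (one_le_pp M)))
    rw [AlgHom.comp_apply, AlgHom.comp_apply, isPhi_conjT hT (σ c) 1 (one_le_pp M) 0 (Nat.zero_le n),
      isPhi_conjT hT (σ c') 1 (one_le_pp M) 0 (Nat.zero_le n), if_pos (Nat.zero_le a),
      if_pos (Nat.zero_le a), SbA_one_Jc, SbA_one_Jc, pow_zero, one_mul, PNat.one_coe, pow_one,
      pow_one, mul_one, mul_one] at h1
    exact ZMod.val_injective q (hζ.pow_inj (ZMod.val_lt c) (ZMod.val_lt c') (Jc_inj_c h1))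
  · intro c d hd i hi1 hi hh
    have hζq := hζ.pow_eq_one
    rw [AlgHom.comp_apply, isPhi_conjT hT (σ c) d hd i hi hh, hT d hd i hi hh]
    split_ifs with h1
    · rw [SbA_one_Jc, coe_qd, pow_eq_one_of_pos hζq _ hi1, mul_one]
    · rw [SbA_one_Jc, coe_qd, hσ, mul_pow, ← pow_mul (((ζ⁻¹) ^ c.val)) (q ^ (2 * a - n)),
        show q ^ (2 * a - n) * (q ^ (n - i) * (d : ℕ)) = q ^ (2 * a - i) * d by
          rw [← mul_assoc, ← pow_add]
          congr 2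
          omega]
      congr 1
      rw [inv_pow, inv_pow, mul_left_comm, mul_inv_cancel, mul_one]

/-! ### the components `2 ≤ a`, `2 a < n` -/

theorem T_NLn_B (hn : 2 ≤ n) {a b : ℕ} (hab : a + b = n) (ha : 1 ≤ a) {z ζ : Ωˣ}
    (hζ : IsPrimitiveRoot ζ q) {T : FF Ω (q ^ n * M) →ₐ[Ω] LaurentSeries Ω} (hT : IsPhi b z T)
    (σ : ZMod q → (Ω ≃+* Ω))
    (hσ : ∀ c, Units.map ((σ c : Ω →+* Ω) : Ω →* Ω) z = z * ζ ^ c.val)
    (x : FF Ω (q ^ n * M)) :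
    T (wn Ω hco n (NLn hco n x)) = ∏ c : ZMod q, conjT (σ c) T (wn Ω hco n x) := by
  let W : FF Ω (q ^ n * M) →ₐ[Ω] FF Ω (q ^ n * M) := (wn Ω hco n : _ →ₐ[Ω] _)
  have hWj : ∀ (i : ℕ) (_ : i ≤ n) (d : ℕ+) (hd : (d : ℕ) ∣ M)
      (hh : ((pp q ^ i * d : ℕ+) : ℕ) ∣ q ^ n * M), W (jm Ω (pp q ^ i * d) hh) =
        jm Ω (pp q ^ (n - i) * d) (dvd_qd (by omega) hd) := fun i hi d hd hh =>
    wn_jm hco hi hd _ _
  refine NLn_family hco hn (T.comp W) (ZMod.card q) (fun c => (conjT (σ c) T).comp W) ?_ ?_ x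
  · intro c c' h
    have h1 := AlgHom.congr_fun h (jm Ω (pp q ^ 0 * 1) (dvd_qd (Nat.zero_le n) (one_le_pp M)))
    rw [AlgHom.comp_apply, AlgHom.comp_apply, hWj 0 (Nat.zero_le n) 1 (one_le_pp M),
      isPhi_conjT hT (σ c) 1 (one_le_pp M) (n - 0) (by omega),
      isPhi_conjT hT (σ c') 1 (one_le_pp M) (n - 0) (by omega),
      if_neg (by omega), if_neg (by omega)] at h1
    have h2 := Jc_inj_c h1
    rw [show n - (n - 0) = 0 by omega, pow_zero, one_mul, PNat.one_coe, pow_one, pow_one, hσ,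
      hσ] at h2
    exact ZMod.val_injective q (hζ.pow_inj (ZMod.val_lt c) (ZMod.val_lt c') (mul_left_cancel h2))
  · intro c d hd i hi1 hi hh
    have hζq := hζ.pow_eq_one
    rw [AlgHom.comp_apply, AlgHom.comp_apply, hWj i hi d hd,
      isPhi_conjT hT (σ c) d hd (n - i) (by omega), hT d hd (n - i) (by omega)]
    split_ifs with h1
    · rfl
    · rw [hσ, mul_pow, show n - (n - i) = i by omega, pow_eq_one_of_pos hζq _ hi1, mul_one]

/-! ### the component `0` -/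

theorem T_NLn_C (hn : 2 ≤ n) {z : Ωˣ}
    (hz : IsPrimitiveRoot z q) {T : FF Ω (q ^ n * M) →ₐ[Ω] LaurentSeries Ω}
    (hT : IsPhi (n - 1) z T) (σ : Fin q → (Ω ≃+* Ω))
    (hσ : ∀ c : Fin q, (c : ℕ) ≠ 0 → Units.map ((σ c : Ω →+* Ω) : Ω →* Ω) z = z ^ (c : ℕ))
    (x : FF Ω (q ^ n * M)) :
    (wn Ω hco n (NLn hco n x) : LaurentSeries Ω) =
      ∏ c : Fin q, if (c : ℕ) = 0 then (wn Ω hco n x : LaurentSeries Ω) else
        conjT (σ c) T (wn Ω hco n x) := by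
  let W : FF Ω (q ^ n * M) →ₐ[Ω] FF Ω (q ^ n * M) := (wn Ω hco n : _ →ₐ[Ω] _)
  have hWj : ∀ (i : ℕ) (_ : i ≤ n) (d : ℕ+) (hd : (d : ℕ) ∣ M)
      (hh : ((pp q ^ i * d : ℕ+) : ℕ) ∣ q ^ n * M), W (jm Ω (pp q ^ i * d) hh) =
        jm Ω (pp q ^ (n - i) * d) (dvd_qd (by omega) hd) := fun i hi d hd hh =>
    wn_jm hco hi hd _ _
  let V : FF Ω (q ^ n * M) →ₐ[Ω] LaurentSeries Ω := (FF Ω (q ^ n * M)).val
  let h : Fin q → (FF Ω (q ^ n * M) →ₐ[Ω] LaurentSeries Ω) := fun c =>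
    if (c : ℕ) = 0 then V.comp W else (conjT (σ c) T).comp W
  have h0 : ∀ c : Fin q, (c : ℕ) = 0 → h c = V.comp W := fun c hc => if_pos hc
  have h1 : ∀ c : Fin q, (c : ℕ) ≠ 0 → h c = (conjT (σ c) T).comp W := fun c hc => if_neg hc
  have hx := NLn_family hco hn (V.comp W) (Fintype.card_fin q) h ?_ ?_ x
  · refine hx.trans (Finset.prod_congr rfl fun c _ => ?_)
    by_cases hc : (c : ℕ) = 0
    · rw [h0 c hc, if_pos hc]
      rfl
    · rw [h1 c hc, if_neg hc]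
      rfl
  · -- injectivity
    have hd1 := dvd_qd (q := q) (Nat.zero_le n) (one_le_pp M)
    have key0 : ∀ c : Fin q, (c : ℕ) = 0 → h c (jm Ω (pp q ^ 0 * 1) hd1) =
        Jc 1 (pp q ^ (n - 0) * 1) := by
      intro c hc
      rw [h0 c hc, AlgHom.comp_apply, hWj 0 (Nat.zero_le n) 1 (one_le_pp M)]
      rfl
    have key1 : ∀ c : Fin q, (c : ℕ) ≠ 0 → h c (jm Ω (pp q ^ 0 * 1) hd1) =
        Jc (z ^ (c : ℕ)) (pp q ^ (2 * (n - 1) - (n - 0)) * 1) := by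
      intro c hc
      rw [h1 c hc, AlgHom.comp_apply, hWj 0 (Nat.zero_le n) 1 (one_le_pp M),
        isPhi_conjT hT (σ c) 1 (one_le_pp M) (n - 0) (by omega), if_neg (by omega), hσ c hc,
        show n - (n - 0) = 0 by omega, pow_zero, one_mul, PNat.one_coe, pow_one]
    have hne : ∀ c : Ωˣ, (Jc 1 (pp q ^ (n - 0) * 1) : LaurentSeries Ω) ≠
        Jc c (pp q ^ (2 * (n - 1) - (n - 0)) * 1) := by
      intro c h3
      have h4 := congrArg (fun n : ℕ+ => (n : ℕ)) (Jc_inj_e h3)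
      rw [coe_qd, coe_qd, PNat.one_coe, mul_one, mul_one] at h4
      exact absurd (Nat.pow_right_injective hq.out.two_le h4) (by omega)
    intro c c' hcc
    have h2 : h c (jm Ω (pp q ^ 0 * 1) hd1) = h c' (jm Ω (pp q ^ 0 * 1) hd1) := by rw [hcc]
    by_cases hc : (c : ℕ) = 0 <;> by_cases hc' : (c' : ℕ) = 0
    · exact Fin.ext (hc.trans hc'.symm)
    · rw [key0 c hc, key1 c' hc'] at h2
      exact absurd h2 (hne _)
    · rw [key1 c hc, key0 c' hc'] at h2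
      exact absurd h2.symm (hne _)
    · rw [key1 c hc, key1 c' hc'] at h2
      exact Fin.ext (hz.pow_inj c.2 c'.2 (Jc_inj_c h2))
  · intro c d hd i hi1 hi hh
    by_cases hc : (c : ℕ) = 0
    · rw [h0 c hc]
    · rw [h1 c hc, AlgHom.comp_apply, AlgHom.comp_apply, hWj i hi d hd,
        isPhi_conjT hT (σ c) d hd (n - i) (by omega), if_pos (by omega)]
      rfl

/-! ### the component `1` -/

include hco in
/-- the embedding of the component `n - 1` extends the embedding of level `q ^ (n - 1) M` -/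
theorem T_low {z : Ωˣ} {T : FF Ω (q ^ n * M) →ₐ[Ω] LaurentSeries Ω} (hT : IsPhi (n - 1) z T)
    (x : FF Ω (q ^ (n - 1) * M)) :
    T (incl Ω (dvd_low q M n) x) = (x : LaurentSeries Ω) := by
  have h : T.comp (incl Ω (dvd_low q M n)) = (FF Ω (q ^ (n - 1) * M)).val := by
    apply hom_ext
    intro m hm
    obtain ⟨i, d, hi, hd, rfl⟩ := div_cases hco hm
    rw [AlgHom.comp_apply, incl_jm, hT d hd i (by omega), if_pos hi]
    rfl
  exact AlgHom.congr_fun h x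

theorem T_NLn_one {z : Ωˣ} {T : FF Ω (q ^ n * M) →ₐ[Ω] LaurentSeries Ω} (hT : IsPhi (n - 1) z T)
    (x : FF Ω (q ^ n * M)) :
    T (wn Ω hco n (NLn hco n x)) = (wn Ω hco n (NLn hco n x) : LaurentSeries Ω) := by
  rw [NLn_apply, wn_wn, T_low hco hT, coe_incl]

/-! ### the norm at infinity -/

theorem coe_NLn (hn : 2 ≤ n) {ζ : Ωˣ} (hζ : IsPrimitiveRoot ζ q) (x : FF Ω (q ^ n * M)) :
    (NLn hco n x : LaurentSeries Ω) = PP q ζ (x : LaurentSeries Ω) := by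
  have h := T_NLn_A hco hn le_rfl (by omega) hζ (isPhi_val (k := Ω) (q := q) (M := M) n)
    (fun _ => RingEquiv.refl Ω) (fun c => by
      rw [map_one, one_mul, ← pow_mul, show 2 * n - n = n by omega]
      have := pow_eq_one_of_pos (ζ := ζ⁻¹) (by rw [inv_pow, hζ.pow_eq_one, inv_one]) c.val
        (i := n) (by omega) 1
      rw [mul_one, ← pow_mul] at this
      exact this.symm) x
  change (FF Ω (q ^ n * M)).val (NLn hco n x) = _
  rw [h, PP]
  refine Finset.prod_congr rfl fun c _ => ?_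
  rw [twist_eq_Sb, SbA_apply]
  congr 1

/-- norms commute with coefficientwise automorphisms -/
theorem act_NLn (hn : 2 ≤ n) (σ : Ω ≃+* Ω) (x : FF Ω (q ^ n * M)) :
    act (q ^ n * M) σ (NLn hco n x) = NLn hco n (act (q ^ n * M) σ x) := by
  obtain ⟨ζ, hζ⟩ := exists_zeta (k := Ω) (N := q) (natCast_ne_zero_K Ω q)
  have hζ' : IsPrimitiveRoot (Units.map ((σ : Ω →+* Ω) : Ω →* Ω) ζ) q :=
    hζ.map_of_injective (f := Units.map ((σ : Ω →+* Ω) : Ω →* Ω))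
      (Units.map_injective σ.injective)
  apply Subtype.ext
  rw [coe_act, coe_NLn hco hn hζ, coe_NLn hco hn hζ', coe_act, coeffMap_PP]

/-- constants -/
theorem NLn_algebraMap (hn : 2 ≤ n) (c : Ω) :
    NLn hco n (algebraMap Ω (FF Ω (q ^ n * M)) c) = algebraMap Ω (FF Ω (q ^ n * M)) (c ^ q) := by
  letI := inclAlg (k := Ω) (dvd_low q M n)
  have h1 : Nmn Ω q M n (algebraMap Ω (FF Ω (q ^ n * M)) c) =
      (algebraMap Ω (FF Ω (q ^ (n - 1) * M)) c) ^ q := by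
    have h2 : algebraMap Ω (FF Ω (q ^ n * M)) c =
        algebraMap (FF Ω (q ^ (n - 1) * M)) (FF Ω (q ^ n * M))
          (algebraMap Ω (FF Ω (q ^ (n - 1) * M)) c) :=
      ((incl Ω (dvd_low q M n)).commutes c).symm
    rw [h2]
    change Algebra.norm (FF Ω (q ^ (n - 1) * M)) (algebraMap (FF Ω (q ^ (n - 1) * M))
      (FF Ω (q ^ n * M)) _) = _
    rw [Algebra.norm_algebraMap, finrank_low Ω hco hn]
  rw [NLn_apply, AlgEquiv.commutes, h1, map_pow, map_pow, AlgHom.commutes, AlgEquiv.commutes,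
    ← map_pow]

theorem NLn_zero (hn : 2 ≤ n) : NLn hco n (0 : FF Ω (q ^ n * M)) = 0 := by
  obtain ⟨ζ, hζ⟩ := exists_zeta (k := Ω) (N := q) (natCast_ne_zero_K Ω q)
  apply Subtype.ext
  rw [coe_NLn hco hn hζ]
  exact PP_zero q ζ

/-- the norm is a power if the multiplicative Hecke operator gives a power -/
theorem exists_pow_NLn (hn : 2 ≤ n) {ζ : Ωˣ} (hζ : IsPrimitiveRoot ζ q) {m : ℕ}
    {x : FF Ω (q ^ n * M)}
    (h : ∃ y : FF Ω (q ^ (n - 1) * M), NN q ζ (x : LaurentSeries Ω) = (y : LaurentSeries Ω) ^ m) :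
    ∃ y : FF Ω (q ^ n * M), NLn hco n x = y ^ m := by
  obtain ⟨y, hy⟩ := h
  have h1 : qExpand Ω q (y : LaurentSeries Ω) ∈ FF Ω (q ^ n * M) := by
    have h2 := (qe Ω q (q ^ (n - 1) * M) y).2
    rw [coe_qe] at h2
    have h3 : q * (q ^ (n - 1) * M) = q ^ n * M := by
      rw [← mul_assoc, ← pow_succ']
      congr 2
      omega
    rwa [h3] at h2
  refine ⟨⟨_, h1⟩, ?_⟩
  apply Subtype.ext
  rw [coe_NLn hco hn hζ, SubmonoidClass.coe_pow, ← qExpand_NN hζ, hy, map_pow]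

end Main

end Fermat.Agent.CQ
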