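import Fermat.Agent.CQ.Core
import Fermat.Agent.CQ.Nm
import Fermat.Agent.CarE.Nm2

/-!
# Galois conjugates of the embeddings, and the norm over the small field
-/

set_option autoImplicit false
set_option linter.style.haveILetI false
set_option linter.unusedSectionVars false

noncomputable section

namespace Fermat.Agent.CQ

open ModularCurve Polynomial IntermediateField Fermat.Agent.ModPoly Fermat.Agent.Cusp AlgebraicCurve
open Fermat.Agent.SemiSt Fermat.Agent.CarE Fermat.Agent.HeckeProd Fermat.Agent.RedMod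

section Lam

variable {A k : Type*} [CommRing A] [IsDomain A] [Field k] [Algebra A k]
  {q : ℕ} [hq : Fact q.Prime] [CharP k q] {m : ℕ} {z : A} (hz : IsPrimitiveRoot z (q ^ m))
variable {R0 : Type*} [CommRing R0] [Algebra R0 A]
  (hR : ∀ a : R0, a ≠ 0 → ∃ (n : ℕ) (u : R0), algebraMap A k (algebraMap R0 A u) ≠ 0 ∧
    a = (q : R0) ^ n * u)

include hz hR in
/-- `z` satisfies no relation of small degree -/
theorem eq_zero_of_aeval_z (hm : m ≠ 0) {P : R0[X]} (hd : P.natDegree < Nat.totient (q ^ m))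
    (h : aeval z P = 0) : P = 0 := by
  by_contra hP
  have h1 : aeval (1 - z) (P.comp (1 - X)) = aeval z P := by
    rw [aeval_comp]
    simp
  have h2 : P.comp (1 - X) ≠ 0 := by
    intro h0
    apply hP
    have : (P.comp (1 - X)).comp (1 - X) = P := by
      rw [comp_assoc]
      simp
    rw [← this, h0, zero_comp]
  have h3 := PU_aeval_lam (k := k) hz hR hm ((natDegree_comp_lam_le P).trans_lt hd) h2
  exact h3.ne_zero (lam_ne hz hm) (h1.trans h)

end Lam

variable {R0 K0 A Ω k : Type*} [CommRing R0] [IsDomain R0]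
  [Field K0] [Algebra R0 K0]
  [IsFractionRing R0 K0] [CommRing A] [IsDomain A] [ValuationRing A] [Field Ω]
  [IsAlgClosed Ω] [CharZero Ω]
  [Algebra A Ω] [IsFractionRing A Ω] [Field k] [Algebra A k] [Algebra K0 Ω] [Algebra R0 A]
  [Algebra R0 k] {q M n : ℕ} [hq : Fact q.Prime] [NeZero M] [CharP k q]

section Sig

variable (B : Base q R0 K0 A Ω k)

include B in
/-- the Galois group permutes the roots of unity of order `q ^ m` transitively -/
theorem exists_sigma {m : ℕ} {z : Aˣ} (hz : IsPrimitiveRoot z (q ^ m)) {ξ : Ωˣ}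
    (hξ : IsPrimitiveRoot ξ (q ^ m)) :
    ∃ σ : Ω ≃ₐ[K0] Ω, Units.map ((σ.toRingEquiv : Ω →+* Ω) : Ω →* Ω)
      (Units.map (algebraMap A Ω : A →* Ω) z) = ξ := by
  rcases Nat.eq_zero_or_pos m with rfl | hm
  · rw [pow_zero] at hz hξ
    refine ⟨AlgEquiv.refl, ?_⟩
    rw [IsPrimitiveRoot.one_right_iff] at hz hξ
    rw [hz, hξ, map_one, map_one]
  haveI := B.alg
  haveI : IsAlgClosure K0 Ω := ⟨inferInstance, inferInstance⟩
  haveI : Normal K0 Ω := IsAlgClosure.normal K0 Ω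
  set ζ : Ω := algebraMap A Ω z with hζ
  have hζp : IsPrimitiveRoot ζ (q ^ m) :=
    (hz_val hz).map_of_injective (IsFractionRing.injective A Ω)
  have hint : IsIntegral K0 ζ := Algebra.IsIntegral.isIntegral ζ
  have hcyc : ∀ x : Ω, IsPrimitiveRoot x (q ^ m) → aeval x (cyclotomic (q ^ m) K0) = 0 := by
    intro x hx
    have h1 := hx.isRoot_cyclotomic (pow_pos hq.out.pos m)
    rw [IsRoot.def] at h1
    rw [aeval_def, eval₂_eq_eval_map, map_cyclotomic]
    exact h1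
  have hdvd : minpoly K0 ζ ∣ cyclotomic (q ^ m) K0 := minpoly.dvd _ _ (hcyc ζ hζp)
  have hdeg : Nat.totient (q ^ m) ≤ (minpoly K0 ζ).natDegree := by
    by_contra hlt
    push Not at hlt
    obtain ⟨b, hb, hb'⟩ := IsLocalization.integerNormalization_spec
      (nonZeroDivisors R0) (minpoly K0 ζ)
    set P := IsLocalization.integerNormalization (nonZeroDivisors R0) (minpoly K0 ζ) with hP
    have hb0 : algebraMap R0 K0 b ≠ 0 := by
      rw [Ne, map_eq_zero_iff _ (IsFractionRing.injective R0 K0)]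
      exact nonZeroDivisors.ne_zero hb
    have hPm : P.map (algebraMap R0 K0) = C (algebraMap R0 K0 b) * minpoly K0 ζ := by
      rw [hb', ← algebraMap_smul K0 b, smul_eq_C_mul]
    have hPd : P.natDegree < Nat.totient (q ^ m) := by
      rw [← natDegree_map_eq_of_injective (IsFractionRing.injective R0 K0), hPm,
        natDegree_C_mul hb0]
      exact hlt
    have hPz : aeval (z : A) P = 0 := by
      apply IsFractionRing.injective A Ω
      rw [map_zero]
      have h1 : algebraMap A Ω (aeval (z : A) P) = aeval ζ (P.map (algebraMap R0 K0)) := by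
        rw [aeval_def, hom_eval₂, aeval_def, eval₂_map]
        congr 1
        exact RingHom.ext B.comm
      rw [h1, hPm, map_mul, minpoly.aeval, mul_zero]
    have h2 := eq_zero_of_aeval_z (k := k) (hz_val hz) B.pu' hm.ne' hPd hPz
    have h3 : P.map (algebraMap R0 K0) = 0 := by rw [h2, Polynomial.map_zero]
    rw [hPm] at h3
    rcases mul_eq_zero.1 h3 with h4 | h4
    · exact hb0 (C_eq_zero.1 h4)
    · exact minpoly.ne_zero hint h4
  have heq : minpoly K0 ζ = cyclotomic (q ^ m) K0 := by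
    refine (eq_of_monic_of_dvd_of_natDegree_le (minpoly.monic hint)
      (cyclotomic.monic _ _) hdvd ?_).symm
    rw [natDegree_cyclotomic]
    exact hdeg
  have hroot : aeval (ξ : Ω) (minpoly K0 ζ) = 0 := by
    rw [heq]
    exact hcyc ξ (IsPrimitiveRoot.coe_units_iff.2 hξ)
  obtain ⟨σ, hσ⟩ := minpoly.exists_algEquiv_of_root (Algebra.IsAlgebraic.isAlgebraic ζ) hroot
  refine ⟨σ.symm, Units.ext ?_⟩
  change σ.symm ζ = ξ
  rw [AlgEquiv.symm_apply_eq]
  exact hσ.symm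

include B in
/-- the Galois group acts trivially on the residue field -/
theorem exists_tau (σ : Ω ≃ₐ[K0] Ω) : ∃ τ : A →+* A,
    (∀ a, (σ.toRingEquiv : Ω →+* Ω) (algebraMap A Ω a) = algebraMap A Ω (τ a)) ∧
    (∀ a, algebraMap A k (τ a) = algebraMap A k a) := by
  choose f hf hf' using B.inert σ
  have hinj := IsFractionRing.injective A Ω
  exact ⟨
    { toFun := f
      map_one' := hinj (by rw [← hf, map_one, map_one])
      map_zero' := hinj (by rw [← hf, map_zero, map_zero])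
      map_mul' := fun a b => hinj (by rw [← hf, map_mul, map_mul, hf, hf, map_mul])
      map_add' := fun a b => hinj (by rw [← hf, map_add, map_add, hf, hf, map_add]) }, hf, hf'⟩

/-- conjugates of `1 - z` -/
theorem exists_tau_lam (τ : A →+* A) (hτ : Function.Injective τ) {m : ℕ} (hm : m ≠ 0) {z : Aˣ}
    (hz : IsPrimitiveRoot z (q ^ m)) : ∃ g : A, τ (1 - (z : A)) = (1 - (z : A)) * g ∧
      algebraMap A k g ≠ 0 := by
  have hzA := hz_val hz
  haveI : NeZero (q ^ m) := ⟨pow_ne_zero m hq.out.ne_zero⟩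
  have h1 : IsPrimitiveRoot (τ (z : A)) (q ^ m) := hzA.map_of_injective hτ
  obtain ⟨i, hi, hco, h2⟩ := (hzA.isPrimitiveRoot_iff).1 h1
  obtain ⟨g, hg, hg'⟩ := exists_diff (A := A) (k := k) hz i
  refine ⟨g, ?_, ?_⟩
  · rw [map_sub, map_one, ← h2, ← hg, zpow_natCast, Units.val_pow_eq_pow_val]
  · rw [hg']
    intro h0
    rw [Int.cast_natCast, CharP.cast_eq_zero_iff k q] at h0
    have h8 : q ∣ 1 := by
      have h9 := Nat.dvd_gcd h0 (dvd_pow_self q hm)
      rwa [hco] at h9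
    exact hq.out.one_lt.ne' (Nat.dvd_one.1 h8)

end Sig

namespace Ctx

variable (X : Ctx R0 K0 A Ω k q M n)

/-- conjugates of expansions -/
theorem conj_scale (σ : Ω ≃ₐ[K0] Ω) (a : Fin (n + 1)) {m : ℤ} {y : LaurentSeries Ω}
    (hy : IsU A Ω k y) : ∃ y' : LaurentSeries Ω, IsU A Ω k y' ∧
      (m = 0 → rL A k y' = rL A k y) ∧
      coeffMap (σ.toRingEquiv : Ω →+* Ω) (HahnSeries.C (algebraMap A Ω (X.ϖc a)) ^ m * y) =
        HahnSeries.C (algebraMap A Ω (X.ϖc a)) ^ m * y' := by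
  obtain ⟨τ, h1, h2⟩ := exists_tau X.B σ
  obtain ⟨g1, g2⟩ := rL_conj (k := k) h1 h2 hy
  have hτ : Function.Injective τ := by
    intro a b hab
    apply IsFractionRing.injective A Ω
    apply σ.injective
    have e1 := h1 a
    have e2 := h1 b
    rw [hab] at e1
    exact e1.trans e2.symm
  obtain ⟨g, hg, hg'⟩ : ∃ g : A, τ (X.ϖc a) = X.ϖc a * g ∧ algebraMap A k g ≠ 0 := by
    rw [ϖc]
    split_ifs with h
    · exact ⟨1, by rw [map_natCast, mul_one], by rw [map_one]; exact one_ne_zero⟩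
    · exact exists_tau_lam (q := q) τ hτ h (z := X.zz (n - min (a : ℕ) (n - a)))
        (IsPrimitiveRoot.coe_units_iff.1 (X.zz_mu_prim a))
  have hU : IsU A Ω k (HahnSeries.C (algebraMap A Ω g) : LaurentSeries Ω) := by
    have : (HahnSeries.C (algebraMap A Ω g) : LaurentSeries Ω) = incL A Ω (HahnSeries.C g) := by
      rw [coeffMap_C]
    rw [this]
    refine isU_incL ?_
    rw [coeffMap_C, Ne, map_eq_zero_iff _ HahnSeries.C_injective]
    exact hg'
  refine ⟨HahnSeries.C (algebraMap A Ω g) ^ m * coeffMap (σ.toRingEquiv : Ω →+* Ω) y,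
    (IsU.zpow hU m).mul g1, ?_, ?_⟩
  · rintro rfl
    rw [zpow_zero, one_mul, g2]
  · rw [map_mul, map_zpow₀, coeffMap_C, h1, hg, map_mul, map_mul, mul_zpow, mul_assoc]

/-- twists of expansions -/
theorem twist_scale {z : Aˣ} (hz : z ^ q = 1) (ϖ : A) {m : ℤ} {y : LaurentSeries Ω}
    (hy : IsU A Ω k y) : ∃ y' : LaurentSeries Ω, IsU A Ω k y' ∧ rL A k y' = rL A k y ∧
      SbA (Units.map (algebraMap A Ω : A →* Ω) z) 1
        (HahnSeries.C (algebraMap A Ω ϖ) ^ m * y) =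
        HahnSeries.C (algebraMap A Ω ϖ) ^ m * y' := by
  obtain ⟨h1, h2⟩ := rL_twist' (k := k) hz hy
  refine ⟨_, h1, h2, ?_⟩
  have h3 : ∀ x : LaurentSeries Ω, SbA (Units.map (algebraMap A Ω : A →* Ω) z) 1 x =
      twist (Units.map (algebraMap A Ω : A →* Ω) z) x := fun x => by
    rw [twist_eq_Sb]
    rfl
  rw [h3, map_mul, map_zpow₀]
  congr 2
  rw [HahnSeries.C_apply, twist_single, zpow_zero, Units.val_one, one_mul]

/-- products of expansions -/
theorem prod_scale {ι : Type*} [Fintype ι] (hcard : Fintype.card ι = q) (ϖ : A)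
    {m : ℤ} {r : LaurentSeries k} {f : ι → LaurentSeries Ω}
    (h : ∀ i, ∃ y : LaurentSeries Ω, IsU A Ω k y ∧ (m = 0 → rL A k y = r) ∧
      f i = HahnSeries.C (algebraMap A Ω ϖ) ^ m * y) :
    ∃ y : LaurentSeries Ω, IsU A Ω k y ∧ (m = 0 → rL A k y = r ^ q) ∧
      ∏ i, f i = HahnSeries.C (algebraMap A Ω ϖ) ^ ((q : ℤ) * m) * y := by
  choose y hy1 hy2 hy3 using h
  refine ⟨∏ i, y i, ?_, fun hm => ?_, ?_⟩
  · rw [isU_iff_rL, rL_prod _ _ fun b _ => (hy1 b).1, Finset.prod_ne_zero_iff]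
    exact fun b _ => isU_iff_rL.1 (hy1 b)
  · rw [rL_prod _ _ fun b _ => (hy1 b).1, Finset.prod_congr rfl fun b _ => hy2 b hm,
      Finset.prod_const, Finset.card_univ, hcard]
  · rw [Finset.prod_congr rfl fun b _ => hy3 b, Finset.prod_mul_distrib, Finset.prod_const,
      Finset.card_univ, hcard, ← zpow_natCast, ← zpow_mul, mul_comm m]

/-! ### the norm over the small field -/

theorem exists_NN0 (x : FF K0 (q ^ n * M)) : ∃ y : FF K0 (q ^ n * M),
    emb K0 Ω (q ^ n * M) y = NLn X.hco n (emb K0 Ω (q ^ n * M) x) := by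
  haveI := X.B.alg
  apply exists_of_fixed X.B.fixed
  intro σ
  have h := act_NLn X.hco (by have := X.hn; omega) σ.toRingEquiv (emb K0 Ω (q ^ n * M) x)
  refine h.trans (congrArg (NLn X.hco n) ?_)
  exact gal_emb σ x

/-- **the norm operator over the small field** -/
def NN0 : FF K0 (q ^ n * M) →* FF K0 (q ^ n * M) where
  toFun x := (X.exists_NN0 x).choose
  map_one' := by
    apply emb_injective (K := K0) (Ω := Ω)
    rw [(X.exists_NN0 1).choose_spec, map_one, map_one]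
  map_mul' x y := by
    apply emb_injective (K := K0) (Ω := Ω)
    rw [(X.exists_NN0 (x * y)).choose_spec, map_mul, map_mul, map_mul,
      (X.exists_NN0 x).choose_spec, (X.exists_NN0 y).choose_spec]

theorem emb_NN0 (x : FF K0 (q ^ n * M)) : emb K0 Ω (q ^ n * M) (X.NN0 x) =
    NLn X.hco n (emb K0 Ω (q ^ n * M) x) := (X.exists_NN0 x).choose_spec

theorem NN0_K (c : K0) : X.NN0 (algebraMap K0 (FF K0 (q ^ n * M)) c) =
    algebraMap K0 (FF K0 (q ^ n * M)) (c ^ q) := by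
  apply emb_injective (K := K0) (Ω := Ω)
  rw [X.emb_NN0, emb_algebraMap, NLn_algebraMap X.hco (by have := X.hn; omega), emb_algebraMap,
    map_pow (algebraMap K0 Ω)]

theorem NN0_zero : X.NN0 0 = 0 := by
  apply emb_injective (K := K0) (Ω := Ω)
  rw [X.emb_NN0, map_zero, NLn_zero X.hco (by have := X.hn; omega)]

/-! ### the embeddings in terms of `IsPhi` -/

theorem isPhi_ph (a : ℕ) (h : n ≤ 2 * a) (ha : a ≤ n) : IsPhi a (X.zΩ a) (X.ph a h ha) :=
  (exists_phi (k := Ω) (cast_ne Ω (q ^ n * M)) X.hco (Nat.add_sub_cancel' ha) (by omega)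
    (by have := X.hn; omega) (X.zΩ_prim ha)).choose_spec

theorem phΩ_up (a : Fin (n + 1)) (h : n ≤ 2 * (a : ℕ)) :
    X.phΩ a = X.ph a h (Nat.lt_succ_iff.1 a.2) := by rw [phΩ, dif_pos h]

theorem phΩ_down (a : Fin (n + 1)) (h : ¬ n ≤ 2 * (a : ℕ)) (x : FF Ω (q ^ n * M)) :
    X.phΩ a x = X.ph (n - a) (by omega) (Nat.sub_le _ _) (wn Ω X.hco n x) := by
  rw [phΩ, dif_neg h]; rfl

/-- the root of unity of order `q` -/
def ζq : Aˣ := X.zz (n - 1)

theorem ζq_prim : IsPrimitiveRoot X.ζq q := by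
  have h := X.zz_prim (a := n - 1) (Nat.sub_le _ _)
  rwa [show n - (n - 1) = 1 by have := X.hn; omega, pow_one] at h

theorem ζqΩ_prim : IsPrimitiveRoot (Units.map (algebraMap A Ω : A →* Ω) X.ζq) q :=
  X.ζq_prim.map_of_injective (f := Units.map (algebraMap A Ω : A →* Ω))
    (Units.map_injective (IsFractionRing.injective A Ω))

theorem prim_mul {G : Type*} [CommGroup G] {b : ℕ} (hb : 2 ≤ b) {z η : G}
    (hz : IsPrimitiveRoot z (q ^ b)) (hη : η ^ q = 1) : IsPrimitiveRoot (z * η) (q ^ b) := by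
  obtain ⟨b', rfl⟩ : ∃ b', b = b' + 1 := ⟨b - 1, by omega⟩
  have h1 : ∀ i, 1 ≤ i → η ^ (q ^ i) = 1 := by
    intro i hi
    obtain ⟨j, rfl⟩ : ∃ j, i = j + 1 := ⟨i - 1, by omega⟩
    rw [pow_succ', pow_mul, hη, one_pow]
  have h2 : orderOf (z * η) = q ^ (b' + 1) := by
    refine orderOf_eq_prime_pow ?_ ?_
    · rw [mul_pow, h1 b' (by omega), mul_one]
      intro h
      have h3 := hz.dvd_of_pow_eq_one _ h
      have h4 := Nat.le_of_dvd (pow_pos hq.out.pos _) h3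
      exact absurd (Nat.pow_le_pow_iff_right hq.out.one_lt |>.1 h4) (by omega)
    · rw [mul_pow, h1 _ (by omega), mul_one, hz.pow_eq_one]
  rw [← h2]
  exact IsPrimitiveRoot.orderOf _

/-- **norms at the components `a ≥ 2`** -/
theorem exists_NN_up (a : Fin (n + 1)) (ha : 2 ≤ (a : ℕ)) {x : FF K0 (q ^ n * M)} {m : ℤ}
    {y : LaurentSeries Ω} (hy : IsU A Ω k y)
    (h : X.mp a x = HahnSeries.C (algebraMap A Ω (X.ϖc a)) ^ m * y) :
    ∃ W, IsU A Ω k W ∧ (m = 0 → rL A k W = rL A k y ^ q) ∧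
      X.mp a (X.NN0 x) = HahnSeries.C (algebraMap A Ω (X.ϖc a)) ^ ((q : ℤ) * m) * W := by
  have han := Nat.lt_succ_iff.1 a.2
  have hn2 : 2 ≤ n := by have := X.hn; omega
  have hζ := X.ζqΩ_prim
  have hζ' : (Units.map (algebraMap A Ω : A →* Ω) X.ζq)⁻¹ ^ q = 1 := by
    rw [inv_pow, hζ.pow_eq_one, inv_one]
  by_cases h2 : n ≤ 2 * (a : ℕ)
  · have hT := X.isPhi_ph a h2 han
    have hz := X.zΩ_prim han
    have hσ : ∀ c : ZMod q, ∃ σ : Ω ≃ₐ[K0] Ω,
        Units.map ((σ.toRingEquiv : Ω →+* Ω) : Ω →* Ω) (X.zΩ a) =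
          X.zΩ a * (((Units.map (algebraMap A Ω : A →* Ω) X.ζq)⁻¹) ^ c.val) ^
            (q ^ (2 * (a : ℕ) - n)) := by
      intro c
      refine exists_sigma X.B (X.zz_prim han) ?_
      rcases Nat.eq_or_lt_of_le h2 with h3 | h3
      · refine prim_mul (by omega) hz ?_
        rw [show 2 * (a : ℕ) - n = 0 by omega, pow_zero, pow_one, ← pow_mul, mul_comm, pow_mul,
          hζ', one_pow]
      · have e := pow_eq_one_of_pos hζ' c.val (i := 2 * (a : ℕ) - n) (by omega) 1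
        rw [mul_one] at e
        rw [e, mul_one]
        exact hz
    choose σ hσ using hσ
    have key := T_NLn_A X.hco hn2 han h2 hζ hT (fun c => (σ c).toRingEquiv) hσ
      (emb K0 Ω (q ^ n * M) x)
    rw [mp_apply, X.emb_NN0, X.phΩ_up a h2, key]
    rw [mp_apply, X.phΩ_up a h2] at h
    refine prod_scale (ZMod.card q) _ fun c => ?_
    rw [conjT_emb, h]
    obtain ⟨y1, hy1, hr1, e1⟩ := X.conj_scale (σ c) a (m := m) hy
    have hc : (X.ζq ^ c.val) ^ q = 1 := by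
      rw [← pow_mul, mul_comm, pow_mul, X.ζq_prim.pow_eq_one, one_pow]
    obtain ⟨y2, hy2, hr2, e2⟩ := twist_scale (Ω := Ω) (k := k) hc (X.ϖc a) (m := m) hy1
    refine ⟨y2, hy2, fun hm => hr2.trans (hr1 hm), ?_⟩
    rw [e1, ← e2, map_pow]
  · have hT := X.isPhi_ph (n - a) (by omega) (Nat.sub_le _ _)
    have hz : IsPrimitiveRoot (X.zΩ (n - a)) (q ^ (a : ℕ)) := by
      have := X.zΩ_prim (a := n - a) (Nat.sub_le _ _)
      rwa [Nat.sub_sub_self han] at this
    have hz' : IsPrimitiveRoot (X.zz (n - a)) (q ^ (a : ℕ)) := by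
      have := X.zz_prim (a := n - a) (Nat.sub_le _ _)
      rwa [Nat.sub_sub_self han] at this
    have hσ : ∀ c : ZMod q, ∃ σ : Ω ≃ₐ[K0] Ω,
        Units.map ((σ.toRingEquiv : Ω →+* Ω) : Ω →* Ω) (X.zΩ (n - a)) =
          X.zΩ (n - a) * (Units.map (algebraMap A Ω : A →* Ω) X.ζq) ^ c.val := by
      intro c
      refine exists_sigma X.B hz' (prim_mul ha hz ?_)
      rw [← pow_mul, mul_comm, pow_mul, hζ.pow_eq_one, one_pow]
    choose σ hσ using hσ
    have key := T_NLn_B X.hco hn2 (a := a) (b := n - a) (by omega) (by omega) hζ hT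
      (fun c => (σ c).toRingEquiv) hσ (emb K0 Ω (q ^ n * M) x)
    rw [mp_apply, X.emb_NN0, X.phΩ_down a h2, key]
    rw [mp_apply, X.phΩ_down a h2] at h
    have hw : wn Ω X.hco n (emb K0 Ω (q ^ n * M) x) = emb K0 Ω (q ^ n * M) (X.w0 x) :=
      (X.emb_w0 x).symm
    rw [hw] at h ⊢
    refine prod_scale (ZMod.card q) _ fun c => ?_
    rw [conjT_emb, h]
    obtain ⟨y1, hy1, hr1, e1⟩ := X.conj_scale (σ c) a (m := m) hy
    exact ⟨y1, hy1, hr1, e1⟩

/-! ### the component `0` -/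

theorem ph_n (h : n ≤ 2 * n) (h' : n ≤ n) (x : FF Ω (q ^ n * M)) :
    X.ph n h h' x = (x : LaurentSeries Ω) := by
  have h1 := X.isPhi_ph n h h'
  have h2 : X.zΩ n = 1 := by
    rw [zΩ_eq]; exact X.ZΩ_pow le_rfl
  rw [h2] at h1
  have h3 := IsPhi.unique X.hco h1 (isPhi_val n)
  exact AlgHom.congr_fun h3 x

theorem phΩ_zero {j : Fin (n + 1)} (hj : (j : ℕ) = 0) (x : FF Ω (q ^ n * M)) :
    X.phΩ j x = (wn Ω X.hco n x : LaurentSeries Ω) := by
  have hn := X.hn
  have key : ∀ (b : ℕ) (hb : b = n) (h : n ≤ 2 * b) (h' : b ≤ n) (y : FF Ω (q ^ n * M)),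
      X.ph b h h' y = (y : LaurentSeries Ω) := by
    rintro b rfl h h' y
    exact X.ph_n h h' y
  rw [X.phΩ_down j (by omega)]
  exact key _ (by omega) _ _ _

theorem phΩ_one {j : Fin (n + 1)} (hj : (j : ℕ) = 1) (h : n ≤ 2 * (n - 1)) (h' : n - 1 ≤ n)
    (x : FF Ω (q ^ n * M)) : X.phΩ j x = X.ph (n - 1) h h' (wn Ω X.hco n x) := by
  have hn := X.hn
  have key : ∀ (b c : ℕ) (hbc : b = c) (h1 : n ≤ 2 * b) (h1' : b ≤ n) (h2 : n ≤ 2 * c)
      (h2' : c ≤ n) (y : FF Ω (q ^ n * M)), X.ph b h1 h1' y = X.ph c h2 h2' y := by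
    rintro b c rfl h1 h1' h2 h2' y; rfl
  rw [X.phΩ_down j (by omega)]
  exact key _ _ (by omega) _ _ _ _ _

theorem ϖc_zero {j : Fin (n + 1)} (hj : (j : ℕ) = 0) : X.ϖc j = (q : A) := by
  rw [ϖc, if_pos (by rw [hj]; exact Nat.zero_min _)]

theorem ϖc_one {j : Fin (n + 1)} (hj : (j : ℕ) = 1) : X.ϖc j = 1 - (X.ζq : A) := by
  have hn := X.hn
  have h1 : min (j : ℕ) (n - j) = 1 := by omega
  rw [ϖc, if_neg (by omega), h1]
  rfl

/-- **norms at the component `0`** -/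
theorem exists_NN_zero {j0 j1 : Fin (n + 1)} (hj0 : (j0 : ℕ) = 0) (hj1 : (j1 : ℕ) = 1)
    {x : FF K0 (q ^ n * M)} {m0 m1 : ℤ} {y0 y1 : LaurentSeries Ω}
    (hy0 : IsU A Ω k y0) (hy1 : IsU A Ω k y1)
    (h0 : X.mp j0 x = HahnSeries.C (algebraMap A Ω (X.ϖc j0)) ^ m0 * y0)
    (h1 : X.mp j1 x = HahnSeries.C (algebraMap A Ω (X.ϖc j1)) ^ m1 * y1) :
    ∃ W, IsU A Ω k W ∧ rL A k W = rL A k y0 * rL A k y1 ^ (q - 1) ∧
      X.mp j0 (X.NN0 x) =
        HahnSeries.C (algebraMap A Ω (X.ϖc j0)) ^ (m0 + m1) * W := by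
  have hn := X.hn
  rw [mp_apply, X.phΩ_zero hj0, X.ϖc_zero hj0] at h0
  rw [mp_apply, X.phΩ_one hj1 (by omega) (by omega), X.ϖc_one hj1] at h1
  rw [mp_apply, X.phΩ_zero hj0, X.ϖc_zero hj0, X.emb_NN0]
  have hw : wn Ω X.hco n (emb K0 Ω (q ^ n * M) x) = emb K0 Ω (q ^ n * M) (X.w0 x) :=
    (X.emb_w0 x).symm
  set ζ : Ω := algebraMap A Ω X.ζq with hζ
  have hprim := X.ζqΩ_prim
  have hprimΩ : IsPrimitiveRoot ζ q :=
    hprim.map_of_injective (f := Units.coeHom Ω) Units.val_injective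
  have hCq : (HahnSeries.C (algebraMap A Ω (q : A)) : LaurentSeries Ω) ≠ 0 := by
    rw [Ne, map_eq_zero_iff _ HahnSeries.C_injective,
      map_eq_zero_iff _ (IsFractionRing.injective A Ω)]
    exact q_ne A Ω
  have hT := X.isPhi_ph (n - 1) (by omega) (by omega)
  have hσ : ∀ c : Fin q, ∃ σ : Ω ≃ₐ[K0] Ω, (c : ℕ) ≠ 0 →
      Units.map ((σ.toRingEquiv : Ω →+* Ω) : Ω →* Ω) (X.zΩ (n - 1)) =
        (X.zΩ (n - 1)) ^ (c : ℕ) := by
    intro c
    by_cases hc : (c : ℕ) = 0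
    · exact ⟨AlgEquiv.refl, fun h => absurd hc h⟩
    have hco : (c : ℕ).Coprime q := by
      rw [Nat.coprime_comm, Nat.Prime.coprime_iff_not_dvd hq.out]
      intro hd
      exact absurd (Nat.le_of_dvd (Nat.pos_of_ne_zero hc) hd) (not_le.2 c.2)
    have hp1 : IsPrimitiveRoot X.ζq (q ^ 1) := by rw [pow_one]; exact X.ζq_prim
    have hp2 : IsPrimitiveRoot (X.zΩ (n - 1)) (q ^ 1) := by rw [pow_one]; exact hprim
    obtain ⟨σ, hσ⟩ := exists_sigma X.B hp1 (ξ := (X.zΩ (n - 1)) ^ (c : ℕ))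
      (hp2.pow_of_coprime _ (by rwa [pow_one]))
    exact ⟨σ, fun _ => hσ⟩
  choose σ hσ using hσ
  have key := T_NLn_C X.hco (by omega) hprim hT (fun c => (σ c).toRingEquiv) hσ
    (emb K0 Ω (q ^ n * M) x)
  have hfam : ∀ c : Fin q, ∃ W, IsU A Ω k W ∧
      rL A k W = (if (c : ℕ) = 0 then rL A k y0 else rL A k y1) ∧
      (if (c : ℕ) = 0 then (wn Ω X.hco n (emb K0 Ω (q ^ n * M) x) : LaurentSeries Ω) else
        conjT (σ c).toRingEquiv (X.ph (n - 1) (by omega) (by omega))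
          (wn Ω X.hco n (emb K0 Ω (q ^ n * M) x))) =
        (if (c : ℕ) = 0 then HahnSeries.C (algebraMap A Ω (q : A)) ^ m0 else 1) *
        (HahnSeries.C (if (c : ℕ) = 0 then 1 else 1 - ζ ^ (c : ℕ))) ^ m1 * W := by
    intro c
    by_cases hc : (c : ℕ) = 0
    · refine ⟨y0, hy0, by rw [if_pos hc], ?_⟩
      rw [if_pos hc, if_pos hc, if_pos hc, map_one, one_zpow, mul_one]
      exact h0
    · obtain ⟨τ, e1, e2⟩ := exists_tau X.B (σ c)
      obtain ⟨g1, g2⟩ := rL_conj (k := k) e1 e2 hy1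
      refine ⟨coeffMap ((σ c).toRingEquiv : Ω →+* Ω) y1, g1, by rw [if_neg hc, g2], ?_⟩
      rw [if_neg hc, if_neg hc, if_neg hc, one_mul, hw, conjT_emb, ← hw, h1, map_mul, map_zpow₀,
        coeffMap_C]
      congr 3
      have e3 : ((σ c).toRingEquiv : Ω →+* Ω) ζ = ζ ^ (c : ℕ) := congrArg Units.val (hσ c hc)
      rw [map_sub, map_sub, map_one, map_one, e3]
  choose W hW1 hW2 hW3 using hfam
  refine ⟨∏ b : Fin q, W b, ?_, ?_, ?_⟩
  · rw [isU_iff_rL, rL_prod _ _ fun b _ => (hW1 b).1, Finset.prod_ne_zero_iff]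
    exact fun b _ => isU_iff_rL.1 (hW1 b)
  · rw [rL_prod _ _ fun b _ => (hW1 b).1, Finset.prod_congr rfl fun b _ => hW2 b,
      prod_ite0 hq.out.ne_zero]
  · rw [key, Finset.prod_congr rfl fun b _ => hW3 b, Finset.prod_mul_distrib,
      Finset.prod_mul_distrib, prod_ite0 hq.out.ne_zero, one_pow, mul_one, Finset.prod_zpow,
      ← map_prod, prod_c hprimΩ, zpow_add₀ hCq, map_natCast (algebraMap A Ω)]

/-! ### the component `1` -/

/-- norms have the same expansions at the components `0` and `1` -/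
theorem mp_NN_one {j0 j1 : Fin (n + 1)} (hj0 : (j0 : ℕ) = 0) (hj1 : (j1 : ℕ) = 1)
    (x : FF K0 (q ^ n * M)) : X.mp j1 (X.NN0 x) = X.mp j0 (X.NN0 x) := by
  have hn := X.hn
  rw [mp_apply, mp_apply, X.emb_NN0, X.phΩ_zero hj0, X.phΩ_one hj1 (by omega) (by omega)]
  exact T_NLn_one X.hco (X.isPhi_ph (n - 1) (by omega) (by omega)) _

/-- the norm does not vanish -/
theorem NN0_ne {x : FF K0 (q ^ n * M)} (hx : x ≠ 0) : X.NN0 x ≠ 0 := by
  have hn := X.hn
  obtain ⟨m0, y0, hy0, e0⟩ := X.scale (0 : Fin (n + 1)) x hx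
  obtain ⟨m1, y1, hy1, e1⟩ := X.scale (⟨1, by omega⟩ : Fin (n + 1)) x hx
  obtain ⟨W, hW, -, e⟩ := X.exists_NN_zero (j0 := 0) (j1 := ⟨1, by omega⟩) rfl rfl hy0 hy1 e0 e1
  intro h0
  rw [h0, map_zero] at e
  have hCq : (HahnSeries.C (algebraMap A Ω (X.ϖc (0 : Fin (n + 1)))) : LaurentSeries Ω) ≠ 0 := by
    rw [Ne, map_eq_zero_iff _ HahnSeries.C_injective,
      map_eq_zero_iff _ (IsFractionRing.injective A Ω)]
    exact X.ϖc_ne 0
  exact mul_ne_zero (zpow_ne_zero _ hCq) hW.ne_zero e.symm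

end Ctx

end Fermat.Agent.CQ
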