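import Fermat.Agent.CQ.Core2
import Fermat.Agent.CQ.Nm1
import Fermat.Agent.CQ.Sj1
import Fermat.Agent.CarE.Nm3

/-!
# Valuations, residues and regularity of norms
-/

set_option autoImplicit false
set_option linter.style.haveILetI false
set_option linter.unusedSectionVars false

noncomputable section

namespace Fermat.Agent.CQ

open ModularCurve Polynomial IntermediateField Fermat.Agent.ModPoly Fermat.Agent.Cusp AlgebraicCurve
open Fermat.Agent.SemiSt Fermat.Agent.CarE Fermat.Agent.HeckeProd Fermat.Agent.RedMod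
open Fermat.Agent.Curve Fermat.Agent.RR Fermat.Agent.Nod

section Geo

variable {Ω : Type*} [Field Ω] [IsAlgClosed Ω] [CharZero Ω] {q n M : ℕ} [hq : Fact q.Prime]
  [NeZero M] (hco : q.Coprime M)

set_option synthInstance.maxHeartbeats 400000 in
theorem reg_Nmn {s : FF Ω (q ^ (n - 1) * M)} {y : FF Ω (q ^ n * M)} (hy0 : y ≠ 0)
    (hy : Reg Ω (incl Ω (dvd_low q M n) s) y) :
    Reg Ω (incl Ω (dvd_low q M n) s) (incl Ω (dvd_low q M n) (Nmn Ω q M n y)) := by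
  letI := inclAlg (k := Ω) (dvd_low q M n)
  haveI : IsScalarTower Ω (FF Ω (q ^ (n - 1) * M)) (FF Ω (q ^ n * M)) :=
    IsScalarTower.of_algebraMap_eq fun a => ((incl Ω (dvd_low q M n)).commutes a).symm
  haveI := finiteDimensional_incl (k := Ω) (dvd_low q M n) (natCast_ne_zero_K Ω (q ^ n * M))
  haveI := isSeparable_incl (k := Ω) (dvd_low q M n) (natCast_ne_zero_K Ω (q ^ n * M))
  exact reg_norm (K := Ω) (F := FF Ω (q ^ (n - 1) * M)) (F' := FF Ω (q ^ n * M)) (s := s) hy0 hy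

theorem NLn_eq (y : FF Ω (q ^ n * M)) :
    NLn hco n y = wΩ n hco (incl Ω (dvd_low q M n) (Nmn Ω q M n (wΩ n hco y))) := rfl

/-- norms of functions regular outside the cusps are regular outside the cusps -/
theorem reg_NLn (hn : 2 ≤ n) {y : FF Ω (q ^ n * M)} (hy : Reg Ω (tt Ω q n M) y) :
    Reg Ω (tt Ω q n M) (NLn hco n y) := by
  rcases eq_or_ne y 0 with rfl | hy0
  · rw [NLn_zero hco hn]; exact hy
  have h1 : Reg Ω (jF' Ω (q ^ n * M)) (wΩ n hco y) := (reg_tt_iff hco).1 (reg_tt_wΩ hco hy)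
  have hw0 : wΩ n hco y ≠ 0 := (_root_.map_ne_zero _).2 hy0
  have e1 : jF' Ω (q ^ n * M) = incl Ω (dvd_low q M n) (jF' Ω (q ^ (n - 1) * M)) :=
    (incl_jF _).symm
  rw [e1] at h1
  have h2 := reg_Nmn hw0 h1
  rw [← e1] at h2
  rw [NLn_eq]
  exact reg_tt_wΩ hco ((reg_tt_iff hco).2 h2)

end Geo

namespace Ctx

variable {R0 K0 A Ω k : Type*} [CommRing R0] [IsDomain R0]
  [Field K0] [Algebra R0 K0]
  [IsFractionRing R0 K0] [CommRing A] [IsDomain A] [ValuationRing A] [Field Ω]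
  [IsAlgClosed Ω] [CharZero Ω]
  [Algebra A Ω] [IsFractionRing A Ω] [Field k] [Algebra A k] [Algebra K0 Ω] [Algebra R0 A]
  [Algebra R0 k] {q M n : ℕ} [hq : Fact q.Prime] [NeZero M] [CharP k q]
  (X : Ctx R0 K0 A Ω k q M n) (κ : IntermediateField k (LaurentSeries k))
  (hκ : ∀ (j : Fin (n + 1)) (x : FF K0 (q ^ n * M)) (h : x ∈ (X.E j).W), (X.E j).πW ⟨x, h⟩ ∈ κ)

theorem scale_v (a : Fin (n + 1)) {x : FF K0 (q ^ n * M)} (hx : x ≠ 0) : ∃ y, IsU A Ω k y ∧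
    X.mp a x = HahnSeries.C (algebraMap A Ω (X.ϖc a)) ^ (((X.E a).comp κ (hκ a)).v x) * y := by
  obtain ⟨m, y, hy, h⟩ := (X.E a).scale x hx
  have h1 : ((X.E a).comp κ (hκ a)).v x = m := (X.E a).v_eq κ (hκ a) hy h
  rw [h1]
  exact ⟨y, hy, h⟩

theorem coe_r_rL (j : Fin (n + 1)) (x : FF K0 (q ^ n * M)) :
    (((X.E j).comp κ (hκ j)).r x : LaurentSeries k) = rL A k (X.mp j x) := by
  by_cases h : x ∈ (X.E j).W
  · have h' : X.mp j x ∈ WL A Ω k := h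
    rw [rL_eq h']
    exact (X.E j).coe_r κ (hκ j) h
  · have e1 : ((X.E j).comp κ (hκ j)).r x = 0 := dif_neg h
    have e2 : rL A k (X.mp j x) = 0 := dif_neg h
    rw [e1, e2]
    rfl

/-- valuations of norms, components `a ≥ 2` -/
theorem v_NN (a : Fin (n + 1)) (ha : 2 ≤ (a : ℕ)) {x : FF K0 (q ^ n * M)} (hx : x ≠ 0) :
    ((X.E a).comp κ (hκ a)).v (X.NN0 x) = q * ((X.E a).comp κ (hκ a)).v x := by
  obtain ⟨y, hy, e0⟩ := X.scale_v κ hκ a hx
  obtain ⟨W, hW, -, e⟩ := X.exists_NN_up a ha hy e0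
  exact (X.E a).v_eq κ (hκ a) hW e

/-- residues of norms, components `a ≥ 2` -/
theorem r_NN (a : Fin (n + 1)) (ha : 2 ≤ (a : ℕ)) {x : FF K0 (q ^ n * M)} (hx : x ≠ 0)
    (h0 : ((X.E a).comp κ (hκ a)).v x = 0) :
    ((X.E a).comp κ (hκ a)).r (X.NN0 x) = ((X.E a).comp κ (hκ a)).r x ^ q := by
  obtain ⟨y, hy, e0⟩ := X.scale_v κ hκ a hx
  obtain ⟨W, hW, hWr, e⟩ := X.exists_NN_up a ha hy e0
  rw [h0, zpow_zero, one_mul] at e0
  rw [h0, mul_zero, zpow_zero, one_mul] at e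
  apply Subtype.ext
  change _ = (((X.E a).comp κ (hκ a)).r x : LaurentSeries k) ^ q
  rw [coe_r_rL, coe_r_rL, e, e0, hWr h0]

/-- valuations of norms, component `0` -/
theorem v_NN0 {j0 j1 : Fin (n + 1)} (hj0 : (j0 : ℕ) = 0) (hj1 : (j1 : ℕ) = 1)
    {x : FF K0 (q ^ n * M)} (hx : x ≠ 0) :
    ((X.E j0).comp κ (hκ j0)).v (X.NN0 x) =
      ((X.E j0).comp κ (hκ j0)).v x + ((X.E j1).comp κ (hκ j1)).v x := by
  obtain ⟨y0, hy0, e0⟩ := X.scale_v κ hκ j0 hx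
  obtain ⟨y1, hy1, e1⟩ := X.scale_v κ hκ j1 hx
  obtain ⟨W, hW, -, e⟩ := X.exists_NN_zero hj0 hj1 hy0 hy1 e0 e1
  exact (X.E j0).v_eq κ (hκ j0) hW e

/-- residues of norms, component `0` -/
theorem r_NN0 {j0 j1 : Fin (n + 1)} (hj0 : (j0 : ℕ) = 0) (hj1 : (j1 : ℕ) = 1)
    {x : FF K0 (q ^ n * M)} (hx : x ≠ 0) (h0 : ((X.E j0).comp κ (hκ j0)).v x = 0)
    (h1 : ((X.E j1).comp κ (hκ j1)).v x = 0) :
    ((X.E j0).comp κ (hκ j0)).r (X.NN0 x) =
      ((X.E j0).comp κ (hκ j0)).r x * ((X.E j1).comp κ (hκ j1)).r x ^ (q - 1) := by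
  obtain ⟨y0, hy0, e0⟩ := X.scale_v κ hκ j0 hx
  obtain ⟨y1, hy1, e1⟩ := X.scale_v κ hκ j1 hx
  obtain ⟨W, hW, hWr, e⟩ := X.exists_NN_zero hj0 hj1 hy0 hy1 e0 e1
  rw [h0, zpow_zero, one_mul] at e0
  rw [h1, zpow_zero, one_mul] at e1
  rw [h0, h1, add_zero, zpow_zero, one_mul] at e
  apply Subtype.ext
  change _ = (((X.E j0).comp κ (hκ j0)).r x : LaurentSeries k) *
    (((X.E j1).comp κ (hκ j1)).r x : LaurentSeries k) ^ (q - 1)
  rw [coe_r_rL, coe_r_rL, coe_r_rL, e, e0, e1, hWr]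

/-- all Laurent series -/
theorem hTop (j : Fin (n + 1)) (x : FF K0 (q ^ n * M)) (h : x ∈ (X.E j).W) :
    (X.E j).πW ⟨x, h⟩ ∈ kT k := IntermediateField.mem_top

/-- norms of integral elements are integral -/
theorem NN0_mem {x : FF K0 (q ^ n * M)} (h : ∀ j, x ∈ (X.E j).W) (j : Fin (n + 1)) :
    X.NN0 x ∈ (X.E j).W := by
  have hn := X.hn
  rcases eq_or_ne x 0 with rfl | hx
  · rw [X.NN0_zero]; exact zero_mem _
  have key : ∀ i, 0 ≤ ((X.E i).comp (kT k) (X.hTop i)).v x := by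
    intro i
    exact (Car.Comp.mem_iff ((X.E i).comp (kT k) (X.hTop i))).1 (h i) |>.resolve_left hx
  have h0 : X.NN0 x ∈ (X.E (0 : Fin (n + 1))).W := by
    have h1 := X.v_NN0 (kT k) X.hTop (j0 := 0) (j1 := ⟨1, by omega⟩) rfl rfl hx
    exact Car.Comp.mem_of_v (C := (X.E 0).comp (kT k) (X.hTop 0))
      (by rw [h1]; exact add_nonneg (key _) (key _))
  by_cases hj : 2 ≤ (j : ℕ)
  · have h1 := X.v_NN (kT k) X.hTop j hj hx
    exact Car.Comp.mem_of_v (C := (X.E j).comp (kT k) (X.hTop j))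
      (by rw [h1]; exact mul_nonneg (Int.natCast_nonneg _) (key j))
  · by_cases hj0 : (j : ℕ) = 0
    · have : j = 0 := Fin.ext hj0
      rw [this]; exact h0
    · have hj1 : (j : ℕ) = 1 := by omega
      change X.mp j (X.NN0 x) ∈ WL A Ω k
      rw [X.mp_NN_one (j0 := 0) rfl hj1]
      exact h0

/-- norms of functions regular outside the cusps are regular outside the cusps -/
theorem reg_NN0 {x : FF K0 (q ^ n * M)} (hx : Reg Ω (tt Ω q n M) (emb K0 Ω (q ^ n * M) x)) :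
    Reg Ω (tt Ω q n M) (emb K0 Ω (q ^ n * M) (X.NN0 x)) := by
  rw [X.emb_NN0]
  exact reg_NLn X.hco (by have := X.hn; omega) hx

/-- the involution preserves regularity outside the cusps -/
theorem reg_w0 {x : FF K0 (q ^ n * M)} (hx : Reg Ω (tt Ω q n M) (emb K0 Ω (q ^ n * M) x)) :
    Reg Ω (tt Ω q n M) (emb K0 Ω (q ^ n * M) (X.w0 x)) := by
  rw [X.emb_w0]
  exact reg_tt_wΩ X.hco hx

end Ctx

end Fermat.Agent.CQ
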