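import Fermat.Agent.CQ.Md

/-!
# The model data of the modular function field of level `q ^ n M`, continued
-/

set_option autoImplicit false
set_option linter.style.haveILetI false
set_option linter.unusedSectionVars false

noncomputable section

namespace Fermat.Agent.CQ

open ModularCurve Polynomial IntermediateField Fermat.Agent.ModPoly Fermat.Agent.Cusp
open Fermat.Agent.SemiSt Fermat.Agent.RedMod Fermat.Agent.Car
open Fermat.Agent.CarE

theorem tt_eq_jj (K : Type*) [Field K] (q n M : ℕ) [hq : Fact q.Prime] [NeZero M] :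
    tt K q n M = jj K q M n 0 * jj K q M n n := by
  rw [tt, jj_eq n K (Nat.zero_le n), jj_eq n K le_rfl]
  apply Subtype.ext
  change Jc 1 1 * Jc 1 (pp q ^ n) = Jc 1 (pp q ^ 0 * 1) * Jc 1 (pp q ^ n * 1)
  rw [pow_zero, one_mul, mul_one]

namespace Ctx

variable {R0 K0 A Ω k : Type*} [CommRing R0] [IsDomain R0] [Field K0] [Algebra R0 K0]
  [IsFractionRing R0 K0] [CommRing A] [IsDomain A] [ValuationRing A] [Field Ω]
  [IsAlgClosed Ω] [CharZero Ω]
  [Algebra A Ω] [IsFractionRing A Ω] [Field k] [Algebra A k] [Algebra K0 Ω] [Algebra R0 A]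
  [Algebra R0 k] {q M n : ℕ} [hq : Fact q.Prime] [NeZero M] [CharP k q]
  (X : Ctx R0 K0 A Ω k q M n)

/-- expansions of the parameter -/
def tL (l : Fin (n + 1)) : LaurentSeries A := X.jL 0 l * X.jL n l

theorem hasL_tt : X.HasL (tt K0 q n M) X.tL := by
  rw [tt_eq_jj]
  exact (X.hasL_jj (Nat.zero_le n)).mul (X.hasL_jj le_rfl)

theorem red_tL (l : Fin (n + 1)) : redL A k (X.tL l) = jqModC k ^ rr q n l := by
  rw [tL, map_mul, X.redL_jL, X.redL_jL, ← pow_add,
    rr_eq (Nat.lt_succ_iff.1 l.2)]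

variable (κ : IntermediateField k (LaurentSeries k))
  (hκ : ∀ j (x : FF K0 (q ^ n * M)) (h : x ∈ (X.E j).W), (X.E j).πW ⟨x, h⟩ ∈ κ)

/-- the components -/
def Cn (j : Fin (n + 1)) : Comp (FF K0 (q ^ n * M)) κ := (X.E j).comp κ (hκ j)

theorem Cn_W (j : Fin (n + 1)) : (X.Cn κ hκ j).W = (X.E j).W := rfl

variable {X} in
theorem coe_r_hasL {x : FF K0 (q ^ n * M)} {s : Fin (n + 1) → LaurentSeries A}
    (h : X.HasL x s) (j : Fin (n + 1)) :
    ((X.Cn κ hκ j).r x : LaurentSeries k) = redL A k (s j) :=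
  (X.E j).coe_r_of_eq κ (hκ j) (h j)

variable {κ hκ} in
variable {X} in
theorem r_eq_zero_of_hasL {x : FF K0 (q ^ n * M)} {s : Fin (n + 1) → LaurentSeries A}
    (h : X.HasL x s) {j : Fin (n + 1)} (h0 : redL A k (s j) = 0) :
    (X.Cn κ hκ j).Ge 1 x := by
  rw [← Comp.r_eq_zero_iff (C := X.Cn κ hκ j) (h.mem j)]
  apply Subtype.ext
  rw [coe_r_hasL κ hκ h, h0]
  rfl

theorem coe_r_tt (j : Fin (n + 1)) : ((X.Cn κ hκ j).r (tt K0 q n M) : LaurentSeries k) =
    jqModC k ^ rr q n j := by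
  rw [coe_r_hasL κ hκ X.hasL_tt j, X.red_tL]

theorem coe_aeval_κ (x : κ) (P : k[X]) : ((aeval x P : κ) : LaurentSeries k) =
    aeval (x : LaurentSeries k) P := (aeval_algHom_apply κ.val x P).symm

include X in
theorem q_R0_ne : (q : R0) ≠ 0 := by
  intro h
  have h1 : (q : A) = 0 := by rw [← map_natCast (algebraMap R0 A), h, map_zero]
  exact q_ne A Ω h1

/-- **the model data** -/
def pm : PreM R0 (FF K0 (q ^ n * M)) k κ (fun a : Fin (n + 1) => Ix q M n a) where
  comp := X.Cn κ hκ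
  algebraMap_mem j a := (X.hasL_const a).mem j
  r_algebraMap j a := by
    apply Subtype.ext
    rw [coe_r_hasL κ hκ (X.hasL_const a), coeffMap_C, ← X.B.commk, ← algebraMap_eq_C]
    rfl
  hk := X.B.surj
  p := (q : R0)
  p_ne := X.q_R0_ne
  p_red := by rw [X.B.commk, map_natCast, red_q]
  hp a ha := by
    rcases eq_or_ne a 0 with rfl | h0
    · exact ⟨0, by rw [mul_zero]⟩
    obtain ⟨m, u, hu, rfl⟩ := X.B.pu a h0
    rcases m with _ | m
    · rw [pow_zero, one_mul] at ha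
      exact absurd ha hu
    · exact ⟨(q : R0) ^ m * u, by rw [pow_succ']; ring⟩
  e a := ee q n a
  e_pos a := ee_pos q n a
  v_p j := by
    obtain ⟨w, hw, h⟩ := X.exists_phi_q j
    exact (X.E j).v_nat κ (hκ j) hw h
  t := tt K0 q n M
  ht := X.hasL_tt.mem
  trans j := by
    rw [transcendental_iff]
    intro P hP
    by_contra h0
    have h1 := congrArg (fun x : κ => (x : LaurentSeries k)) hP
    change ((aeval ((X.Cn κ hκ j).r (tt K0 q n M)) P : κ) : LaurentSeries k) = 0 at h1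
    rw [coe_aeval_κ, coe_r_tt, ← expand_aeval] at h1
    have h2 := aeval_jqModC_injective (h1.trans (map_zero _).symm)
    rw [expand_eq_zero (rr_pos q n j)] at h2
    exact h0 h2
  b := X.bb
  hb i x j := X.bb_mem i j x
  indep j P hP := by
    apply indepL X.hM (rr_pos q n j) P
    have h1 := congrArg κ.val hP
    rw [map_sum, map_zero] at h1
    rw [← h1]
    refine Finset.sum_congr rfl fun x _ => ?_
    rw [map_mul]
    change _ = ((aeval ((X.Cn κ hκ j).r (tt K0 q n M)) (P x) : κ) : LaurentSeries k) *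
      ((X.Cn κ hκ j).r (X.bb j x) : LaurentSeries k)
    rw [coe_aeval_κ, coe_r_tt, coe_r_hasL κ hκ (X.hasL_bb j x), redL_bb_self]
  ϖ j := (X.E j).ϖ
  hϖ := X.ϖ_mem
  v_ϖ j := (X.Cn κ hκ j).v_ϖ
  c i := sp K0 q M n i ^ (q ^ n)
  hc i j := ((X.hasL_sp (Nat.lt_succ_iff.1 i.2)).pow (q ^ n)).mem j
  r_c j := by
    intro h0
    have h1 := coe_r_hasL κ hκ ((X.hasL_sp (Nat.lt_succ_iff.1 j.2)).pow (q ^ n)) j
    rw [h0, Pi.pow_apply, map_pow] at h1
    exact pow_ne_zero (q ^ n) (X.red_sp_self j) h1.symm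
  c_ge i j hij := by
    have h1 : (X.Cn κ hκ j).Ge 1 (sp K0 q M n i) :=
      r_eq_zero_of_hasL (X.hasL_sp (Nat.lt_succ_iff.1 i.2)) (X.red_sp_ne hij)
    refine (h1.pow (q ^ n)).mono ?_
    rw [mul_one]
    exact_mod_cast ee_le q n j (Nat.lt_succ_iff.1 j.2)

end Ctx

end Fermat.Agent.CQ
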