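import Fermat.Agent.CQ.Lam
import Fermat.Agent.CarM.Chart2

/-!
# Preparations for the regularity of the finite chart
-/

set_option autoImplicit false
set_option linter.style.haveILetI false
set_option linter.unusedSectionVars false

noncomputable section

namespace Fermat.Agent.CQ

open ModularCurve Polynomial IntermediateField Fermat.Agent.ModPoly Fermat.Agent.Cusp AlgebraicCurve
open Fermat.Agent.SemiSt Fermat.Agent.HeckeProd Fermat.Agent.Curve
open Fermat.Agent.RedMod Fermat.Agent.Car Fermat.Agent.RR Fermat.Agent.Red Fermat.Agent.PRem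
open Fermat.Agent.ThmC Fermat.Agent.Nod

section Quot

variable {A Ω k : Type*} [CommRing A] [IsDomain A] [ValuationRing A] [Field Ω]
  [Algebra A Ω] [IsFractionRing A Ω] [Field k] [Algebra A k]
  {q : ℕ} [hq : Fact q.Prime] [CharP k q] {m : ℕ} {z : Aˣ}

/-- the quotient `(x - x (z q)) / (1 - z)` reduces to the derivative -/
theorem exists_quot_Rd (hz : IsPrimitiveRoot z (q ^ m)) {x : LaurentSeries Ω} {a : LaurentSeries k}
    (hx : Rd A x a) : ∃ w : LaurentSeries Ω, Rd A w (theta a) ∧
      x - twist (Units.map (algebraMap A Ω : A →* Ω) z) x =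
        HahnSeries.C (algebraMap A Ω (1 - (z : A))) * w := by
  obtain ⟨hxW, hxa⟩ := hx
  obtain ⟨u, v, hv, h⟩ := mem_WL.1 hxW
  have hq' := πL_eq ⟨x, hxW⟩ hv h
  obtain ⟨Gu, hGu, hGu'⟩ := exists_quot (A := A) (k := k) hz u
  obtain ⟨Gv, hGv, hGv'⟩ := exists_quot (A := A) (k := k) hz v
  have ru : redL A k Gu = theta (redL A k u) := by
    ext n
    rw [theta_coeff]
    exact hGu' n
  have rv : redL A k Gv = theta (redL A k v) := by
    ext n
    rw [theta_coeff]
    exact hGv' n
  have hz1 : Units.map (algebraMap A k : A →* k) z = 1 := by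
    apply Units.ext
    exact red_z (hz_val hz)
  have e1 : ∀ u : LaurentSeries A, incL A Ω (twist z u) =
      twist (Units.map (algebraMap A Ω : A →* Ω) z) (incL A Ω u) := fun u =>
    HeckeProd.coeffMap_twist _ z u
  have e2 : ∀ u : LaurentSeries A, redL A k (twist z u) = redL A k u := by
    intro u
    rw [redL, HeckeProd.coeffMap_twist, hz1, HeckeProd.twist_one]
  have hv' : redL A k (twist z v) ≠ 0 := by rw [e2]; exact hv
  have h' : incL A Ω (twist z v) * twist (Units.map (algebraMap A Ω : A →* Ω) z) x =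
      incL A Ω (twist z u) := by rw [e1, e1, ← map_mul, h]
  have hVne : incL A Ω v ≠ 0 := (CarE.isU_incL (k := k) hv).ne_zero
  have hVne' : incL A Ω (twist z v) ≠ 0 := (CarE.isU_incL (k := k) hv').ne_zero
  refine ⟨incL A Ω (Gu * v - u * Gv) / incL A Ω (v * twist z v), ?_, ?_⟩
  · have h1 : Rd A (incL A Ω (Gu * v - u * Gv)) (redL A k (Gu * v - u * Gv)) := Rd.incL _
    have h2 : Rd A (incL A Ω (v * twist z v)) (redL A k (v * twist z v)) := Rd.incL _
    have h3 := h1.div h2 (by rw [map_mul]; exact mul_ne_zero hv hv')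
    convert h3 using 1
    rw [map_sub, map_mul, map_mul, map_mul, e2, ru, rv]
    have ha : a * redL A k v = redL A k u := by
      rw [← hxa, hq', div_mul_cancel₀ _ hv]
    have hth := congrArg theta ha
    rw [theta_mul] at hth
    rw [eq_div_iff (mul_ne_zero hv hv), ← hth, ← ha]
    ring
  · have hu : incL A Ω u - incL A Ω (twist z u) =
        HahnSeries.C (algebraMap A Ω (1 - (z : A))) * incL A Ω Gu := by
      rw [← map_sub, hGu, map_mul, coeffMap_C]
    have hvv : incL A Ω v - incL A Ω (twist z v) =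
        HahnSeries.C (algebraMap A Ω (1 - (z : A))) * incL A Ω Gv := by
      rw [← map_sub, hGv, map_mul, coeffMap_C]
    have e3 : incL A Ω (v * twist z v) = incL A Ω v * incL A Ω (twist z v) := map_mul _ _ _
    have e4 : incL A Ω (Gu * v - u * Gv) = incL A Ω Gu * incL A Ω v - incL A Ω u * incL A Ω Gv := by
      rw [map_sub, map_mul, map_mul]
    rw [← mul_div_assoc, eq_div_iff (by rw [e3]; exact mul_ne_zero hVne hVne'), e3, e4]
    exact CarM.quot_alg h h' hu hvv

end Quot

section Frob

variable (k : Type*) [Field k] [IsAlgClosed k] (q M : ℕ) [hq : Fact q.Prime] [NeZero M] [CharP k q]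

/-- the iterated relative Frobenius -/
def sg (s : ℕ) : FF k M →ₐ[k] FF k M := ((fd k q M).σ) ^ s

variable {k q M}

theorem sg_succ (s : ℕ) (x : FF k M) : sg k q M (s + 1) x = (fd k q M).σ (sg k q M s x) := by
  rw [sg, pow_succ']; rfl

theorem coe_sg (s : ℕ) (x : FF k M) :
    (sg k q M s x : LaurentSeries k) = qExpand k (q ^ s) (x : LaurentSeries k) := by
  induction s with
  | zero =>
    have h1 : sg k q M 0 x = x := rfl
    rw [h1]
    rw [qExpand_congr (pow_zero q), qExpand_one_apply]
  | succ s ih =>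
    rw [sg_succ, fd_σ, coe_Frq, ih, qExpand_qExpand]
    exact qExpand_congr (pow_succ' q s).symm _

variable [FunField k (FF k M)]

theorem ord_sg (s : ℕ) (P : Place k (FF k M)) (x : FF k M) :
    P.ord (sg k q M s x) = (q : ℤ) ^ s * ((fd k q M).g ^ s • P).ord x := by
  induction s generalizing P with
  | zero =>
    have h1 : sg k q M 0 x = x := rfl
    rw [h1, pow_zero, one_mul, pow_zero, one_smul]
  | succ s ih =>
    rw [sg_succ, Nod.FrobData.ord_σ, ih, smul_smul, pow_succ (fd k q M).g]
    rw [pow_succ]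
    ring

theorem ord_jF_pow (s : ℕ) (P : Place k (FF k M)) :
    ((fd k q M).g ^ s • P).ord (jF' k M) = P.ord (jF' k M) := by
  induction s generalizing P with
  | zero => rw [pow_zero, one_smul]
  | succ s ih =>
    rw [pow_succ, ← smul_smul, ih]
    exact (fd k q M).ord_g_j P

end Frob

end Fermat.Agent.CQ
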