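import Fermat.Agent.CQ.Star0
import Fermat.Agent.CQ.Core

/-!
# Residues of local equations
-/

set_option autoImplicit false
set_option linter.style.haveILetI false
set_option linter.unusedSectionVars false

noncomputable section

namespace Fermat.Agent.CQ

open ModularCurve Polynomial IntermediateField Fermat.Agent.ModPoly Fermat.Agent.Cusp AlgebraicCurve
open Fermat.Agent.SemiSt Fermat.Agent.HeckeProd Fermat.Agent.Curve
open Fermat.Agent.RedMod Fermat.Agent.Car Fermat.Agent.RR Fermat.Agent.Red Fermat.Agent.PRem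
open Fermat.Agent.ThmC Fermat.Agent.Nod

section Key

variable {A Ω k : Type*} [CommRing A] [IsDomain A] [ValuationRing A] [Field Ω]
  [Algebra A Ω] [IsFractionRing A Ω] [Field k] [Algebra A k]
  {q : ℕ} [hq : Fact q.Prime] [CharP k q] {m : ℕ} {z : Aˣ}

theorem alg_key {d gg th : LaurentSeries k} {n : ℕ} (hd : d ≠ 0) (c : LaurentSeries k)
    (h6 : th ^ 6 = gg * d) :
    th ^ (12 * n) / (c * d ^ (2 * n)) = c⁻¹ * gg ^ (2 * n) := by
  have h1 : th ^ (12 * n) = gg ^ (2 * n) * d ^ (2 * n) := by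
    rw [show 12 * n = 6 * (2 * n) by ring, pow_mul, h6, mul_pow]
  have h3 : d ^ (2 * n) ≠ 0 := pow_ne_zero _ hd
  rw [h1, div_eq_mul_inv, mul_inv]
  rw [show gg ^ (2 * n) * d ^ (2 * n) * (c⁻¹ * (d ^ (2 * n))⁻¹) =
    c⁻¹ * gg ^ (2 * n) * (d ^ (2 * n) * (d ^ (2 * n))⁻¹) by ring, mul_inv_cancel₀ h3, mul_one]

theorem res_key (hz : IsPrimitiveRoot z (q ^ m)) (hm : m ≠ 0)
    {W : LaurentSeries Ω} {th gg d : LaurentSeries k} (hd : d ≠ 0) (hW : Rd A W th)
    (h6 : th ^ 6 = gg * d) {D' : LaurentSeries A}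
    (hD : redL A k D' = d ^ (2 * (q ^ m).totient)) :
    ∃ c : k, c ≠ 0 ∧
      Rd A ((HahnSeries.C (algebraMap A Ω (1 - (z : A))) * W) ^ (12 * (q ^ m).totient) /
          incL A Ω (HahnSeries.C ((q : A) ^ 12) * D'))
        (HahnSeries.C c * gg ^ (2 * (q ^ m).totient)) := by
  obtain ⟨ε, hε, heq⟩ := exists_lam_pow (A := A) (k := k) (hz_val hz) hm
  generalize (q ^ m).totient = e at hD heq
  have hcc : (HahnSeries.C (algebraMap A Ω (1 - (z : A))) : LaurentSeries Ω) ≠ 0 := by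
    apply HahnSeries.C_ne_zero
    rw [Ne, IsFractionRing.to_map_eq_zero_iff]
    exact lam_ne (hz_val hz) hm
  have e1 : incL A Ω (HahnSeries.C ((q : A) ^ 12) * D') =
      HahnSeries.C (algebraMap A Ω (1 - (z : A))) ^ (12 * e) *
        incL A Ω (HahnSeries.C (ε ^ 12) * D') := by
    rw [heq, mul_pow, ← pow_mul, mul_comm e 12, map_mul HahnSeries.C, mul_assoc,
      map_mul (incL A Ω), coeffMap_C, map_pow (algebraMap A Ω), map_pow HahnSeries.C]
  rw [e1, mul_pow, mul_div_mul_left _ _ (pow_ne_zero _ hcc)]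
  have e2 : redL A k (HahnSeries.C (ε ^ 12) * D') =
      HahnSeries.C (algebraMap A k ε ^ 12) * d ^ (2 * e) := by
    rw [map_mul, hD]
    congr 1
    rw [coeffMap_C, map_pow]
  have hCε : (HahnSeries.C (algebraMap A k ε ^ 12) : LaurentSeries k) ≠ 0 :=
    HahnSeries.C_ne_zero (pow_ne_zero _ hε)
  have hrne : redL A k (HahnSeries.C (ε ^ 12) * D') ≠ 0 := by
    rw [e2]; exact mul_ne_zero hCε (pow_ne_zero _ hd)
  have hRd := (hW.pow (12 * e)).div (Rd.incL (K := Ω) (HahnSeries.C (ε ^ 12) * D')) hrne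
  rw [e2, alg_key hd _ h6] at hRd
  refine ⟨(algebraMap A k ε ^ 12)⁻¹, inv_ne_zero (pow_ne_zero _ hε), ?_⟩
  rwa [map_inv₀ (HahnSeries.C : k →+* LaurentSeries k)]

end Key

section Pow

variable (k : Type*) [Field k] (q : ℕ) [hq : Fact q.Prime] [CharP k q]

theorem qExpand_pow_Dc (s : ℕ) : qExpand k (q ^ s) (Dc 1 1) = Dc 1 1 ^ (q ^ s) := by
  induction s with
  | zero => rw [qExpand_congr (pow_zero q), qExpand_one_apply, pow_zero, pow_one]
  | succ s ih =>
    haveI : NeZero q := ⟨hq.out.ne_zero⟩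
    have h1 : qExpand k (q ^ (s + 1)) (Dc 1 1) = qExpand k q (qExpand k (q ^ s) (Dc 1 1)) := by
      rw [qExpand_qExpand]
      exact qExpand_congr (pow_succ' q s) _
    rw [h1, ih, map_pow]
    have h2 : qExpand k q (Dc 1 1) = Dc 1 1 ^ q := CarM.qExpand_Dc k q _ (CarM.Fr_Dc k q)
    rw [h2, ← pow_mul, pow_succ' q s]

end Pow

end Fermat.Agent.CQ
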