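import Fermat.Agent.CarM.Unit
import Fermat.Agent.CQ.Emb

/-!
# Modular units of level `q ^ n M`: images under the embeddings
-/

set_option autoImplicit false
set_option linter.style.haveILetI false
set_option linter.unusedSectionVars false

noncomputable section

namespace Fermat.Agent.CQ

open ModularCurve Polynomial IntermediateField Fermat.Agent.ModPoly Fermat.Agent.Cusp AlgebraicCurve
open Fermat.Agent.SemiSt Fermat.Agent.CarE Fermat.Agent.HeckeProd Fermat.Agent.Curve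
open Fermat.Agent.RedMod Fermat.Agent.CarM

section Step

variable {Ω : Type*} [Field Ω] [IsAlgClosed Ω] {N q : ℕ} [NeZero N] [hq : Fact q.Prime]

/-- one step of the computation of the image of the modular units -/
theorem step_T (T : FF Ω N →ₐ[Ω] LaurentSeries Ω) (hN : (N : Ω) ≠ 0) (m : ℕ+) (hm : (m : ℕ) ∣ N)
    (hqm : ((pp q * m : ℕ+) : ℕ) ∣ N) {c c' : Ωˣ} {e e' : ℕ+} (h : T (jm Ω m hm) = Jc c e)
    (h' : T (jm Ω (pp q * m) hqm) = Jc c' e') :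
    (c' = c ^ q ∧ e' = pp q * e ∧ T ⟨rm Ω (pp q * m), rm_mem hN _ hqm⟩ =
      T ⟨rm Ω m, rm_mem hN _ hm⟩ * (Dc c' e' * (Dc c e)⁻¹)) ∨
    (c' ^ q = c ∧ e = pp q * e' ∧ T ⟨rm Ω (pp q * m), rm_mem hN _ hqm⟩ =
      T ⟨rm Ω m, rm_mem hN _ hm⟩ * (HahnSeries.C (((q : Ω) ^ 12)⁻¹) * Dc c' e' * (Dc c e)⁻¹)) := by
  have hinj := SbA_injective (k := Ω) 1 (pp q)
  have e1 : ∀ (c : Ωˣ) (m : ℕ+), SbA 1 (pp q) (Jc c m) = Jc c (pp q * m) := by
    intro c m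
    rw [SbA_apply, Sb_Jc, one_pow, one_mul]
  have e2 : ∀ (c : Ωˣ) (m : ℕ+), SbA 1 (pp q) (Dc c m) = Dc c (pp q * m) := by
    intro c m
    rw [SbA_apply, Sb_Dc, one_pow, one_mul]
  have e3 : ∀ x : Ω, SbA 1 (pp q) (HahnSeries.C x) = HahnSeries.C x := by
    intro x
    rw [← algebraMap_eq_C, AlgHom.commutes]
  rcases step2 (AlgHom.id Ω (LaurentSeries Ω)) ((SbA 1 (pp q)).comp T) hN q m hm hqm c (pp q * e)
    (by rw [PNat.mul_coe, coe_pp]; exact dvd_mul_right _ _) (by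
      rw [AlgHom.comp_apply, h, e1]; rfl) with ⟨h1, h2⟩ | ⟨c'', e'', hc', he', h1, h2⟩
  · left
    rw [AlgHom.comp_apply, h', e1] at h1
    have h3 := Jc_inj_e (h1 : Jc c' (pp q * e') = Jc _ _)
    have h3' := mul_left_cancel h3
    subst h3'
    have h4 := Jc_inj_c (h1 : Jc c' _ = Jc _ _)
    subst h4
    refine ⟨rfl, rfl, hinj ?_⟩
    rw [map_mul, map_mul, map_inv₀, e2, e2]
    exact h2
  · right
    have h5 := mul_left_cancel he'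
    subst h5
    rw [AlgHom.comp_apply, h', e1] at h1
    have h3 := Jc_inj_e (h1 : Jc c' (pp q * e') = Jc _ _)
    subst h3
    have h4 := Jc_inj_c (h1 : Jc c' _ = Jc _ _)
    subst h4
    refine ⟨hc', rfl, hinj ?_⟩
    rw [map_mul, map_mul, map_mul, map_inv₀ (SbA (k := Ω) 1 (pp q)) (Dc c _), e2, e2, e3]
    exact h2

end Step

section Units

variable {Ω : Type*} [Field Ω] [IsAlgClosed Ω] [CharZero Ω] {q M n : ℕ} [hq : Fact q.Prime]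
  [NeZero M]

theorem one_dvdM : ((1 : ℕ+) : ℕ) ∣ M := by rw [PNat.one_coe]; exact one_dvd M

theorem dvd_i {i : ℕ} (hi : i ≤ n) : ((pp q ^ i * 1 : ℕ+) : ℕ) ∣ q ^ n * M :=
  dvd_qd hi one_dvdM

variable (Ω q M n) in
/-- `Δ(q^i) / Δ(1)` -/
def rU (i : ℕ) : FF Ω (q ^ n * M) :=
  ⟨rm Ω (pp q ^ (min i n) * 1), rm_mem (cast_ne Ω _) _ (dvd_i (min_le_right i n))⟩

theorem rr_ne (i : ℕ) : rU Ω q M n i ≠ 0 := fun h => rm_ne_zero (k := Ω) _ (congrArg Subtype.val h)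

theorem rr_zero : rU Ω q M n 0 = 1 := by
  apply Subtype.ext
  change rm Ω (pp q ^ (min 0 n) * 1) = 1
  rw [Nat.zero_min, pow_zero, one_mul, rm_one]

theorem rU_eq {i : ℕ} (hi : i ≤ n) : rU Ω q M n i =
    ⟨rm Ω (pp q ^ i * 1), rm_mem (cast_ne Ω _) _ (dvd_i hi)⟩ := by
  apply Subtype.ext
  change rm Ω (pp q ^ (min i n) * 1) = _
  rw [min_eq_left hi]

/-- the data of an embedding on the functions `j(q^i)`: multipliers `c i` and exponents `δ i`,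
increasing up to `a` and decreasing from `a` on -/
structure EmD (T : FF Ω (q ^ n * M) →ₐ[Ω] LaurentSeries Ω) (a : ℕ) (c : ℕ → Ωˣ) (δ : ℕ → ℕ) :
    Prop where
  jm : ∀ i (_ : i ≤ n) (h : ((pp q ^ i * 1 : ℕ+) : ℕ) ∣ q ^ n * M),
    T (jm Ω (pp q ^ i * 1) h) = Jc (c i) (pp q ^ δ i)
  up : ∀ i, i < a → i < n → δ (i + 1) = δ i + 1
  down : ∀ i, a ≤ i → i < n → δ i = δ (i + 1) + 1

theorem EmD.T_rr {T : FF Ω (q ^ n * M) →ₐ[Ω] LaurentSeries Ω} {a : ℕ} {c : ℕ → Ωˣ} {δ : ℕ → ℕ}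
    (hT : EmD T a c δ) (i : ℕ) (hi : i ≤ n) :
    T (rU Ω q M n i) = HahnSeries.C (((q : Ω) ^ 12)⁻¹) ^ (i - a) *
      (Dc (c i) (pp q ^ δ i) * (Dc (c 0) (pp q ^ δ 0))⁻¹) := by
  induction i with
  | zero =>
    rw [rr_zero, map_one, Nat.zero_sub, pow_zero, one_mul, mul_inv_cancel₀ (Dc_ne_zero _ _)]
  | succ i ih =>
    have hi' : i ≤ n := by omega
    have hpow : pp q ^ (i + 1) * 1 = pp q * (pp q ^ i * 1) := by
      rw [pow_succ', mul_assoc]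
    have hd : ((pp q * (pp q ^ i * 1) : ℕ+) : ℕ) ∣ q ^ n * M := by
      rw [← hpow]; exact dvd_i hi
    have h1 := hT.jm i hi' (dvd_i hi')
    have h2 : T (ModPoly.jm Ω (pp q * (pp q ^ i * 1)) hd) = Jc (c (i + 1)) (pp q ^ δ (i + 1)) := by
      rw [← hT.jm (i + 1) hi (dvd_i hi)]
      congr 1
      exact jm_congr hpow.symm _ _
    have h3 : rU Ω q M n (i + 1) = ⟨rm Ω (pp q * (pp q ^ i * 1)), rm_mem (cast_ne Ω _) _ hd⟩ := by
      rw [rU_eq hi]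
      apply Subtype.ext
      change rm Ω _ = rm Ω _
      rw [hpow]
    have h4 := rU_eq (Ω := Ω) (q := q) (M := M) hi'
    have hpne : ∀ s t : ℕ, (pp q ^ s : ℕ+) = pp q ^ t → s = t := by
      intro s t hst
      have h5 := congrArg (fun x : ℕ+ => (x : ℕ)) hst
      simp only [PNat.pow_coe, coe_pp] at h5
      exact Nat.pow_right_injective hq.out.two_le h5
    have d0 := Dc_ne_zero (k := Ω) (c 0) (pp q ^ δ 0)
    have di := Dc_ne_zero (k := Ω) (c i) (pp q ^ δ i)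
    rcases step_T T (cast_ne Ω (q ^ n * M)) (pp q ^ i * 1) (dvd_i hi') hd h1 h2 with
      ⟨-, h5, h6⟩ | ⟨-, h5, h6⟩
    · rw [← pow_succ'] at h5
      have h7 := hpne _ _ h5
      have h8 : i < a := by
        by_contra h9
        have := hT.down i (by omega) (by omega)
        omega
      rw [h3, h6, ← h4, ih hi', show i + 1 - a = 0 by omega, show i - a = 0 by omega]
      field_simp
    · rw [← pow_succ'] at h5
      have h7 := hpne _ _ h5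
      have h8 : a ≤ i := by
        by_contra h9
        have := hT.up i (by omega) (by omega)
        omega
      rw [h3, h6, ← h4, ih hi', show i + 1 - a = (i - a) + 1 by omega, pow_succ]
      field_simp
      ring

variable (Ω q M n) in
/-- `Δ(q^i) / Δ(1)`, extended to `i = n + 1` -/
def rE (i : ℕ) : FF Ω (q ^ n * M) :=
  if i ≤ n then rU Ω q M n i else ((q : FF Ω (q ^ n * M)) ^ 12)⁻¹ * rU Ω q M n n

theorem q_ne : (q : FF Ω (q ^ n * M)) ≠ 0 := by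
  have hq0 : (q : FF Ω (q ^ n * M)) = algebraMap Ω _ (q : Ω) := (map_natCast _ _).symm
  rw [hq0, Ne, map_eq_zero]
  exact Nat.cast_ne_zero.2 hq.out.ne_zero

theorem rE_ne (i : ℕ) : rE Ω q M n i ≠ 0 := by
  rw [rE]
  split_ifs
  · exact rr_ne i
  · exact mul_ne_zero (inv_ne_zero (pow_ne_zero _ q_ne)) (rr_ne n)

theorem EmD.T_rE {T : FF Ω (q ^ n * M) →ₐ[Ω] LaurentSeries Ω} {a : ℕ} {c : ℕ → Ωˣ} {δ : ℕ → ℕ}
    (hT : EmD T a c δ) (ha : a ≤ n) (i : ℕ) (hi : i ≤ n + 1) :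
    T (rE Ω q M n i) = HahnSeries.C (((q : Ω) ^ 12)⁻¹) ^ (i - a) *
      (Dc (c (min i n)) (pp q ^ δ (min i n)) * (Dc (c 0) (pp q ^ δ 0))⁻¹) := by
  rw [rE]
  split_ifs with h
  · rw [hT.T_rr i h, min_eq_left h]
  · obtain rfl : i = n + 1 := by omega
    have h1 : T (((q : FF Ω (q ^ n * M)) ^ 12)⁻¹) = HahnSeries.C (((q : Ω) ^ 12)⁻¹) := by
      rw [map_inv₀, map_inv₀, map_pow, map_natCast, map_pow, map_natCast]
    rw [map_mul, h1, hT.T_rr n le_rfl, min_eq_right (by omega),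
      show n + 1 - a = (n - a) + 1 by omega, pow_succ]
    ring

variable (Ω q M n) in
/-- the modular unit vanishing exactly at the component `a` -/
def HΩ (a : ℕ) : FF Ω (q ^ n * M) := rE Ω q M n a ^ 2 / (rE Ω q M n (a - 1) * rE Ω q M n (a + 1))

variable (Ω q M n) in
/-- the modular unit vanishing to the order `|a - l|` -/
def hΩ (a : ℕ) : FF Ω (q ^ n * M) :=
  (q : FF Ω (q ^ n * M)) ^ (12 * (n - a)) * rU Ω q M n n / rU Ω q M n a ^ 2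

theorem HΩ_ne (a : ℕ) : HΩ Ω q M n a ≠ 0 :=
  div_ne_zero (pow_ne_zero 2 (rE_ne a)) (mul_ne_zero (rE_ne _) (rE_ne _))

theorem hΩ_ne (a : ℕ) : hΩ Ω q M n a ≠ 0 :=
  div_ne_zero (mul_ne_zero (pow_ne_zero _ q_ne) (rr_ne n)) (pow_ne_zero 2 (rr_ne a))

/-- expansion of the modular units at the components -/
theorem EmD.T_H {T : FF Ω (q ^ n * M) →ₐ[Ω] LaurentSeries Ω} {l : ℕ} {c : ℕ → Ωˣ} {δ : ℕ → ℕ}
    (hT : EmD T l c δ) (hl : l ≤ n) (a : ℕ) (ha : a ≤ n) :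
    T (HΩ Ω q M n a) = (if a = l then HahnSeries.C ((q : Ω) ^ 12) else 1) *
      (Dc (c a) (pp q ^ δ a) ^ 2 * (Dc (c (a - 1)) (pp q ^ δ (a - 1)))⁻¹ *
        (Dc (c (min (a + 1) n)) (pp q ^ δ (min (a + 1) n)))⁻¹) := by
  rw [HΩ, map_div₀, map_pow, map_mul, hT.T_rE hl a (by omega), hT.T_rE hl (a - 1) (by omega),
    hT.T_rE hl (a + 1) (by omega), min_eq_left ha, min_eq_left (by omega : a - 1 ≤ n)]
  have d0 := Dc_ne_zero (k := Ω) (c 0) (pp q ^ δ 0)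
  have d1 := Dc_ne_zero (k := Ω) (c (a - 1)) (pp q ^ δ (a - 1))
  have d2 := Dc_ne_zero (k := Ω) (c (min (a + 1) n)) (pp q ^ δ (min (a + 1) n))
  have hC : (HahnSeries.C ((q : Ω) ^ 12) : LaurentSeries Ω) ≠ 0 := C_ne_zero' q12_ne
  rw [map_inv₀]
  generalize (HahnSeries.C ((q : Ω) ^ 12) : LaurentSeries Ω) = Q at *
  rcases lt_trichotomy a l with h | h | h
  · rw [if_neg h.ne, show a - l = 0 by omega, show a - 1 - l = 0 by omega,
      show a + 1 - l = 0 by omega]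
    field_simp
  · subst h
    rw [if_pos rfl, Nat.sub_self, show a - 1 - a = 0 by omega, show a + 1 - a = 1 by omega]
    field_simp
  · rw [if_neg h.ne', show a + 1 - l = (a - 1 - l) + 2 by omega, show a - l = (a - 1 - l) + 1 by omega]
    generalize a - 1 - l = t
    field_simp
    ring

theorem alg_h1 {L : Type*} [Field L] {Q D0 Da Dn : L} (hQ : Q ≠ 0) (h0 : D0 ≠ 0) (ha : Da ≠ 0)
    (s t : ℕ) : Q ^ (s + t) * (Q⁻¹ ^ t * (Dn * D0⁻¹)) / (Q⁻¹ ^ 0 * (Da * D0⁻¹)) ^ 2 =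
      Q ^ (0 + s) * (D0 * Dn * Da⁻¹ ^ 2) := by
  have h1 : Q ^ t * Q⁻¹ ^ t = 1 := by rw [← mul_pow, mul_inv_cancel₀ hQ, one_pow]
  rw [pow_zero, one_mul, zero_add, pow_add, div_eq_iff (pow_ne_zero 2 (mul_ne_zero ha
    (inv_ne_zero h0)))]
  have h2 : Da⁻¹ ^ 2 * Da ^ 2 = 1 := by rw [← mul_pow, inv_mul_cancel₀ ha, one_pow]
  have h3 : D0 * D0⁻¹ = 1 := mul_inv_cancel₀ h0
  linear_combination (Q ^ s * Dn * D0⁻¹) * h1 - (Q ^ s * Dn * D0⁻¹ * (D0 * D0⁻¹)) * h2 -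
    Q ^ s * Dn * D0⁻¹ * h3

theorem alg_h2 {L : Type*} [Field L] {Q D0 Da Dn : L} (hQ : Q ≠ 0) (h0 : D0 ≠ 0) (ha : Da ≠ 0)
    (s t : ℕ) : Q ^ t * (Q⁻¹ ^ (s + t) * (Dn * D0⁻¹)) / (Q⁻¹ ^ s * (Da * D0⁻¹)) ^ 2 =
      Q ^ (s + 0) * (D0 * Dn * Da⁻¹ ^ 2) := by
  have h1 : Q ^ t * Q⁻¹ ^ t = 1 := by rw [← mul_pow, mul_inv_cancel₀ hQ, one_pow]
  have h1' : Q ^ s * Q⁻¹ ^ s = 1 := by rw [← mul_pow, mul_inv_cancel₀ hQ, one_pow]
  rw [add_zero, pow_add, div_eq_iff (pow_ne_zero 2 (mul_ne_zero (pow_ne_zero _ (inv_ne_zero hQ))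
    (mul_ne_zero ha (inv_ne_zero h0))))]
  have h2 : Da⁻¹ ^ 2 * Da ^ 2 = 1 := by rw [← mul_pow, inv_mul_cancel₀ ha, one_pow]
  have h3 : D0 * D0⁻¹ = 1 := mul_inv_cancel₀ h0
  linear_combination (Q⁻¹ ^ s * Dn * D0⁻¹) * h1 - (Q⁻¹ ^ s * Dn * D0⁻¹ * (D0 * D0⁻¹)) * h2 -
    Q⁻¹ ^ s * Dn * D0⁻¹ * h3 - (Q⁻¹ ^ s * Dn * D0⁻¹ * (D0 * D0⁻¹) * (Da⁻¹ ^ 2 * Da ^ 2)) * h1'

theorem EmD.T_h {T : FF Ω (q ^ n * M) →ₐ[Ω] LaurentSeries Ω} {l : ℕ} {c : ℕ → Ωˣ} {δ : ℕ → ℕ}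
    (hT : EmD T l c δ) (hl : l ≤ n) (a : ℕ) (ha : a ≤ n) :
    T (hΩ Ω q M n a) = HahnSeries.C ((q : Ω) ^ 12) ^ ((a - l) + (l - a)) *
      (Dc (c 0) (pp q ^ δ 0) * Dc (c n) (pp q ^ δ n) * (Dc (c a) (pp q ^ δ a))⁻¹ ^ 2) := by
  have h1 : T ((q : FF Ω (q ^ n * M)) ^ (12 * (n - a))) =
      HahnSeries.C ((q : Ω) ^ 12) ^ (n - a) := by
    rw [map_pow, map_natCast, ← map_pow, ← pow_mul, map_pow, map_natCast]
  rw [hΩ, map_div₀, map_mul, h1, map_pow T (rU Ω q M n a), hT.T_rr n le_rfl, hT.T_rr a ha]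
  have d0 := Dc_ne_zero (k := Ω) (c 0) (pp q ^ δ 0)
  have d1 := Dc_ne_zero (k := Ω) (c a) (pp q ^ δ a)
  have d2 := Dc_ne_zero (k := Ω) (c n) (pp q ^ δ n)
  have hC : (HahnSeries.C ((q : Ω) ^ 12) : LaurentSeries Ω) ≠ 0 := C_ne_zero' q12_ne
  rw [map_inv₀]
  generalize (HahnSeries.C ((q : Ω) ^ 12) : LaurentSeries Ω) = Q at *
  rcases le_total a l with h | h
  · obtain ⟨s, rfl⟩ := Nat.exists_eq_add_of_le h
    obtain ⟨t, rfl⟩ := Nat.exists_eq_add_of_le hl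
    rw [show a - (a + s) = 0 by omega, show a + s - a = s by omega,
      show a + s + t - (a + s) = t by omega, show a + s + t - a = s + t by omega]
    exact alg_h1 hC d0 d1 s t
  · obtain ⟨s, rfl⟩ := Nat.exists_eq_add_of_le h
    obtain ⟨t, rfl⟩ := Nat.exists_eq_add_of_le ha
    rw [show l - (l + s) = 0 by omega, show l + s - l = s by omega,
      show l + s + t - (l + s) = t by omega, show l + s + t - l = s + t by omega]
    exact alg_h2 hC d0 d1 s t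

/-- the modular units have no zeros and poles at the places where `j` is finite -/
theorem rr_ord (v : Place Ω (FF Ω (q ^ n * M))) (hv : 0 ≤ v.ord (jF' Ω (q ^ n * M))) (i : ℕ) :
    v.ord (rU Ω q M n i) = 0 := rm_reg v hv _ (dvd_i (min_le_right i n)) _ rfl

theorem ord_q12 (v : Place Ω (FF Ω (q ^ n * M))) (m : ℕ) :
    v.ord ((q : FF Ω (q ^ n * M)) ^ m) = 0 := by
  have hq0 : (q : FF Ω (q ^ n * M)) = algebraMap Ω _ (q : Ω) := (map_natCast _ _).symm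
  rw [hq0, ← map_pow, ord_algebraMap]

theorem rE_ord (v : Place Ω (FF Ω (q ^ n * M))) (hv : 0 ≤ v.ord (jF' Ω (q ^ n * M))) (i : ℕ) :
    v.ord (rE Ω q M n i) = 0 := by
  rw [rE]
  split_ifs
  · exact rr_ord v hv i
  · rw [v.ord_mul (inv_ne_zero (pow_ne_zero _ q_ne)) (rr_ne n), v.ord_inv, rr_ord v hv, ord_q12]
    rfl

theorem HΩ_ord (v : Place Ω (FF Ω (q ^ n * M))) (hv : 0 ≤ v.ord (jF' Ω (q ^ n * M))) (a : ℕ) :
    v.ord (HΩ Ω q M n a) = 0 := by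
  rw [HΩ, div_eq_mul_inv, v.ord_mul (pow_ne_zero 2 (rE_ne a))
    (inv_ne_zero (mul_ne_zero (rE_ne _) (rE_ne _))), v.ord_inv, v.ord_mul (rE_ne _) (rE_ne _),
    ord_pow, rE_ord v hv, rE_ord v hv, rE_ord v hv]
  ring

theorem hΩ_ord (v : Place Ω (FF Ω (q ^ n * M))) (hv : 0 ≤ v.ord (jF' Ω (q ^ n * M))) (a : ℕ) :
    v.ord (hΩ Ω q M n a) = 0 := by
  rw [hΩ, div_eq_mul_inv, v.ord_mul (mul_ne_zero (pow_ne_zero _ q_ne) (rr_ne n))
    (inv_ne_zero (pow_ne_zero 2 (rr_ne a))), v.ord_inv, v.ord_mul (pow_ne_zero _ q_ne) (rr_ne n),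
    ord_q12, ord_pow, rr_ord v hv, rr_ord v hv]
  ring

end Units

end Fermat.Agent.CQ
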