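import Fermat.Agent.CQ.Core
import Fermat.Agent.CQ.Un1
import Fermat.Agent.CarM.Unit2

/-!
# Modular units of level `q ^ n M`: expansions over the valuation ring and reductions
-/

set_option autoImplicit false
set_option linter.style.haveILetI false
set_option linter.unusedSectionVars false

noncomputable section

namespace Fermat.Agent.CQ

open ModularCurve Polynomial IntermediateField Fermat.Agent.ModPoly Fermat.Agent.Cusp AlgebraicCurve
open Fermat.Agent.SemiSt Fermat.Agent.CarE Fermat.Agent.HeckeProd Fermat.Agent.Curve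
open Fermat.Agent.RedMod Fermat.Agent.CarM

section dl

variable {n a i : ℕ}

theorem dl_up (_ha : a ≤ n) (h : i < a) (hi : i < n) : dl n a (i + 1) = dl n a i + 1 := by
  rw [dl, dl]
  split_ifs <;> omega

theorem dl_down (_ha : a ≤ n) (h : a ≤ i) (hi : i < n) : dl n a i = dl n a (i + 1) + 1 := by
  rw [dl, dl]
  split_ifs <;> omega

end dl

section pow

variable {k : Type*} [Field k] {q : ℕ} [hq : Fact q.Prime] [CharP k q]

theorem Dc_qpow (e : ℕ) : (Dc 1 (pp q ^ e) : LaurentSeries k) = Dc 1 1 ^ (q ^ e) := by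
  haveI : NeZero q := ⟨hq.out.ne_zero⟩
  induction e with
  | zero => rw [pow_zero, pow_zero, pow_one]
  | succ e ih =>
    have h1 : (Dc 1 (pp q ^ (e + 1)) : LaurentSeries k) = qExpand k q (Dc 1 (pp q ^ e)) := by
      rw [Dc, Dc, ← Sb_one_eq q (pp q) (coe_pp q), Sb_Sb, one_pow, one_mul, pow_succ']
    rw [h1, qExpand_Dc k q, ih, ← pow_mul, ← pow_succ]
    rw [ih, map_pow, Fr_Dc]

theorem hsL_eq' : hsL k q = Dc 1 1 / Dc 1 1 ^ q := by
  rw [hsL, Dc_q]

theorem pow_div_pow (e : ℕ) : (Dc 1 1 : LaurentSeries k) ^ (q ^ e) *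
    ((Dc 1 1 : LaurentSeries k) ^ (q ^ (e + 1)))⁻¹ = hsL k q ^ (q ^ e) := by
  rw [hsL_eq', div_pow, div_eq_mul_inv, ← pow_mul, pow_succ, mul_comm q]

theorem alg_pow {L : Type*} [Field L] {x : L} (hx : x ≠ 0) {q : ℕ} (hq : 0 < q) :
    (x ^ q) ^ 2 * x⁻¹ * (x ^ (q * q))⁻¹ = (x / x ^ q) ^ (q - 1) := by
  obtain ⟨n, rfl⟩ : ∃ n, q = n + 1 := ⟨q - 1, by omega⟩
  rw [Nat.add_sub_cancel, div_pow, eq_div_iff (pow_ne_zero _ (pow_ne_zero _ hx))]
  have h1 : (x ^ (n + 1)) ^ 2 * (x ^ (n + 1)) ^ n = x ^ n * (x * x ^ ((n + 1) * (n + 1))) := by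
    ring
  have h2 : x ^ ((n + 1) * (n + 1)) ≠ 0 := pow_ne_zero _ hx
  calc (x ^ (n + 1)) ^ 2 * x⁻¹ * (x ^ ((n + 1) * (n + 1)))⁻¹ * (x ^ (n + 1)) ^ n =
      ((x ^ (n + 1)) ^ 2 * (x ^ (n + 1)) ^ n) * (x⁻¹ * (x ^ ((n + 1) * (n + 1)))⁻¹) := by ring
    _ = x ^ n * ((x * x⁻¹) * (x ^ ((n + 1) * (n + 1)) * (x ^ ((n + 1) * (n + 1)))⁻¹)) := by
      rw [h1]; ring
    _ = x ^ n := by rw [mul_inv_cancel₀ hx, mul_inv_cancel₀ h2, one_mul, mul_one]

/-- the middle case -/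
theorem pow_mid (e : ℕ) : ((Dc 1 1 : LaurentSeries k) ^ (q ^ (e + 1))) ^ 2 *
    ((Dc 1 1 : LaurentSeries k) ^ (q ^ e))⁻¹ * ((Dc 1 1 : LaurentSeries k) ^ (q ^ (e + 2)))⁻¹ =
      hsL k q ^ ((q - 1) * q ^ e) := by
  have hd := Dc_ne_zero (k := k) 1 1
  have h1 : (Dc 1 1 : LaurentSeries k) ^ (q ^ e) ≠ 0 := pow_ne_zero _ hd
  have h2 := alg_pow h1 hq.out.pos
  rw [← pow_mul _ (q ^ e) q, ← pow_mul _ (q ^ e) (q * q), ← pow_succ, ← mul_assoc, ← pow_succ,
    ← pow_succ] at h2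
  rw [h2, mul_comm (q - 1), pow_mul, hsL_eq']
  congr 1
  rw [div_pow, ← pow_mul _ q, ← pow_succ']

end pow

/-- exponents of the reductions of the modular units -/
def nu (q n l a : ℕ) : ℕ :=
  if a = 0 then q ^ dl n l 0 else if a = n then q ^ dl n l n
    else (q - 1) * q ^ (min (dl n l (a - 1)) (dl n l (a + 1)))

theorem nu_pos {q : ℕ} (hq : q.Prime) (n l a : ℕ) : 0 < nu q n l a := by
  have h2 := hq.two_le
  rw [nu]
  split_ifs
  · exact pow_pos hq.pos _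
  · exact pow_pos hq.pos _
  · exact Nat.mul_pos (by omega) (pow_pos hq.pos _)

namespace Ctx

variable {R0 K0 A Ω k : Type*} [CommRing R0] [IsDomain R0] [Field K0] [Algebra R0 K0]
  [IsFractionRing R0 K0] [CommRing A] [IsDomain A] [ValuationRing A] [Field Ω]
  [IsAlgClosed Ω] [CharZero Ω]
  [Algebra A Ω] [IsFractionRing A Ω] [Field k] [Algebra A k] [Algebra K0 Ω] [Algebra R0 A]
  [Algebra R0 k] {q M n : ℕ} [hq : Fact q.Prime] [NeZero M] [CharP k q]
  (X : Ctx R0 K0 A Ω k q M n)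

theorem emD (a : Fin (n + 1)) : EmD (X.phΩ a) (a : ℕ) (fun i => X.ZΩ ^ (q ^ cx n a i))
    (dl n a) where
  jm i hi h := by
    refine (X.phΩ_jm a hi (d1M M)).trans ?_
    rw [PNat.one_coe, mul_one, mul_one]
  up i h hi := dl_up (Nat.lt_succ_iff.1 a.2) h hi
  down i h hi := dl_down (Nat.lt_succ_iff.1 a.2) h hi

include X in
/-- the modular units over the small field -/
theorem exists_rr0 (i : ℕ) : ∃ y : FF K0 (q ^ n * M), emb K0 Ω (q ^ n * M) y = rU Ω q M n i := by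
  haveI := X.B.alg
  apply exists_of_coeff
  intro m
  have hx : ((rU Ω q M n i : FF Ω (q ^ n * M)) : LaurentSeries Ω) =
    rm Ω (pp q ^ (min i n) * 1) := rfl
  rw [hx, ← coeffMap_rm (algebraMap K0 Ω), coeffMap_coeff]
  exact ⟨_, rfl⟩

/-- `Δ(q^i) / Δ(1)` over the small field -/
def rr0 (i : ℕ) : FF K0 (q ^ n * M) := (X.exists_rr0 i).choose

theorem emb_rr0 (i : ℕ) : emb K0 Ω (q ^ n * M) (X.rr0 i) = rU Ω q M n i :=
  (X.exists_rr0 i).choose_spec

/-- `Δ(q^i) / Δ(1)`, extended to `n + 1` -/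
def rE0 (i : ℕ) : FF K0 (q ^ n * M) :=
  if i ≤ n then X.rr0 i else ((q : FF K0 (q ^ n * M)) ^ 12)⁻¹ * X.rr0 n

theorem emb_rE0 (i : ℕ) : emb K0 Ω (q ^ n * M) (X.rE0 i) = rE Ω q M n i := by
  rw [rE0, rE]
  split_ifs
  · exact X.emb_rr0 i
  · rw [map_mul, map_inv₀, map_pow, map_natCast, X.emb_rr0]

/-- **the modular unit vanishing exactly at the component `a`** -/
def HH (a : ℕ) : FF K0 (q ^ n * M) := X.rE0 a ^ 2 / (X.rE0 (a - 1) * X.rE0 (a + 1))

/-- **the modular unit vanishing to the order `12 e_l |a - l|` at `l`** -/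
def hH (a : ℕ) : FF K0 (q ^ n * M) :=
  (q : FF K0 (q ^ n * M)) ^ (12 * (n - a)) * X.rr0 n / X.rr0 a ^ 2

theorem emb_HH (a : ℕ) : emb K0 Ω (q ^ n * M) (X.HH a) = HΩ Ω q M n a := by
  rw [HH, HΩ, map_div₀, map_mul, map_pow, X.emb_rE0, X.emb_rE0, X.emb_rE0]

theorem emb_hH (a : ℕ) : emb K0 Ω (q ^ n * M) (X.hH a) = hΩ Ω q M n a := by
  rw [hH, hΩ, map_div₀, map_mul, map_pow, map_pow, map_natCast, X.emb_rr0, X.emb_rr0]

theorem HH_ne (a : ℕ) : X.HH a ≠ 0 := by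
  intro h
  have := X.emb_HH a
  rw [h, map_zero] at this
  exact HΩ_ne a this.symm

theorem hH_ne (a : ℕ) : X.hH a ≠ 0 := by
  intro h
  have := X.emb_hH a
  rw [h, map_zero] at this
  exact hΩ_ne a this.symm

/-- no zeros and poles at the places where `j` is finite -/
theorem HH_ord (v : Place Ω (FF Ω (q ^ n * M))) (hv : 0 ≤ v.ord (jF' Ω (q ^ n * M))) (a : ℕ) :
    v.ord (emb K0 Ω (q ^ n * M) (X.HH a)) = 0 := by
  rw [X.emb_HH]; exact HΩ_ord v hv a

theorem hH_ord (v : Place Ω (FF Ω (q ^ n * M))) (hv : 0 ≤ v.ord (jF' Ω (q ^ n * M))) (a : ℕ) :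
    v.ord (emb K0 Ω (q ^ n * M) (X.hH a)) = 0 := by
  rw [X.emb_hH]; exact hΩ_ord v hv a

/-- multipliers over `A` -/
def cA (l i : ℕ) : Aˣ := X.Z ^ (q ^ cx n l i)

theorem cA_Ω (l i : ℕ) : Units.map (algebraMap A Ω : A →* Ω) (X.cA l i) =
    X.ZΩ ^ (q ^ cx n l i) := by
  rw [cA, ZΩ, map_pow]

theorem cA_k (l i : ℕ) : Units.map (algebraMap A k : A →* k) (X.cA l i) = 1 := by
  have h1 : algebraMap A k (X.Z : A) = 1 := red_z (IsPrimitiveRoot.coe_units_iff.2 X.hZ)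
  have h2 : Units.map (algebraMap A k : A →* k) X.Z = 1 := Units.ext h1
  rw [cA, map_pow, h2, one_pow]

/-- the expansion of `Δ(q^i)` at the component `l` -/
def dA (l i : ℕ) : LaurentSeries A := DA (X.cA l i) (pp q ^ dl n l i)

/-- the expansion of `1/Δ(q^i)` at the component `l` -/
def dI (l i : ℕ) : LaurentSeries A := DI (X.cA l i) (pp q ^ dl n l i)

theorem incL_dA (l i : ℕ) : incL A Ω (X.dA l i) =
    Dc (X.ZΩ ^ (q ^ cx n l i)) (pp q ^ dl n l i) := by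
  rw [dA, incL_DA, cA_Ω]

theorem incL_dI (l i : ℕ) : incL A Ω (X.dI l i) =
    (Dc (X.ZΩ ^ (q ^ cx n l i)) (pp q ^ dl n l i))⁻¹ := by
  rw [dI, incL_DI, cA_Ω]

theorem redL_dA (l i : ℕ) : redL A k (X.dA l i) = Dc 1 1 ^ (q ^ dl n l i) := by
  rw [redL, dA, coeffMap_DA, cA_k, DA_field, Dc_qpow]

theorem redL_dI (l i : ℕ) : redL A k (X.dI l i) = (Dc 1 1 ^ (q ^ dl n l i))⁻¹ := by
  rw [redL, dI, coeffMap_DI, cA_k, DI_field, Dc_qpow]

/-- the expansion of `HH a` at the component `l` -/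
def sH (a l : ℕ) : LaurentSeries A :=
  (if a = l then HahnSeries.C ((q : A) ^ 12) else 1) *
    (X.dA l a ^ 2 * X.dI l (a - 1) * X.dI l (min (a + 1) n))

/-- the expansion of `hH a` at the component `l` -/
def sh (a l : ℕ) : LaurentSeries A :=
  HahnSeries.C ((q : A) ^ 12) ^ ((a - l) + (l - a)) *
    (X.dA l 0 * X.dA l n * X.dI l a ^ 2)

/-- **expansions of the modular units** -/
theorem mp_HH (a : ℕ) (ha : a ≤ n) (l : Fin (n + 1)) : X.mp l (X.HH a) =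
    incL A Ω (X.sH a l) := by
  rw [X.mp_apply, X.emb_HH, (X.emD l).T_H (Nat.lt_succ_iff.1 l.2) a ha, sH, map_mul, map_mul,
    map_mul, map_pow (incL A Ω) (X.dA l a), X.incL_dA, X.incL_dI, X.incL_dI]
  congr 1
  split_ifs
  · exact incL_q12.symm
  · exact (map_one _).symm

theorem mp_hH (a : ℕ) (ha : a ≤ n) (l : Fin (n + 1)) : X.mp l (X.hH a) =
    incL A Ω (X.sh a l) := by
  rw [X.mp_apply, X.emb_hH, (X.emD l).T_h (Nat.lt_succ_iff.1 l.2) a ha, sh, map_mul, map_mul,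
    map_mul, map_pow (incL A Ω) (X.dI l a), map_pow (incL A Ω) (HahnSeries.C ((q : A) ^ 12)),
    X.incL_dA, X.incL_dI, X.incL_dA, incL_q12]

theorem redL_dd (l a : ℕ) (s : LaurentSeries A) (hs : s = X.dA l a ^ 2 * X.dI l (a - 1) *
    X.dI l (min (a + 1) n)) : redL A k s = ((Dc 1 1 : LaurentSeries k) ^ (q ^ dl n l a)) ^ 2 *
      ((Dc 1 1 : LaurentSeries k) ^ (q ^ dl n l (a - 1)))⁻¹ *
      ((Dc 1 1 : LaurentSeries k) ^ (q ^ dl n l (min (a + 1) n)))⁻¹ := by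
  rw [hs, map_mul, map_mul, map_pow, X.redL_dA, X.redL_dI, X.redL_dI]

/-- **reductions of the modular units at the other components** -/
theorem redL_sH {a l : ℕ} (ha : a ≤ n) (hl : l ≤ n) (h : a ≠ l) :
    redL A k (X.sH a l) = hsL k q ^ (nu q n l a) := by
  have hn := X.hn
  have hd := Dc_ne_zero (k := k) 1 1
  rw [sH, if_neg h, one_mul, X.redL_dd l a _ rfl]
  rcases Nat.eq_zero_or_pos a with rfl | ha0
  · rw [nu, if_pos rfl, Nat.zero_sub, zero_add, min_eq_left (by omega)]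
    have h1 := dl_up hl (i := 0) (by omega) (by omega)
    rw [zero_add] at h1
    rw [h1, ← pow_div_pow]
    have h2 : (Dc 1 1 : LaurentSeries k) ^ (q ^ dl n l 0) ≠ 0 := pow_ne_zero _ hd
    rw [sq, mul_assoc ((Dc 1 1 : LaurentSeries k) ^ (q ^ dl n l 0)), mul_inv_cancel₀ h2, mul_one]
  rcases Nat.lt_or_ge a n with han | han
  · rw [nu, if_neg (by omega), if_neg (by omega), min_eq_left (by omega : a + 1 ≤ n)]
    rcases Nat.lt_or_ge l a with hla | hla
    · have h1 := dl_down hl (i := a) hla.le han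
      have h2 := dl_down hl (i := a - 1) (by omega) (by omega)
      rw [Nat.sub_add_cancel ha0] at h2
      rw [min_eq_right (by omega), ← pow_mid (dl n l (a + 1)), h2, h1]
      ring
    · have h1 := dl_up hl (i := a) (by omega) han
      have h2 := dl_up hl (i := a - 1) (by omega) (by omega)
      rw [Nat.sub_add_cancel ha0] at h2
      rw [min_eq_left (by omega), ← pow_mid (dl n l (a - 1)), h1, h2]
  · obtain rfl : a = n := le_antisymm ha han
    rw [nu, if_neg (by omega), if_pos rfl, min_eq_right (by omega : a ≤ a + 1)]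
    have h2 := dl_down hl (i := a - 1) (by omega) (by omega)
    rw [Nat.sub_add_cancel ha0] at h2
    rw [h2, ← pow_div_pow]
    have h3 : (Dc 1 1 : LaurentSeries k) ^ (q ^ dl a l a) ≠ 0 := pow_ne_zero _ hd
    rw [sq, mul_assoc, mul_assoc, mul_comm (((Dc 1 1 : LaurentSeries k) ^ (q ^ (dl a l a + 1)))⁻¹),
      ← mul_assoc ((Dc 1 1 : LaurentSeries k) ^ (q ^ dl a l a)) (((Dc 1 1 : LaurentSeries k) ^ (q ^ dl a l a))⁻¹),
      mul_inv_cancel₀ h3, one_mul]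

/-- `q` is a power of the uniformiser up to a unit -/
theorem exists_q_pow (l : Fin (n + 1)) : ∃ ε : A, algebraMap A k ε ≠ 0 ∧
    (q : A) = X.ϖc l ^ (ee q n l) * ε := by
  rw [ϖc, ee]
  split_ifs with h
  · refine ⟨1, by rw [map_one]; exact one_ne_zero, ?_⟩
    rw [h, pow_zero, Nat.totient_one, pow_one, mul_one]
  · exact exists_lam_pow (X.zz_mu_prim l) h

/-- the expansion of `HH l` at the component `l` -/
theorem sH_self (l : Fin (n + 1)) : ∃ u : LaurentSeries A, redL A k u ≠ 0 ∧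
    X.sH l l = HahnSeries.C (X.ϖc l ^ (12 * ee q n l)) * u := by
  obtain ⟨ε, hε, h1⟩ := X.exists_q_pow l
  refine ⟨HahnSeries.C (ε ^ 12) * (X.dA l l ^ 2 * X.dI l (l - 1) * X.dI l (min (l + 1) n)), ?_, ?_⟩
  · rw [map_mul, X.redL_dd l l _ rfl, coeffMap_C]
    have hd := Dc_ne_zero (k := k) 1 1
    refine mul_ne_zero (HahnSeries.C_ne_zero (by rw [map_pow]; exact pow_ne_zero _ hε))
      (mul_ne_zero (mul_ne_zero (pow_ne_zero _ (pow_ne_zero _ hd))
      (inv_ne_zero (pow_ne_zero _ hd))) (inv_ne_zero (pow_ne_zero _ hd)))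
  · rw [sH, if_pos rfl, ← mul_assoc (HahnSeries.C (X.ϖc l ^ (12 * ee q n l))), ← map_mul, h1]
    congr 2
    ring

/-- the expansion of `hH a` at the component `l` -/
theorem sh_eq (a : ℕ) (l : Fin (n + 1)) : ∃ u : LaurentSeries A, redL A k u ≠ 0 ∧
    X.sh a l = HahnSeries.C (X.ϖc l ^ (12 * ee q n l * ((a - l) + (l - a)))) * u := by
  obtain ⟨ε, hε, h1⟩ := X.exists_q_pow l
  refine ⟨HahnSeries.C (ε ^ (12 * ((a - l) + (l - a)))) * (X.dA l 0 * X.dA l n * X.dI l a ^ 2),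
    ?_, ?_⟩
  · rw [map_mul, map_mul, map_mul, map_pow (redL A k), X.redL_dA, X.redL_dA, X.redL_dI, coeffMap_C]
    have hd := Dc_ne_zero (k := k) 1 1
    refine mul_ne_zero (HahnSeries.C_ne_zero (by rw [map_pow]; exact pow_ne_zero _ hε))
      (mul_ne_zero (mul_ne_zero (pow_ne_zero _ hd) (pow_ne_zero _ hd))
      (pow_ne_zero _ (inv_ne_zero (pow_ne_zero _ hd))))
  · rw [sh, ← map_pow, ← mul_assoc (HahnSeries.C (X.ϖc l ^ _)), ← map_mul, h1]
    congr 2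
    ring

end Ctx

end Fermat.Agent.CQ
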