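import Fermat.Agent.CQ.Star3
import Fermat.Agent.CQ.Cm
import Fermat.Agent.CQ.Un2
import Fermat.Agent.CQ.WInv
import Fermat.Agent.CQ.Sj1
import Fermat.Agent.CarM.Chart

/-!
# Regularity of the finite chart of the model of level `q ^ n M`
-/

set_option autoImplicit false
set_option linter.style.haveILetI false
set_option linter.unusedSectionVars false

noncomputable section

namespace Fermat.Agent.CQ

open ModularCurve Polynomial IntermediateField Fermat.Agent.ModPoly Fermat.Agent.Cusp AlgebraicCurve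
open Fermat.Agent.SemiSt Fermat.Agent.HeckeProd Fermat.Agent.Curve
open Fermat.Agent.RedMod Fermat.Agent.Car Fermat.Agent.RR Fermat.Agent.Red Fermat.Agent.PRem
open Fermat.Agent.ThmC Fermat.Agent.Nod Fermat.Agent.CarE

namespace Ctx

variable {R0 K0 A Ω k : Type*} [CommRing R0] [IsDomain R0] [IsDiscreteValuationRing R0]
  [Field K0] [Algebra R0 K0]
  [IsFractionRing R0 K0] [CommRing A] [IsDomain A] [ValuationRing A] [Field Ω]
  [IsAlgClosed Ω] [CharZero Ω]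
  [Algebra A Ω] [IsFractionRing A Ω] [Field k] [Algebra A k] [Algebra K0 Ω] [Algebra R0 A]
  [Algebra R0 k] {q M n : ℕ} [hq : Fact q.Prime] [NeZero M] [CharP k q]
  (X : Ctx R0 K0 A Ω k q M n)

set_option synthInstance.maxHeartbeats 400000

section General

variable {X}

theorem st_mem {j : Fin (n + 1)} {x : FF K0 (q ^ n * M)} {b : LaurentSeries k}
    (h : Rd A (X.mp j x) b) : x ∈ (X.cm.comp j).W := h.choose

theorem st_r {j : Fin (n + 1)} {x : FF K0 (q ^ n * M)} {b : LaurentSeries k}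
    (h : Rd A (X.mp j x) b) : ((X.cm.comp j).r x : LaurentSeries k) = b := by
  obtain ⟨h1, h2⟩ := h
  rw [← h2]
  exact (X.E j).coe_r (FF k M) (X.res_mem j) h1

theorem st_v {j : Fin (n + 1)} {x : FF K0 (q ^ n * M)} {b : LaurentSeries k}
    {w : LaurentSeries Ω} {m : ℕ} (hw : Rd A w b) (hb : b ≠ 0)
    (h : X.mp j x = HahnSeries.C (algebraMap A Ω (X.ϖc j)) ^ m * w) :
    (X.cm.comp j).v x = m :=
  (X.E j).v_nat (FF k M) (X.res_mem j) (hw.isU hb) h

theorem st_v_of_incL {j : Fin (n + 1)} {x : FF K0 (q ^ n * M)} {m : ℕ} {u s : LaurentSeries A}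
    (hx : X.mp j x = incL A Ω s) (hu : redL A k u ≠ 0)
    (hs : s = HahnSeries.C (X.ϖc j ^ m) * u) : (X.cm.comp j).v x = m := by
  refine st_v (Rd.incL u) hu ?_
  rw [hx, hs, map_mul, coeffMap_C, map_pow, map_pow]

theorem st_mem_of_incL {j : Fin (n + 1)} {x : FF K0 (q ^ n * M)} {s : LaurentSeries A}
    (hx : X.mp j x = incL A Ω s) : x ∈ (X.cm.comp j).W :=
  st_mem (b := redL A k s) (by rw [hx]; exact Rd.incL s)

theorem st_r_of_incL {j : Fin (n + 1)} {x : FF K0 (q ^ n * M)} {s : LaurentSeries A}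
    (hx : X.mp j x = incL A Ω s) : ((X.cm.comp j).r x : LaurentSeries k) = redL A k s :=
  st_r (b := redL A k s) (by rw [hx]; exact Rd.incL s)

end General

theorem rd_twist {x : LaurentSeries Ω} {b : LaurentSeries k} (h : Rd A x b) (e : ℕ) :
    Rd A (twist (X.ZΩ ^ e) x) b := by
  obtain ⟨h1, h2⟩ := h
  have hz : Units.map (algebraMap A k : A →* k) (X.Z ^ e) = 1 := by
    rw [map_pow, X.map_Z_one, one_pow]
  obtain ⟨h3, h4⟩ := twist_mem_WL hz h1
  have e1 : SbA (Units.map (algebraMap A Ω : A →* Ω) (X.Z ^ e)) 1 x = twist (X.ZΩ ^ e) x := by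
    rw [map_pow]
    exact CarM.Sb_one_right _ _
  rw [← h2, ← h4]
  exact ⟨e1 ▸ h3, by congr 1; exact Subtype.ext e1.symm⟩

theorem rd_levS (a : Fin (n + 1)) {i : ℕ} (hi : i ≤ n) {y : FF K0 M} {b : LaurentSeries k}
    (hy : Rd A (emb K0 Ω M y : LaurentSeries Ω) b) :
    Rd A (X.mp a (lev K0 q M n i hi y)) (qExpand k (q ^ dl n a i) b) := by
  rw [mp_lev', Sb_qE]
  exact CarM.rd_qExpand (X.rd_twist hy _)

theorem cm_mem_B {x : FF K0 (q ^ n * M)} : x ∈ X.cm.B ↔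
    (∀ j, x ∈ (X.cm.comp j).W) ∧ Reg Ω (tt Ω q n M) (emb K0 Ω (q ^ n * M) x) := by
  have h1 : x ∈ X.cm.B ↔ x ∈ X.cm.G.W ∧ Reg Ω (X.cm.emb X.cm.t) (X.cm.emb x) := Iff.rfl
  have h2 : X.cm.emb X.cm.t = tt Ω q n M := emb_tt
  rw [h1, X.cm.mem_W, h2]
  rfl

include X in
theorem reg_lev {i : ℕ} (hi : i ≤ n) {y : FF K0 M}
    (hy : ∀ v : Place Ω (FF Ω M), 0 ≤ v.ord (jF' Ω M) → 0 ≤ v.ord (emb K0 Ω M y)) :
    Reg Ω (tt Ω q n M) (emb K0 Ω (q ^ n * M) (lev K0 q M n i hi y)) := by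
  rw [emb_lev]
  intro v hv
  rw [ord_tt_iff X.hco] at hv
  have h1 : 0 ≤ v.ord (lev Ω q M n i hi (jF' Ω M)) := by
    rw [lev_jF, jj_eq n Ω hi]
    exact CarM.jm_regular v hv _
  rw [MW.le_zero_iff] at h1
  apply Ge.of_le
  rw [MW.le_zero_iff]
  exact hy _ h1

theorem lev_mem_B {i : ℕ} (hi : i ≤ n) {y : FF K0 M} {b : LaurentSeries k}
    (hyb : Rd A (emb K0 Ω M y : LaurentSeries Ω) b)
    (hy : ∀ v : Place Ω (FF Ω M), 0 ≤ v.ord (jF' Ω M) → 0 ≤ v.ord (emb K0 Ω M y)) :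
    lev K0 q M n i hi y ∈ X.cm.B :=
  X.cm_mem_B.2 ⟨fun j => st_mem (X.rd_levS j hi hyb), X.reg_lev hi hy⟩

end Ctx

end Fermat.Agent.CQ
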