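import Fermat.Agent.CQ.Star4
import Fermat.Agent.CQ.Un3
import Fermat.Agent.CQ.CmL

/-!
# Regularity of the finite chart of the model of level `q ^ n M`, continued
-/

set_option autoImplicit false
set_option linter.style.haveILetI false
set_option linter.unusedSectionVars false

noncomputable section

namespace Fermat.Agent.CQ

open ModularCurve Polynomial IntermediateField Fermat.Agent.ModPoly Fermat.Agent.Cusp AlgebraicCurve
open Fermat.Agent.SemiSt Fermat.Agent.HeckeProd Fermat.Agent.Curve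
open Fermat.Agent.RedMod Fermat.Agent.Car Fermat.Agent.RR Fermat.Agent.Red Fermat.Agent.PRem
open Fermat.Agent.ThmC Fermat.Agent.Nod Fermat.Agent.CarE

theorem exp_key {q : ℕ} (hq : q.Prime) {n a : ℕ} (h1 : 1 ≤ a) (h2 : a < n) :
    q ^ dl n a (a - min a (n - a)) * (2 * (q ^ (min a (n - a))).totient) =
      2 * (q ^ (max a (n - a)) - q ^ (max a (n - a) - 1)) := by
  rw [Nat.totient_prime_pow hq (by omega)]
  have e1 : dl n a (a - min a (n - a)) = max a (n - a) - min a (n - a) := by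
    rw [dl]; split_ifs <;> omega
  rw [e1]
  have e2 : q ^ (max a (n - a)) = q ^ (max a (n - a) - 1) * q := by
    rw [← pow_succ]; congr 1; omega
  have e3 : q ^ (max a (n - a) - min a (n - a)) * q ^ (min a (n - a) - 1) =
      q ^ (max a (n - a) - 1) := by
    rw [← pow_add]; congr 1; omega
  rw [e2, show q ^ (max a (n - a) - min a (n - a)) * (2 * (q ^ (min a (n - a) - 1) * (q - 1))) =
    2 * ((q ^ (max a (n - a) - min a (n - a)) * q ^ (min a (n - a) - 1)) * (q - 1)) by ring, e3,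
    Nat.mul_sub, mul_one]

namespace Ctx

variable {R0 K0 A Ω k : Type*} [CommRing R0] [IsDomain R0] [IsDiscreteValuationRing R0]
  [Field K0] [Algebra R0 K0]
  [IsFractionRing R0 K0] [CommRing A] [IsDomain A] [ValuationRing A] [Field Ω]
  [IsAlgClosed Ω] [CharZero Ω]
  [Algebra A Ω] [IsFractionRing A Ω] [Field k] [Algebra A k] [Algebra K0 Ω] [Algebra R0 A]
  [Algebra R0 k] {q M n : ℕ} [hq : Fact q.Prime] [NeZero M] [CharP k q]
  (X : Ctx R0 K0 A Ω k q M n) [IsAlgClosed k] [FunField k (FF k M)]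

set_option synthInstance.maxHeartbeats 400000

/-- **regularity along the non-reduced components** -/
theorem starAt_cm (HL : CarM.Lifts M K0 A Ω k) {a : Fin (n + 1)} (h1 : 1 ≤ (a : ℕ))
    (h2 : (a : ℕ) < n) {Q : Place k (FF k M)} (hQ : 0 ≤ Q.ord (jF' k M)) :
    StarAt X.cm a Q := by
  have hμ : min (a : ℕ) (n - a) ≠ 0 := by omega
  set s := dl n a (a - min (a : ℕ) (n - a)) with hs
  have hQ1 : 0 ≤ ((fd k q M).g ^ s • Q).ord (jF' k M) := by
    rw [ord_jF_pow]; exact hQ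
  obtain ⟨y, b, hyb, -, hyr, g, hg, hne, hord⟩ := HL.unif _ hQ1
  have huB : uy K0 (q := q) a y ∈ X.cm.B :=
    sub_mem (X.lev_mem_B _ hyb hyr) (X.lev_mem_B _ hyb hyr)
  obtain ⟨W, th, hW, hth, hφ⟩ := X.mp_uy hμ hyb
  set u := uy K0 (q := q) a y with hu
  let gg : FF k M := g ^ 6 * jF' k M ^ 4 * (jF' k M - 1728) ^ 3
  have hd := Dc_ne_zero (k := k) 1 1
  have hgg : theta (b : LaurentSeries k) ^ 6 = (gg : LaurentSeries k) * Dc 1 1 := by
    rw [hg, mul_pow, CarM.theta_jq_pow, ← CarM.Dc_one_one']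
    have e2 : (gg : LaurentSeries k) =
        (g : LaurentSeries k) ^ 6 * jqModC k ^ 4 * (jqModC k - 1728) ^ 3 := by
      have e3 : ((jF' k M : FF k M) : LaurentSeries k) = jqModC k := Jc_one_one
      have e4 : (gg : LaurentSeries k) = (g : LaurentSeries k) ^ 6 *
        ((jF' k M : FF k M) : LaurentSeries k) ^ 4 *
        (((jF' k M : FF k M) : LaurentSeries k) - 1728) ^ 3 := rfl
      rw [e4, e3]
    rw [e2]
    ring
  have h6 : th ^ 6 = ((sg k q M s gg : FF k M) : LaurentSeries k) * Dc 1 1 ^ (q ^ s) := by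
    rw [hth, hgg, map_mul, ← qExpand_pow_Dc, coe_sg]
  have hne' : gg ≠ 0 := hne
  have hsg0 : sg k q M s gg ≠ 0 := (_root_.map_ne_zero _).2 hne'
  have hth0 : th ≠ 0 := by
    rintro rfl
    rw [zero_pow (by norm_num)] at h6
    refine mul_ne_zero ?_ (pow_ne_zero _ hd) h6.symm
    exact fun h => hsg0 (Subtype.ext h)
  have hv1 : (X.cm.comp a).v u = 1 := by
    have := st_v (m := 1) hW hth0 (by rw [hφ, pow_one])
    exact_mod_cast this
  obtain ⟨D', hD1, hD2⟩ := X.HH_mid a h1 h2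
  have hzp : IsPrimitiveRoot (X.zz (n - min (a : ℕ) (n - a))) (q ^ (min (a : ℕ) (n - a))) :=
    IsPrimitiveRoot.coe_units_iff.1 (X.zz_mu_prim a)
  have hϖ : X.ϖc a = 1 - (X.zz (n - min (a : ℕ) (n - a)) : A) := by rw [ϖc, if_neg hμ]
  obtain ⟨c, hc, hRd⟩ := res_key hzp hμ (pow_ne_zero _ hd) hW h6 (D' := D') (by
    rw [hD2, ← pow_mul, exp_key hq.out h1 h2])
  rw [← hϖ, ← hφ, ← hD1, ← map_pow, ← map_div₀] at hRd
  have hr := st_r hRd
  have hr' : (X.cm.comp a).r (u ^ (12 * (q ^ min (a : ℕ) (n - a)).totient) / X.HH a) =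
      algebraMap k (FF k M) c * sg k q M s gg ^ (2 * (q ^ min (a : ℕ) (n - a)).totient) := by
    apply Subtype.ext
    rw [hr, MulMemClass.coe_mul, SubmonoidClass.coe_pow]
    congr 1
    change _ = algebraMap k (LaurentSeries k) _
    rw [algebraMap_eq_C]
  have hpos : 0 < (q ^ min (a : ℕ) (n - a)).totient := Nat.totient_pos.2 (pow_pos hq.out.pos _)
  refine starAt_mid (h := X.HH a) (u := u) (m := 12 * (q ^ min (a : ℕ) (n - a)).totient)
    (X.HH_ne a) ?_ ?_ huB hv1 (by omega) ?_ ?_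
  · have h3 := (X.HH_reg a).2
    rw [← tt_eq_jj, ← X.cm_emb_t] at h3
    exact h3
  · intro l hl
    refine X.v_HH_ne (FF k M) (X.res_mem l) (by omega) ?_
    exact fun h => hl (Fin.ext h.symm)
  · exact X.v_HH_self (FF k M) (X.res_mem a)
  · rw [hr']
    have hc0 : algebraMap k (FF k M) c ≠ 0 := (_root_.map_ne_zero _).2 hc
    have hg2 : sg k q M s gg ^ (2 * (q ^ min (a : ℕ) (n - a)).totient) ≠ 0 := pow_ne_zero _ hsg0
    have hordx : Q.ord (algebraMap k (FF k M) c *
        sg k q M s gg ^ (2 * (q ^ min (a : ℕ) (n - a)).totient)) = 0 := by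
      have hord' : ((fd k q M).g ^ s • Q).ord gg = 0 := hord
      rw [Q.ord_mul hc0 hg2, ord_algebraMap, ord_pow, ord_sg, hord', mul_zero, mul_zero, add_zero]
    rw [val_ne_zero_iff (Ge.of_le hordx.ge) (mul_ne_zero hc0 hg2)]
    exact hordx

end Ctx

end Fermat.Agent.CQ
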